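import Mathlib
import Fermat.Agent.CFT.Coh.Defs

/-!
# CFT program, layer Local: definitions

Vocabulary for finite extensions of `ℚ_[q]` given as ABSTRACT fields `E : Type` with
`[Algebra ℚ_[q] E]` (typically `[FiniteDimensional ℚ_[q] E]`), and relative extensions
`F ⊆ E` given by `[Algebra F E] [IsScalarTower ℚ_[q] F E]`.

* `integers q E`   : the integral closure of `ℤ_[q]` in `E`, as a subring of `E`;
* `unitGroup q E`  : its unit group, as a subgroup of `Eˣ`;
* `maxIdeal q E`   : the non-units of `integers q E`, as a set;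
* `vNorm q E`      : `x ↦ v_q (N_{E/ℚ_q} x)`, an (un-normalised) valuation `Eˣ → ℤ`;
* `fDeg q E`       : the least positive value of `vNorm` (the residue degree over `ℚ_q`);
* `ordZ q E`       : the normalised valuation `vNorm / fDeg`;
* `resCard q E`    : `q ^ fDeg`, the cardinality of the residue field;
* `IsUnram q F E`  : `Eˣ = Fˣ · unitGroup` (the value groups agree);
* `IsFrob q F E φ` : `φ x ≡ x ^ resCard F` modulo the maximal ideal;
* `unitsRep F E`   : the `Gal(E/F)`-module `Eˣ` (Mathlib's `Rep.ofAlgebraAutOnUnits`);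
* `inflH F E L n`, `resH F E L n` : inflation and restriction on its cohomology;
* `bcH F E F' E' n` : base change along a commutative square of fields;
* `IsUnramClass`, `HasInv`, `localInv`, `IsFundClass` : the local invariant.
-/

set_option autoImplicit false

namespace Fermat.Agent.CFT.Local

open CategoryTheory groupCohomology

/-! ## Integers, units, valuation -/

section Absolute

variable (q : ℕ) [Fact q.Prime] (E : Type) [Field E] [Algebra ℚ_[q] E]

/-- The `ℤ_[q]`-algebra structure on a `ℚ_[q]`-algebra. -/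
@[reducible] noncomputable def intAlgebra : Algebra ℤ_[q] E :=
  ((algebraMap ℚ_[q] E).comp (algebraMap ℤ_[q] ℚ_[q])).toAlgebra

/-- The ring of integers: the integral closure of `ℤ_[q]` in `E`. -/
noncomputable def integers : Subring E :=
  letI := intAlgebra q E
  (integralClosure ℤ_[q] E).toSubring

/-- The unit group of the ring of integers, as a subgroup of `Eˣ`. -/
noncomputable def unitGroup : Subgroup Eˣ where
  carrier := {u | (u : E) ∈ integers q E ∧ ((u⁻¹ : Eˣ) : E) ∈ integers q E}
  mul_mem' := by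
    rintro a b ⟨ha, ha'⟩ ⟨hb, hb'⟩
    refine ⟨?_, ?_⟩
    · simpa using (integers q E).mul_mem ha hb
    · simpa [mul_comm] using (integers q E).mul_mem ha' hb'
  one_mem' := by simp [(integers q E).one_mem]
  inv_mem' := by
    rintro a ⟨ha, ha'⟩
    exact ⟨ha', by simpa using ha⟩

/-- The non-units of the ring of integers (the maximal ideal), as a set. -/
def maxIdeal : Set E := {x | x ∈ integers q E ∧ (x = 0 ∨ x⁻¹ ∉ integers q E)}

/-- The un-normalised valuation `x ↦ v_q (N_{E/ℚ_q} x)`. -/
noncomputable def vNorm (x : Eˣ) : ℤ := Padic.valuation (Algebra.norm ℚ_[q] (x : E))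

/-- The residue degree of `E` over `ℚ_q`: the least positive value of `vNorm`. -/
noncomputable def fDeg : ℕ := sInf {k : ℕ | 0 < k ∧ ∃ x : Eˣ, vNorm q E x = (k : ℤ)}

/-- The normalised valuation `Eˣ → ℤ`. -/
noncomputable def ordZ (x : Eˣ) : ℤ := vNorm q E x / (fDeg q E : ℤ)

/-- The cardinality of the residue field. -/
noncomputable def resCard : ℕ := q ^ fDeg q E

end Absolute

/-! ## Relative notions -/

section Relative

variable (q : ℕ) [Fact q.Prime] (F E : Type) [Field F] [Field E]
  [Algebra ℚ_[q] F] [Algebra ℚ_[q] E] [Algebra F E]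

/-- `E/F` is unramified: every element of `Eˣ` is an element of `Fˣ` times a unit. -/
def IsUnram : Prop :=
  ∀ x : Eˣ, ∃ y : Fˣ, x * (Units.map (algebraMap F E).toMonoidHom y)⁻¹ ∈ unitGroup q E

/-- `φ` is a Frobenius element of `E/F`. -/
def IsFrob (φ : E ≃ₐ[F] E) : Prop :=
  ∀ x ∈ integers q E, φ x - x ^ resCard q F ∈ maxIdeal q E

end Relative

/-! ## The Galois module `Eˣ`, inflation and restriction -/

section Cohomology

/-- The `Gal(E/F)`-module `Eˣ`. -/
noncomputable abbrev unitsRep (F E : Type) [Field F] [Field E] [Algebra F E] :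
    Rep ℤ (E ≃ₐ[F] E) := Rep.ofAlgebraAutOnUnits F E

variable (F E L : Type) [Field F] [Field E] [Field L] [Algebra F E] [Algebra E L] [Algebra F L]
  [IsScalarTower F E L]

/-- The map `Eˣ → Lˣ` as a morphism of `Gal(L/F)`-modules (`E/F` normal). -/
noncomputable def unitsInflHom [Normal F E] :
    Rep.res (AlgEquiv.restrictNormalHom (F := F) (K₁ := L) E) (unitsRep F E) ⟶ unitsRep F L :=
  Rep.ofHom
    { toLinearMap := (MonoidHom.toAdditive (Units.map (algebraMap E L).toMonoidHom)).toIntLinearMap
      isIntertwining' := fun σ => by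
        ext x
        change algebraMap E L (AlgEquiv.restrictNormal σ E (Additive.toMul x : Eˣ)) =
          σ (algebraMap E L (Additive.toMul x : Eˣ))
        exact AlgEquiv.restrictNormal_commutes σ E _ }

/-- Inflation `Hⁿ(Gal(E/F), Eˣ) ⟶ Hⁿ(Gal(L/F), Lˣ)`. -/
noncomputable def inflH [Normal F E] (n : ℕ) :
    groupCohomology (unitsRep F E) n ⟶ groupCohomology (unitsRep F L) n :=
  groupCohomology.map (AlgEquiv.restrictNormalHom (F := F) (K₁ := L) E) (unitsInflHom F E L) n

/-- The identity of `Lˣ` as a morphism of `Gal(L/E)`-modules. -/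
noncomputable def unitsResHom :
    Rep.res (AlgEquiv.restrictScalarsHom F : (L ≃ₐ[E] L) →* (L ≃ₐ[F] L)) (unitsRep F L) ⟶
      unitsRep E L :=
  Rep.ofHom
    { toLinearMap := LinearMap.id
      isIntertwining' := fun σ => by
        ext x
        rfl }

/-- Restriction `Hⁿ(Gal(L/F), Lˣ) ⟶ Hⁿ(Gal(L/E), Lˣ)`. -/
noncomputable def resH (n : ℕ) :
    groupCohomology (unitsRep F L) n ⟶ groupCohomology (unitsRep E L) n :=
  groupCohomology.map (AlgEquiv.restrictScalarsHom F : (L ≃ₐ[E] L) →* (L ≃ₐ[F] L))
    (unitsResHom F E L) n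

end Cohomology

/-! ## Base change -/

section BaseChange

variable (F E F' E' : Type) [Field F] [Field E] [Field F'] [Field E']
  [Algebra F E] [Algebra F F'] [Algebra F' E'] [Algebra E E'] [Algebra F E']
  [IsScalarTower F E E'] [IsScalarTower F F' E'] [Normal F E]

/-- The restriction homomorphism `Gal(E'/F') → Gal(E/F)` of a commutative square of fields
`F ⊆ E ⊆ E'`, `F ⊆ F' ⊆ E'` with `E/F` normal. -/
noncomputable def bcGroupHom : (E' ≃ₐ[F'] E') →* (E ≃ₐ[F] E) :=
  (AlgEquiv.restrictNormalHom (F := F) (K₁ := E') E).comp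
    (AlgEquiv.restrictScalarsHom F : (E' ≃ₐ[F'] E') →* (E' ≃ₐ[F] E'))

/-- The map `Eˣ → E'ˣ` as a morphism of `Gal(E'/F')`-modules. -/
noncomputable def unitsBcHom :
    Rep.res (bcGroupHom F E F' E') (unitsRep F E) ⟶ unitsRep F' E' :=
  Rep.ofHom
    { toLinearMap := (MonoidHom.toAdditive (Units.map (algebraMap E E').toMonoidHom)).toIntLinearMap
      isIntertwining' := fun σ => by
        ext x
        change algebraMap E E' (AlgEquiv.restrictNormal (σ.restrictScalars F) E
          (Additive.toMul x : Eˣ)) = σ (algebraMap E E' (Additive.toMul x : Eˣ))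
        exact AlgEquiv.restrictNormal_commutes (σ.restrictScalars F) E _ }

/-- Base change `Hⁿ(Gal(E/F), Eˣ) ⟶ Hⁿ(Gal(E'/F'), E'ˣ)` for a commutative square of fields
(`inflH` is the case `F' = F`, `resH` is the case `E' = E`). -/
noncomputable def bcH (n : ℕ) :
    groupCohomology (unitsRep F E) n ⟶ groupCohomology (unitsRep F' E') n :=
  groupCohomology.map (bcGroupHom F E F' E') (unitsBcHom F E F' E') n

end BaseChange

/-! ## The local invariant -/

section Invariant

/-- `y` is the class of the standard cyclic `2`-cocycle attached to `φ` and `a ∈ Fˣ`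
(`(φ^i, φ^j) ↦ a` if `i + j ≥ [E:F]`, `1` otherwise). -/
def IsUnramClass (F E : Type) [Field F] [Field E] [Algebra F E] [FiniteDimensional F E]
    (φ : E ≃ₐ[F] E) (a : Fˣ) (y : H2 (unitsRep F E)) : Prop :=
  ∃ hc : Coh.cyc₂ φ (unitsRep F E)
      (Additive.ofMul (Units.map (algebraMap F E).toMonoidHom a)) ∈ cocycles₂ (unitsRep F E),
    (H2π (unitsRep F E)).hom ⟨_, hc⟩ = y

variable (q : ℕ) [Fact q.Prime] (F E : Type) [Field F] [Field E]
  [Algebra ℚ_[q] F] [Algebra F E] [Normal F E]

/-- `x ∈ H²(Gal(E/F), Eˣ)` has invariant `r` (a rational number, meaningful modulo `ℤ`):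
in some finite Galois `L/F` containing `E` and an unramified `E'/F` with Frobenius `φ`, the
inflation of `x` equals the inflation of the class of the cyclic cocycle of some `a ∈ Fˣ`,
and `r = ord_F(a) / [E':F]`. -/
def HasInv (x : H2 (unitsRep F E)) (r : ℚ) : Prop :=
  ∃ (E' : Type) (_ : Field E') (_ : Algebra ℚ_[q] E') (_ : Algebra F E')
    (_ : IsScalarTower ℚ_[q] F E') (_ : FiniteDimensional F E') (_ : IsGalois F E')
    (L : Type) (_ : Field L) (_ : Algebra F L) (_ : Algebra E L) (_ : Algebra E' L)
    (_ : IsScalarTower F E L) (_ : IsScalarTower F E' L) (_ : FiniteDimensional F L)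
    (_ : IsGalois F L)
    (φ : E' ≃ₐ[F] E') (a : Fˣ) (y : H2 (unitsRep F E')),
    IsUnram q F E' ∧ IsFrob q F E' φ ∧ IsUnramClass F E' φ a y ∧
      (inflH F E L 2).hom x = (inflH F E' L 2).hom y ∧
      r = (ordZ q F a : ℚ) / (Module.finrank F E' : ℚ)

open Classical in
/-- The local invariant `H²(Gal(E/F), Eˣ) → ℚ/ℤ` (junk value `0` if no invariant exists). -/
noncomputable def localInv (x : H2 (unitsRep F E)) : AddCircle (1 : ℚ) :=
  if h : ∃ r : ℚ, HasInv q F E x r then ((h.choose : ℚ) : AddCircle (1 : ℚ)) else 0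

/-- `u` is the fundamental class of `E/F`: its invariant is `1/[E:F]`. -/
def IsFundClass (u : H2 (unitsRep F E)) : Prop :=
  localInv q F E u = (((Module.finrank F E : ℚ)⁻¹ : ℚ) : AddCircle (1 : ℚ))

end Invariant

end Fermat.Agent.CFT.Local
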