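import Mathlib

/-!
# The integer ring of a nonarchimedean local field: concrete instances

`K` is a nontrivially normed ultrametric field which is a proper metric space (for instance a
finite extension of `ℚ_[q]` inside `PadicAlgCl q`, with the restricted norm).  Its ring of integers
is `Valued.integer K = {x | ‖x‖ ≤ 1}` (for the valued structure `NormedField.toValued`, which is
a scoped instance: `open scoped NormedField`).

* `isDiscreteValuationRing_integer`, `finite_residueField`, `isAdicComplete_integer`,
  `finite_quotient_maximalIdeal_pow`: the integer ring is a complete discrete valuation ring with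
  finite residue field.
* `unif`, `ord`: a uniformizer and the normalised valuation `ord : Kˣ →* Multiplicative ℤ`, with
  `‖x‖ = ‖unif K‖ ^ ord x`.
-/

set_option autoImplicit false

namespace Fermat.Agent.CFT.Local.FiniteExtInt

open scoped NNReal NormedField

section Integer

variable (K : Type*) [NontriviallyNormedField K] [IsUltrametricDist K]

/-- The valuation of a nontrivially normed ultrametric field has rank one. -/
@[reducible] noncomputable def rankOne : (Valued.v : Valuation K ℝ≥0).RankOne :=
  inferInstanceAs (NormedField.valuation (K := K)).RankOne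

theorem mem_integer_iff {x : K} : x ∈ Valued.integer K ↔ ‖x‖ ≤ 1 := Valued.integer.mem_iff

variable [ProperSpace K]

/-- The integer ring of a proper normed field is compact. -/
theorem compactSpace_integer : CompactSpace (Valued.integer K) := by
  rw [← isCompact_univ_iff, Subtype.isCompact_iff]
  have : (Subtype.val '' (Set.univ : Set (Valued.integer K))) = Metric.closedBall (0 : K) 1 := by
    ext x
    simp [Valued.integer.mem_iff]
  rw [this]
  exact isCompact_closedBall 0 1

/-- The integer ring of a nonarchimedean local field is a discrete valuation ring. -/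
theorem isDiscreteValuationRing_integer : IsDiscreteValuationRing (Valued.integer K) := by
  let _ := rankOne K
  have := compactSpace_integer K
  exact Valued.integer.isDiscreteValuationRing_of_compactSpace

/-- The residue field of a nonarchimedean local field is finite. -/
theorem finite_residueField : Finite (IsLocalRing.ResidueField (Valued.integer K)) := by
  let _ := rankOne K
  have := compactSpace_integer K
  exact ((Valued.integer.compactSpace_iff_completeSpace_and_isDiscreteValuationRing_and_finite_residueField
    (K := K)).mp inferInstance).2.2

/-- The quotients of the integer ring by powers of the maximal ideal are finite. -/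
theorem finite_quotient_maximalIdeal_pow (n : ℕ) :
    Finite (Valued.integer K ⧸ IsLocalRing.maximalIdeal (Valued.integer K) ^ n) := by
  have := isDiscreteValuationRing_integer K
  exact Valued.integer.finite_quotient_maximalIdeal_pow_of_finite_residueField
    (finite_residueField K) n

open scoped Pointwise in
/-- The integer ring of a nonarchimedean local field is adically complete. -/
theorem isAdicComplete_integer :
    IsAdicComplete (IsLocalRing.maximalIdeal (Valued.integer K)) (Valued.integer K) := by
  have := isDiscreteValuationRing_integer K
  have := compactSpace_integer K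
  exact
  { prec' := fun f hf => by
      let S : ℕ → Set (Valued.integer K) := fun n =>
        f n +ᵥ ((IsLocalRing.maximalIdeal (Valued.integer K) ^ n : Ideal (Valued.integer K)) :
          Set (Valued.integer K))
      have hS : ∀ n, S (n + 1) ⊆ S n := by
        intro n
        apply (Set.vadd_set_subset_vadd_set_iff.mpr (Ideal.pow_le_pow_right n.le_succ)).trans
        simpa [S] using (hf n.le_succ).symm
      have h : ∀ n, IsClosed (S n) := fun n =>
        (IsNoetherianRing.isClosed_ideal
          (IsLocalRing.maximalIdeal (Valued.integer K) ^ n)).vadd (f n)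
      obtain ⟨L, hL⟩ :=
        (h 0).isCompact.nonempty_iInter_of_sequence_nonempty_isCompact_isClosed S hS
          (by simp [S]) h
      refine ⟨L, fun n ↦ ?_⟩
      obtain ⟨y, hy, rfl⟩ := Set.mem_iInter.mp hL n
      simpa [SModEq.sub_mem] using hy }

/-! ### Uniformizer and normalised valuation -/

theorem exists_irreducible_integer : ∃ ϖ : Valued.integer K, Irreducible ϖ := by
  have := isDiscreteValuationRing_integer K
  exact IsDiscreteValuationRing.exists_irreducible _

/-- A uniformizer, as an element of the integer ring. -/
noncomputable def unifInt : Valued.integer K := (exists_irreducible_integer K).choose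

theorem irreducible_unifInt : Irreducible (unifInt K) := (exists_irreducible_integer K).choose_spec

/-- A uniformizer, as an element of the field. -/
noncomputable def unif : K := (unifInt K : K)

theorem coe_unifInt : ((unifInt K : Valued.integer K) : K) = unif K := rfl

theorem norm_unif_pos : 0 < ‖unif K‖ :=
  Valued.integer.norm_irreducible_pos (irreducible_unifInt K)

theorem norm_unif_lt_one : ‖unif K‖ < 1 :=
  Valued.integer.norm_irreducible_lt_one (irreducible_unifInt K)

theorem unif_ne_zero : unif K ≠ 0 := norm_pos_iff.mp (norm_unif_pos K)

theorem unif_mem_integer : unif K ∈ Valued.integer K := (unifInt K).2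

/-- The maximal ideal is the closed ball of radius `‖unif K‖`. -/
theorem mem_maximalIdeal_iff (x : Valued.integer K) :
    x ∈ IsLocalRing.maximalIdeal (Valued.integer K) ↔ ‖(x : K)‖ ≤ ‖unif K‖ := by
  have := isDiscreteValuationRing_integer K
  have h := (irreducible_unifInt K).maximalIdeal_eq_closedBall
  have : x ∈ (IsLocalRing.maximalIdeal (Valued.integer K) : Set (Valued.integer K)) ↔
      x ∈ Metric.closedBall (0 : Valued.integer K) ‖unifInt K‖ := by rw [h]
  simpa [unif] using this

omit [ProperSpace K] in
/-- The maximal ideal is the open unit ball. -/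
theorem mem_maximalIdeal_iff_lt (x : Valued.integer K) :
    x ∈ IsLocalRing.maximalIdeal (Valued.integer K) ↔ ‖(x : K)‖ < 1 := by
  rw [IsLocalRing.mem_maximalIdeal, mem_nonunits_iff, Valued.integer.isUnit_iff_norm_eq_one]
  have h1 : ‖(x : K)‖ ≤ 1 := Valued.integer.norm_le_one x
  constructor
  · intro h
    exact lt_of_le_of_ne h1 h
  · intro h
    exact ne_of_lt h

/-- Powers of the maximal ideal are closed balls. -/
theorem mem_maximalIdeal_pow_iff (x : Valued.integer K) (n : ℕ) :
    x ∈ IsLocalRing.maximalIdeal (Valued.integer K) ^ n ↔ ‖(x : K)‖ ≤ ‖unif K‖ ^ n := by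
  have := isDiscreteValuationRing_integer K
  have h := (irreducible_unifInt K).maximalIdeal_pow_eq_closedBall_pow n
  have : x ∈ ((IsLocalRing.maximalIdeal (Valued.integer K) ^ n : Ideal (Valued.integer K)) :
      Set (Valued.integer K)) ↔
      x ∈ Metric.closedBall (0 : Valued.integer K) (‖unifInt K‖ ^ n) := by rw [h]
  simpa [unif] using this

/-- Every nonzero element has norm an integral power of the norm of the uniformizer. -/
theorem exists_norm_eq_zpow (x : K) (hx : x ≠ 0) : ∃ n : ℤ, ‖x‖ = ‖unif K‖ ^ n := by
  have := isDiscreteValuationRing_integer K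
  have key : ∀ y : K, y ≠ 0 → ‖y‖ ≤ 1 → ∃ n : ℕ, ‖y‖ = ‖unif K‖ ^ n := by
    intro y hy hy1
    have hy' : (⟨y, Valued.integer.mem_iff.mpr hy1⟩ : Valued.integer K) ≠ 0 := by
      intro h
      exact hy (congrArg Subtype.val h)
    obtain ⟨n, u, hu⟩ := IsDiscreteValuationRing.eq_unit_mul_pow_irreducible hy'
      (irreducible_unifInt K)
    refine ⟨n, ?_⟩
    have h2 : y = ((u : Valued.integer K) : K) * (unif K) ^ n := by
      have := congrArg (Subtype.val : Valued.integer K → K) hu
      simpa [coe_unifInt] using this
    rw [h2, norm_mul, Valued.integer.norm_coe_unit, one_mul, norm_pow]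
  rcases le_or_gt ‖x‖ 1 with h | h
  · obtain ⟨n, hn⟩ := key x hx h
    exact ⟨n, by simpa using hn⟩
  · have hx' : x⁻¹ ≠ 0 := inv_ne_zero hx
    have h1 : ‖x⁻¹‖ ≤ 1 := by
      rw [norm_inv]
      exact inv_le_one_of_one_le₀ h.le
    obtain ⟨n, hn⟩ := key x⁻¹ hx' h1
    refine ⟨-n, ?_⟩
    rw [zpow_neg, zpow_natCast, ← hn, norm_inv, inv_inv]

theorem zpow_norm_unif_injective : Function.Injective (fun n : ℤ => ‖unif K‖ ^ n) :=
  zpow_right_injective₀ (norm_unif_pos K) (norm_unif_lt_one K).ne

/-- The normalised valuation, as a function. -/
noncomputable def ordFun (x : Kˣ) : ℤ := (exists_norm_eq_zpow K (x : K) x.ne_zero).choose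

theorem norm_eq_zpow_ordFun (x : Kˣ) : ‖(x : K)‖ = ‖unif K‖ ^ ordFun K x :=
  (exists_norm_eq_zpow K (x : K) x.ne_zero).choose_spec

theorem ordFun_eq_iff (x : Kˣ) (n : ℤ) : ordFun K x = n ↔ ‖(x : K)‖ = ‖unif K‖ ^ n := by
  constructor
  · rintro rfl
    exact norm_eq_zpow_ordFun K x
  · intro h
    exact zpow_norm_unif_injective K ((norm_eq_zpow_ordFun K x).symm.trans h)

/-- The normalised valuation `Kˣ →* Multiplicative ℤ` of a nonarchimedean local field. -/
noncomputable def ord : Kˣ →* Multiplicative ℤ where
  toFun x := Multiplicative.ofAdd (ordFun K x)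
  map_one' := by
    rw [← ofAdd_zero]
    congr 1
    rw [ordFun_eq_iff]
    simp
  map_mul' x y := by
    rw [← ofAdd_add]
    congr 1
    rw [ordFun_eq_iff, Units.val_mul, norm_mul, norm_eq_zpow_ordFun K x, norm_eq_zpow_ordFun K y,
      zpow_add₀ (norm_unif_pos K).ne']

theorem toAdd_ord (x : Kˣ) : Multiplicative.toAdd (ord K x) = ordFun K x := rfl

/-- The defining property of the normalised valuation. -/
theorem norm_eq_zpow_ord (x : Kˣ) : ‖(x : K)‖ = ‖unif K‖ ^ (Multiplicative.toAdd (ord K x)) :=
  norm_eq_zpow_ordFun K x

theorem ord_eq_iff (x : Kˣ) (n : ℤ) :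
    ord K x = Multiplicative.ofAdd n ↔ ‖(x : K)‖ = ‖unif K‖ ^ n := by
  rw [← ordFun_eq_iff]
  exact ⟨fun h => congrArg Multiplicative.toAdd h, fun h => congrArg Multiplicative.ofAdd h⟩

/-- The valuation only depends on the norm: it is invariant under isometries. -/
theorem ord_eq_of_norm_eq {x y : Kˣ} (h : ‖(x : K)‖ = ‖(y : K)‖) : ord K x = ord K y := by
  have : ordFun K x = ordFun K y := by
    rw [ordFun_eq_iff, h]
    exact norm_eq_zpow_ordFun K y
  exact congrArg Multiplicative.ofAdd this

/-- The kernel of the valuation is the group of norm-one elements (units of the integer ring). -/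
theorem ord_eq_one_iff (x : Kˣ) : ord K x = 1 ↔ ‖(x : K)‖ = 1 := by
  rw [← ofAdd_zero, ord_eq_iff, zpow_zero]

theorem ord_unif : ord K (Units.mk0 (unif K) (unif_ne_zero K)) = Multiplicative.ofAdd 1 := by
  rw [ord_eq_iff]
  simp

/-- The normalised valuation is surjective. -/
theorem ord_surjective : Function.Surjective (ord K) := by
  intro n
  refine ⟨Units.mk0 (unif K) (unif_ne_zero K) ^ (Multiplicative.toAdd n), ?_⟩
  rw [map_zpow, ord_unif, ← ofAdd_zsmul]
  simp

/-- The valuation is monotone decreasing in the norm. -/
theorem norm_le_norm_iff_ord (x y : Kˣ) :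
    ‖(x : K)‖ ≤ ‖(y : K)‖ ↔ Multiplicative.toAdd (ord K y) ≤ Multiplicative.toAdd (ord K x) := by
  rw [norm_eq_zpow_ord K x, norm_eq_zpow_ord K y]
  exact (zpow_right_strictAnti₀ (norm_unif_pos K) (norm_unif_lt_one K)).le_iff_ge

/-- An element of `Kˣ` is integral iff its valuation is nonnegative. -/
theorem norm_le_one_iff_ord (x : Kˣ) :
    ‖(x : K)‖ ≤ 1 ↔ 0 ≤ Multiplicative.toAdd (ord K x) := by
  have := norm_le_norm_iff_ord K x 1
  simpa using this

end Integer

/-! ### Integrality and the spectral norm -/

section SpectralIntegral

variable {K : Type*} [NormedField K] (A : Type*) [CommRing A] [IsDomain A] [Algebra A K]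
  [IsFractionRing A K] [IsIntegrallyClosed A]
  {L : Type*} [Field L] [Algebra K L] [Algebra A L] [IsScalarTower A K L]
  [Algebra.IsAlgebraic K L]

/-- Let `A` be an integrally closed domain with fraction field the normed field `K`, whose image
in `K` is the closed unit ball.  An element of an algebraic extension `L/K` is integral over `A`
iff its spectral norm is at most one. -/
theorem isIntegral_iff_spectralNorm_le_one
    (hA : ∀ c : K, ‖c‖ ≤ 1 ↔ c ∈ Set.range (algebraMap A K)) (x : L) :
    IsIntegral A x ↔ spectralNorm K L x ≤ 1 := by
  constructor
  · intro hx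
    rw [spectralNorm, minpoly.isIntegrallyClosed_eq_field_fractions' K hx,
      spectralValue_le_one_iff ((minpoly.monic hx).map _)]
    intro n
    rw [Polynomial.coeff_map]
    exact (hA _).mpr ⟨_, rfl⟩
  · intro hx
    have hmonic : (minpoly K x).Monic :=
      minpoly.monic (Algebra.IsAlgebraic.isAlgebraic (R := K) x).isIntegral
    rw [spectralNorm, spectralValue_le_one_iff hmonic] at hx
    have hl : minpoly K x ∈ Polynomial.lifts (algebraMap A K) := by
      rw [Polynomial.lifts_iff_coeff_lifts]
      intro n
      exact (hA _).mp (hx n)
    obtain ⟨P, hP, -, hPm⟩ := Polynomial.lifts_and_natDegree_eq_and_monic hl hmonic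
    refine ⟨P, hPm, ?_⟩
    rw [IsScalarTower.algebraMap_eq A K L, ← Polynomial.eval₂_map, hP]
    exact minpoly.aeval K x

end SpectralIntegral

section SpectralNormPow

open scoped IntermediateField

variable {K : Type*} [NontriviallyNormedField K] [IsUltrametricDist K] [CompleteSpace K]
  {L : Type*} [Field L] [Algebra K L] [FiniteDimensional K L]

/-- Over a complete nonarchimedean field, the `[L:K]`-th power of the spectral norm is the norm
of the field norm. -/
theorem spectralNorm_pow_finrank (x : L) :
    spectralNorm K L x ^ Module.finrank K L = ‖Algebra.norm K x‖ := by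
  have hx : IsIntegral K x := Algebra.IsIntegral.isIntegral x
  have h1 := spectralNorm.spectralNorm_eq_norm_coeff_zero_rpow K L x
  have h2 : Algebra.norm K x = ((-1) ^ (minpoly K x).natDegree * (minpoly K x).coeff 0) ^
      Module.finrank K⟮x⟯ L := by
    rw [Algebra.norm_eq_norm_adjoin K x, ← IntermediateField.adjoin.powerBasis_gen hx,
      Algebra.PowerBasis.norm_gen_eq_coeff_zero_minpoly, IntermediateField.adjoin.powerBasis_gen hx,
      IntermediateField.minpoly_gen, IntermediateField.adjoin.powerBasis_dim]
  have h3 : (minpoly K x).natDegree * Module.finrank K⟮x⟯ L = Module.finrank K L := by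
    rw [← IntermediateField.adjoin.finrank hx, Module.finrank_mul_finrank]
  rw [h2, norm_pow, norm_mul, norm_pow, norm_neg, norm_one, one_pow, one_mul, ← h3, pow_mul, h1]
  congr 1
  rw [← Real.rpow_natCast, ← Real.rpow_mul (norm_nonneg _), one_div, inv_mul_cancel₀,
    Real.rpow_one]
  exact_mod_cast (minpoly.natDegree_pos hx).ne'

end SpectralNormPow

/-! ### Finite extensions -/

section Extension

variable (K : Type*) [NontriviallyNormedField K] [IsUltrametricDist K]
variable (L : Type*) [NontriviallyNormedField L] [IsUltrametricDist L] [NormedAlgebra K L]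

/-- The valuation of a normed extension field extends the valuation of the base field.  With this
instance Mathlib provides `Algebra (Valued.integer K) (Valued.integer L)` and the scalar towers
`IsScalarTower (Valued.integer K) (Valued.integer L) L`. -/
instance hasExtension :
    (Valued.v : Valuation K ℝ≥0).HasExtension (Valued.v : Valuation L ℝ≥0) where
  val_isEquiv_comap := by
    intro x y
    simp only [Valuation.comap_apply]
    change ‖x‖₊ ≤ ‖y‖₊ ↔ ‖algebraMap K L x‖₊ ≤ ‖algebraMap K L y‖₊
    rw [nnnorm_algebraMap', nnnorm_algebraMap']

theorem coe_algebraMap_integer (x : Valued.integer K) :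
    ((algebraMap (Valued.integer K) (Valued.integer L) x : Valued.integer L) : L) =
      algebraMap K L (x : K) := rfl

variable [ProperSpace K] [FiniteDimensional K L]

omit [IsUltrametricDist K] [IsUltrametricDist L] in
include K in
/-- A finite normed extension of a nonarchimedean local field is a nonarchimedean local field. -/
theorem properSpace_of_finiteDimensional : ProperSpace L := FiniteDimensional.proper K L

omit [IsUltrametricDist L] in
/-- The norm of a finite normed extension is the spectral norm. -/
theorem norm_eq_spectralNorm (x : L) : ‖x‖ = spectralNorm K L x :=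
  NormedAlgebra.norm_eq_spectralNorm K x

omit [IsUltrametricDist L] in
/-- Every `K`-algebra automorphism of a finite normed extension of a local field is an isometry. -/
theorem norm_algEquiv (σ : L ≃ₐ[K] L) (x : L) : ‖σ x‖ = ‖x‖ := by
  rw [norm_eq_spectralNorm K L, norm_eq_spectralNorm K L, ← spectralNorm_eq_of_equiv]

omit [IsUltrametricDist L] in
/-- The `[L:K]`-th power of the norm of `x` is the norm of `N_{L/K} x`. -/
theorem norm_pow_finrank (x : L) : ‖x‖ ^ Module.finrank K L = ‖Algebra.norm K x‖ := by
  rw [norm_eq_spectralNorm K L, spectralNorm_pow_finrank]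

/-- The integer ring is stable under `K`-algebra automorphisms. -/
theorem algEquiv_mem_integer (σ : L ≃ₐ[K] L) {x : L} (hx : x ∈ Valued.integer L) :
    σ x ∈ Valued.integer L := by
  rw [mem_integer_iff] at hx ⊢
  rwa [norm_algEquiv K L]

omit [IsUltrametricDist L] in
/-- An element of a finite extension is integral over the integer ring of the base iff it has
norm at most one. -/
theorem isIntegral_iff_norm_le_one (x : L) : IsIntegral (Valued.integer K) x ↔ ‖x‖ ≤ 1 := by
  have := isDiscreteValuationRing_integer K
  rw [norm_eq_spectralNorm K L]
  refine isIntegral_iff_spectralNorm_le_one (Valued.integer K) (fun c => ?_) x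
  rw [← mem_integer_iff]
  constructor
  · intro h
    exact ⟨⟨c, h⟩, rfl⟩
  · rintro ⟨y, rfl⟩
    exact y.2

/-- The integer ring of a finite extension is the integral closure of the integer ring of the
base. -/
theorem isIntegralClosure_integer :
    IsIntegralClosure (Valued.integer L) (Valued.integer K) L where
  algebraMap_injective := Subtype.val_injective
  isIntegral_iff := fun {x} => by
    rw [isIntegral_iff_norm_le_one K L]
    constructor
    · intro h
      exact ⟨⟨x, Valued.integer.mem_iff.mpr h⟩, rfl⟩
    · rintro ⟨y, rfl⟩
      exact Valued.integer.mem_iff.mp y.2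

theorem isIntegral_integer : Algebra.IsIntegral (Valued.integer K) (Valued.integer L) :=
  haveI := isIntegralClosure_integer K L
  IsIntegralClosure.isIntegral_algebra (Valued.integer K) L

section Separable

variable [Algebra.IsSeparable K L]

/-- The integer ring of a finite separable extension is a finite module over the integer ring of
the base. -/
theorem finite_integer : Module.Finite (Valued.integer K) (Valued.integer L) :=
  haveI := isDiscreteValuationRing_integer K
  haveI := isIntegralClosure_integer K L
  IsIntegralClosure.finite (Valued.integer K) K L (Valued.integer L)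

/-- The integer ring of a finite separable extension is a free module over the integer ring of
the base. -/
theorem free_integer : Module.Free (Valued.integer K) (Valued.integer L) :=
  haveI := isDiscreteValuationRing_integer K
  haveI := isIntegralClosure_integer K L
  haveI : Module.IsTorsionFree (Valued.integer K) L := .trans_faithfulSMul (Valued.integer K) K L
  IsIntegralClosure.module_free (Valued.integer K) K L (Valued.integer L)

/-- The rank of the integer ring is the degree of the extension. -/
theorem finrank_integer :
    Module.finrank (Valued.integer K) (Valued.integer L) = Module.finrank K L :=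
  haveI := isDiscreteValuationRing_integer K
  haveI := isIntegralClosure_integer K L
  haveI : Module.IsTorsionFree (Valued.integer K) L := .trans_faithfulSMul (Valued.integer K) K L
  IsIntegralClosure.rank (Valued.integer K) K L (Valued.integer L)

/-- The norm of the integer rings is the restriction of the norm of the fields. -/
theorem coe_norm_integer (x : Valued.integer L) :
    ((Algebra.norm (Valued.integer K) x : Valued.integer K) : K) = Algebra.norm K (x : L) := by
  have := isDiscreteValuationRing_integer K
  have := properSpace_of_finiteDimensional K L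
  have := isDiscreteValuationRing_integer L
  have := isIntegralClosure_integer K L
  have := isIntegral_integer K L
  have := finite_integer K L
  have := free_integer K L
  have h := Algebra.algebraMap_intNorm (A := Valued.integer K) (K := K) (L := L)
    (B := Valued.integer L) x
  rw [Algebra.intNorm_eq_norm] at h
  exact h

end Separable

end Extension

end Fermat.Agent.CFT.Local.FiniteExtInt
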