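import Mathlib
import Fermat.Agent.CFT.Local.Defs
import Fermat.Agent.CFT.Local.FiniteExtInt

/-!
# The normalised valuation of a finite extension of `ℚ_q` (content of `OrdStmt`)

For an abstract finite extension `E` of `ℚ_[q]` we relate the vocabulary of `Local/Defs`
(`integers`, `unitGroup`, `maxIdeal`, `vNorm`, `fDeg`, `ordZ`) to the spectral norm
`spectralNorm ℚ_[q] E`:

* `mem_integers_iff_spectralNorm` : `x ∈ integers q E ↔ spectralNorm ℚ_[q] E x ≤ 1`;
* `spectralNorm_pow_eq` : `spectralNorm x ^ [E:ℚ_q] = ‖N x‖`;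
* `mem_integers_iff_vNorm` : `x ∈ integers q E ↔ 0 ≤ vNorm q E x`;
* `fDeg_pos`, `fDeg_dvd_vNorm`, `ordZ_mul`, `exists_ordZ_eq_one`, ... : the clauses of `OrdStmt`.
-/

set_option autoImplicit false

namespace Fermat.Agent.CFT.Local.OrdCore

open Fermat.Agent.CFT.Local

section Absolute

variable (q : ℕ) [Fact q.Prime] (E : Type) [Field E] [Algebra ℚ_[q] E]

/-! ### Integers and the spectral norm -/

section Spectral

variable [FiniteDimensional ℚ_[q] E]

/-- `x` is an integer of `E` iff its spectral norm is at most one. -/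
theorem mem_integers_iff_spectralNorm (x : E) :
    x ∈ integers q E ↔ spectralNorm ℚ_[q] E x ≤ 1 := by
  let _ := intAlgebra q E
  have : IsScalarTower ℤ_[q] ℚ_[q] E := IsScalarTower.of_algebraMap_eq (fun _ => rfl)
  have h1 : x ∈ integers q E ↔ IsIntegral ℤ_[q] x := Iff.rfl
  rw [h1]
  refine FiniteExtInt.isIntegral_iff_spectralNorm_le_one ℤ_[q] (fun c => ?_) x
  constructor
  · intro h
    exact ⟨⟨c, h⟩, rfl⟩
  · rintro ⟨y, rfl⟩
    exact y.2

/-- The `[E:ℚ_q]`-th power of the spectral norm is the `q`-adic norm of the field norm. -/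
theorem spectralNorm_pow_eq (x : E) :
    spectralNorm ℚ_[q] E x ^ Module.finrank ℚ_[q] E = ‖Algebra.norm ℚ_[q] x‖ :=
  FiniteExtInt.spectralNorm_pow_finrank x

theorem spectralNorm_mul_eq (x y : E) :
    spectralNorm ℚ_[q] E (x * y) = spectralNorm ℚ_[q] E x * spectralNorm ℚ_[q] E y :=
  spectralAlgNorm_mul (K := ℚ_[q]) (L := E) x y

theorem spectralNorm_inv_eq (x : E) :
    spectralNorm ℚ_[q] E x⁻¹ = (spectralNorm ℚ_[q] E x)⁻¹ := by
  by_cases hx : x = 0
  · subst hx
    simp [spectralNorm_zero]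
  · have h := spectralNorm_mul_eq q E x x⁻¹
    rw [mul_inv_cancel₀ hx, spectralNorm_one] at h
    exact eq_inv_of_mul_eq_one_right h.symm

theorem spectralNorm_pos_of_ne_zero {x : E} (hx : x ≠ 0) : 0 < spectralNorm ℚ_[q] E x :=
  spectralNorm_zero_lt hx (Algebra.IsAlgebraic.isAlgebraic x)

theorem spectralNorm_add_le_max (x y : E) :
    spectralNorm ℚ_[q] E (x + y) ≤ max (spectralNorm ℚ_[q] E x) (spectralNorm ℚ_[q] E y) :=
  isNonarchimedean_spectralNorm (K := ℚ_[q]) (L := E) x y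

/-- The maximal ideal is the open unit ball of the spectral norm. -/
theorem mem_maxIdeal_iff_spectralNorm (x : E) :
    x ∈ maxIdeal q E ↔ spectralNorm ℚ_[q] E x < 1 := by
  change (x ∈ integers q E ∧ (x = 0 ∨ x⁻¹ ∉ integers q E)) ↔ _
  rw [mem_integers_iff_spectralNorm, mem_integers_iff_spectralNorm, spectralNorm_inv_eq]
  by_cases hx : x = 0
  · subst hx
    simp [spectralNorm_zero]
  · have hpos := spectralNorm_pos_of_ne_zero q E hx
    constructor
    · rintro ⟨-, h | h⟩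
      · exact absurd h hx
      · by_contra hlt
        exact h (inv_le_one_of_one_le₀ (not_lt.mp hlt))
    · intro h
      refine ⟨h.le, Or.inr ?_⟩
      rw [not_le]
      exact (one_lt_inv₀ hpos).mpr h

/-- The maximal ideal is closed under addition. -/
theorem add_mem_maxIdeal {x y : E} (hx : x ∈ maxIdeal q E) (hy : y ∈ maxIdeal q E) :
    x + y ∈ maxIdeal q E := by
  rw [mem_maxIdeal_iff_spectralNorm] at hx hy ⊢
  exact lt_of_le_of_lt (spectralNorm_add_le_max q E x y) (max_lt hx hy)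

/-- The maximal ideal is stable under multiplication by integers. -/
theorem mul_mem_maxIdeal {x y : E} (hx : x ∈ integers q E) (hy : y ∈ maxIdeal q E) :
    x * y ∈ maxIdeal q E := by
  rw [mem_integers_iff_spectralNorm] at hx
  rw [mem_maxIdeal_iff_spectralNorm] at hy ⊢
  rw [spectralNorm_mul_eq]
  have h0 : 0 ≤ spectralNorm ℚ_[q] E x := spectralNorm_nonneg _
  have h1 : 0 ≤ spectralNorm ℚ_[q] E y := spectralNorm_nonneg _
  calc spectralNorm ℚ_[q] E x * spectralNorm ℚ_[q] E y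
      ≤ 1 * spectralNorm ℚ_[q] E y := mul_le_mul_of_nonneg_right hx h1
    _ = spectralNorm ℚ_[q] E y := one_mul _
    _ < 1 := hy

/-- The integers form a valuation ring. -/
theorem mem_integers_or_inv_mem (x : E) : x ∈ integers q E ∨ x⁻¹ ∈ integers q E := by
  rw [mem_integers_iff_spectralNorm, mem_integers_iff_spectralNorm, spectralNorm_inv_eq]
  by_cases hx : x = 0
  · subst hx
    left
    simp [spectralNorm_zero]
  · have hpos := spectralNorm_pos_of_ne_zero q E hx
    rcases le_total (spectralNorm ℚ_[q] E x) 1 with h | h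
    · exact Or.inl h
    · exact Or.inr (inv_le_one_of_one_le₀ h)

end Spectral

/-! ### The valuation `vNorm` -/

section VNorm

theorem norm_unit_ne_zero (x : Eˣ) : Algebra.norm ℚ_[q] (x : E) ≠ 0 :=
  (Units.map (Algebra.norm ℚ_[q] : E →* ℚ_[q]) x).ne_zero

theorem vNorm_mul (x y : Eˣ) : vNorm q E (x * y) = vNorm q E x + vNorm q E y := by
  unfold vNorm
  rw [Units.val_mul, map_mul, Padic.valuation_mul (norm_unit_ne_zero q E x) (norm_unit_ne_zero q E y)]

theorem vNorm_one : vNorm q E 1 = 0 := by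
  unfold vNorm
  simp

theorem vNorm_inv (x : Eˣ) : vNorm q E x⁻¹ = - vNorm q E x := by
  have h := vNorm_mul q E x x⁻¹
  rw [mul_inv_cancel, vNorm_one] at h
  linarith

theorem vNorm_zpow (x : Eˣ) (k : ℤ) : vNorm q E (x ^ k) = k * vNorm q E x := by
  induction k using Int.induction_on with
  | zero => simp [vNorm_one]
  | succ k ih => rw [zpow_add_one, vNorm_mul, ih]; ring
  | pred k ih => rw [zpow_sub_one, vNorm_mul, vNorm_inv, ih]; ring

variable [FiniteDimensional ℚ_[q] E]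

/-- `x ∈ Eˣ` is an integer iff `0 ≤ v_q (N x)`. -/
theorem mem_integers_iff_vNorm (x : Eˣ) : (x : E) ∈ integers q E ↔ 0 ≤ vNorm q E x := by
  rw [mem_integers_iff_spectralNorm]
  have hn : Module.finrank ℚ_[q] E ≠ 0 := Module.finrank_pos.ne'
  rw [← pow_le_one_iff_of_nonneg (spectralNorm_nonneg _) hn, spectralNorm_pow_eq,
    Padic.norm_le_one_iff_val_nonneg]
  rfl

/-- The prime `q` as a unit of `E`. -/
noncomputable def qUnit : Eˣ :=
  Units.mk0 (algebraMap ℚ_[q] E (q : ℚ_[q]))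
    (by
      rw [Ne, map_eq_zero]
      exact_mod_cast (Fact.out : q.Prime).ne_zero)

omit [FiniteDimensional ℚ_[q] E] in
theorem coe_qUnit : ((qUnit q E : Eˣ) : E) = algebraMap ℚ_[q] E (q : ℚ_[q]) := rfl

theorem vNorm_qUnit : vNorm q E (qUnit q E) = (Module.finrank ℚ_[q] E : ℤ) := by
  unfold vNorm
  rw [coe_qUnit, Algebra.norm_algebraMap, Padic.valuation_pow, Padic.valuation_p, mul_one]

end VNorm

/-! ### The residue degree `fDeg` and the normalised valuation `ordZ` -/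

section FDeg

variable [FiniteDimensional ℚ_[q] E]

theorem fDeg_mem :
    fDeg q E ∈ {k : ℕ | 0 < k ∧ ∃ x : Eˣ, vNorm q E x = (k : ℤ)} := by
  apply Nat.sInf_mem
  exact ⟨Module.finrank ℚ_[q] E, Module.finrank_pos, qUnit q E, vNorm_qUnit q E⟩

/-- The residue degree is positive. -/
theorem fDeg_pos : 0 < fDeg q E := (fDeg_mem q E).1

/-- There is an element of valuation exactly `fDeg`. -/
theorem exists_vNorm_eq_fDeg : ∃ x : Eˣ, vNorm q E x = (fDeg q E : ℤ) := (fDeg_mem q E).2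

omit [FiniteDimensional ℚ_[q] E] in
theorem fDeg_le {k : ℕ} (hk : 0 < k) {x : Eˣ} (hx : vNorm q E x = (k : ℤ)) : fDeg q E ≤ k :=
  Nat.sInf_le ⟨hk, x, hx⟩

/-- Every value of `vNorm` is divisible by `fDeg`. -/
theorem fDeg_dvd_vNorm (x : Eˣ) : (fDeg q E : ℤ) ∣ vNorm q E x := by
  obtain ⟨ϖ, hϖ⟩ := exists_vNorm_eq_fDeg q E
  have hf : (0 : ℤ) < fDeg q E := by exact_mod_cast fDeg_pos q E
  rw [Int.dvd_iff_emod_eq_zero]
  by_contra hne
  have h0 : 0 ≤ vNorm q E x % (fDeg q E : ℤ) := Int.emod_nonneg _ hf.ne'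
  have h1 : vNorm q E x % (fDeg q E : ℤ) < fDeg q E := Int.emod_lt_of_pos _ hf
  have hpos : 0 < vNorm q E x % (fDeg q E : ℤ) := lt_of_le_of_ne h0 (Ne.symm hne)
  -- the element `x * ϖ ^ (-(a / f))` has valuation `a % f`
  have hval : vNorm q E (x * ϖ ^ (-(vNorm q E x / (fDeg q E : ℤ)))) =
      vNorm q E x % (fDeg q E : ℤ) := by
    rw [vNorm_mul, vNorm_zpow, hϖ, Int.emod_def]
    ring
  have hk : ((vNorm q E x % (fDeg q E : ℤ)).toNat : ℤ) = vNorm q E x % (fDeg q E : ℤ) :=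
    Int.toNat_of_nonneg h0
  have hle := fDeg_le q E (k := (vNorm q E x % (fDeg q E : ℤ)).toNat)
    (by omega) (hval.trans hk.symm)
  omega

/-- `vNorm = fDeg * ordZ`. -/
theorem vNorm_eq_fDeg_mul_ordZ (x : Eˣ) : vNorm q E x = (fDeg q E : ℤ) * ordZ q E x := by
  unfold ordZ
  rw [Int.mul_ediv_cancel' (fDeg_dvd_vNorm q E x)]

/-- The normalised valuation is a homomorphism. -/
theorem ordZ_mul (x y : Eˣ) : ordZ q E (x * y) = ordZ q E x + ordZ q E y := by
  have hf : (fDeg q E : ℤ) ≠ 0 := by exact_mod_cast (fDeg_pos q E).ne'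
  apply mul_left_cancel₀ hf
  rw [← vNorm_eq_fDeg_mul_ordZ, mul_add, ← vNorm_eq_fDeg_mul_ordZ, ← vNorm_eq_fDeg_mul_ordZ,
    vNorm_mul]

omit [FiniteDimensional ℚ_[q] E] in
theorem ordZ_one : ordZ q E 1 = 0 := by
  unfold ordZ
  rw [vNorm_one, Int.zero_ediv]

theorem ordZ_inv (x : Eˣ) : ordZ q E x⁻¹ = - ordZ q E x := by
  have h := ordZ_mul q E x x⁻¹
  rw [mul_inv_cancel, ordZ_one] at h
  linarith

theorem ordZ_zpow (x : Eˣ) (k : ℤ) : ordZ q E (x ^ k) = k * ordZ q E x := by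
  induction k using Int.induction_on with
  | zero => simp [ordZ_one]
  | succ k ih => rw [zpow_add_one, ordZ_mul, ih]; ring
  | pred k ih => rw [zpow_sub_one, ordZ_mul, ordZ_inv, ih]; ring

/-- The normalised valuation as a monoid homomorphism to `Multiplicative ℤ`. -/
noncomputable def ordHom : Eˣ →* Multiplicative ℤ where
  toFun x := Multiplicative.ofAdd (ordZ q E x)
  map_one' := by rw [ordZ_one]; rfl
  map_mul' x y := by rw [ordZ_mul]; rfl

theorem toAdd_ordHom (x : Eˣ) : Multiplicative.toAdd (ordHom q E x) = ordZ q E x := rfl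

/-- A uniformizer exists. -/
theorem exists_ordZ_eq_one : ∃ ϖ : Eˣ, ordZ q E ϖ = 1 := by
  obtain ⟨ϖ, hϖ⟩ := exists_vNorm_eq_fDeg q E
  refine ⟨ϖ, ?_⟩
  have hf : (fDeg q E : ℤ) ≠ 0 := by exact_mod_cast (fDeg_pos q E).ne'
  unfold ordZ
  rw [hϖ, Int.ediv_self hf]

/-- The normalised valuation is surjective. -/
theorem ordZ_surjective : Function.Surjective (ordZ q E) := by
  obtain ⟨ϖ, hϖ⟩ := exists_ordZ_eq_one q E
  intro k
  exact ⟨ϖ ^ k, by rw [ordZ_zpow, hϖ, mul_one]⟩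

theorem ordZ_nonneg_iff (x : Eˣ) : 0 ≤ ordZ q E x ↔ 0 ≤ vNorm q E x := by
  have hf : (0 : ℤ) < fDeg q E := by exact_mod_cast fDeg_pos q E
  rw [vNorm_eq_fDeg_mul_ordZ]
  exact (mul_nonneg_iff_of_pos_left hf).symm

theorem ordZ_pos_iff (x : Eˣ) : 0 < ordZ q E x ↔ 0 < vNorm q E x := by
  have hf : (0 : ℤ) < fDeg q E := by exact_mod_cast fDeg_pos q E
  rw [vNorm_eq_fDeg_mul_ordZ]
  exact (mul_pos_iff_of_pos_left hf).symm

theorem ordZ_eq_zero_iff (x : Eˣ) : ordZ q E x = 0 ↔ vNorm q E x = 0 := by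
  have hf : (fDeg q E : ℤ) ≠ 0 := by exact_mod_cast (fDeg_pos q E).ne'
  rw [vNorm_eq_fDeg_mul_ordZ]
  constructor
  · intro h; rw [h, mul_zero]
  · intro h
    rcases mul_eq_zero.mp h with h | h
    · exact absurd h hf
    · exact h

/-- Integers are the elements of nonnegative valuation. -/
theorem mem_integers_iff_ordZ (x : Eˣ) : (x : E) ∈ integers q E ↔ 0 ≤ ordZ q E x := by
  rw [mem_integers_iff_vNorm, ordZ_nonneg_iff]

/-- Units are the elements of valuation zero. -/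
theorem mem_unitGroup_iff_ordZ (x : Eˣ) : x ∈ unitGroup q E ↔ ordZ q E x = 0 := by
  change ((x : E) ∈ integers q E ∧ ((x⁻¹ : Eˣ) : E) ∈ integers q E) ↔ _
  rw [mem_integers_iff_ordZ, mem_integers_iff_ordZ, ordZ_inv]
  constructor
  · rintro ⟨h1, h2⟩; omega
  · intro h; omega

/-- The maximal ideal consists of the elements of positive valuation. -/
theorem mem_maxIdeal_iff_ordZ (x : Eˣ) : (x : E) ∈ maxIdeal q E ↔ 0 < ordZ q E x := by
  change ((x : E) ∈ integers q E ∧ ((x : E) = 0 ∨ (x : E)⁻¹ ∉ integers q E)) ↔ _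
  have hinv : (x : E)⁻¹ = ((x⁻¹ : Eˣ) : E) := by simp
  rw [hinv, mem_integers_iff_ordZ, mem_integers_iff_ordZ, ordZ_inv]
  constructor
  · rintro ⟨h1, h2 | h2⟩
    · exact absurd h2 x.ne_zero
    · omega
  · intro h
    exact ⟨h.le, Or.inr (by omega)⟩

/-- The spectral norm is strictly decreasing in the normalised valuation. -/
theorem spectralNorm_lt_of_ordZ_lt {x y : Eˣ} (h : ordZ q E x < ordZ q E y) :
    spectralNorm ℚ_[q] E (y : E) < spectralNorm ℚ_[q] E (x : E) := by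
  have h1 : 0 < ordZ q E (y * x⁻¹) := by
    rw [ordZ_mul, ordZ_inv]; omega
  rw [← mem_maxIdeal_iff_ordZ, mem_maxIdeal_iff_spectralNorm, Units.val_mul, spectralNorm_mul_eq,
    Units.val_inv_eq_inv_val, spectralNorm_inv_eq] at h1
  have hpos := spectralNorm_pos_of_ne_zero q E x.ne_zero
  rwa [← div_eq_mul_inv, div_lt_one hpos] at h1

/-- The ultrametric inequality for the normalised valuation. -/
theorem min_ordZ_le_ordZ_add {x y z : Eˣ} (hz : (z : E) = x + y) :
    min (ordZ q E x) (ordZ q E y) ≤ ordZ q E z := by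
  by_contra hlt
  rw [not_le, lt_min_iff] at hlt
  have h1 := spectralNorm_lt_of_ordZ_lt q E hlt.1
  have h2 := spectralNorm_lt_of_ordZ_lt q E hlt.2
  have h3 := spectralNorm_add_le_max q E (x : E) (y : E)
  rw [← hz] at h3
  exact absurd h3 (not_le.mpr (max_lt h1 h2))

/-- All clauses of `Plan.OrdStmt` for one field. -/
theorem ordStmt_at :
    0 < fDeg q E ∧
    (∀ x : Eˣ, vNorm q E x = fDeg q E * ordZ q E x) ∧
    (∀ x y : Eˣ, ordZ q E (x * y) = ordZ q E x + ordZ q E y) ∧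
    (∃ ϖ : Eˣ, ordZ q E ϖ = 1) ∧
    (∀ x : Eˣ, (x : E) ∈ integers q E ↔ 0 ≤ ordZ q E x) ∧
    (∀ x : Eˣ, x ∈ unitGroup q E ↔ ordZ q E x = 0) ∧
    (∀ x : Eˣ, (x : E) ∈ maxIdeal q E ↔ 0 < ordZ q E x) ∧
    (∀ x y : E, x ∈ maxIdeal q E → y ∈ maxIdeal q E → x + y ∈ maxIdeal q E) ∧
    (∀ x y : E, x ∈ integers q E → y ∈ maxIdeal q E → x * y ∈ maxIdeal q E) ∧
    (∀ x y z : Eˣ, (z : E) = x + y → min (ordZ q E x) (ordZ q E y) ≤ ordZ q E z) ∧
    (∀ x : E, x ∈ integers q E ∨ x⁻¹ ∈ integers q E) :=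
  ⟨fDeg_pos q E, vNorm_eq_fDeg_mul_ordZ q E, ordZ_mul q E, exists_ordZ_eq_one q E,
    mem_integers_iff_ordZ q E, mem_unitGroup_iff_ordZ q E, mem_maxIdeal_iff_ordZ q E,
    fun _ _ hx hy => add_mem_maxIdeal q E hx hy, fun _ _ hx hy => mul_mem_maxIdeal q E hx hy,
    fun _ _ _ hz => min_ordZ_le_ordZ_add q E hz, mem_integers_or_inv_mem q E⟩

end FDeg

end Absolute

/-! ### The base field (content of `OrdBase`) -/

section Base

variable (q : ℕ) [Fact q.Prime]

theorem vNorm_base (x : ℚ_[q]ˣ) : vNorm q ℚ_[q] x = Padic.valuation (x : ℚ_[q]) := by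
  unfold vNorm
  rw [Algebra.norm_self]
  rfl

/-- The residue degree of `ℚ_q` is one. -/
theorem fDeg_base : fDeg q ℚ_[q] = 1 := by
  have h1 : fDeg q ℚ_[q] ≤ 1 := by
    refine fDeg_le q ℚ_[q] (k := 1) one_pos (x := qUnit q ℚ_[q]) ?_
    rw [vNorm_base, coe_qUnit]
    simp
  have h2 := fDeg_pos q ℚ_[q]
  omega

/-- On `ℚ_q` the normalised valuation is the `q`-adic valuation. -/
theorem ordZ_base (x : ℚ_[q]ˣ) : ordZ q ℚ_[q] x = Padic.valuation (x : ℚ_[q]) := by
  unfold ordZ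
  rw [fDeg_base, vNorm_base]
  simp

end Base

/-! ### Relative statements (content of `RelOrdStmt`) -/

section Relative

variable (q : ℕ) [Fact q.Prime] (F E : Type) [Field F] [Field E] [Algebra ℚ_[q] F]
  [Algebra ℚ_[q] E] [Algebra F E] [IsScalarTower ℚ_[q] F E]

/-- The inclusion `Fˣ → Eˣ`. -/
noncomputable abbrev unitsIncl : Fˣ →* Eˣ := Units.map (algebraMap F E).toMonoidHom

theorem coe_unitsIncl (a : Fˣ) : ((unitsIncl F E a : Eˣ) : E) = algebraMap F E (a : F) := rfl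

variable [FiniteDimensional ℚ_[q] F] [FiniteDimensional F E]

include q F in
/-- A finite extension of a finite extension of `ℚ_q` is finite over `ℚ_q`. -/
theorem finiteDimensional_top : FiniteDimensional ℚ_[q] E := Module.Finite.trans F E

/-- `v_q (N_{E/ℚ_q} a) = [E:F] · v_q (N_{F/ℚ_q} a)` for `a ∈ Fˣ`. -/
theorem vNorm_unitsIncl (a : Fˣ) :
    vNorm q E (unitsIncl F E a) = (Module.finrank F E : ℤ) * vNorm q F a := by
  unfold vNorm
  have h : Algebra.norm ℚ_[q] ((unitsIncl F E a : Eˣ) : E) =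
      Algebra.norm ℚ_[q] (a : F) ^ Module.finrank F E := by
    rw [coe_unitsIncl, ← Algebra.norm_norm (S := F), Algebra.norm_algebraMap, map_pow]
  rw [h, Padic.valuation_pow]

omit [FiniteDimensional ℚ_[q] F] [FiniteDimensional F E] in
/-- The valuation is invariant under `F`-automorphisms. -/
theorem vNorm_algEquiv (σ : E ≃ₐ[F] E) (x : Eˣ) :
    vNorm q E (Units.map σ.toAlgHom.toRingHom.toMonoidHom x) = vNorm q E x := by
  unfold vNorm
  have h : ((Units.map σ.toAlgHom.toRingHom.toMonoidHom x : Eˣ) : E) =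
      (σ.restrictScalars ℚ_[q]) (x : E) := rfl
  rw [h, Algebra.norm_eq_of_algEquiv]

omit [FiniteDimensional ℚ_[q] F] [FiniteDimensional F E] in
/-- The normalised valuation is invariant under `F`-automorphisms. -/
theorem ordZ_algEquiv (σ : E ≃ₐ[F] E) (x : Eˣ) :
    ordZ q E (Units.map σ.toAlgHom.toRingHom.toMonoidHom x) = ordZ q E x := by
  unfold ordZ
  rw [vNorm_algEquiv]

/-- The ramification index: the `E`-valuation of a uniformizer of `F`. -/
theorem exists_ramIdx :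
    ∃ e : ℕ, 0 < e ∧ e * fDeg q E = Module.finrank F E * fDeg q F ∧
      (∀ a : Fˣ, ordZ q E (unitsIncl F E a) = e * ordZ q F a) := by
  have : FiniteDimensional ℚ_[q] E := finiteDimensional_top q F E
  obtain ⟨ϖ, hϖ⟩ := exists_ordZ_eq_one q F
  have hfE : (0 : ℤ) < fDeg q E := by exact_mod_cast fDeg_pos q E
  have hfF : (0 : ℤ) < fDeg q F := by exact_mod_cast fDeg_pos q F
  have hm : (0 : ℤ) < Module.finrank F E := by exact_mod_cast Module.finrank_pos
  -- the key identity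
  have key : (fDeg q E : ℤ) * ordZ q E (unitsIncl F E ϖ) =
      (Module.finrank F E : ℤ) * fDeg q F := by
    rw [← vNorm_eq_fDeg_mul_ordZ, vNorm_unitsIncl, vNorm_eq_fDeg_mul_ordZ q F, hϖ, mul_one]
  have hpos : 0 < ordZ q E (unitsIncl F E ϖ) := by
    by_contra h
    have h1 : (fDeg q E : ℤ) * ordZ q E (unitsIncl F E ϖ) ≤ 0 :=
      mul_nonpos_of_nonneg_of_nonpos hfE.le (not_lt.mp h)
    have h2 : (0 : ℤ) < (Module.finrank F E : ℤ) * fDeg q F := mul_pos hm hfF
    omega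
  have hcast : ((ordZ q E (unitsIncl F E ϖ)).toNat : ℤ) = ordZ q E (unitsIncl F E ϖ) :=
    Int.toNat_of_nonneg hpos.le
  refine ⟨(ordZ q E (unitsIncl F E ϖ)).toNat, by omega, ?_, ?_⟩
  · have : (((ordZ q E (unitsIncl F E ϖ)).toNat * fDeg q E : ℕ) : ℤ) =
        ((Module.finrank F E * fDeg q F : ℕ) : ℤ) := by
      push_cast
      rw [hcast, mul_comm]
      exact key
    exact_mod_cast this
  · intro a
    rw [hcast]
    apply mul_left_cancel₀ hfE.ne'
    rw [← vNorm_eq_fDeg_mul_ordZ, vNorm_unitsIncl, vNorm_eq_fDeg_mul_ordZ q F, ← mul_assoc,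
      ← mul_assoc, key]

/-- `E/F` is unramified iff the ramification index is one. -/
theorem isUnram_iff_ramIdx {e : ℕ} (he : 0 < e)
    (hord : ∀ a : Fˣ, ordZ q E (unitsIncl F E a) = e * ordZ q F a) :
    IsUnram q F E ↔ e = 1 := by
  have : FiniteDimensional ℚ_[q] E := finiteDimensional_top q F E
  constructor
  · intro h
    obtain ⟨ϖ, hϖ⟩ := exists_ordZ_eq_one q E
    obtain ⟨y, hy⟩ := h ϖ
    change ϖ * (unitsIncl F E y)⁻¹ ∈ unitGroup q E at hy
    rw [mem_unitGroup_iff_ordZ, ordZ_mul, ordZ_inv, hϖ, hord] at hy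
    have h1 : (e : ℤ) * ordZ q F y = 1 := by omega
    have h2 : (e : ℤ) ∣ 1 := Dvd.intro _ h1
    have h3 : (e : ℤ) = 1 := Int.eq_one_of_dvd_one (by omega) h2
    exact_mod_cast h3
  · intro h x
    subst h
    obtain ⟨ϖ, hϖ⟩ := exists_ordZ_eq_one q F
    refine ⟨ϖ ^ ordZ q E x, ?_⟩
    change x * (unitsIncl F E (ϖ ^ ordZ q E x))⁻¹ ∈ unitGroup q E
    rw [mem_unitGroup_iff_ordZ, ordZ_mul, ordZ_inv, hord, ordZ_zpow, hϖ]
    push_cast
    ring

/-- A unit of `F` is a unit of `E` and conversely. -/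
theorem mem_unitGroup_iff_unitsIncl (a : Fˣ) :
    a ∈ unitGroup q F ↔ unitsIncl F E a ∈ unitGroup q E := by
  have : FiniteDimensional ℚ_[q] E := finiteDimensional_top q F E
  obtain ⟨e, he, -, hord⟩ := exists_ramIdx q F E
  rw [mem_unitGroup_iff_ordZ, mem_unitGroup_iff_ordZ, hord]
  have he' : (e : ℤ) ≠ 0 := by exact_mod_cast he.ne'
  constructor
  · intro h; rw [h, mul_zero]
  · intro h
    rcases mul_eq_zero.mp h with h | h
    · exact absurd h he'
    · exact h

/-- Compatibility of the valuations with the relative norm. -/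
theorem ordZ_norm (x : Eˣ) :
    (fDeg q F : ℤ) * ordZ q F (Units.map (Algebra.norm F : E →* F) x) =
      (fDeg q E : ℤ) * ordZ q E x := by
  have : FiniteDimensional ℚ_[q] E := finiteDimensional_top q F E
  rw [← vNorm_eq_fDeg_mul_ordZ, ← vNorm_eq_fDeg_mul_ordZ]
  unfold vNorm
  rw [Units.coe_map, Algebra.norm_norm]

omit [FiniteDimensional ℚ_[q] F] [FiniteDimensional F E] in
theorem spectralNorm_algebraMap (a : F) :
    spectralNorm ℚ_[q] E (algebraMap F E a) = spectralNorm ℚ_[q] F a :=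
  (spectralNorm.eq_of_tower (K := ℚ_[q]) (L := E) a).symm

/-- An element of `F` is an integer of `F` iff it is an integer of `E`. -/
theorem mem_integers_iff_algebraMap (a : F) :
    a ∈ integers q F ↔ algebraMap F E a ∈ integers q E := by
  have : FiniteDimensional ℚ_[q] E := finiteDimensional_top q F E
  rw [mem_integers_iff_spectralNorm, mem_integers_iff_spectralNorm, spectralNorm_algebraMap]

/-- An element of `F` is in the maximal ideal of `F` iff it is in the maximal ideal of `E`. -/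
theorem mem_maxIdeal_iff_algebraMap (a : F) :
    a ∈ maxIdeal q F ↔ algebraMap F E a ∈ maxIdeal q E := by
  have : FiniteDimensional ℚ_[q] E := finiteDimensional_top q F E
  rw [mem_maxIdeal_iff_spectralNorm, mem_maxIdeal_iff_spectralNorm, spectralNorm_algebraMap]

/-- All clauses of `Plan.RelOrdStmt` for one extension. -/
theorem relOrdStmt_at :
    (∃ e : ℕ, 0 < e ∧ e * fDeg q E = Module.finrank F E * fDeg q F ∧
      (∀ a : Fˣ, ordZ q E (Units.map (algebraMap F E).toMonoidHom a) = e * ordZ q F a) ∧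
      (IsUnram q F E ↔ e = 1)) ∧
    (∀ x : Eˣ, (fDeg q F : ℤ) * ordZ q F (Units.map (Algebra.norm F : E →* F) x) =
      (fDeg q E : ℤ) * ordZ q E x) ∧
    (∀ (σ : E ≃ₐ[F] E) (x : Eˣ), ordZ q E (Units.map σ.toAlgHom.toRingHom.toMonoidHom x)
      = ordZ q E x) ∧
    (∀ a : Fˣ, a ∈ unitGroup q F ↔ Units.map (algebraMap F E).toMonoidHom a ∈ unitGroup q E) ∧
    (∀ a : F, a ∈ integers q F ↔ algebraMap F E a ∈ integers q E) ∧
    (∀ a : F, a ∈ maxIdeal q F ↔ algebraMap F E a ∈ maxIdeal q E) := by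
  obtain ⟨e, he, h1, h2⟩ := exists_ramIdx q F E
  exact ⟨⟨e, he, h1, h2, isUnram_iff_ramIdx q F E he h2⟩, ordZ_norm q F E, ordZ_algEquiv q F E,
    mem_unitGroup_iff_unitsIncl q F E, mem_integers_iff_algebraMap q F E,
    mem_maxIdeal_iff_algebraMap q F E⟩

end Relative

end Fermat.Agent.CFT.Local.OrdCore
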