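import Mathlib
import Fermat.Agent.CFT.Local.Defs

/-!
# CFT program, layer Local: ring-theoretic structure of the integers of a finite extension of `ℚ_[q]`

Everything is derived from Mathlib algebra and the single hypothesis `OrdAt q E` (the body of the
Plan statement `OrdStmt` at the field `E`).
-/

set_option autoImplicit false
open Fermat.Agent.CFT.Local IsLocalRing

namespace Fermat.Agent.CFT.Local.IntRing

/-- The body of `Plan.OrdStmt` at a single field `E`. -/
def OrdAt (q : ℕ) [Fact q.Prime] (E : Type) [Field E] [Algebra ℚ_[q] E] : Prop :=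
  0 < fDeg q E ∧
  (∀ x y : Eˣ, ordZ q E (x * y) = ordZ q E x + ordZ q E y) ∧
  (∃ ϖ : Eˣ, ordZ q E ϖ = 1) ∧
  (∀ x : Eˣ, (x : E) ∈ integers q E ↔ 0 ≤ ordZ q E x) ∧
  (∀ x : Eˣ, x ∈ unitGroup q E ↔ ordZ q E x = 0) ∧
  (∀ x : Eˣ, (x : E) ∈ maxIdeal q E ↔ 0 < ordZ q E x) ∧
  (∀ x y : E, x ∈ maxIdeal q E → y ∈ maxIdeal q E → x + y ∈ maxIdeal q E) ∧
  (∀ x : E, x ∈ integers q E ∨ x⁻¹ ∈ integers q E)

/-! ## Generic lemmas on adic precompleteness -/

section Generic

lemma repr_mem_of_mem_smul_top {R M ι : Type*} [CommRing R] [AddCommGroup M] [Module R M]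
    (b : Module.Basis ι R M) (J : Ideal R) {x : M} (hx : x ∈ J • (⊤ : Submodule R M)) (i : ι) :
    b.repr x i ∈ J := by
  refine Submodule.smul_induction_on (p := fun x => b.repr x i ∈ J) hx ?_ ?_
  · intro r hr m _
    rw [map_smul, Finsupp.smul_apply, smul_eq_mul]
    exact J.mul_mem_right _ hr
  · intro x y hx hy
    rw [map_add, Finsupp.add_apply]
    exact J.add_mem hx hy

/-- A finite free module over an `I`-adically precomplete ring is `I`-adically precomplete. -/
lemma isPrecomplete_of_basis {R M ι : Type*} [CommRing R] [AddCommGroup M] [Module R M] [Finite ι]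
    (b : Module.Basis ι R M) (I : Ideal R) [hI : IsPrecomplete I R] : IsPrecomplete I M := by
  classical
  cases nonempty_fintype ι
  refine ⟨fun f hf => ?_⟩
  have hg : ∀ i, ∃ L : R, ∀ n, b.repr (f n) i ≡ L [SMOD (I ^ n • ⊤ : Submodule R R)] := by
    intro i
    apply IsPrecomplete.prec hI
    intro m n hmn
    rw [SModEq.sub_mem]
    have h1 := repr_mem_of_mem_smul_top b (I ^ m) (SModEq.sub_mem.1 (hf hmn)) i
    rw [map_sub, Finsupp.sub_apply] at h1
    simpa using h1
  choose L hL using hg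
  refine ⟨∑ i, L i • b i, fun n => ?_⟩
  rw [SModEq.sub_mem]
  have h2 : f n - ∑ i, L i • b i = ∑ i, (b.repr (f n) i - L i) • b i := by
    conv_lhs => rw [← b.sum_repr (f n)]
    rw [← Finset.sum_sub_distrib]
    simp [sub_smul]
  rw [h2]
  refine Submodule.sum_mem _ (fun i _ => Submodule.smul_mem_smul ?_ trivial)
  have h3 := SModEq.sub_mem.1 (hL i n)
  simpa using h3

/-- Precompleteness passes between ideals defining the same adic topology. -/
lemma isPrecomplete_of_le_of_pow_le {S : Type*} [CommRing S] {J K : Ideal S}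
    (hJ : IsPrecomplete J S) (hJK : J ≤ K) (e : ℕ) (hK : K ^ e ≤ J) : IsPrecomplete K S := by
  refine ⟨fun f hf => ?_⟩
  have hg : ∃ L : S, ∀ k, f ((e + 1) * k) ≡ L [SMOD (J ^ k • ⊤ : Submodule S S)] := by
    apply IsPrecomplete.prec hJ (f := fun k => f ((e + 1) * k))
    intro m n hmn
    have h1 := hf (Nat.mul_le_mul_left (e + 1) hmn)
    rw [SModEq.sub_mem] at h1 ⊢
    simp only [smul_eq_mul, Ideal.mul_top] at h1 ⊢
    have h2 : K ^ ((e + 1) * m) ≤ J ^ m :=
      calc K ^ ((e + 1) * m) ≤ K ^ (e * m) := Ideal.pow_le_pow_right (by nlinarith)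
        _ = (K ^ e) ^ m := pow_mul _ _ _
        _ ≤ J ^ m := Ideal.pow_right_mono hK m
    exact h2 h1
  obtain ⟨L, hL⟩ := hg
  refine ⟨L, fun n => ?_⟩
  have h1 := hf (show n ≤ (e + 1) * n by nlinarith)
  have h2 := hL n
  rw [SModEq.sub_mem] at h1 h2 ⊢
  simp only [smul_eq_mul, Ideal.mul_top] at h1 h2 ⊢
  have h3 : f n - L = (f n - f ((e + 1) * n)) + (f ((e + 1) * n) - L) := by ring
  rw [h3]
  exact Ideal.add_mem _ h1 (Ideal.pow_right_mono hJK n h2)

end Generic

section Abs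
variable (q : ℕ) [Fact q.Prime] (E : Type) [Field E] [Algebra ℚ_[q] E]

attribute [local instance] intAlgebra

lemma towerInt : IsScalarTower ℤ_[q] ℚ_[q] E := IsScalarTower.of_algebraMap_eq (fun _ => rfl)

attribute [local instance] towerInt

lemma torsionFreeInt : Module.IsTorsionFree ℤ_[q] E := by
  rw [Module.isTorsionFree_iff_algebraMap_injective, IsScalarTower.algebraMap_eq ℤ_[q] ℚ_[q] E]
  exact (algebraMap ℚ_[q] E).injective.comp (IsFractionRing.injective ℤ_[q] ℚ_[q])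

attribute [local instance] torsionFreeInt

/-- The ring of integers as a `ℤ_[q]`-subalgebra. -/
noncomputable abbrev OInt : Subalgebra ℤ_[q] E := integralClosure ℤ_[q] E

lemma mem_integers_iff (x : E) : x ∈ integers q E ↔ x ∈ OInt q E := Iff.rfl

variable {q E}

lemma ordZ_one (h : OrdAt q E) : ordZ q E 1 = 0 := by
  have := h.2.1 1 1
  rw [mul_one] at this
  omega

lemma ordZ_inv (h : OrdAt q E) (x : Eˣ) : ordZ q E x⁻¹ = - ordZ q E x := by
  have := h.2.1 x x⁻¹
  rw [mul_inv_cancel, ordZ_one h] at this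
  omega

lemma ordZ_zpow (h : OrdAt q E) (x : Eˣ) (n : ℤ) : ordZ q E (x ^ n) = n * ordZ q E x := by
  induction n using Int.induction_on with
  | zero => simp [ordZ_one h]
  | succ n ih => rw [zpow_add_one, h.2.1, ih]; ring
  | pred n ih => rw [zpow_sub_one, h.2.1, ih, ordZ_inv h]; ring

/-- Units of the ring of integers. -/
lemma isUnit_iff (b : OInt q E) :
    IsUnit b ↔ (b : E) ≠ 0 ∧ (b : E)⁻¹ ∈ integers q E := by
  constructor
  · rintro ⟨u, rfl⟩
    refine ⟨?_, ?_⟩
    · intro h0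
      have : (u : OInt q E) = 0 := Subtype.ext h0
      exact u.ne_zero this
    · have h1 : ((u : OInt q E) : E) * ((u⁻¹ : (OInt q E)ˣ) : OInt q E) = 1 := by
        rw [← Subalgebra.coe_mul, Units.mul_inv]; rfl
      rw [← eq_inv_of_mul_eq_one_right h1]
      exact ((u⁻¹ : (OInt q E)ˣ) : OInt q E).2
  · rintro ⟨h0, hinv⟩
    refine IsUnit.of_mul_eq_one ⟨(b : E)⁻¹, hinv⟩ ?_
    apply Subtype.ext
    simp [mul_inv_cancel₀ h0]

lemma mem_nonunits_iff_maxIdeal (b : OInt q E) :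
    b ∈ nonunits (OInt q E) ↔ (b : E) ∈ maxIdeal q E := by
  rw [_root_.mem_nonunits_iff, isUnit_iff]
  constructor
  · intro hb
    refine ⟨b.2, ?_⟩
    by_cases h0 : (b : E) = 0
    · exact Or.inl h0
    · exact Or.inr (fun hi => hb ⟨h0, hi⟩)
  · rintro ⟨_, h0 | hi⟩
    · exact fun h => h.1 h0
    · exact fun h => hi h.2

variable (q E) in
lemma isLocalRing (h : OrdAt q E) : IsLocalRing (OInt q E) := by
  refine IsLocalRing.of_nonunits_add ?_
  intro a b ha hb
  rw [mem_nonunits_iff_maxIdeal] at ha hb ⊢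
  exact h.2.2.2.2.2.2.1 _ _ ha hb

end Abs

section LocalStruct
variable {q : ℕ} [Fact q.Prime] {E : Type} [Field E] [Algebra ℚ_[q] E]

attribute [local instance] intAlgebra towerInt torsionFreeInt

lemma mem_maximalIdeal_iff [IsLocalRing (OInt q E)] (b : OInt q E) :
    b ∈ maximalIdeal (OInt q E) ↔ (b : E) ∈ maxIdeal q E := by
  rw [IsLocalRing.mem_maximalIdeal, mem_nonunits_iff_maxIdeal]

/-- A nonzero element of the field as a unit. -/
lemma coe_mem_maxIdeal_iff (h : OrdAt q E) (x : Eˣ) : (x : E) ∈ maxIdeal q E ↔ 0 < ordZ q E x :=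
  h.2.2.2.2.2.1 x

lemma coe_mem_integers_iff (h : OrdAt q E) (x : Eˣ) : (x : E) ∈ integers q E ↔ 0 ≤ ordZ q E x :=
  h.2.2.2.1 x

/-- A uniformiser of `E`, as an element of the ring of integers. -/
lemma exists_uniformizer (h : OrdAt q E) :
    ∃ ϖ : Eˣ, ordZ q E ϖ = 1 ∧ (ϖ : E) ∈ integers q E ∧ (ϖ : E) ∈ maxIdeal q E := by
  obtain ⟨ϖ, hϖ⟩ := h.2.2.1
  exact ⟨ϖ, hϖ, (coe_mem_integers_iff h ϖ).2 (by omega), (coe_mem_maxIdeal_iff h ϖ).2 (by omega)⟩

/-- Every element of positive valuation is divisible by a uniformiser. -/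
lemma maximalIdeal_eq_span (h : OrdAt q E) [IsLocalRing (OInt q E)] (ϖ : Eˣ)
    (hϖ : ordZ q E ϖ = 1) (hϖi : (ϖ : E) ∈ integers q E) :
    maximalIdeal (OInt q E) = Ideal.span {(⟨(ϖ : E), hϖi⟩ : OInt q E)} := by
  apply le_antisymm
  · intro b hb
    rw [mem_maximalIdeal_iff] at hb
    rw [Ideal.mem_span_singleton']
    by_cases hb0 : (b : E) = 0
    · exact ⟨0, by apply Subtype.ext; simp [hb0]⟩
    · have hpos : 0 < ordZ q E (Units.mk0 (b : E) hb0) :=
        (coe_mem_maxIdeal_iff h (Units.mk0 (b : E) hb0)).1 hb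
      have hc : ((Units.mk0 (b : E) hb0 * ϖ⁻¹ : Eˣ) : E) ∈ integers q E := by
        rw [coe_mem_integers_iff h, h.2.1, ordZ_inv h, hϖ]
        omega
      refine ⟨⟨_, hc⟩, ?_⟩
      apply Subtype.ext
      simp
  · rw [Ideal.span_singleton_le_iff_mem, mem_maximalIdeal_iff]
    exact (coe_mem_maxIdeal_iff h ϖ).2 (by omega)

lemma not_isField (h : OrdAt q E) : ¬ IsField (OInt q E) := by
  obtain ⟨ϖ, hϖ, hϖi, hϖm⟩ := exists_uniformizer h
  intro hf
  have hne : (⟨(ϖ : E), hϖi⟩ : OInt q E) ≠ 0 := by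
    intro h0
    exact ϖ.ne_zero (congrArg Subtype.val h0)
  obtain ⟨c, hc⟩ := hf.mul_inv_cancel hne
  have hu : IsUnit (⟨(ϖ : E), hϖi⟩ : OInt q E) := IsUnit.of_mul_eq_one c hc
  exact (mem_nonunits_iff_maxIdeal _).2 hϖm hu

variable (q E) in
/-- The ring of integers is a discrete valuation ring. -/
lemma isDiscreteValuationRing [FiniteDimensional ℚ_[q] E] (h : OrdAt q E) :
    IsDiscreteValuationRing (OInt q E) := by
  have := isLocalRing q E h
  have hD : IsDedekindDomain (OInt q E) := integralClosure.isDedekindDomain ℤ_[q] ℚ_[q] E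
  have : IsNoetherianRing (OInt q E) := hD.toIsNoetherian
  exact ((IsDiscreteValuationRing.TFAE (OInt q E) (not_isField h)).out 0 2).mpr hD

end LocalStruct

/-! ## Completeness -/

section Complete
variable {q : ℕ} [Fact q.Prime] {E : Type} [Field E] [Algebra ℚ_[q] E]

attribute [local instance] intAlgebra towerInt torsionFreeInt

lemma map_maximalIdeal_le [IsLocalRing (OInt q E)] :
    (maximalIdeal ℤ_[q]).map (algebraMap ℤ_[q] (OInt q E)) ≤ maximalIdeal (OInt q E) := by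
  rw [Ideal.map_le_iff_le_comap]
  have hmax := Ideal.isMaximal_comap_of_isIntegral_of_isMaximal (R := ℤ_[q])
    (maximalIdeal (OInt q E))
  exact (IsLocalRing.eq_maximalIdeal hmax).ge

lemma comap_maximalIdeal [IsLocalRing (OInt q E)] :
    (maximalIdeal (OInt q E)).comap (algebraMap ℤ_[q] (OInt q E)) = maximalIdeal ℤ_[q] :=
  IsLocalRing.eq_maximalIdeal (Ideal.isMaximal_comap_of_isIntegral_of_isMaximal (R := ℤ_[q])
    (maximalIdeal (OInt q E)))

lemma map_maximalIdeal_eq_span :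
    (maximalIdeal ℤ_[q]).map (algebraMap ℤ_[q] (OInt q E)) = Ideal.span {((q : ℕ) : OInt q E)} := by
  rw [PadicInt.maximalIdeal_eq_span_p, Ideal.map_span, Set.image_singleton, map_natCast]

lemma exists_pow_le_map (h : OrdAt q E) [IsLocalRing (OInt q E)] :
    ∃ e : ℕ, maximalIdeal (OInt q E) ^ e ≤
      (maximalIdeal ℤ_[q]).map (algebraMap ℤ_[q] (OInt q E)) := by
  have hchar : CharZero E := charZero_of_injective_algebraMap (algebraMap ℚ_[q] E).injective
  obtain ⟨ϖ, hϖ, hϖi, -⟩ := exists_uniformizer h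
  have hq0 : ((q : ℕ) : E) ≠ 0 := Nat.cast_ne_zero.2 (Fact.out : q.Prime).ne_zero
  have hqi : ((q : ℕ) : E) ∈ integers q E := natCast_mem (OInt q E) q
  have hq_nonneg : 0 ≤ ordZ q E (Units.mk0 _ hq0) := (coe_mem_integers_iff h (Units.mk0 _ hq0)).1 hqi
  refine ⟨(ordZ q E (Units.mk0 _ hq0)).toNat, ?_⟩
  have hc : ((ϖ ^ (ordZ q E (Units.mk0 _ hq0)).toNat * (Units.mk0 _ hq0)⁻¹ : Eˣ) : E) ∈
      integers q E := by
    rw [coe_mem_integers_iff h, h.2.1, ordZ_inv h, ← zpow_natCast, ordZ_zpow h, hϖ,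
      Int.toNat_of_nonneg hq_nonneg]
    omega
  rw [maximalIdeal_eq_span h ϖ hϖ hϖi, Ideal.span_singleton_pow, map_maximalIdeal_eq_span,
    Ideal.span_singleton_le_span_singleton]
  refine ⟨⟨_, hc⟩, ?_⟩
  apply Subtype.ext
  have hcast : (((q : ℕ) : OInt q E) : E) = ((q : ℕ) : E) := by norm_cast
  simp only [Units.val_mul, Units.val_pow_eq_pow_val, Units.val_inv_eq_inv_val, Units.val_mk0,
    Subalgebra.coe_mul, Subalgebra.coe_pow, hcast]
  field_simp

/-- The ring of integers of a finite extension of `ℚ_[q]` is complete. -/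
lemma isAdicComplete [FiniteDimensional ℚ_[q] E] (h : OrdAt q E) [IsLocalRing (OInt q E)] :
    IsAdicComplete (maximalIdeal (OInt q E)) (OInt q E) := by
  have hfin : Module.Finite ℤ_[q] (OInt q E) := IsIntegralClosure.finite ℤ_[q] ℚ_[q] E (OInt q E)
  have hfree : Module.Free ℤ_[q] (OInt q E) :=
    IsIntegralClosure.module_free ℤ_[q] ℚ_[q] E (OInt q E)
  have hD : IsDedekindDomain (OInt q E) := integralClosure.isDedekindDomain ℤ_[q] ℚ_[q] E
  have : IsNoetherianRing (OInt q E) := hD.toIsNoetherian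
  have h1 : IsPrecomplete (maximalIdeal ℤ_[q]) (OInt q E) :=
    isPrecomplete_of_basis (Module.Free.chooseBasis ℤ_[q] (OInt q E)) _
  have h2 : IsPrecomplete ((maximalIdeal ℤ_[q]).map (algebraMap ℤ_[q] (OInt q E))) (OInt q E) :=
    IsPrecomplete.map_algebraMap_iff.mpr h1
  obtain ⟨e, he⟩ := exists_pow_le_map h
  have h3 := isPrecomplete_of_le_of_pow_le h2 map_maximalIdeal_le e he
  exact { toIsHausdorff := inferInstance, toIsPrecomplete := h3 }

end Complete

/-! ## The unnormalised valuation and the residue field -/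

section Residue
variable {q : ℕ} [Fact q.Prime] {E : Type} [Field E] [Algebra ℚ_[q] E]

attribute [local instance] intAlgebra towerInt torsionFreeInt

lemma norm_ne_zero [FiniteDimensional ℚ_[q] E] (x : Eˣ) : Algebra.norm ℚ_[q] (x : E) ≠ 0 :=
  Algebra.norm_ne_zero_iff.2 x.ne_zero

lemma vNorm_mul [FiniteDimensional ℚ_[q] E] (x y : Eˣ) :
    vNorm q E (x * y) = vNorm q E x + vNorm q E y := by
  unfold vNorm
  rw [Units.val_mul, map_mul, Padic.valuation_mul (norm_ne_zero x) (norm_ne_zero y)]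

lemma vNorm_one : vNorm q E 1 = 0 := by
  unfold vNorm
  rw [Units.val_one, map_one, Padic.valuation_one]

lemma vNorm_inv [FiniteDimensional ℚ_[q] E] (x : Eˣ) : vNorm q E x⁻¹ = - vNorm q E x := by
  have h1 := vNorm_mul (q := q) x x⁻¹
  rw [mul_inv_cancel, vNorm_one] at h1
  omega

lemma vNorm_zpow [FiniteDimensional ℚ_[q] E] (x : Eˣ) (n : ℤ) :
    vNorm q E (x ^ n) = n * vNorm q E x := by
  induction n using Int.induction_on with
  | zero => simp [vNorm_one]
  | succ n ih => rw [zpow_add_one, vNorm_mul, ih]; ring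
  | pred n ih => rw [zpow_sub_one, vNorm_mul, ih, vNorm_inv]; ring

/-- The residue degree is attained. -/
lemma exists_vNorm_eq_fDeg (h0 : 0 < fDeg q E) : ∃ x : Eˣ, vNorm q E x = (fDeg q E : ℤ) := by
  have hne : {k : ℕ | 0 < k ∧ ∃ x : Eˣ, vNorm q E x = (k : ℤ)}.Nonempty := by
    by_contra hemp
    rw [Set.not_nonempty_iff_eq_empty] at hemp
    unfold fDeg at h0
    rw [hemp, Nat.sInf_empty] at h0
    exact lt_irrefl _ h0
  exact (Nat.sInf_mem hne).2

lemma fDeg_le_of_vNorm_pos {x : Eˣ} {k : ℕ} (hk : 0 < k) (hx : vNorm q E x = (k : ℤ)) :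
    fDeg q E ≤ k :=
  Nat.sInf_le ⟨hk, x, hx⟩

/-- `vNorm = fDeg * ordZ`: the residue degree divides every value. -/
lemma vNorm_eq_fDeg_mul_ordZ [FiniteDimensional ℚ_[q] E] (h0 : 0 < fDeg q E) (x : Eˣ) :
    vNorm q E x = (fDeg q E : ℤ) * ordZ q E x := by
  obtain ⟨x₀, hx₀⟩ := exists_vNorm_eq_fDeg h0
  have hf : (0 : ℤ) < (fDeg q E : ℤ) := by exact_mod_cast h0
  have hr : vNorm q E (x * x₀ ^ (-(vNorm q E x / (fDeg q E : ℤ)))) =
      vNorm q E x % (fDeg q E : ℤ) := by
    rw [vNorm_mul, vNorm_zpow, hx₀, Int.emod_def]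
    ring
  have hr0 : vNorm q E x % (fDeg q E : ℤ) = 0 := by
    by_contra hne
    have hpos : 0 < vNorm q E x % (fDeg q E : ℤ) :=
      lt_of_le_of_ne (Int.emod_nonneg _ hf.ne') (Ne.symm hne)
    have hlt : vNorm q E x % (fDeg q E : ℤ) < (fDeg q E : ℤ) := Int.emod_lt_of_pos _ hf
    obtain ⟨k, hk⟩ := Int.eq_ofNat_of_zero_le hpos.le
    have hk0 : 0 < k := by omega
    have := fDeg_le_of_vNorm_pos hk0 (hr.trans hk)
    omega
  unfold ordZ
  have := Int.emod_add_mul_ediv (vNorm q E x) (fDeg q E : ℤ)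
  rw [hr0] at this
  linarith

lemma valuation_eq_of_span_eq {x : ℤ_[q]} {f : ℕ}
    (hx : Ideal.span {x} = Ideal.span {(q : ℤ_[q]) ^ f}) : x.valuation = f := by
  have hq0 : ((q : ℤ_[q]) ^ f) ≠ 0 := pow_ne_zero _ (NeZero.ne _)
  have hx0 : x ≠ 0 := by
    rintro rfl
    rw [eq_comm, Ideal.span_singleton_eq_span_singleton] at hx
    exact hq0 (associated_zero_iff_eq_zero _ |>.1 hx)
  have h1 : f ≤ x.valuation := by
    rw [← PadicInt.mem_span_pow_iff_le_valuation x hx0 f, ← hx]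
    exact Ideal.mem_span_singleton_self x
  have h2 : (q : ℤ_[q]) ^ f ∈ Ideal.span {x} := by
    rw [hx]; exact Ideal.mem_span_singleton_self _
  rw [Ideal.mem_span_singleton] at h2
  obtain ⟨c, hc⟩ := h2
  have hc0 : c ≠ 0 := by
    rintro rfl
    rw [mul_zero] at hc
    exact hq0 hc
  have h3 := congrArg PadicInt.valuation hc
  rw [PadicInt.valuation_pow, PadicInt.valuation_p, mul_one, PadicInt.valuation_mul hx0 hc0] at h3
  omega

/-- The valuation of the norm of a uniformiser is the inertia degree. -/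
lemma vNorm_uniformizer [FiniteDimensional ℚ_[q] E] (h : OrdAt q E) [IsLocalRing (OInt q E)]
    (ϖ : Eˣ) (hϖ : ordZ q E ϖ = 1) (hϖi : (ϖ : E) ∈ integers q E)
    [hlo : (maximalIdeal (OInt q E)).LiesOver (maximalIdeal ℤ_[q])] :
    vNorm q E ϖ = ((maximalIdeal (OInt q E)).inertiaDeg ℤ_[q] : ℤ) := by
  have hfin : Module.Finite ℤ_[q] (OInt q E) := IsIntegralClosure.finite ℤ_[q] ℚ_[q] E (OInt q E)
  have hD : IsDedekindDomain (OInt q E) := integralClosure.isDedekindDomain ℤ_[q] ℚ_[q] E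
  have h1 : Ideal.relNorm ℤ_[q] (maximalIdeal (OInt q E)) =
      maximalIdeal ℤ_[q] ^ (maximalIdeal (OInt q E)).inertiaDeg ℤ_[q] :=
    Ideal.relNorm_eq_pow_of_isMaximal (maximalIdeal (OInt q E)) (maximalIdeal ℤ_[q])
  generalize (maximalIdeal (OInt q E)).inertiaDeg ℤ_[q] = f at h1 ⊢
  rw [maximalIdeal_eq_span h ϖ hϖ hϖi, Ideal.relNorm_singleton, PadicInt.maximalIdeal_eq_span_p,
    Ideal.span_singleton_pow] at h1
  have h2 : algebraMap ℤ_[q] ℚ_[q] (Algebra.intNorm ℤ_[q] (OInt q E) ⟨ϖ, hϖi⟩) =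
      Algebra.norm ℚ_[q] (ϖ : E) :=
    Algebra.algebraMap_intNorm (A := ℤ_[q]) (K := ℚ_[q]) (L := E) (B := OInt q E) ⟨ϖ, hϖi⟩
  have h3 := valuation_eq_of_span_eq h1
  unfold vNorm
  rw [← h2]
  change Padic.valuation ((Algebra.intNorm ℤ_[q] (OInt q E) ⟨ϖ, hϖi⟩ : ℤ_[q]) : ℚ_[q]) = _
  rw [PadicInt.valuation_coe, h3]

/-- The residue field of `E` has `resCard q E = q ^ fDeg q E` elements. -/
lemma card_residue [FiniteDimensional ℚ_[q] E] (h : OrdAt q E) [IsLocalRing (OInt q E)] :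
    Nat.card (OInt q E ⧸ maximalIdeal (OInt q E)) = resCard q E := by
  have hfin : Module.Finite ℤ_[q] (OInt q E) := IsIntegralClosure.finite ℤ_[q] ℚ_[q] E (OInt q E)
  have hlo : (maximalIdeal (OInt q E)).LiesOver (maximalIdeal ℤ_[q]) :=
    ⟨comap_maximalIdeal.symm⟩
  obtain ⟨ϖ, hϖ, hϖi, -⟩ := exists_uniformizer h
  have h4 := vNorm_uniformizer h ϖ hϖ hϖi
  have h5 : (maximalIdeal (OInt q E)).inertiaDeg ℤ_[q] = fDeg q E := by
    have : (((maximalIdeal (OInt q E)).inertiaDeg ℤ_[q] : ℕ) : ℤ) = (fDeg q E : ℤ) := by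
      rw [← h4, vNorm_eq_fDeg_mul_ordZ h.1, hϖ, mul_one]
    exact_mod_cast this
  have h6 : Nat.card (OInt q E ⧸ maximalIdeal (OInt q E)) =
      Nat.card (ℤ_[q] ⧸ maximalIdeal ℤ_[q]) ^ (maximalIdeal (OInt q E)).inertiaDeg ℤ_[q] := by
    rw [Ideal.inertiaDeg_eq_of_isMaximal (maximalIdeal ℤ_[q]) (maximalIdeal (OInt q E))]
    exact @Module.natCard_eq_pow_finrank (ℤ_[q] ⧸ maximalIdeal ℤ_[q])
      (OInt q E ⧸ maximalIdeal (OInt q E)) (Ideal.Quotient.field _).toDivisionRing _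
      (Ideal.Quotient.algebraOfLiesOver _ _).toModule
      (module_finite_of_liesOver _ _)
  have h7 : Nat.card (ℤ_[q] ⧸ maximalIdeal ℤ_[q]) = q :=
    (Nat.card_congr (PadicInt.residueField (p := q)).toEquiv).trans (Nat.card_zmod q)
  rw [h6, h7, h5]
  rfl

end Residue

/-! ## Relative extensions -/

section Rel
variable (q : ℕ) [Fact q.Prime] (F E : Type) [Field F] [Field E]
  [Algebra ℚ_[q] F] [Algebra ℚ_[q] E] [Algebra F E] [IsScalarTower ℚ_[q] F E]

attribute [local instance] intAlgebra towerInt torsionFreeInt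

lemma towerIntRel : IsScalarTower ℤ_[q] F E := IsScalarTower.of_algebraMap_eq (fun x => by
  change algebraMap ℚ_[q] E (algebraMap ℤ_[q] ℚ_[q] x) =
    algebraMap F E (algebraMap ℚ_[q] F (algebraMap ℤ_[q] ℚ_[q] x))
  rw [← IsScalarTower.algebraMap_apply ℚ_[q] F E])

attribute [local instance] towerIntRel

/-- The algebra structure of the integers of `E` over the integers of `F`. -/
@[reducible] noncomputable def relAlgebra : Algebra (OInt q F) (OInt q E) :=
  (AlgHom.mapIntegralClosure (IsScalarTower.toAlgHom ℤ_[q] F E)).toRingHom.toAlgebra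

attribute [local instance] relAlgebra

lemma relAlgebra_coe (a : OInt q F) :
    ((algebraMap (OInt q F) (OInt q E) a : OInt q E) : E) = algebraMap F E (a : F) := rfl

lemma relTower : IsScalarTower (OInt q F) (OInt q E) E :=
  IsScalarTower.of_algebraMap_eq (fun _ => rfl)

lemma relTowerInt : IsScalarTower ℤ_[q] (OInt q F) (OInt q E) :=
  IsScalarTower.of_algebraMap_eq (fun x => by
    apply Subtype.ext
    change algebraMap ℤ_[q] E x = algebraMap F E (algebraMap ℤ_[q] F x)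
    rw [← IsScalarTower.algebraMap_apply ℤ_[q] F E])

attribute [local instance] relTower relTowerInt

lemma isIntegralClosureRel : IsIntegralClosure (OInt q E) (OInt q F) E :=
  IsIntegralClosure.tower_top (R := ℤ_[q])

variable {q F E}

/-- Integrality is reflected by a field extension. -/
lemma map_mem_integers_iff (x : F) : algebraMap F E x ∈ integers q E ↔ x ∈ integers q F :=
  isIntegral_algHom_iff (IsScalarTower.toAlgHom ℤ_[q] F E) (algebraMap F E).injective

lemma map_mem_maxIdeal_iff (x : F) : algebraMap F E x ∈ maxIdeal q E ↔ x ∈ maxIdeal q F := by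
  unfold maxIdeal
  simp only [Set.mem_ofPred_eq, map_mem_integers_iff, ← map_inv₀, map_eq_zero]

end Rel

end Fermat.Agent.CFT.Local.IntRing
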