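import Mathlib
import Fermat.Agent.CFT.Local.Defs

/-!
# CFT program, layer Local: interface statements (Props only)

All statements are for ABSTRACT finite extensions `F ⊆ E` of `ℚ_[q]`
(`F E : Type`, `[Algebra ℚ_[q] F] [Algebra ℚ_[q] E] [Algebra F E] [IsScalarTower ℚ_[q] F E]`).
Providers prove `theorem name : Plan.Name` (taking other Plan props as hypotheses);
consumers take `(h : Plan.Name)` as a hypothesis.
-/

set_option autoImplicit false

namespace Fermat.Agent.CFT.Local.Plan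

open CategoryTheory groupCohomology Fermat.Agent.CFT.Local

/-! ## [Struct] valuation -/

/-- [Ord] The normalised valuation of a finite extension of `ℚ_q`. -/
def OrdStmt : Prop :=
  ∀ (q : ℕ) [Fact q.Prime] (E : Type) [Field E] [Algebra ℚ_[q] E] [FiniteDimensional ℚ_[q] E],
    0 < fDeg q E ∧
    (∀ x : Eˣ, vNorm q E x = fDeg q E * ordZ q E x) ∧
    (∀ x y : Eˣ, ordZ q E (x * y) = ordZ q E x + ordZ q E y) ∧
    (∃ ϖ : Eˣ, ordZ q E ϖ = 1) ∧
    (∀ x : Eˣ, (x : E) ∈ integers q E ↔ 0 ≤ ordZ q E x) ∧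
    (∀ x : Eˣ, x ∈ unitGroup q E ↔ ordZ q E x = 0) ∧
    (∀ x : Eˣ, (x : E) ∈ maxIdeal q E ↔ 0 < ordZ q E x) ∧
    (∀ x y : E, x ∈ maxIdeal q E → y ∈ maxIdeal q E → x + y ∈ maxIdeal q E) ∧
    (∀ x y : E, x ∈ integers q E → y ∈ maxIdeal q E → x * y ∈ maxIdeal q E) ∧
    (∀ x y z : Eˣ, (z : E) = x + y → min (ordZ q E x) (ordZ q E y) ≤ ordZ q E z) ∧
    (∀ x : E, x ∈ integers q E ∨ x⁻¹ ∈ integers q E)

/-- [OrdBase] On `ℚ_q` itself the normalised valuation is the `q`-adic valuation. -/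
def OrdBase : Prop :=
  ∀ (q : ℕ) [Fact q.Prime] (x : ℚ_[q]ˣ), ordZ q ℚ_[q] x = Padic.valuation (x : ℚ_[q])

/-- [RelOrd] Ramification index / residue degree in a tower, norms, Galois invariance. -/
def RelOrdStmt : Prop :=
  ∀ (q : ℕ) [Fact q.Prime] (F E : Type) [Field F] [Field E] [Algebra ℚ_[q] F] [Algebra ℚ_[q] E]
    [Algebra F E] [IsScalarTower ℚ_[q] F E] [FiniteDimensional ℚ_[q] F] [FiniteDimensional F E],
    (∃ e : ℕ, 0 < e ∧ e * fDeg q E = Module.finrank F E * fDeg q F ∧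
      (∀ a : Fˣ, ordZ q E (Units.map (algebraMap F E).toMonoidHom a) = e * ordZ q F a) ∧
      (IsUnram q F E ↔ e = 1)) ∧
    (∀ x : Eˣ, (fDeg q F : ℤ) * ordZ q F (Units.map (Algebra.norm F : E →* F) x) =
      (fDeg q E : ℤ) * ordZ q E x) ∧
    (∀ (σ : E ≃ₐ[F] E) (x : Eˣ), ordZ q E (Units.map σ.toAlgHom.toRingHom.toMonoidHom x)
      = ordZ q E x) ∧
    (∀ a : Fˣ, a ∈ unitGroup q F ↔ Units.map (algebraMap F E).toMonoidHom a ∈ unitGroup q E) ∧
    (∀ a : F, a ∈ integers q F ↔ algebraMap F E a ∈ integers q E) ∧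
    (∀ a : F, a ∈ maxIdeal q F ↔ algebraMap F E a ∈ maxIdeal q E)

/-- [ResField] Teichmüller representatives: the residue field has `resCard q E` elements. -/
def ResFieldStmt : Prop :=
  ∀ (q : ℕ) [Fact q.Prime] (E : Type) [Field E] [Algebra ℚ_[q] E] [FiniteDimensional ℚ_[q] E],
    (∃ ζ : E, IsPrimitiveRoot ζ (resCard q E - 1)) ∧
    (∀ x ∈ integers q E, ∃ t : E, t ^ resCard q E = t ∧ x - t ∈ maxIdeal q E)

/-! ## [Unram] unramified extensions -/

/-- [UnramNorm] In an unramified extension every unit is the norm of a unit. -/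
def UnramUnitsNorm : Prop :=
  ∀ (q : ℕ) [Fact q.Prime] (F E : Type) [Field F] [Field E] [Algebra ℚ_[q] F] [Algebra ℚ_[q] E]
    [Algebra F E] [IsScalarTower ℚ_[q] F E] [FiniteDimensional ℚ_[q] F] [FiniteDimensional F E],
    IsUnram q F E → ∀ u ∈ unitGroup q F, ∃ w ∈ unitGroup q E, Algebra.norm F (w : E) = (u : F)

/-- [UnramUnitsH1] In an unramified extension a unit of norm `1` is `φ w / w` for a unit `w`
(`H¹(Gal(E/F), 𝒪_Eˣ) = 0` in elementary form). -/
def UnramUnitsH1 : Prop :=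
  ∀ (q : ℕ) [Fact q.Prime] (F E : Type) [Field F] [Field E] [Algebra ℚ_[q] F] [Algebra ℚ_[q] E]
    [Algebra F E] [IsScalarTower ℚ_[q] F E] [FiniteDimensional ℚ_[q] F] [FiniteDimensional F E]
    (φ : E ≃ₐ[F] E), IsUnram q F E → IsFrob q F E φ →
      ∀ u ∈ unitGroup q E, Algebra.norm F (u : E) = 1 →
        ∃ w ∈ unitGroup q E, (u : E) * (w : E) = φ (w : E)

/-- [UnramStruct] An unramified extension is Galois, cyclic, generated by its Frobenius element,
which is characterised (together with its powers) by the Frobenius congruence. -/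
def UnramStruct : Prop :=
  ∀ (q : ℕ) [Fact q.Prime] (F E : Type) [Field F] [Field E] [Algebra ℚ_[q] F] [Algebra ℚ_[q] E]
    [Algebra F E] [IsScalarTower ℚ_[q] F E] [FiniteDimensional ℚ_[q] F] [FiniteDimensional F E],
    IsUnram q F E → IsGalois F E ∧
      ∃ φ : E ≃ₐ[F] E, IsFrob q F E φ ∧ (∀ σ : E ≃ₐ[F] E, σ ∈ Subgroup.zpowers φ) ∧
        ∀ (k : ℕ) (σ : E ≃ₐ[F] E),
          (∀ x ∈ integers q E, σ x - x ^ (resCard q F ^ k) ∈ maxIdeal q E) → σ = φ ^ k

/-- [UnramExists] Unramified extensions of every degree exist; an unramified extension of degree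
`n` embeds in every finite extension whose residue degree is divisible by `n`; towers. -/
def UnramExists : Prop :=
  ∀ (q : ℕ) [Fact q.Prime] (F : Type) [Field F] [Algebra ℚ_[q] F] [FiniteDimensional ℚ_[q] F],
    (∀ n : ℕ, 0 < n → ∃ (E : Type) (_ : Field E) (_ : Algebra ℚ_[q] E) (_ : Algebra F E)
      (_ : IsScalarTower ℚ_[q] F E) (_ : FiniteDimensional F E),
      IsUnram q F E ∧ Module.finrank F E = n) ∧
    (∀ (E L : Type) [Field E] [Field L] [Algebra ℚ_[q] E] [Algebra ℚ_[q] L] [Algebra F E]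
      [Algebra F L] [IsScalarTower ℚ_[q] F E] [IsScalarTower ℚ_[q] F L] [FiniteDimensional F E]
      [FiniteDimensional F L], IsUnram q F E →
        Module.finrank F E * fDeg q F ∣ fDeg q L → Nonempty (E →ₐ[F] L)) ∧
    (∀ (E L : Type) [Field E] [Field L] [Algebra ℚ_[q] E] [Algebra ℚ_[q] L] [Algebra F E]
      [Algebra F L] [Algebra E L] [IsScalarTower ℚ_[q] F E] [IsScalarTower ℚ_[q] F L]
      [IsScalarTower ℚ_[q] E L] [IsScalarTower F E L] [FiniteDimensional F L],
      (IsUnram q F L ↔ IsUnram q F E ∧ IsUnram q E L))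

/-- [UnramComposite] If `E'/F` is unramified and `L = E·E'`, then `L/E` is unramified. -/
def UnramComposite : Prop :=
  ∀ (q : ℕ) [Fact q.Prime] (F E E' L : Type) [Field F] [Field E] [Field E'] [Field L]
    [Algebra ℚ_[q] F] [Algebra ℚ_[q] E] [Algebra ℚ_[q] E'] [Algebra ℚ_[q] L]
    [Algebra F E] [Algebra F E'] [Algebra F L] [Algebra E L] [Algebra E' L]
    [IsScalarTower ℚ_[q] F E] [IsScalarTower ℚ_[q] F E'] [IsScalarTower ℚ_[q] F L]
    [IsScalarTower F E L] [IsScalarTower F E' L]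
    [FiniteDimensional ℚ_[q] F] [FiniteDimensional F L],
    IsUnram q F E' → Algebra.adjoin E (Set.range (algebraMap E' L)) = ⊤ → IsUnram q E L

/-! ## [NormIndex] -/

/-- [NormIndex] The norm index of a cyclic extension equals its degree. -/
def NormIndexCyclic : Prop :=
  ∀ (q : ℕ) [Fact q.Prime] (F E : Type) [Field F] [Field E] [Algebra ℚ_[q] F] [Algebra ℚ_[q] E]
    [Algebra F E] [IsScalarTower ℚ_[q] F E] [FiniteDimensional ℚ_[q] F] [FiniteDimensional F E]
    [IsGalois F E] [IsCyclic (E ≃ₐ[F] E)],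
    (MonoidHom.range (Units.map (Algebra.norm F : E →* F))).index = Module.finrank F E

/-- [NormUnits] For a cyclic extension of prime degree: all units are norms iff unramified. -/
def NormUnitsIffUnram : Prop :=
  ∀ (q : ℕ) [Fact q.Prime] (F E : Type) [Field F] [Field E] [Algebra ℚ_[q] F] [Algebra ℚ_[q] E]
    [Algebra F E] [IsScalarTower ℚ_[q] F E] [FiniteDimensional ℚ_[q] F] [FiniteDimensional F E]
    [IsGalois F E], (Module.finrank F E).Prime →
    (IsUnram q F E ↔ ∀ u ∈ unitGroup q F, ∃ w : Eˣ, Algebra.norm F (w : E) = (u : F))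

/-! ## [FieldCoh] inflation, restriction and base change for fields (no `q`) -/

/-- [FieldInfRes] Inflation-restriction in degree `2` for `F ⊆ E ⊆ L` (Hilbert 90). -/
def FieldInfRes : Prop :=
  ∀ (F E L : Type) [Field F] [Field E] [Field L] [Algebra F E] [Algebra E L] [Algebra F L]
    [IsScalarTower F E L] [FiniteDimensional F L] [IsGalois F E] [IsGalois F L],
    Function.Injective (inflH F E L 2).hom ∧
    (∀ y, (resH F E L 2).hom ((inflH F E L 2).hom y) = 0) ∧
    (∀ x, (resH F E L 2).hom x = 0 → ∃ y, (inflH F E L 2).hom y = x)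

/-- [FieldFunct] Functoriality of inflation, restriction and base change. -/
def FieldFunct : Prop :=
  (∀ (F E : Type) [Field F] [Field E] [Algebra F E] [Normal F E] (n : ℕ),
    inflH F E E n = 𝟙 _) ∧
  (∀ (F L : Type) [Field F] [Field L] [Algebra F L] (n : ℕ), resH F F L n = 𝟙 _) ∧
  (∀ (F E L M : Type) [Field F] [Field E] [Field L] [Field M] [Algebra F E] [Algebra F L]
    [Algebra F M] [Algebra E L] [Algebra L M] [Algebra E M] [IsScalarTower F E L]
    [IsScalarTower F L M] [IsScalarTower F E M] [IsScalarTower E L M] [Normal F E] [Normal F L]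
    (n : ℕ), inflH F E L n ≫ inflH F L M n = inflH F E M n) ∧
  (∀ (F E K L : Type) [Field F] [Field E] [Field K] [Field L] [Algebra F E] [Algebra E K]
    [Algebra F K] [Algebra K L] [Algebra E L] [Algebra F L] [IsScalarTower F E L]
    [IsScalarTower E K L] [IsScalarTower F K L] [IsScalarTower F E K]
    (n : ℕ), resH F E L n ≫ resH E K L n = resH F K L n) ∧
  (∀ (F E L : Type) [Field F] [Field E] [Field L] [Algebra F E] [Algebra E L] [Algebra F L]
    [IsScalarTower F E L] [Normal F E] (n : ℕ), bcH F E F L n = inflH F E L n) ∧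
  (∀ (F E L : Type) [Field F] [Field E] [Field L] [Algebra F E] [Algebra E L] [Algebra F L]
    [IsScalarTower F E L] [Normal F L] (n : ℕ), bcH F L E L n = resH F E L n) ∧
  (∀ (F E F' E' L : Type) [Field F] [Field E] [Field F'] [Field E'] [Field L]
    [Algebra F E] [Algebra F F'] [Algebra F' E'] [Algebra E E'] [Algebra F E']
    [IsScalarTower F E E'] [IsScalarTower F F' E'] [Normal F E]
    [Algebra E' L] [Algebra F L] [Algebra E L] [Algebra F' L]
    [IsScalarTower F E L] [IsScalarTower F F' L] [IsScalarTower F' E' L] [IsScalarTower E E' L]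
    [Normal F' E'] (n : ℕ),
    inflH F E L n ≫ resH F F' L n = bcH F E F' E' n ≫ inflH F' E' L n)

/-! ## [Inv] the local invariant -/

/-- [H2CardDvd] The upper bound: `H²(Gal(E/F), Eˣ)` is finite of order dividing `[E:F]`
(counting induction from the cyclic norm index). -/
def H2CardDvd : Prop :=
  ∀ (q : ℕ) [Fact q.Prime] (F E : Type) [Field F] [Field E] [Algebra ℚ_[q] F] [Algebra ℚ_[q] E]
    [Algebra F E] [IsScalarTower ℚ_[q] F E] [FiniteDimensional ℚ_[q] F] [FiniteDimensional F E]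
    [IsGalois F E],
    Finite (H2 (unitsRep F E)) ∧ Nat.card (H2 (unitsRep F E)) ∣ Module.finrank F E

/-- [H2Card] `H²(Gal(E/F), Eˣ)` is finite of order `[E:F]`. -/
def H2Card : Prop :=
  ∀ (q : ℕ) [Fact q.Prime] (F E : Type) [Field F] [Field E] [Algebra ℚ_[q] F] [Algebra ℚ_[q] E]
    [Algebra F E] [IsScalarTower ℚ_[q] F E] [FiniteDimensional ℚ_[q] F] [FiniteDimensional F E]
    [IsGalois F E],
    Finite (H2 (unitsRep F E)) ∧ Nat.card (H2 (unitsRep F E)) = Module.finrank F E

/-- [UnramH2] `H²` of an unramified extension through the cyclic cocycles of the Frobenius. -/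
def UnramH2 : Prop :=
  ∀ (q : ℕ) [Fact q.Prime] (F E : Type) [Field F] [Field E] [Algebra ℚ_[q] F] [Algebra ℚ_[q] E]
    [Algebra F E] [IsScalarTower ℚ_[q] F E] [FiniteDimensional ℚ_[q] F] [FiniteDimensional F E]
    (φ : E ≃ₐ[F] E), IsUnram q F E → IsFrob q F E φ →
    (∀ a : Fˣ, ∃ y, IsUnramClass F E φ a y) ∧
    (∀ y, ∃ a : Fˣ, IsUnramClass F E φ a y) ∧
    (∀ (a b : Fˣ) (y z), IsUnramClass F E φ a y → IsUnramClass F E φ b z →
      IsUnramClass F E φ (a * b) (y + z)) ∧
    (∀ (a : Fˣ) (y), IsUnramClass F E φ a y →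
      (y = 0 ↔ (Module.finrank F E : ℤ) ∣ ordZ q F a))

/-- [UnramInfl] Inflation of the cyclic class between unramified extensions. -/
def UnramInfl : Prop :=
  ∀ (q : ℕ) [Fact q.Prime] (F E L : Type) [Field F] [Field E] [Field L] [Algebra ℚ_[q] F]
    [Algebra ℚ_[q] E] [Algebra ℚ_[q] L] [Algebra F E] [Algebra E L] [Algebra F L]
    [IsScalarTower ℚ_[q] F E] [IsScalarTower ℚ_[q] F L] [IsScalarTower F E L]
    [FiniteDimensional ℚ_[q] F] [FiniteDimensional F E] [FiniteDimensional F L] [IsGalois F E]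
    (φE : E ≃ₐ[F] E) (φL : L ≃ₐ[F] L) (a : Fˣ) (y : H2 (unitsRep F E)),
    IsUnram q F L → IsFrob q F E φE → IsFrob q F L φL → IsUnramClass F E φE a y →
      IsUnramClass F L φL (a ^ Module.finrank E L) ((inflH F E L 2).hom y)

/-- [UnramBC] Base change of the cyclic class of an unramified extension `E'/F` along an
arbitrary finite extension `E/F`, into an unramified extension `L/E` containing `E'`. -/
def UnramBC : Prop :=
  ∀ (q : ℕ) [Fact q.Prime] (F E E' L : Type) [Field F] [Field E] [Field E'] [Field L]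
    [Algebra ℚ_[q] F] [Algebra ℚ_[q] E] [Algebra ℚ_[q] E'] [Algebra ℚ_[q] L]
    [Algebra F E] [Algebra F E'] [Algebra F L] [Algebra E L] [Algebra E' L]
    [IsScalarTower ℚ_[q] F E] [IsScalarTower ℚ_[q] F E'] [IsScalarTower ℚ_[q] F L]
    [IsScalarTower ℚ_[q] E L] [IsScalarTower F E' L] [IsScalarTower F E L]
    [FiniteDimensional ℚ_[q] F] [FiniteDimensional F E] [FiniteDimensional F E']
    [FiniteDimensional E L] [IsGalois F E']
    (φ : E' ≃ₐ[F] E') (ψ : L ≃ₐ[E] L) (a : Fˣ) (y : H2 (unitsRep F E')),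
    IsUnram q F E' → IsFrob q F E' φ → IsUnram q E L → IsFrob q E L ψ →
    IsUnramClass F E' φ a y →
      ∃ b : Eˣ, IsUnramClass E L ψ b ((bcH F E' E L 2).hom y) ∧
        (ordZ q E b : ℚ) / (Module.finrank E L : ℚ) =
          (Module.finrank F E : ℚ) * ((ordZ q F a : ℚ) / (Module.finrank F E' : ℚ))

/-- [InvBasic] The local invariant is well defined, additive, injective, with image the
`[E:F]`-torsion; fundamental classes exist and generate. -/
def InvBasic : Prop :=
  ∀ (q : ℕ) [Fact q.Prime] (F E : Type) [Field F] [Field E] [Algebra ℚ_[q] F] [Algebra ℚ_[q] E]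
    [Algebra F E] [IsScalarTower ℚ_[q] F E] [FiniteDimensional ℚ_[q] F] [FiniteDimensional F E]
    [IsGalois F E],
    (∀ (x : H2 (unitsRep F E)) (r : ℚ), HasInv q F E x r → localInv q F E x = (r : AddCircle (1:ℚ)))
    ∧ (∀ x : H2 (unitsRep F E), ∃ r : ℚ, HasInv q F E x r)
    ∧ (∀ x y : H2 (unitsRep F E), localInv q F E (x + y) = localInv q F E x + localInv q F E y)
    ∧ (∀ x : H2 (unitsRep F E), localInv q F E x = 0 → x = 0)
    ∧ (∀ x : H2 (unitsRep F E), Module.finrank F E • localInv q F E x = 0)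
    ∧ (∃ u : H2 (unitsRep F E), IsFundClass q F E u)
    ∧ (∀ u : H2 (unitsRep F E), IsFundClass q F E u →
        (∀ x : H2 (unitsRep F E), ∃ k : ℤ, x = k • u) ∧
        (∀ k : ℤ, k • u = 0 → (Module.finrank F E : ℤ) ∣ k))

/-- [InvUnram] The invariant of the cyclic cocycle of an unramified extension. -/
def InvUnram : Prop :=
  ∀ (q : ℕ) [Fact q.Prime] (F E : Type) [Field F] [Field E] [Algebra ℚ_[q] F] [Algebra ℚ_[q] E]
    [Algebra F E] [IsScalarTower ℚ_[q] F E] [FiniteDimensional ℚ_[q] F] [FiniteDimensional F E]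
    [IsGalois F E] (φ : E ≃ₐ[F] E) (a : Fˣ) (y : H2 (unitsRep F E)),
    IsUnram q F E → IsFrob q F E φ → IsUnramClass F E φ a y →
      localInv q F E y = (((ordZ q F a : ℚ) / (Module.finrank F E : ℚ) : ℚ) : AddCircle (1:ℚ))

/-- [InvInfl] The invariant is compatible with inflation. -/
def InvInfl : Prop :=
  ∀ (q : ℕ) [Fact q.Prime] (F E L : Type) [Field F] [Field E] [Field L] [Algebra ℚ_[q] F]
    [Algebra ℚ_[q] E] [Algebra ℚ_[q] L] [Algebra F E] [Algebra E L] [Algebra F L]
    [IsScalarTower ℚ_[q] F E] [IsScalarTower ℚ_[q] F L] [IsScalarTower F E L]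
    [FiniteDimensional ℚ_[q] F] [FiniteDimensional F L] [IsGalois F E] [IsGalois F L]
    (x : H2 (unitsRep F E)),
    localInv q F L ((inflH F E L 2).hom x) = localInv q F E x

/-- [InvRes] Restriction multiplies the invariant by the degree. -/
def InvRes : Prop :=
  ∀ (q : ℕ) [Fact q.Prime] (F E L : Type) [Field F] [Field E] [Field L] [Algebra ℚ_[q] F]
    [Algebra ℚ_[q] E] [Algebra ℚ_[q] L] [Algebra F E] [Algebra E L] [Algebra F L]
    [IsScalarTower ℚ_[q] F E] [IsScalarTower ℚ_[q] F L] [IsScalarTower ℚ_[q] E L]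
    [IsScalarTower F E L] [FiniteDimensional ℚ_[q] F] [FiniteDimensional F L] [IsGalois F L]
    [IsGalois E L] (x : H2 (unitsRep F L)),
    localInv q E L ((resH F E L 2).hom x) = Module.finrank F E • localInv q F L x

/-- [InvBaseChange] The base-change law for an arbitrary finite extension `F'/F`:
`inv_{E'/F'}(bc x) = [F':F] · inv_{E/F}(x)`. -/
def InvBaseChange : Prop :=
  ∀ (q : ℕ) [Fact q.Prime] (F E F' E' : Type) [Field F] [Field E] [Field F'] [Field E']
    [Algebra ℚ_[q] F] [Algebra ℚ_[q] E] [Algebra ℚ_[q] F'] [Algebra ℚ_[q] E']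
    [Algebra F E] [Algebra F F'] [Algebra F' E'] [Algebra E E'] [Algebra F E']
    [IsScalarTower ℚ_[q] F E] [IsScalarTower ℚ_[q] F F'] [IsScalarTower ℚ_[q] F' E']
    [IsScalarTower F E E'] [IsScalarTower F F' E']
    [FiniteDimensional ℚ_[q] F] [FiniteDimensional F E'] [IsGalois F E] [IsGalois F' E']
    (x : H2 (unitsRep F E)),
    localInv q F' E' ((bcH F E F' E' 2).hom x) = Module.finrank F F' • localInv q F E x

/-- [LocalClassAt] The class-module axioms for `(Gal(E/F), Eˣ)` at every subgroup, in cocycle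
form: Hilbert 90, the restriction of a fundamental cocycle generates `H²`, and has order `|H|`. -/
def LocalClassAt : Prop :=
  ∀ (q : ℕ) [Fact q.Prime] (F E : Type) [Field F] [Field E] [Algebra ℚ_[q] F] [Algebra ℚ_[q] E]
    [Algebra F E] [IsScalarTower ℚ_[q] F E] [FiniteDimensional ℚ_[q] F] [FiniteDimensional F E]
    [IsGalois F E] (σ : cocycles₂ (unitsRep F E)),
    IsFundClass q F E ((H2π (unitsRep F E)).hom σ) →
    ∀ (H : Type) [Group H] (f : H →* (E ≃ₐ[F] E)), Function.Injective f →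
      (∀ c : cocycles₁ (Rep.res f (unitsRep F E)),
        ⇑c ∈ coboundaries₁ (Rep.res f (unitsRep F E))) ∧
      (∀ τ : cocycles₂ (Rep.res f (unitsRep F E)), ∃ (k : ℤ) (b : H → unitsRep F E),
        ⇑τ = k • (⇑σ ∘ Prod.map f f) + (d₁₂ (Rep.res f (unitsRep F E))).hom b) ∧
      (∀ k : ℤ, (∃ b : H → unitsRep F E,
        k • (⇑σ ∘ Prod.map f f) = (d₁₂ (Rep.res f (unitsRep F E))).hom b) →
          (Nat.card H : ℤ) ∣ k)

/-- [NormLimitation] For `E/F` cyclic, `F'/F` finite and `K = E·F'`: an element of `F'ˣ` whose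
norm to `F` is a norm from `E` is a norm from `K`. -/
def NormLimitation : Prop :=
  ∀ (q : ℕ) [Fact q.Prime] (F E F' K : Type) [Field F] [Field E] [Field F'] [Field K]
    [Algebra ℚ_[q] F] [Algebra F E] [Algebra F F'] [Algebra F' K] [Algebra E K] [Algebra F K]
    [IsScalarTower F E K] [IsScalarTower F F' K]
    [FiniteDimensional ℚ_[q] F] [FiniteDimensional F K] [IsGalois F E] [IsCyclic (E ≃ₐ[F] E)],
    Algebra.adjoin F' (Set.range (algebraMap E K)) = ⊤ →
    ∀ x : F'ˣ, (∃ b : Eˣ, Algebra.norm F (b : E) = Algebra.norm F (x : F')) →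
      ∃ c : Kˣ, Algebra.norm F' (c : K) = (x : F')

/-! ## [Pow] `p`-th powers -/

/-- [PowIndex] The index of `p`-th powers. -/
def PowIndex : Prop :=
  ∀ (q : ℕ) [Fact q.Prime] (p : ℕ), p.Prime →
    ∀ (F : Type) [Field F] [Algebra ℚ_[q] F] [FiniteDimensional ℚ_[q] F],
      (MonoidHom.range (powMonoidHom p : Fˣ →* Fˣ)).index =
        p * Nat.card (rootsOfUnity p F) * q ^ (Module.finrank ℚ_[q] F * padicValNat q p) ∧
      ((MonoidHom.range (powMonoidHom p : Fˣ →* Fˣ)).subgroupOf (unitGroup q F)).index =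
        Nat.card (rootsOfUnity p F) * q ^ (Module.finrank ℚ_[q] F * padicValNat q p)

/-- [PowHensel] Elements congruent to `1` modulo `p² · 𝔪` are `p`-th powers. -/
def PowHensel : Prop :=
  ∀ (q : ℕ) [Fact q.Prime] (p : ℕ), p.Prime →
    ∀ (F : Type) [Field F] [Algebra ℚ_[q] F] [FiniteDimensional ℚ_[q] F] (u : Fˣ),
      (∃ t ∈ maxIdeal q F, (u : F) = 1 + (p : F) ^ 2 * t) → ∃ w : Fˣ, w ^ p = u

/-- [KummerUnram] Adjoining a `p`-th root of a unit is unramified when `q ≠ p`. -/
def KummerUnram : Prop :=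
  ∀ (q : ℕ) [Fact q.Prime] (p : ℕ), p.Prime → p ≠ q →
    ∀ (F E : Type) [Field F] [Field E] [Algebra ℚ_[q] F] [Algebra ℚ_[q] E] [Algebra F E]
      [IsScalarTower ℚ_[q] F E] [FiniteDimensional ℚ_[q] F] [FiniteDimensional F E]
      (u : Fˣ) (y : E), u ∈ unitGroup q F → y ^ p = algebraMap F E u →
      Algebra.adjoin F {y} = ⊤ → IsUnram q F E

end Fermat.Agent.CFT.Local.Plan
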