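import Mathlib
import Fermat.Agent.CFT.Local.Defs

/-!
# CFT program, layer Local: field-theoretic tools for the local invariant

Pure field theory (no `q`): a common finite Galois overfield of two finite Galois extensions
amalgamated over a common subfield, the compositum of two subfields as an abstract field, and a
Galois closure.
-/

set_option autoImplicit false

namespace Fermat.Agent.CFT.Local.Inv

/-- A common finite Galois overfield of two finite normal extensions `L₁`, `L₂` of `F`,
amalgamated over a common subfield `E`. -/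
theorem exists_common_galois (F E L₁ L₂ : Type) [Field F] [Field E] [Field L₁] [Field L₂]
    [CharZero F]
    [Algebra F E] [Algebra F L₁] [Algebra E L₁] [IsScalarTower F E L₁]
    [Algebra F L₂] [Algebra E L₂] [IsScalarTower F E L₂]
    [FiniteDimensional F L₁] [FiniteDimensional F L₂] [Normal F L₁] [Normal F L₂] :
    ∃ (M : Type) (_ : Field M) (_ : Algebra F M) (_ : Algebra E M) (_ : Algebra L₁ M)
      (_ : Algebra L₂ M) (_ : IsScalarTower F E M) (_ : IsScalarTower F L₁ M)
      (_ : IsScalarTower F L₂ M) (_ : IsScalarTower E L₁ M) (_ : IsScalarTower E L₂ M)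
      (_ : FiniteDimensional F M), IsGalois F M := by
  classical
  let Ω := AlgebraicClosure L₁
  have : FiniteDimensional E L₂ := FiniteDimensional.right F E L₂
  let j : L₂ →ₐ[E] Ω := IsAlgClosed.lift
  let i₁ : L₁ →ₐ[F] Ω := IsScalarTower.toAlgHom F L₁ Ω
  let i₂ : L₂ →ₐ[F] Ω := j.restrictScalars F
  let M : IntermediateField F Ω := i₁.fieldRange ⊔ i₂.fieldRange
  have h₁ : ∀ x : L₁, algebraMap L₁ Ω x ∈ M := fun x =>
    (le_sup_left : i₁.fieldRange ≤ M) ⟨x, rfl⟩
  have h₂ : ∀ x : L₂, j x ∈ M := fun x =>
    (le_sup_right : i₂.fieldRange ≤ M) ⟨x, rfl⟩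
  let a₁ : L₁ →+* M := (algebraMap L₁ Ω).codRestrict M.toSubfield h₁
  let a₂ : L₂ →+* M := (j : L₂ →+* Ω).codRestrict M.toSubfield h₂
  let algL₁ : Algebra L₁ M := a₁.toAlgebra
  let algL₂ : Algebra L₂ M := a₂.toAlgebra
  let algE : Algebra E M := (a₁.comp (algebraMap E L₁)).toAlgebra
  have t1 : IsScalarTower E L₁ M := IsScalarTower.of_algebraMap_eq (fun x => rfl)
  have t2 : IsScalarTower F L₁ M := IsScalarTower.of_algebraMap_eq (fun x => by
    apply Subtype.ext
    change algebraMap F Ω x = algebraMap L₁ Ω (algebraMap F L₁ x)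
    rw [← IsScalarTower.algebraMap_apply])
  have t3 : IsScalarTower F L₂ M := IsScalarTower.of_algebraMap_eq (fun x => by
    apply Subtype.ext
    change algebraMap F Ω x = j (algebraMap F L₂ x)
    rw [IsScalarTower.algebraMap_apply F E L₂, j.commutes, ← IsScalarTower.algebraMap_apply])
  have t4 : IsScalarTower E L₂ M := IsScalarTower.of_algebraMap_eq (fun x => by
    apply Subtype.ext
    change algebraMap L₁ Ω (algebraMap E L₁ x) = j (algebraMap E L₂ x)
    rw [j.commutes, ← IsScalarTower.algebraMap_apply])
  have t5 : IsScalarTower F E M := IsScalarTower.of_algebraMap_eq (fun x => by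
    apply Subtype.ext
    change algebraMap F Ω x = algebraMap L₁ Ω (algebraMap E L₁ (algebraMap F E x))
    rw [← IsScalarTower.algebraMap_apply, ← IsScalarTower.algebraMap_apply])
  have n₁ : Normal F i₁.fieldRange := Normal.of_algEquiv (AlgEquiv.ofInjectiveField i₁)
  have n₂ : Normal F i₂.fieldRange := Normal.of_algEquiv (AlgEquiv.ofInjectiveField i₂)
  have f₁ : FiniteDimensional F i₁.fieldRange :=
    LinearEquiv.finiteDimensional (AlgEquiv.ofInjectiveField i₁).toLinearEquiv
  have f₂ : FiniteDimensional F i₂.fieldRange :=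
    LinearEquiv.finiteDimensional (AlgEquiv.ofInjectiveField i₂).toLinearEquiv
  have : FiniteDimensional F M := IntermediateField.finiteDimensional_sup _ _
  have : Normal F M := IntermediateField.normal_sup F Ω _ _
  exact ⟨M, inferInstance, inferInstance, algE, algL₁, algL₂, t5, t2, t3, t1, t4, inferInstance,
    ⟨⟩⟩

/-- The compositum `E·E'` inside `L`, as an abstract field. -/
theorem exists_compositum (F E E' L : Type) [Field F] [Field E] [Field E'] [Field L]
    [Algebra F E] [Algebra F E'] [Algebra F L] [Algebra E L] [Algebra E' L]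
    [IsScalarTower F E L] [IsScalarTower F E' L] [FiniteDimensional F L] :
    ∃ (K : Type) (_ : Field K) (_ : Algebra F K) (_ : Algebra E K) (_ : Algebra E' K)
      (_ : Algebra K L) (_ : IsScalarTower F E K) (_ : IsScalarTower F E' K)
      (_ : IsScalarTower F K L) (_ : IsScalarTower E K L) (_ : IsScalarTower E' K L),
      Algebra.adjoin E (Set.range (algebraMap E' K)) = ⊤ := by
  classical
  have : FiniteDimensional E L := FiniteDimensional.right F E L
  let K : IntermediateField E L := IntermediateField.adjoin E (Set.range (algebraMap E' L))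
  have hmem : ∀ x : E', algebraMap E' L x ∈ K := fun x =>
    IntermediateField.subset_adjoin E _ ⟨x, rfl⟩
  let a' : E' →+* K := (algebraMap E' L).codRestrict K.toSubfield hmem
  let algE' : Algebra E' K := a'.toAlgebra
  have t1 : IsScalarTower E' K L := IsScalarTower.of_algebraMap_eq (fun x => rfl)
  have t2 : IsScalarTower F E' K := IsScalarTower.of_algebraMap_eq (fun x => by
    apply Subtype.ext
    change algebraMap F L x = algebraMap E' L (algebraMap F E' x)
    rw [← IsScalarTower.algebraMap_apply])
  have t3 : IsScalarTower F K L := IsScalarTower.of_algebraMap_eq (fun x => rfl)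
  refine ⟨K, inferInstance, inferInstance, inferInstance, algE', inferInstance, inferInstance, t2,
    t3, inferInstance, t1, ?_⟩
  have hK : K.toSubalgebra = Algebra.adjoin E (Set.range (algebraMap E' L)) :=
    IntermediateField.adjoin_toSubalgebra _
  apply Subalgebra.map_injective (f := K.val) (Subtype.val_injective)
  rw [Algebra.map_top, AlgHom.map_adjoin]
  have : (K.val : K → L) '' Set.range (algebraMap E' K) = Set.range (algebraMap E' L) := by
    ext y
    constructor
    · rintro ⟨_, ⟨x, rfl⟩, rfl⟩
      exact ⟨x, rfl⟩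
    · rintro ⟨x, rfl⟩
      exact ⟨_, ⟨x, rfl⟩, rfl⟩
  rw [this, ← hK]
  ext y
  simp

/-- A finite Galois extension of `F` containing a given finite extension `E`. -/
theorem exists_galois_closure (F E : Type) [Field F] [Field E] [CharZero F] [Algebra F E]
    [FiniteDimensional F E] :
    ∃ (M : Type) (_ : Field M) (_ : Algebra F M) (_ : Algebra E M) (_ : IsScalarTower F E M)
      (_ : FiniteDimensional F M), IsGalois F M := by
  classical
  let Ω := AlgebraicClosure E
  have : IsAlgClosure F Ω := IsAlgClosure.ofAlgebraic F E Ω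
  have : Normal F Ω := IsAlgClosure.normal F Ω
  exact ⟨IntermediateField.normalClosure F E Ω, inferInstance, inferInstance, inferInstance,
    inferInstance, inferInstance, ⟨⟩⟩

/-- A common finite Galois overfield of two finite normal extensions of `F`. -/
theorem exists_common_galois' (F L₁ L₂ : Type) [Field F] [Field L₁] [Field L₂] [CharZero F]
    [Algebra F L₁] [Algebra F L₂]
    [FiniteDimensional F L₁] [FiniteDimensional F L₂] [Normal F L₁] [Normal F L₂] :
    ∃ (M : Type) (_ : Field M) (_ : Algebra F M) (_ : Algebra L₁ M)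
      (_ : Algebra L₂ M) (_ : IsScalarTower F L₁ M)
      (_ : IsScalarTower F L₂ M) (_ : FiniteDimensional F M), IsGalois F M := by
  obtain ⟨M, iF, aF, aE, aL₁, aL₂, tFE, tFL₁, tFL₂, tEL₁, tEL₂, fin, gal⟩ :=
    exists_common_galois F F L₁ L₂
  exact ⟨M, iF, aF, aL₁, aL₂, tFL₁, tFL₂, fin, gal⟩

end Fermat.Agent.CFT.Local.Inv
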