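import Mathlib
import Fermat.Agent.CFT.Local.Defs
import Fermat.Agent.CFT.Local.Plan
import Fermat.Agent.CFT.Local.InvTools

/-!
# CFT program, layer Local: the local invariant (hypothesis form)

`H2Card`, `InvBasic`, `InvUnram`, `InvInfl`, `InvRes`, `InvBaseChange` of `Local/Plan.lean`,
proved from the structural Plan props (`OrdStmt`, `UnramStruct`, `UnramExists`,
`UnramComposite`, `FieldInfRes`, `FieldFunct`, `H2CardDvd`, `UnramH2`, `UnramInfl`, `UnramBC`).
-/

set_option autoImplicit false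
set_option linter.style.haveILetI false

namespace Fermat.Agent.CFT.Local.Inv

open CategoryTheory groupCohomology Fermat.Agent.CFT.Local

/-! ## `ℚ_[q]`-structures induced through the base field -/

section QAlg

variable (q : ℕ) [Fact q.Prime] (F X : Type) [Field F] [Field X] [Algebra ℚ_[q] F] [Algebra F X]

/-- The `ℚ_[q]`-algebra structure on an `F`-algebra induced through `F`. -/
@[reducible] noncomputable def qAlg : Algebra ℚ_[q] X :=
  ((algebraMap F X).comp (algebraMap ℚ_[q] F)).toAlgebra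

lemma qTower : @IsScalarTower ℚ_[q] F X _ _ (qAlg q F X).toSMul :=
  letI := qAlg q F X
  IsScalarTower.of_algebraMap_eq (fun _ => rfl)

end QAlg

/-- A tower `ℚ_[q] ⊆ E ⊆ K` from towers over `F`. -/
lemma qTower_mid (q : ℕ) [Fact q.Prime] (F E K : Type) [Field F] [Field E] [Field K]
    [Algebra ℚ_[q] F] [Algebra ℚ_[q] E] [Algebra ℚ_[q] K] [Algebra F E] [Algebra F K] [Algebra E K]
    [IsScalarTower ℚ_[q] F E] [IsScalarTower ℚ_[q] F K] [IsScalarTower F E K] :
    IsScalarTower ℚ_[q] E K :=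
  IsScalarTower.of_algebraMap_eq (fun x => by
    rw [IsScalarTower.algebraMap_apply ℚ_[q] F K, IsScalarTower.algebraMap_apply F E K,
      ← IsScalarTower.algebraMap_apply ℚ_[q] F E])

lemma charZero_of_padic (q : ℕ) [Fact q.Prime] (F : Type) [Field F] [Algebra ℚ_[q] F] :
    CharZero F :=
  charZero_of_injective_algebraMap (algebraMap ℚ_[q] F).injective

/-! ## Powers and the valuation -/

lemma ordZ_pow (hO : Plan.OrdStmt) (q : ℕ) [Fact q.Prime] (F : Type) [Field F] [Algebra ℚ_[q] F]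
    [FiniteDimensional ℚ_[q] F] (a : Fˣ) (n : ℕ) : ordZ q F (a ^ n) = n * ordZ q F a := by
  have hmul := (hO q F).2.2.1
  have h1 : ordZ q F 1 = 0 := by
    have := hmul 1 1
    rw [one_mul] at this
    linarith
  induction n with
  | zero => simp [h1]
  | succ n ih => rw [pow_succ, hmul, ih]; push_cast; ring

lemma ordZ_inv (hO : Plan.OrdStmt) (q : ℕ) [Fact q.Prime] (F : Type) [Field F] [Algebra ℚ_[q] F]
    [FiniteDimensional ℚ_[q] F] (a : Fˣ) : ordZ q F a⁻¹ = - ordZ q F a := by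
  have hmul := (hO q F).2.2.1
  have h1 : ordZ q F 1 = 0 := by
    have := hmul 1 1
    rw [one_mul] at this
    linarith
  have := hmul a a⁻¹
  rw [mul_inv_cancel, h1] at this
  linarith

/-! ## Unramified classes inside a fixed Galois extension -/

lemma comp_hom_apply {A B C : ModuleCat ℤ} (f : A ⟶ B) (g : B ⟶ C) (x : A) :
    (f ≫ g).hom x = g.hom (f.hom x) := rfl

/-- `z ∈ H²(M/F)` is the inflation of a cyclic class of an unramified subextension, with
invariant `r`. -/
def UInv (q : ℕ) [Fact q.Prime] (F M : Type) [Field F] [Field M] [Algebra ℚ_[q] F] [Algebra F M]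
    (z : H2 (unitsRep F M)) (r : ℚ) : Prop :=
  ∃ (E' : Type) (_ : Field E') (_ : Algebra ℚ_[q] E') (_ : Algebra F E')
    (_ : IsScalarTower ℚ_[q] F E') (_ : FiniteDimensional F E') (_ : IsGalois F E')
    (_ : Algebra E' M) (_ : IsScalarTower F E' M)
    (φ : E' ≃ₐ[F] E') (a : Fˣ) (y : H2 (unitsRep F E')),
    IsUnram q F E' ∧ IsFrob q F E' φ ∧ IsUnramClass F E' φ a y ∧
      z = (inflH F E' M 2).hom y ∧ r = (ordZ q F a : ℚ) / (Module.finrank F E' : ℚ)

/-- `z ∈ H²(M/F)` is the inflation of a cyclic class of the fixed unramified subextension `K`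
with Frobenius `φ`, with invariant `r`. -/
def UInvAt (q : ℕ) [Fact q.Prime] (F K M : Type) [Field F] [Field K] [Field M] [Algebra ℚ_[q] F]
    [Algebra F K] [Algebra F M] [Algebra K M] [IsScalarTower F K M] [FiniteDimensional F K]
    [Normal F K] (φ : K ≃ₐ[F] K) (z : H2 (unitsRep F M)) (r : ℚ) : Prop :=
  ∃ (a : Fˣ) (y : H2 (unitsRep F K)), IsUnramClass F K φ a y ∧
      z = (inflH F K M 2).hom y ∧ r = (ordZ q F a : ℚ) / (Module.finrank F K : ℚ)

section Common

variable (hO : Plan.OrdStmt) (hUS : Plan.UnramStruct) (hUE : Plan.UnramExists)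
  (hUC : Plan.UnramComposite) (hUI : Plan.UnramInfl) (hFF : Plan.FieldFunct)

include hO hUS hUE hUC hUI hFF in
/-- Two unramified presentations inside `M` can be rewritten over a common unramified layer. -/
theorem uinv_common (q : ℕ) [Fact q.Prime] (F M : Type) [Field F] [Field M] [Algebra ℚ_[q] F]
    [Algebra F M] [FiniteDimensional ℚ_[q] F] [FiniteDimensional F M]
    {z₁ z₂ : H2 (unitsRep F M)} {r₁ r₂ : ℚ} (h₁ : UInv q F M z₁ r₁) (h₂ : UInv q F M z₂ r₂) :
    ∃ (K : Type) (_ : Field K) (_ : Algebra ℚ_[q] K) (_ : Algebra F K)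
      (_ : IsScalarTower ℚ_[q] F K) (_ : FiniteDimensional F K) (_ : IsGalois F K)
      (_ : Algebra K M) (_ : IsScalarTower F K M) (φ : K ≃ₐ[F] K),
      IsUnram q F K ∧ IsFrob q F K φ ∧ UInvAt q F K M φ z₁ r₁ ∧ UInvAt q F K M φ z₂ r₂ := by
  obtain ⟨E₁, _, _, _, _, _, _, _, _, φ₁, a₁, y₁, hu₁, hf₁, hc₁, hz₁, hr₁⟩ := h₁
  obtain ⟨E₂, _, _, _, _, _, _, _, _, φ₂, a₂, y₂, hu₂, hf₂, hc₂, hz₂, hr₂⟩ := h₂
  obtain ⟨K, _, _, _, _, _, tFE₁K, tFE₂K, tFKM, tE₁KM, tE₂KM, hadj⟩ :=
    exists_compositum F E₁ E₂ M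
  letI : Algebra ℚ_[q] K := qAlg q F K
  haveI : IsScalarTower ℚ_[q] F K := qTower q F K
  haveI : FiniteDimensional F K := FiniteDimensional.left F K M
  haveI : IsScalarTower ℚ_[q] E₁ K := qTower_mid q F E₁ K
  haveI : IsScalarTower ℚ_[q] E₂ K := qTower_mid q F E₂ K
  have hKE₁ : IsUnram q E₁ K := hUC q F E₁ E₂ K hu₂ hadj
  have hKF : IsUnram q F K := ((hUE q F).2.2 E₁ K).2 ⟨hu₁, hKE₁⟩
  obtain ⟨hGal, φK, hφK, -, -⟩ := hUS q F K hKF
  haveI := hGal
  have i₁ := hUI q F E₁ K φ₁ φK a₁ y₁ hKF hf₁ hφK hc₁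
  have i₂ := hUI q F E₂ K φ₂ φK a₂ y₂ hKF hf₂ hφK hc₂
  have key : ∀ (E' : Type) [Field E'] [Algebra F E'] [Algebra E' K] [IsScalarTower F E' K]
      [FiniteDimensional F E'] (a : Fˣ) (r : ℚ),
      r = (ordZ q F a : ℚ) / (Module.finrank F E' : ℚ) →
      r = (ordZ q F (a ^ Module.finrank E' K) : ℚ) / (Module.finrank F K : ℚ) := by
    intro E' _ _ _ _ _ a r hr
    haveI : FiniteDimensional E' K := FiniteDimensional.right F E' K
    have hd : 0 < Module.finrank E' K := Module.finrank_pos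
    have hn : 0 < Module.finrank F E' := Module.finrank_pos
    rw [hr, ordZ_pow hO, ← Module.finrank_mul_finrank F E' K]
    push_cast
    field_simp
  refine ⟨K, inferInstance, inferInstance, inferInstance, inferInstance, inferInstance, hGal,
    inferInstance, tFKM, φK, hKF, hφK, ⟨_, _, i₁, ?_, key E₁ a₁ r₁ hr₁⟩,
    ⟨_, _, i₂, ?_, key E₂ a₂ r₂ hr₂⟩⟩
  · rw [hz₁, ← comp_hom_apply, hFF.2.2.1 F E₁ K M 2]
  · rw [hz₂, ← comp_hom_apply, hFF.2.2.1 F E₂ K M 2]

end Common

/-! ## Cyclic classes of one unramified extension -/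

lemma ordZ_one (hO : Plan.OrdStmt) (q : ℕ) [Fact q.Prime] (F : Type) [Field F] [Algebra ℚ_[q] F]
    [FiniteDimensional ℚ_[q] F] : ordZ q F 1 = 0 := by
  have := (hO q F).2.2.1 1 1
  rw [one_mul] at this
  linarith

/-- `IsUnramClass` determines the class. -/
lemma isUnramClass_unique {F E : Type} [Field F] [Field E] [Algebra F E] [FiniteDimensional F E]
    {φ : E ≃ₐ[F] E} {a : Fˣ} {y y' : H2 (unitsRep F E)} (h : IsUnramClass F E φ a y)
    (h' : IsUnramClass F E φ a y') : y = y' := by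
  obtain ⟨hc, rfl⟩ := h
  obtain ⟨hc', rfl⟩ := h'
  rfl

section OneLayer

variable (hO : Plan.OrdStmt) (hUH : Plan.UnramH2)

include hO hUH in
/-- Two elements with the same cyclic class have valuations congruent modulo the degree. -/
theorem dvd_ordZ_sub_of_isUnramClass (q : ℕ) [Fact q.Prime] (F K : Type) [Field F] [Field K]
    [Algebra ℚ_[q] F] [Algebra ℚ_[q] K] [Algebra F K] [IsScalarTower ℚ_[q] F K]
    [FiniteDimensional ℚ_[q] F] [FiniteDimensional F K] (φ : K ≃ₐ[F] K) (hu : IsUnram q F K)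
    (hφ : IsFrob q F K φ) {a b : Fˣ} {y : H2 (unitsRep F K)} (ha : IsUnramClass F K φ a y)
    (hb : IsUnramClass F K φ b y) :
    (Module.finrank F K : ℤ) ∣ ordZ q F a - ordZ q F b := by
  obtain ⟨h1, -, h3, h4⟩ := hUH q F K φ hu hφ
  obtain ⟨w, hw⟩ := h1 b⁻¹
  have e1 := h3 b b⁻¹ y w hb hw
  rw [mul_inv_cancel] at e1
  have e2 : y + w = 0 := (h4 1 _ e1).2 (by rw [ordZ_one hO]; exact dvd_zero _)
  have e3 := h3 a b⁻¹ y w ha hw
  have e4 := (h4 _ _ e3).1 e2
  rwa [(hO q F).2.2.1, ordZ_inv hO, ← sub_eq_add_neg] at e4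

end OneLayer

/-! ## Consequences of the common layer -/

section Core

variable (hO : Plan.OrdStmt) (hUS : Plan.UnramStruct) (hUE : Plan.UnramExists)
  (hUC : Plan.UnramComposite) (hUI : Plan.UnramInfl) (hFF : Plan.FieldFunct)
  (hFI : Plan.FieldInfRes) (hUH : Plan.UnramH2)

include hO hUS hUE hUC hUI hFF hFI hUH in
/-- The invariant of an unramified presentation is unique modulo `ℤ`. -/
theorem uinv_sub_int (q : ℕ) [Fact q.Prime] (F M : Type) [Field F] [Field M] [Algebra ℚ_[q] F]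
    [Algebra F M] [FiniteDimensional ℚ_[q] F] [FiniteDimensional F M] [IsGalois F M]
    {z : H2 (unitsRep F M)} {r₁ r₂ : ℚ} (h₁ : UInv q F M z r₁) (h₂ : UInv q F M z r₂) :
    ∃ k : ℤ, r₁ - r₂ = k := by
  obtain ⟨K, _, _, _, _, _, hGal, _, _, φ, hu, hφ, ⟨a₁, y₁, c₁, e₁, rfl⟩, ⟨a₂, y₂, c₂, e₂, rfl⟩⟩ :=
    uinv_common hO hUS hUE hUC hUI hFF q F M h₁ h₂
  have hy : y₁ = y₂ := (hFI F K M).1 (e₁.symm.trans e₂)
  subst hy
  obtain ⟨k, hk⟩ := dvd_ordZ_sub_of_isUnramClass hO hUH q F K φ hu hφ c₁ c₂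
  refine ⟨k, ?_⟩
  have hn : (0 : ℚ) < (Module.finrank F K : ℚ) := by exact_mod_cast Module.finrank_pos
  rw [← sub_div, div_eq_iff hn.ne']
  have : ((ordZ q F a₁ - ordZ q F a₂ : ℤ) : ℚ) = ((Module.finrank F K : ℤ) * k : ℤ) := by
    rw [hk]
  push_cast at this
  linarith

include hO hUS hUE hUC hUI hFF hUH in
/-- Unramified presentations add. -/
theorem uinv_add (q : ℕ) [Fact q.Prime] (F M : Type) [Field F] [Field M] [Algebra ℚ_[q] F]
    [Algebra F M] [FiniteDimensional ℚ_[q] F] [FiniteDimensional F M]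
    {z₁ z₂ : H2 (unitsRep F M)} {r₁ r₂ : ℚ} (h₁ : UInv q F M z₁ r₁) (h₂ : UInv q F M z₂ r₂) :
    UInv q F M (z₁ + z₂) (r₁ + r₂) := by
  obtain ⟨K, _, _, _, _, _, hGal, _, _, φ, hu, hφ, ⟨a₁, y₁, c₁, e₁, rfl⟩, ⟨a₂, y₂, c₂, e₂, rfl⟩⟩ :=
    uinv_common hO hUS hUE hUC hUI hFF q F M h₁ h₂
  obtain ⟨-, -, h3, -⟩ := hUH q F K φ hu hφ
  refine ⟨K, inferInstance, inferInstance, inferInstance, inferInstance, inferInstance, hGal,
    inferInstance, inferInstance, φ, a₁ * a₂, y₁ + y₂, hu, hφ, h3 _ _ _ _ c₁ c₂, ?_, ?_⟩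
  · rw [e₁, e₂, map_add]
  · rw [(hO q F).2.2.1]
    push_cast
    ring

include hUH in
/-- An unramified presentation with integral invariant is trivial. -/
theorem uinv_eq_zero (q : ℕ) [Fact q.Prime] (F M : Type) [Field F] [Field M] [Algebra ℚ_[q] F]
    [Algebra F M] [FiniteDimensional ℚ_[q] F]
    {z : H2 (unitsRep F M)} {r : ℚ} (h : UInv q F M z r) (hr : ∃ k : ℤ, r = k) : z = 0 := by
  obtain ⟨K, _, _, _, _, _, hGal, _, _, φ, a, y, hu, hφ, c, e, rfl⟩ := h
  obtain ⟨k, hk⟩ := hr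
  obtain ⟨-, -, -, h4⟩ := hUH q F K φ hu hφ
  have hn : (0 : ℚ) < (Module.finrank F K : ℚ) := by exact_mod_cast Module.finrank_pos
  have hy : y = 0 := (h4 a y c).2 ⟨k, by
    rw [div_eq_iff hn.ne'] at hk
    have : ((ordZ q F a : ℤ) : ℚ) = ((Module.finrank F K : ℤ) * k : ℤ) := by
      push_cast
      rw [hk]
      ring
    exact_mod_cast this⟩
  rw [e, hy, map_zero]

include hFF in
/-- Unramified presentations inflate. -/
theorem uinv_infl (q : ℕ) [Fact q.Prime] (F M M' : Type) [Field F] [Field M] [Field M']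
    [Algebra ℚ_[q] F] [Algebra F M] [Algebra F M'] [Algebra M M'] [IsScalarTower F M M']
    [Normal F M]
    {z : H2 (unitsRep F M)} {r : ℚ} (h : UInv q F M z r) :
    UInv q F M' ((inflH F M M' 2).hom z) r := by
  obtain ⟨K, _, _, _, _, _, hGal, _, _, φ, a, y, hu, hφ, c, e, rfl⟩ := h
  letI : Algebra K M' := ((algebraMap M M').comp (algebraMap K M)).toAlgebra
  haveI t1 : IsScalarTower K M M' := IsScalarTower.of_algebraMap_eq (fun _ => rfl)
  haveI t2 : IsScalarTower F K M' := IsScalarTower.of_algebraMap_eq (fun x => by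
    change algebraMap F M' x = algebraMap M M' (algebraMap K M (algebraMap F K x))
    rw [← IsScalarTower.algebraMap_apply F K M, ← IsScalarTower.algebraMap_apply F M M'])
  refine ⟨K, inferInstance, inferInstance, inferInstance, inferInstance, inferInstance, hGal,
    inferInstance, t2, φ, a, y, hu, hφ, c, ?_, rfl⟩
  rw [e, ← comp_hom_apply, hFF.2.2.1 F K M M' 2]

end Core

/-! ## `HasInv` through unramified presentations -/

theorem hasInv_of_uinv (q : ℕ) [Fact q.Prime] (F E M : Type) [Field F] [Field E] [Field M]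
    [Algebra ℚ_[q] F] [Algebra F E] [Normal F E] [Algebra F M] [Algebra E M]
    [IsScalarTower F E M] [FiniteDimensional F M] [IsGalois F M]
    {x : H2 (unitsRep F E)} {r : ℚ} (h : UInv q F M ((inflH F E M 2).hom x) r) :
    HasInv q F E x r := by
  obtain ⟨E', i1, i2, i3, i4, i5, i6, i7, i8, φ, a, y, hu, hφ, c, e, hr⟩ := h
  exact ⟨E', i1, i2, i3, i4, i5, i6, M, inferInstance, inferInstance, inferInstance, i7,
    inferInstance, i8, inferInstance, inferInstance, φ, a, y, hu, hφ, c, e, hr⟩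

theorem exists_uinv_of_hasInv (q : ℕ) [Fact q.Prime] (F E : Type) [Field F] [Field E]
    [Algebra ℚ_[q] F] [Algebra F E] [Normal F E]
    {x : H2 (unitsRep F E)} {r : ℚ} (h : HasInv q F E x r) :
    ∃ (M : Type) (_ : Field M) (_ : Algebra F M) (_ : Algebra E M) (_ : IsScalarTower F E M)
      (_ : FiniteDimensional F M) (_ : IsGalois F M), UInv q F M ((inflH F E M 2).hom x) r := by
  obtain ⟨E', i1, i2, i3, i4, i5, i6, M, j1, j2, j3, j4, j5, j6, j7, j8, φ, a, y, hu, hφ, c, e,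
    hr⟩ := h
  exact ⟨M, j1, j2, j3, j5, j7, j8, E', i1, i2, i3, i4, i5, i6, j4, j6, φ, a, y, hu, hφ, c, e, hr⟩

section Basic

variable (hO : Plan.OrdStmt) (hUS : Plan.UnramStruct) (hUE : Plan.UnramExists)
  (hUC : Plan.UnramComposite) (hUI : Plan.UnramInfl) (hFF : Plan.FieldFunct)
  (hFI : Plan.FieldInfRes) (hUH : Plan.UnramH2)

include hFF in
/-- Two presentations of `x` can be moved into one common Galois extension. -/
theorem exists_common_uinv (q : ℕ) [Fact q.Prime] (F E : Type) [Field F] [Field E]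
    [Algebra ℚ_[q] F] [Algebra F E] [Normal F E]
    {x₁ x₂ : H2 (unitsRep F E)} {r₁ r₂ : ℚ} (h₁ : HasInv q F E x₁ r₁) (h₂ : HasInv q F E x₂ r₂) :
    ∃ (M : Type) (_ : Field M) (_ : Algebra F M) (_ : Algebra E M) (_ : IsScalarTower F E M)
      (_ : FiniteDimensional F M) (_ : IsGalois F M),
      UInv q F M ((inflH F E M 2).hom x₁) r₁ ∧ UInv q F M ((inflH F E M 2).hom x₂) r₂ := by
  haveI : CharZero F := charZero_of_padic q F
  obtain ⟨M₁, _, _, _, _, _, _, u₁⟩ := exists_uinv_of_hasInv q F E h₁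
  obtain ⟨M₂, _, _, _, _, _, _, u₂⟩ := exists_uinv_of_hasInv q F E h₂
  obtain ⟨M, _, _, _, _, _, tFE, tF1, tF2, tE1, tE2, fin, gal⟩ := exists_common_galois F E M₁ M₂
  refine ⟨M, inferInstance, inferInstance, inferInstance, tFE, fin, gal, ?_, ?_⟩
  · have := uinv_infl hFF q F M₁ M u₁
    rwa [← comp_hom_apply, hFF.2.2.1 F E M₁ M 2] at this
  · have := uinv_infl hFF q F M₂ M u₂
    rwa [← comp_hom_apply, hFF.2.2.1 F E M₂ M 2] at this

include hO hUS hUE hUC hUI hFF hFI hUH in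
/-- The invariant of a class is unique modulo `ℤ`. -/
theorem hasInv_sub_int (q : ℕ) [Fact q.Prime] (F E : Type) [Field F] [Field E]
    [Algebra ℚ_[q] F] [Algebra F E] [Normal F E] [FiniteDimensional ℚ_[q] F]
    {x : H2 (unitsRep F E)} {r₁ r₂ : ℚ} (h₁ : HasInv q F E x r₁) (h₂ : HasInv q F E x r₂) :
    ∃ k : ℤ, r₁ - r₂ = k := by
  obtain ⟨M, _, _, _, _, _, _, u₁, u₂⟩ := exists_common_uinv hFF q F E h₁ h₂
  exact uinv_sub_int hO hUS hUE hUC hUI hFF hFI hUH q F M u₁ u₂

include hO hUS hUE hUC hUI hFF hFI hUH in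
/-- `localInv` is computed by any presentation. -/
theorem localInv_eq (q : ℕ) [Fact q.Prime] (F E : Type) [Field F] [Field E]
    [Algebra ℚ_[q] F] [Algebra F E] [Normal F E] [FiniteDimensional ℚ_[q] F]
    {x : H2 (unitsRep F E)} {r : ℚ} (h : HasInv q F E x r) :
    localInv q F E x = (r : AddCircle (1 : ℚ)) := by
  have hex : ∃ r : ℚ, HasInv q F E x r := ⟨r, h⟩
  rw [localInv, dif_pos hex]
  obtain ⟨k, hk⟩ := hasInv_sub_int hO hUS hUE hUC hUI hFF hFI hUH q F E hex.choose_spec h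
  rw [← sub_eq_zero, ← AddCircle.coe_sub, AddCircle.coe_eq_zero_iff]
  exact ⟨k, by rw [hk]; simp⟩

include hO hUS hUE hUC hUI hFF hUH in
/-- Presentations add. -/
theorem hasInv_add (q : ℕ) [Fact q.Prime] (F E : Type) [Field F] [Field E]
    [Algebra ℚ_[q] F] [Algebra F E] [Normal F E] [FiniteDimensional ℚ_[q] F]
    {x₁ x₂ : H2 (unitsRep F E)} {r₁ r₂ : ℚ} (h₁ : HasInv q F E x₁ r₁) (h₂ : HasInv q F E x₂ r₂) :
    HasInv q F E (x₁ + x₂) (r₁ + r₂) := by
  obtain ⟨M, _, _, _, _, _, _, u₁, u₂⟩ := exists_common_uinv hFF q F E h₁ h₂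
  apply hasInv_of_uinv q F E M
  rw [map_add]
  exact uinv_add hO hUS hUE hUC hUI hFF hUH q F M u₁ u₂

include hFI hUH in
/-- A class with integral invariant is trivial. -/
theorem eq_zero_of_hasInv_int (q : ℕ) [Fact q.Prime] (F E : Type) [Field F] [Field E]
    [Algebra ℚ_[q] F] [Algebra F E] [FiniteDimensional ℚ_[q] F] [FiniteDimensional F E]
    [IsGalois F E]
    {x : H2 (unitsRep F E)} {r : ℚ} (h : HasInv q F E x r) (hr : ∃ k : ℤ, r = k) : x = 0 := by
  obtain ⟨M, _, _, _, _, _, _, u⟩ := exists_uinv_of_hasInv q F E h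
  have := uinv_eq_zero hUH q F M u hr
  exact (hFI F E M).1 (by rw [this, map_zero])

end Basic

/-! ## Unramified classes of degree `[E:F]` die on `Gal(M/E)` -/

section Vanish

variable (hO : Plan.OrdStmt) (hUS : Plan.UnramStruct) (hUC : Plan.UnramComposite)
  (hFF : Plan.FieldFunct) (hUH : Plan.UnramH2) (hBC : Plan.UnramBC)

include hUS hUC hFF hBC in
/-- Restriction to `E` of the inflation of a cyclic class of an unramified extension `E'/F`,
as an unramified presentation over `E` with invariant multiplied by `[E:F]`. -/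
theorem uinv_resH_inflH (q : ℕ) [Fact q.Prime] (F E E' M : Type) [Field F] [Field E] [Field E']
    [Field M] [Algebra ℚ_[q] F] [Algebra ℚ_[q] E] [Algebra ℚ_[q] E'] [Algebra F E] [Algebra F E']
    [Algebra F M] [Algebra E M] [Algebra E' M] [IsScalarTower ℚ_[q] F E]
    [IsScalarTower ℚ_[q] F E'] [IsScalarTower F E M] [IsScalarTower F E' M]
    [FiniteDimensional ℚ_[q] F] [FiniteDimensional F M] [FiniteDimensional F E']
    [IsGalois F E'] (φ : E' ≃ₐ[F] E') (hu : IsUnram q F E') (hφ : IsFrob q F E' φ)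
    (a : Fˣ) (y : H2 (unitsRep F E')) (hc : IsUnramClass F E' φ a y) :
    UInv q E M ((resH F E M 2).hom ((inflH F E' M 2).hom y))
      ((Module.finrank F E : ℚ) * ((ordZ q F a : ℚ) / (Module.finrank F E' : ℚ))) := by
  obtain ⟨K, _, _, _, _, _, tFEK, tFE'K, tFKM, tEKM, tE'KM, hadj⟩ := exists_compositum F E E' M
  letI : Algebra ℚ_[q] K := qAlg q F K
  haveI : IsScalarTower ℚ_[q] F K := qTower q F K
  haveI : FiniteDimensional F K := FiniteDimensional.left F K M
  haveI : FiniteDimensional F E := FiniteDimensional.left F E M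
  haveI : FiniteDimensional E K := FiniteDimensional.right F E K
  haveI : IsScalarTower ℚ_[q] E K := qTower_mid q F E K
  haveI : FiniteDimensional ℚ_[q] E := FiniteDimensional.trans ℚ_[q] F E
  have hKE : IsUnram q E K := hUC q F E E' K hu hadj
  obtain ⟨hGal, ψ, hψ, -, -⟩ := hUS q E K hKE
  haveI := hGal
  obtain ⟨b, hb, hord⟩ := hBC q F E E' K φ ψ a y hu hφ hKE hψ hc
  refine ⟨K, inferInstance, inferInstance, inferInstance, inferInstance, inferInstance, hGal,
    inferInstance, tEKM, ψ, b, _, hKE, hψ, hb, ?_, hord.symm⟩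
  rw [← comp_hom_apply, ← comp_hom_apply, hFF.2.2.2.2.2.2 F E' E K M 2]

include hUS hUC hFF hUH hBC in
/-- If `[E':F] = [E:F]`, the inflation of a class of the unramified `E'/F` restricts to zero
on `Gal(M/E)`. -/
theorem resH_inflH_eq_zero (q : ℕ) [Fact q.Prime] (F E E' M : Type) [Field F] [Field E]
    [Field E'] [Field M] [Algebra ℚ_[q] F] [Algebra ℚ_[q] E] [Algebra ℚ_[q] E'] [Algebra F E]
    [Algebra F E'] [Algebra F M] [Algebra E M] [Algebra E' M] [IsScalarTower ℚ_[q] F E]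
    [IsScalarTower ℚ_[q] F E'] [IsScalarTower F E M] [IsScalarTower F E' M]
    [FiniteDimensional ℚ_[q] F] [FiniteDimensional F M] [FiniteDimensional F E']
    [IsGalois F E'] (φ : E' ≃ₐ[F] E') (hu : IsUnram q F E') (hφ : IsFrob q F E' φ)
    (hdeg : Module.finrank F E' = Module.finrank F E)
    (a : Fˣ) (y : H2 (unitsRep F E')) (hc : IsUnramClass F E' φ a y) :
    (resH F E M 2).hom ((inflH F E' M 2).hom y) = 0 := by
  haveI : FiniteDimensional F E := FiniteDimensional.left F E M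
  haveI : FiniteDimensional ℚ_[q] E := FiniteDimensional.trans ℚ_[q] F E
  have h := uinv_resH_inflH hUS hUC hFF hBC q F E E' M φ hu hφ a y hc
  refine uinv_eq_zero hUH q E M h ⟨ordZ q F a, ?_⟩
  have hn : (0 : ℚ) < (Module.finrank F E : ℚ) := by exact_mod_cast Module.finrank_pos
  rw [hdeg]
  field_simp

end Vanish

/-! ## The structure of `H²(Gal(E/F), Eˣ)` -/

section Structure

variable (hO : Plan.OrdStmt) (hUS : Plan.UnramStruct) (hUE : Plan.UnramExists)
  (hUC : Plan.UnramComposite) (hFF : Plan.FieldFunct) (hFI : Plan.FieldInfRes)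
  (hUH : Plan.UnramH2) (hBC : Plan.UnramBC) (hDvd : Plan.H2CardDvd)

include hO hUS hUE hUC hFF hFI hUH hBC hDvd in
/-- `H²(Gal(E/F), Eˣ)` has order `[E:F]`, every class has an invariant in `(1/[E:F])ℤ`, and
every such invariant occurs. -/
theorem main_structure (q : ℕ) [Fact q.Prime] (F E : Type) [Field F] [Field E]
    [Algebra ℚ_[q] F] [Algebra ℚ_[q] E] [Algebra F E] [IsScalarTower ℚ_[q] F E]
    [FiniteDimensional ℚ_[q] F] [FiniteDimensional F E] [IsGalois F E] :
    (Finite (H2 (unitsRep F E)) ∧ Nat.card (H2 (unitsRep F E)) = Module.finrank F E) ∧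
    (∀ x : H2 (unitsRep F E), ∃ a : Fˣ,
      HasInv q F E x ((ordZ q F a : ℚ) / (Module.finrank F E : ℚ))) ∧
    (∀ a : Fˣ, ∃ x : H2 (unitsRep F E),
      HasInv q F E x ((ordZ q F a : ℚ) / (Module.finrank F E : ℚ))) := by
  classical
  haveI : CharZero F := charZero_of_padic q F
  have hn : 0 < Module.finrank F E := Module.finrank_pos
  obtain ⟨E', _, _, _, _, _, hu, hdeg⟩ := (hUE q F).1 (Module.finrank F E) hn
  obtain ⟨hGal, φ, hφ, -, -⟩ := hUS q F E' hu
  haveI := hGal
  obtain ⟨M, _, _, _, _, tFE, tFE', fin, gal⟩ := exists_common_galois' F E E'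
  obtain ⟨h1, -, -, -⟩ := hUH q F E' φ hu hφ
  -- the class attached to `a`
  have hex : ∀ a : Fˣ, ∃ x : H2 (unitsRep F E), ∃ y : H2 (unitsRep F E'),
      IsUnramClass F E' φ a y ∧ (inflH F E M 2).hom x = (inflH F E' M 2).hom y := by
    intro a
    obtain ⟨y, hy⟩ := h1 a
    have hz := resH_inflH_eq_zero hUS hUC hFF hUH hBC q F E E' M φ hu hφ hdeg a y hy
    obtain ⟨x, hx⟩ := (hFI F E M).2.2 _ hz
    exact ⟨x, y, hy, hx⟩
  have hinv : ∀ (a : Fˣ) (x : H2 (unitsRep F E)) (y : H2 (unitsRep F E')),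
      IsUnramClass F E' φ a y → (inflH F E M 2).hom x = (inflH F E' M 2).hom y →
      HasInv q F E x ((ordZ q F a : ℚ) / (Module.finrank F E : ℚ)) := by
    intro a x y hy hx
    exact ⟨E', inferInstance, inferInstance, inferInstance, inferInstance, inferInstance, hGal,
      M, inferInstance, inferInstance, inferInstance, inferInstance, tFE, tFE', fin, gal, φ, a, y,
      hu, hφ, hy, hx, by rw [hdeg]⟩
  choose X Y hY hX using hex
  obtain ⟨ϖ, hϖ⟩ := (hO q F).2.2.2.1
  -- injectivity of `k ↦ X (ϖ ^ k)` on `Fin n`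
  have hinj : Function.Injective (fun k : Fin (Module.finrank F E) => X (ϖ ^ (k : ℕ))) := by
    intro k l hkl
    have h1 : (inflH F E' M 2).hom (Y (ϖ ^ (k : ℕ))) = (inflH F E' M 2).hom (Y (ϖ ^ (l : ℕ))) := by
      rw [← hX, ← hX]
      exact congrArg _ hkl
    have h2 : Y (ϖ ^ (k : ℕ)) = Y (ϖ ^ (l : ℕ)) := (hFI F E' M).1 h1
    have h3 := dvd_ordZ_sub_of_isUnramClass hO hUH q F E' φ hu hφ (hY (ϖ ^ (k : ℕ)))
      (h2 ▸ hY (ϖ ^ (l : ℕ)))
    rw [ordZ_pow hO, ordZ_pow hO, hϖ, mul_one, mul_one, hdeg] at h3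
    have hk := k.2
    have hl := l.2
    obtain ⟨c, hc⟩ := h3
    have hc0 : c = 0 := by
      by_contra hne
      rcases lt_or_gt_of_ne hne with h | h
      · have : (Module.finrank F E : ℤ) * c ≤ -(Module.finrank F E : ℤ) := by nlinarith
        omega
      · have : (Module.finrank F E : ℤ) ≤ (Module.finrank F E : ℤ) * c := by nlinarith
        omega
    rw [hc0, mul_zero] at hc
    exact Fin.ext (by omega)
  obtain ⟨hfin, hdvd⟩ := hDvd q F E
  haveI := hfin
  have hle : Module.finrank F E ≤ Nat.card (H2 (unitsRep F E)) := by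
    have := Nat.card_le_card_of_injective _ hinj
    simpa using this
  have hcard : Nat.card (H2 (unitsRep F E)) = Module.finrank F E :=
    Nat.le_antisymm (Nat.le_of_dvd hn hdvd) hle
  refine ⟨⟨hfin, hcard⟩, ?_, ?_⟩
  · intro x
    have hbij := hinj.bijective_of_nat_card_le (by rw [Nat.card_fin]; exact hcard.le)
    obtain ⟨k, rfl⟩ := hbij.2 x
    exact ⟨ϖ ^ (k : ℕ), hinv _ _ _ (hY _) (hX _)⟩
  · intro a
    exact ⟨X a, hinv _ _ _ (hY a) (hX a)⟩

end Structure

/-! ## The Plan props -/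

section Provide

variable (hO : Plan.OrdStmt) (hUS : Plan.UnramStruct) (hUE : Plan.UnramExists)
  (hUC : Plan.UnramComposite) (hUI : Plan.UnramInfl) (hFF : Plan.FieldFunct)
  (hFI : Plan.FieldInfRes) (hUH : Plan.UnramH2) (hBC : Plan.UnramBC) (hDvd : Plan.H2CardDvd)

include hO hUS hUE hUC hFF hFI hUH hBC hDvd in
theorem h2Card : Plan.H2Card := by
  intro q _ F E _ _ _ _ _ _ _ _ _
  exact (main_structure hO hUS hUE hUC hFF hFI hUH hBC hDvd q F E).1

include hO hUS hUE hUC hUI hFF hFI hUH hBC hDvd in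
theorem invBasic : Plan.InvBasic := by
  intro q _ F E _ _ _ _ _ _ _ _ _
  obtain ⟨-, hex, hall⟩ := main_structure hO hUS hUE hUC hFF hFI hUH hBC hDvd q F E
  have hwd : ∀ (x : H2 (unitsRep F E)) (r : ℚ), HasInv q F E x r →
      localInv q F E x = (r : AddCircle (1 : ℚ)) :=
    fun x r h => localInv_eq hO hUS hUE hUC hUI hFF hFI hUH q F E h
  have hn : (0 : ℚ) < (Module.finrank F E : ℚ) := by exact_mod_cast Module.finrank_pos
  have hadd : ∀ x y : H2 (unitsRep F E),
      localInv q F E (x + y) = localInv q F E x + localInv q F E y := by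
    intro x y
    obtain ⟨a, ha⟩ := hex x
    obtain ⟨b, hb⟩ := hex y
    rw [hwd _ _ ha, hwd _ _ hb, hwd _ _ (hasInv_add hO hUS hUE hUC hUI hFF hUH q F E ha hb),
      AddCircle.coe_add]
  have hinj : ∀ x : H2 (unitsRep F E), localInv q F E x = 0 → x = 0 := by
    intro x hx
    obtain ⟨a, ha⟩ := hex x
    rw [hwd _ _ ha, AddCircle.coe_eq_zero_iff] at hx
    obtain ⟨k, hk⟩ := hx
    exact eq_zero_of_hasInv_int hFI hUH q F E ha ⟨k, by rw [← hk]; simp⟩
  let li : H2 (unitsRep F E) →+ AddCircle (1 : ℚ) := AddMonoidHom.mk' (localInv q F E) hadd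
  have hli : ∀ x, li x = localInv q F E x := fun _ => rfl
  refine ⟨hwd, fun x => (hex x).elim fun a ha => ⟨_, ha⟩, hadd, hinj, ?_, ?_, ?_⟩
  · intro x
    obtain ⟨a, ha⟩ := hex x
    rw [hwd _ _ ha, ← AddCircle.coe_nsmul, AddCircle.coe_eq_zero_iff]
    refine ⟨ordZ q F a, ?_⟩
    simp only [zsmul_eq_mul, mul_one, nsmul_eq_mul]
    field_simp
  · obtain ⟨ϖ, hϖ⟩ := (hO q F).2.2.2.1
    obtain ⟨u, hu⟩ := hall ϖ
    refine ⟨u, ?_⟩
    rw [IsFundClass, hwd _ _ hu, hϖ]
    congr 1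
    simp [one_div]
  · intro u hu
    rw [IsFundClass] at hu
    have hk : ∀ k : ℤ, localInv q F E (k • u) =
        (((k : ℚ) / (Module.finrank F E : ℚ) : ℚ) : AddCircle (1 : ℚ)) := by
      intro k
      rw [← hli, map_zsmul, hli, hu, ← AddCircle.coe_zsmul]
      congr 1
    constructor
    · intro x
      obtain ⟨a, ha⟩ := hex x
      refine ⟨ordZ q F a, ?_⟩
      apply sub_eq_zero.1
      apply hinj
      rw [← hli, map_sub, hli, hli, hk, hwd _ _ ha, sub_self]
    · intro k hk0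
      have := hk k
      rw [hk0, ← hli, map_zero] at this
      obtain ⟨m, hm⟩ := (AddCircle.coe_eq_zero_iff (p := (1 : ℚ))).1 this.symm
      refine ⟨m, ?_⟩
      have h2 : (k : ℚ) = (Module.finrank F E : ℚ) * m := by
        simp only [zsmul_eq_mul, mul_one] at hm
        rw [hm]
        field_simp
      exact_mod_cast h2

include hO hUS hUE hUC hUI hFF hFI hUH in
theorem invUnram : Plan.InvUnram := by
  intro q _ F E _ _ _ _ _ _ _ _ _ φ a y hu hφ hc
  apply localInv_eq hO hUS hUE hUC hUI hFF hFI hUH q F E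
  exact ⟨E, inferInstance, inferInstance, inferInstance, inferInstance, inferInstance,
    inferInstance, E, inferInstance, inferInstance, inferInstance, inferInstance, inferInstance,
    inferInstance, inferInstance, inferInstance, φ, a, y, hu, hφ, hc, rfl, rfl⟩

include hO hUS hUE hUC hUI hFF hFI hUH hBC hDvd in
theorem invInfl : Plan.InvInfl := by
  intro q _ F E L _ _ _ _ _ _ _ _ _ _ _ _ _ _ _ _ x
  haveI : CharZero F := charZero_of_padic q F
  haveI : FiniteDimensional F E := FiniteDimensional.left F E L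
  obtain ⟨-, hex, -⟩ := main_structure hO hUS hUE hUC hFF hFI hUH hBC hDvd q F E
  obtain ⟨a, ha⟩ := hex x
  rw [localInv_eq hO hUS hUE hUC hUI hFF hFI hUH q F E ha]
  apply localInv_eq hO hUS hUE hUC hUI hFF hFI hUH q F L
  obtain ⟨M₁, _, _, _, _, _, _, u₁⟩ := exists_uinv_of_hasInv q F E ha
  obtain ⟨M, _, _, _, _, _, tFE, tFL, tF1, tEL, tE1, fin, gal⟩ := exists_common_galois F E L M₁
  apply hasInv_of_uinv q F L M
  have := uinv_infl hFF q F M₁ M u₁
  rwa [← comp_hom_apply, hFF.2.2.1 F E M₁ M 2, ← hFF.2.2.1 F E L M 2, comp_hom_apply] at this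

include hO hUS hUE hUC hUI hFF hFI hUH hBC hDvd in
theorem invRes : Plan.InvRes := by
  intro q _ F E L _ _ _ _ _ _ _ _ _ _ _ _ _ _ _ _ _ x
  haveI : FiniteDimensional F E := FiniteDimensional.left F E L
  haveI : FiniteDimensional ℚ_[q] E := FiniteDimensional.trans ℚ_[q] F E
  obtain ⟨-, hex, -⟩ := main_structure hO hUS hUE hUC hFF hFI hUH hBC hDvd q F L
  obtain ⟨a, ha⟩ := hex x
  rw [localInv_eq hO hUS hUE hUC hUI hFF hFI hUH q F L ha, ← AddCircle.coe_nsmul]
  apply localInv_eq hO hUS hUE hUC hUI hFF hFI hUH q E L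
  obtain ⟨M, _, _, _, tFLM, _, _, E', _, _, _, _, _, _, _, _, φ, a', y, hu, hφ, hc, e, hr⟩ :=
    exists_uinv_of_hasInv q F L ha
  letI : Algebra E M := ((algebraMap L M).comp (algebraMap E L)).toAlgebra
  haveI tELM : IsScalarTower E L M := IsScalarTower.of_algebraMap_eq (fun _ => rfl)
  haveI tFEM : IsScalarTower F E M := IsScalarTower.of_algebraMap_eq (fun x => by
    change algebraMap F M x = algebraMap L M (algebraMap E L (algebraMap F E x))
    rw [← IsScalarTower.algebraMap_apply F E L, ← IsScalarTower.algebraMap_apply F L M])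
  haveI : FiniteDimensional E M := FiniteDimensional.right F E M
  haveI : IsGalois E M := IsGalois.tower_top_of_isGalois F E M
  apply hasInv_of_uinv q E L M
  have h1 := uinv_resH_inflH hUS hUC hFF hBC q F E E' M φ hu hφ a' y hc
  have h2 : (resH F E M 2).hom ((inflH F L M 2).hom x) =
      (inflH E L M 2).hom ((resH F E L 2).hom x) := by
    rw [← comp_hom_apply, ← comp_hom_apply, hFF.2.2.2.2.2.2 F L E L M 2,
      hFF.2.2.2.2.2.1 F E L 2]
  rw [← e, h2, ← hr] at h1
  convert h1 using 1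
  simp [nsmul_eq_mul]

end Provide

section BaseChange

variable (hFF : Plan.FieldFunct) (hII : Plan.InvInfl) (hIR : Plan.InvRes)

include hFF hII hIR in
theorem invBaseChange : Plan.InvBaseChange := by
  intro q _ F E F' E' _ _ _ _ _ _ _ _ _ _ _ _ _ _ _ _ _ _ _ _ _ _ x
  haveI : CharZero F := charZero_of_padic q F
  obtain ⟨L, _, _, _, tFE'L, fin, gal⟩ := exists_galois_closure F E'
  letI : Algebra E L := ((algebraMap E' L).comp (algebraMap E E')).toAlgebra
  letI : Algebra F' L := ((algebraMap E' L).comp (algebraMap F' E')).toAlgebra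
  haveI t1 : IsScalarTower E E' L := IsScalarTower.of_algebraMap_eq (fun _ => rfl)
  haveI t2 : IsScalarTower F' E' L := IsScalarTower.of_algebraMap_eq (fun _ => rfl)
  haveI t3 : IsScalarTower F E L := IsScalarTower.of_algebraMap_eq (fun x => by
    change algebraMap F L x = algebraMap E' L (algebraMap E E' (algebraMap F E x))
    rw [← IsScalarTower.algebraMap_apply F E E', ← IsScalarTower.algebraMap_apply F E' L])
  haveI t4 : IsScalarTower F F' L := IsScalarTower.of_algebraMap_eq (fun x => by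
    change algebraMap F L x = algebraMap E' L (algebraMap F' E' (algebraMap F F' x))
    rw [← IsScalarTower.algebraMap_apply F F' E', ← IsScalarTower.algebraMap_apply F E' L])
  letI : Algebra ℚ_[q] L := qAlg q F L
  haveI : IsScalarTower ℚ_[q] F L := qTower q F L
  haveI : IsScalarTower ℚ_[q] F' L := qTower_mid q F F' L
  haveI : FiniteDimensional F F' := FiniteDimensional.left F F' E'
  haveI : FiniteDimensional ℚ_[q] F' := FiniteDimensional.trans ℚ_[q] F F'
  haveI : FiniteDimensional F' L := FiniteDimensional.right F F' L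
  haveI : IsGalois F' L := IsGalois.tower_top_of_isGalois F F' L
  have sq := hFF.2.2.2.2.2.2 F E F' E' L 2
  have e1 := hIR q F F' L ((inflH F E L 2).hom x)
  rw [hII q F E L x, ← comp_hom_apply, sq, comp_hom_apply, hII q F' E' L] at e1
  exact e1

end BaseChange

end Fermat.Agent.CFT.Local.Inv
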