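import Mathlib
import Fermat.Agent.CFT.Local.Defs
import Fermat.Agent.CFT.Local.Plan
import Fermat.Agent.CFT.Local.Inv
import Fermat.Agent.CFT.Triv.ClassAt

/-!
# CFT program, layer Local: the local class module

`(Gal(E/F), Eˣ)` with a fundamental cocycle satisfies the class-module axioms at every subgroup
(`Plan.LocalClassAt`, and the same statement as `Triv.IsClassAt`), from `Plan.InvBasic` and
`Plan.InvRes`.
-/

set_option autoImplicit false
set_option linter.style.haveILetI false

namespace Fermat.Agent.CFT.Local.ClassAt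

open CategoryTheory groupCohomology Fermat.Agent.CFT.Local Fermat.Agent.CFT.Local.Inv

/-- The fixed field of a subgroup as an abstract field: the image of `Gal(E/K)` in `Gal(E/F)` is
the subgroup. -/
theorem exists_fixed_field (F E : Type) [Field F] [Field E] [Algebra F E] [FiniteDimensional F E]
    (H' : Subgroup (E ≃ₐ[F] E)) :
    ∃ (K : Type) (_ : Field K) (_ : Algebra F K) (_ : Algebra K E) (_ : IsScalarTower F K E),
      (AlgEquiv.restrictScalarsHom F : (E ≃ₐ[K] E) →* (E ≃ₐ[F] E)).range = H' := by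
  refine ⟨IntermediateField.fixedField H', inferInstance, inferInstance, inferInstance,
    inferInstance, ?_⟩
  conv_rhs => rw [← IntermediateField.fixingSubgroup_fixedField H']
  ext σ
  constructor
  · rintro ⟨γ, rfl⟩
    exact (IntermediateField.fixingSubgroupEquiv (IntermediateField.fixedField H')).symm γ |>.2
  · intro hσ
    exact ⟨IntermediateField.fixingSubgroupEquiv (IntermediateField.fixedField H') ⟨σ, hσ⟩, rfl⟩

/-- Transport of the class-module axioms: if `(G₂, C₂)` is identified with `(H, res_f C₁)`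
through a group isomorphism `e : G₂ ≃* H` and an additive bijection `φ : C₁ → C₂`, then Hilbert 90
for `C₂` and the fact that the transported cocycle generates `H²(G₂, C₂)` with order `|H|` give
`IsClassAt C₁ σ f`. -/
theorem isClassAt_transport {G₁ G₂ H : Type} [Group G₁] [Group G₂] [Group H]
    (C₁ : Rep.{0} ℤ G₁) (C₂ : Rep.{0} ℤ G₂) (σ : cocycles₂ C₁) (s : cocycles₂ C₂)
    (ι : G₂ →* G₁) (φ : C₁ →+ C₂) (ψ : C₂ →+ C₁) (hφψ : ∀ x, φ (ψ x) = x)
    (hψφ : ∀ x, ψ (φ x) = x) (hφ : ∀ γ x, φ (C₁.ρ (ι γ) x) = C₂.ρ γ (φ x))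
    (hs : ∀ γ δ, s (γ, δ) = φ (σ (ι γ, ι δ)))
    (f : H →* G₁) (e : G₂ ≃* H) (he : ∀ γ, f (e γ) = ι γ)
    (h1 : ∀ c : cocycles₁ C₂, (H1π C₂).hom c = 0)
    (hgen : ∀ x : H2 C₂, ∃ k : ℤ, x = k • (H2π C₂).hom s)
    (hord : ∀ k : ℤ, k • (H2π C₂).hom s = 0 → (Nat.card H : ℤ) ∣ k) :
    Triv.IsClassAt C₁ σ f := by
  have hinj : Function.Injective φ := fun x y h => by rw [← hψφ x, ← hψφ y, h]
  have he' : ∀ h, f h = ι (e.symm h) := fun h => by rw [← he, MulEquiv.apply_symm_apply]
  have hρ : ∀ (h : H) (x : C₁), φ ((Rep.res f C₁).ρ h x) = C₂.ρ (e.symm h) (φ x) := by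
    intro h x
    rw [Rep.coe_res_obj_ρ', he', hφ]
  have hρ' : ∀ (γ : G₂) (x : C₁), φ ((Rep.res f C₁).ρ (e γ) x) = C₂.ρ γ (φ x) := by
    intro γ x
    rw [hρ, MulEquiv.symm_apply_apply]
  refine ⟨?_, ?_, ?_⟩
  · intro c
    have hc' : (fun γ => φ (c (e γ))) ∈ cocycles₁ C₂ := by
      rw [mem_cocycles₁_def]
      intro γ δ
      have := (mem_cocycles₁_def (A := Rep.res f C₁) c).1 c.2 (e γ) (e δ)
      have h2 := congrArg φ this
      rw [map_add, map_sub, hρ', map_zero, ← map_mul] at h2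
      exact h2
    have h0 := h1 ⟨_, hc'⟩
    rw [H1π_eq_zero_iff] at h0
    obtain ⟨x, hx⟩ := h0
    refine ⟨ψ x, ?_⟩
    funext h
    apply hinj
    have h3 := congrFun hx (e.symm h)
    simp only [d₀₁_hom_apply] at h3 ⊢
    rw [map_sub, hρ, hφψ, h3]
    change φ (c (e (e.symm h))) = _
    rw [MulEquiv.apply_symm_apply]
  · intro τ
    have hτ' : (fun p : G₂ × G₂ => φ (τ (e p.1, e p.2))) ∈ cocycles₂ C₂ := by
      rw [mem_cocycles₂_def]
      intro γ δ ε
      have := (mem_cocycles₂_def (A := Rep.res f C₁) τ).1 τ.2 (e γ) (e δ) (e ε)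
      have h2 := congrArg φ this
      rw [map_sub, map_add, map_sub, hρ', map_zero, ← map_mul, ← map_mul] at h2
      exact h2
    obtain ⟨k, hk⟩ := hgen ((H2π C₂).hom ⟨_, hτ'⟩)
    have h0 : (H2π C₂).hom (⟨_, hτ'⟩ - k • s) = 0 := by
      rw [map_sub, map_zsmul, hk, sub_self]
    rw [H2π_eq_zero_iff] at h0
    obtain ⟨b', hb'⟩ := h0
    refine ⟨k, fun h => ψ (b' (e.symm h)), ?_⟩
    funext ⟨x, y⟩
    apply hinj
    have h3 := congrFun hb' (e.symm x, e.symm y)
    simp only [d₁₂_hom_apply] at h3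
    have h4 : ((⟨_, hτ'⟩ - k • s : cocycles₂ C₂) : G₂ × G₂ → C₂) (e.symm x, e.symm y) =
        φ (τ (x, y)) - k • φ (σ (f x, f y)) := by
      change φ (τ (e (e.symm x), e (e.symm y))) - k • s (e.symm x, e.symm y) = _
      rw [hs, MulEquiv.apply_symm_apply, MulEquiv.apply_symm_apply, ← he' x, ← he' y]
    rw [h4] at h3
    simp only [Pi.add_apply, Pi.smul_apply, Function.comp_apply, Prod.map_apply, d₁₂_hom_apply,
      map_add, map_sub, map_zsmul, hρ, hφψ, map_mul]
    rw [h3]
    abel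
  · rintro k ⟨b, hb⟩
    apply hord
    rw [← map_zsmul, H2π_eq_zero_iff]
    refine ⟨fun γ => φ (b (e γ)), ?_⟩
    funext ⟨γ, δ⟩
    have h3 := congrArg φ (congrFun hb (e γ, e δ))
    simp only [Pi.smul_apply, Function.comp_apply, Prod.map_apply, d₁₂_hom_apply, map_add,
      map_sub, map_zsmul, hρ', he, ← map_mul] at h3
    simp only [d₁₂_hom_apply]
    rw [← h3]
    change _ = k • s (γ, δ)
    rw [hs]

section Main

variable (hIB : Plan.InvBasic) (hIR : Plan.InvRes)

include hIB hIR in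
/-- The class-module axioms for `(Gal(E/F), Eˣ)` and a fundamental cocycle, at every injective
`f : H →* Gal(E/F)`. -/
theorem isClassAt (q : ℕ) [Fact q.Prime] (F E : Type) [Field F] [Field E] [Algebra ℚ_[q] F]
    [Algebra ℚ_[q] E] [Algebra F E] [IsScalarTower ℚ_[q] F E] [FiniteDimensional ℚ_[q] F]
    [FiniteDimensional F E] [IsGalois F E] (σ : cocycles₂ (unitsRep F E))
    (hσ : IsFundClass q F E ((H2π (unitsRep F E)).hom σ))
    (H : Type) [Group H] (f : H →* (E ≃ₐ[F] E)) (hf : Function.Injective f) :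
    Triv.IsClassAt (unitsRep F E) σ f := by
  obtain ⟨K, _, _, _, tFKE, hrange⟩ := exists_fixed_field F E f.range
  letI : Algebra ℚ_[q] K := qAlg q F K
  haveI : IsScalarTower ℚ_[q] F K := qTower q F K
  haveI : IsScalarTower ℚ_[q] K E := qTower_mid q F K E
  haveI : FiniteDimensional F K := FiniteDimensional.left F K E
  haveI : FiniteDimensional K E := FiniteDimensional.right F K E
  haveI : FiniteDimensional ℚ_[q] K := FiniteDimensional.trans ℚ_[q] F K
  haveI : IsGalois K E := IsGalois.tower_top_of_isGalois F K E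
  let ι : (E ≃ₐ[K] E) →* (E ≃ₐ[F] E) := AlgEquiv.restrictScalarsHom F
  have hι : Function.Injective ι := AlgEquiv.restrictScalarsHom_injective F
  let e : (E ≃ₐ[K] E) ≃* H :=
    (MonoidHom.ofInjective hι).trans
      ((MulEquiv.subgroupCongr hrange).trans (MonoidHom.ofInjective hf).symm)
  have he : ∀ γ, f (e γ) = ι γ := by
    intro γ
    change f ((MonoidHom.ofInjective hf).symm _) = ι γ
    rw [MonoidHom.apply_ofInjective_symm]
    rfl
  -- the fundamental class of `E/K`
  have hn : Module.finrank F K * Module.finrank K E = Module.finrank F E :=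
    Module.finrank_mul_finrank F K E
  have hfund : IsFundClass q K E ((resH F K E 2).hom ((H2π (unitsRep F E)).hom σ)) := by
    rw [IsFundClass, hIR q F K E, hσ, ← AddCircle.coe_nsmul]
    congr 1
    have h1 : (0 : ℚ) < (Module.finrank F K : ℚ) := by exact_mod_cast Module.finrank_pos
    have h2 : (0 : ℚ) < (Module.finrank K E : ℚ) := by exact_mod_cast Module.finrank_pos
    rw [← hn, nsmul_eq_mul]
    push_cast
    field_simp
  obtain ⟨hgen, hord⟩ := (hIB q K E).2.2.2.2.2.2 _ hfund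
  have hres : (resH F K E 2).hom ((H2π (unitsRep F E)).hom σ) =
      (H2π (unitsRep K E)).hom ((mapCocycles₂ ι (unitsResHom F K E)).hom σ) :=
    H2π_comp_map_apply ι (unitsResHom F K E) σ
  rw [hres] at hgen hord
  have hcard : Nat.card H = Module.finrank K E := by
    rw [← Nat.card_congr e.toEquiv, IsGalois.card_aut_eq_finrank]
  refine isClassAt_transport (unitsRep F E) (unitsRep K E) σ
    ((mapCocycles₂ ι (unitsResHom F K E)).hom σ) ι (AddMonoidHom.id (Additive Eˣ))
    (AddMonoidHom.id (Additive Eˣ)) (fun _ => rfl) (fun _ => rfl) (fun _ _ => rfl)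
    (fun _ _ => rfl) f e he (fun c => Subsingleton.elim _ _) hgen ?_
  intro k hk
  rw [hcard]
  exact hord k hk

include hIB hIR in
theorem localClassAt : Plan.LocalClassAt := by
  intro q _ F E _ _ _ _ _ _ _ _ _ σ hσ H _ f hf
  obtain ⟨h1, h2, h3⟩ := isClassAt hIB hIR q F E σ hσ H f hf
  exact ⟨h1, h2, h3⟩

end Main

end Fermat.Agent.CFT.Local.ClassAt
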