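import Mathlib
import Fermat.Agent.CFT.Local.Defs
import Fermat.Agent.CFT.Coh.InfRes2
import Fermat.Agent.CFT.Coh.ResCoresPlan

/-!
# CFT / Local : inflation and restriction for towers of fields

Pure field theory on top of the finite-group statements of the `Coh` layer
(`Coh/InfRes2.lean`, `Coh/ResCores.lean`) and Hilbert 90, for the Galois modules
`unitsRep F E = Eˣ` of `Local/Defs.lean`.
-/

set_option autoImplicit false

namespace Fermat.Agent.CFT.Local.FieldCoh

open CategoryTheory groupCohomology Fermat.Agent.CFT Fermat.Agent.CFT.Local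

section Restriction

variable (F E L : Type) [Field F] [Field E] [Field L] [Algebra F E] [Algebra E L] [Algebra F L]
  [IsScalarTower F E L]

/-- The subgroup of `Gal(L/F)` fixing the image of `E` pointwise. -/
def fixSub : Subgroup (L ≃ₐ[F] L) where
  carrier := {σ | ∀ e : E, σ (algebraMap E L e) = algebraMap E L e}
  mul_mem' := by
    intro a b ha hb e
    rw [AlgEquiv.mul_apply, hb e, ha e]
  one_mem' := fun e => rfl
  inv_mem' := by
    intro a ha e
    show a.symm (algebraMap E L e) = algebraMap E L e
    rw [AlgEquiv.symm_apply_eq]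
    exact (ha e).symm

variable {F E L} in
omit [Algebra F E] [IsScalarTower F E L] in
theorem mem_fixSub {σ : L ≃ₐ[F] L} :
    σ ∈ fixSub F E L ↔ ∀ e : E, σ (algebraMap E L e) = algebraMap E L e := Iff.rfl

/-- `Gal(L/E)` is the subgroup of `Gal(L/F)` fixing `E`. -/
def galEquivFix : (L ≃ₐ[E] L) ≃* fixSub F E L where
  toFun τ := ⟨τ.restrictScalars F, fun e => τ.commutes e⟩
  invFun σ := { (σ : L ≃ₐ[F] L) with commutes' := fun e => σ.2 e }
  left_inv τ := by ext x; rfl
  right_inv σ := by ext x; rfl
  map_mul' τ τ' := by ext x; rfl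

theorem galEquivFix_apply (τ : L ≃ₐ[E] L) :
    ((galEquivFix F E L τ : fixSub F E L) : L ≃ₐ[F] L) = τ.restrictScalars F := rfl

/-- The identity of `Lˣ`, as a morphism from the restriction to `fixSub` (pulled back to
`Gal(L/E)`) to the `Gal(L/E)`-module `Lˣ`. -/
noncomputable def fixHom :
    Rep.res ((galEquivFix F E L : (L ≃ₐ[E] L) ≃* fixSub F E L) : (L ≃ₐ[E] L) →* fixSub F E L)
      (Rep.res (fixSub F E L).subtype (unitsRep F L)) ⟶ unitsRep E L :=
  Rep.ofHom
    { toLinearMap := LinearMap.id
      isIntertwining' := fun σ => by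
        ext x
        rfl }

/-- The identity of `Lˣ`, in the other direction. -/
noncomputable def fixHomInv :
    Rep.res (((galEquivFix F E L).symm : fixSub F E L ≃* (L ≃ₐ[E] L)) : fixSub F E L →* (L ≃ₐ[E] L))
      (unitsRep E L) ⟶ Rep.res (fixSub F E L).subtype (unitsRep F L) :=
  Rep.ofHom
    { toLinearMap := LinearMap.id
      isIntertwining' := fun σ => by
        ext x
        rfl }

/-- The isomorphism `Hⁿ(fixSub, Lˣ) ≅ Hⁿ(Gal(L/E), Lˣ)`. -/
noncomputable def fixIso (n : ℕ) :
    groupCohomology (Rep.res (fixSub F E L).subtype (unitsRep F L)) n ≅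
      groupCohomology (unitsRep E L) n where
  hom := groupCohomology.map _ (fixHom F E L) n
  inv := groupCohomology.map _ (fixHomInv F E L) n
  hom_inv_id :=
    (map_comp _ _ (fixHom F E L) (fixHomInv F E L) n).symm.trans
      ((map_congr (by ext σ x; rfl) (by ext x; rfl) n).trans (map_id n))
  inv_hom_id :=
    (map_comp _ _ (fixHomInv F E L) (fixHom F E L) n).symm.trans
      ((map_congr (by ext σ x; rfl) (by ext x; rfl) n).trans (map_id n))

/-- Restriction to `Gal(L/E)` is restriction to the subgroup `fixSub`, followed by an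
isomorphism. -/
theorem resH_eq (n : ℕ) :
    resH F E L n = Coh.rest (unitsRep F L) (fixSub F E L) n ≫ (fixIso F E L n).hom :=
  (map_congr (by ext τ x; rfl) (by ext x; rfl) n).trans
    (map_comp (fixSub F E L).subtype _ (𝟙 _) (fixHom F E L) n)

theorem resH_apply_eq_zero_iff (n : ℕ) (x : groupCohomology (unitsRep F L) n) :
    (resH F E L n).hom x = 0 ↔ (Coh.rest (unitsRep F L) (fixSub F E L) n).hom x = 0 := by
  rw [resH_eq]
  constructor
  · intro h
    have h2 := congrArg (fixIso F E L n).inv.hom h
    simpa using h2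
  · intro h
    simp [h]

end Restriction

section ResKer

variable (F E L : Type) [Field F] [Field E] [Field L] [Algebra F E] [Algebra E L] [Algebra F L]
  [IsScalarTower F E L] [FiniteDimensional F L] [IsGalois F L]

/-- The index of `Gal(L/E)` in `Gal(L/F)` is `[E:F]`. -/
theorem index_fixSub : (fixSub F E L).index = Module.finrank F E := by
  have : FiniteDimensional E L := FiniteDimensional.right F E L
  have : FiniteDimensional F E := FiniteDimensional.left F E L
  have : IsGalois E L := IsGalois.tower_top_of_isGalois F E L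
  have h1 : Nat.card (fixSub F E L) = Module.finrank E L := by
    rw [← Nat.card_congr (galEquivFix F E L).toEquiv, IsGalois.card_aut_eq_finrank]
  have h2 := (fixSub F E L).index_mul_card
  rw [h1, IsGalois.card_aut_eq_finrank, ← Module.finrank_mul_finrank F E L] at h2
  exact Nat.eq_of_mul_eq_mul_right Module.finrank_pos h2

/-- **(b)** A class of `Hⁿ(Gal(L/F), Lˣ)` whose restriction to `Gal(L/E)` vanishes is killed
by `[E:F]`. -/
theorem finrank_nsmul_eq_zero_of_resH_eq_zero (n : ℕ) (x : groupCohomology (unitsRep F L) n)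
    (hx : (resH F E L n).hom x = 0) : Module.finrank F E • x = 0 := by
  have : FiniteDimensional F E := FiniteDimensional.left F E L
  have : (fixSub F E L).FiniteIndex :=
    ⟨by rw [index_fixSub]; exact Module.finrank_pos.ne'⟩
  rw [← index_fixSub F E L]
  exact Coh.ResCores.resKer_holds ℤ _ (unitsRep F L) (fixSub F E L) n x
    ((resH_apply_eq_zero_iff F E L n x).1 hx)

end ResKer

section Inflation

variable (F E L : Type) [Field F] [Field E] [Field L] [Algebra F E] [Algebra E L] [Algebra F L]
  [IsScalarTower F E L] [Normal F E]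

theorem fixSub_eq_ker :
    fixSub F E L = (AlgEquiv.restrictNormalHom (F := F) (K₁ := L) E).ker := by
  ext σ
  rw [mem_fixSub, MonoidHom.mem_ker]
  constructor
  · intro h
    ext e
    apply (algebraMap E L).injective
    show algebraMap E L (σ.restrictNormal E e) = algebraMap E L e
    rw [AlgEquiv.restrictNormal_commutes]
    exact h e
  · intro h e
    have h1 : σ.restrictNormal E = 1 := h
    rw [← AlgEquiv.restrictNormal_commutes σ E e, h1]
    rfl

instance fixSub_normal : (fixSub F E L).Normal := by
  rw [fixSub_eq_ker]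
  infer_instance

variable [Normal F L]

/-- `Gal(L/F) / Gal(L/E) ≃ Gal(E/F)`. -/
noncomputable def quotEquiv : (L ≃ₐ[F] L) ⧸ fixSub F E L ≃* (E ≃ₐ[F] E) :=
  (QuotientGroup.quotientMulEquivOfEq (fixSub_eq_ker F E L)).trans
    (QuotientGroup.quotientKerEquivOfSurjective _
      (AlgEquiv.restrictNormalHom_surjective (F := F) (K₁ := E) L))

theorem quotEquiv_mk (σ : L ≃ₐ[F] L) :
    quotEquiv F E L (QuotientGroup.mk σ) = AlgEquiv.restrictNormalHom (F := F) (K₁ := L) E σ :=
  rfl

end Inflation

section InflationGalois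

variable (F E L : Type) [Field F] [Field E] [Field L] [Algebra F E] [Algebra E L] [Algebra F L]
  [IsScalarTower F E L] [Normal F E] [FiniteDimensional F L] [IsGalois F L]

/-- The map `Eˣ → (Lˣ)^{Gal(L/E)}`. -/
noncomputable def toInvLin :
    (unitsRep F E).V →ₗ[ℤ] ((unitsRep F L).quotientToInvariants (fixSub F E L)).V :=
  LinearMap.codRestrict _
    ((MonoidHom.toAdditive (Units.map (algebraMap E L).toMonoidHom)).toIntLinearMap :
      Additive Eˣ →ₗ[ℤ] Additive Lˣ)
    (fun x => by
      rw [Representation.mem_invariants]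
      rintro ⟨σ, hσ⟩
      apply Additive.toMul.injective
      apply Units.ext
      exact hσ ((Additive.toMul x : Eˣ) : E))

omit [FiniteDimensional F L] [IsGalois F L] in
theorem toInvLin_apply (x : (unitsRep F E).V) :
    ((toInvLin F E L x : ((unitsRep F L).quotientToInvariants (fixSub F E L)).V) :
        (unitsRep F L).V) =
      Additive.ofMul (Units.map (algebraMap E L).toMonoidHom (Additive.toMul x)) := rfl

theorem toInvLin_bijective : Function.Bijective (toInvLin F E L) := by
  have : FiniteDimensional E L := FiniteDimensional.right F E L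
  have : IsGalois E L := IsGalois.tower_top_of_isGalois F E L
  constructor
  · intro x y hxy
    have h1 := congrArg Subtype.val hxy
    rw [toInvLin_apply, toInvLin_apply] at h1
    have h2 := Units.map_injective (f := (algebraMap E L).toMonoidHom)
      (algebraMap E L).injective (Additive.ofMul.injective h1)
    exact Additive.toMul.injective h2
  · rintro ⟨y, hy⟩
    rw [Representation.mem_invariants] at hy
    -- `y` is fixed by `Gal(L/E)`
    have hfix : ∀ τ : L ≃ₐ[E] L, τ ((Additive.toMul y : Lˣ) : L) = ((Additive.toMul y : Lˣ) : L) := by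
      intro τ
      have h1 := hy (galEquivFix F E L τ)
      have h2 := congrArg (fun z : Additive Lˣ => ((Additive.toMul z : Lˣ) : L)) h1
      exact h2
    obtain ⟨e, he⟩ := (IsGalois.mem_range_algebraMap_iff_fixed (F := E) (E := L) _).2 hfix
    have he0 : e ≠ 0 := by
      rintro rfl
      rw [map_zero] at he
      exact (Additive.toMul y : Lˣ).ne_zero he.symm
    refine ⟨(Additive.ofMul (Units.mk0 e he0) : Additive Eˣ), Subtype.ext ?_⟩
    show Additive.ofMul (Units.map (algebraMap E L).toMonoidHom (Units.mk0 e he0)) = y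
    apply Additive.toMul.injective
    apply Units.ext
    exact he

/-- The isomorphism `Eˣ ≃ (Lˣ)^{Gal(L/E)}`. -/
noncomputable def toInvEquiv :
    (unitsRep F E).V ≃ₗ[ℤ] ((unitsRep F L).quotientToInvariants (fixSub F E L)).V :=
  LinearEquiv.ofBijective (toInvLin F E L) (toInvLin_bijective F E L)

theorem toInvEquiv_comm (g : E ≃ₐ[F] E) :
    (toInvEquiv F E L).toLinearMap ∘ₗ (unitsRep F E).ρ g =
      ((unitsRep F L).quotientToInvariants (fixSub F E L)).ρ ((quotEquiv F E L).symm g) ∘ₗ
        (toInvEquiv F E L).toLinearMap := by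
  obtain ⟨q, rfl⟩ := (quotEquiv F E L).surjective g
  rw [MulEquiv.symm_apply_apply]
  induction q using QuotientGroup.induction_on with | H σ =>
  apply LinearMap.ext
  intro x
  apply Subtype.ext
  apply Additive.toMul.injective
  apply Units.ext
  show algebraMap E L (σ.restrictNormal E ((Additive.toMul x : Eˣ) : E)) =
    σ (algebraMap E L ((Additive.toMul x : Eˣ) : E))
  exact AlgEquiv.restrictNormal_commutes σ E _

/-- `Hⁿ(Gal(E/F), Eˣ) ≅ Hⁿ(Gal(L/F)/Gal(L/E), (Lˣ)^{Gal(L/E)})`. -/
noncomputable def quotIso (n : ℕ) :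
    groupCohomology (unitsRep F E) n ≅
      groupCohomology ((unitsRep F L).quotientToInvariants (fixSub F E L)) n :=
  mapIso (A := (unitsRep F L).quotientToInvariants (fixSub F E L)) (B := unitsRep F E)
    (quotEquiv F E L).symm (toInvEquiv F E L) (toInvEquiv_comm F E L) n

/-- Inflation from `Gal(E/F)` is an isomorphism followed by the inflation of the `Coh` layer. -/
theorem inflH_eq (n : ℕ) :
    inflH F E L n = (quotIso F E L n).hom ≫ Coh.infl (unitsRep F L) (fixSub F E L) n :=
  (map_congr (by ext σ x; rfl) (by ext x; rfl) n).trans (map_comp _ _ _ _ n)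

end InflationGalois

section Hilbert90

variable (F E L : Type) [Field F] [Field E] [Field L] [Algebra F E] [Algebra E L] [Algebra F L]
  [IsScalarTower F E L] [FiniteDimensional E L]

/-- **Hilbert 90** for the subgroup `fixSub = Gal(L/E)` of `Gal(L/F)`, in cocycle form. -/
theorem h1_fixSub :
    ∀ c : cocycles₁ (Rep.res (fixSub F E L).subtype (unitsRep F L)),
      ⇑c ∈ coboundaries₁ (Rep.res (fixSub F E L).subtype (unitsRep F L)) := by
  intro c
  have hc := (mem_cocycles₁_iff (A := Rep.res (fixSub F E L).subtype (unitsRep F L)) c).1 c.2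
  let f : (L ≃ₐ[E] L) → Lˣ := fun τ => Additive.toMul (c (galEquivFix F E L τ))
  have hf : IsMulCocycle₁ f := by
    intro g h
    have h1 := hc (galEquivFix F E L g) (galEquivFix F E L h)
    rw [← map_mul] at h1
    exact congrArg Additive.toMul h1
  obtain ⟨β, hβ⟩ := isMulCoboundary₁_of_isMulCocycle₁_of_aut_to_units f hf
  refine ⟨(Additive.ofMul β : Additive Lˣ), ?_⟩
  funext n
  have h1 := hβ ((galEquivFix F E L).symm n)
  have h2 : f ((galEquivFix F E L).symm n) = Additive.toMul (c n) := by
    show Additive.toMul (c (galEquivFix F E L ((galEquivFix F E L).symm n))) = _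
    rw [MulEquiv.apply_symm_apply]
  rw [h2] at h1
  apply Additive.toMul.injective
  rw [← h1]
  rfl

end Hilbert90

section Main

variable (F E L : Type) [Field F] [Field E] [Field L] [Algebra F E] [Algebra E L] [Algebra F L]
  [IsScalarTower F E L] [Normal F E] [FiniteDimensional F L] [IsGalois F L]

/-- **(a1)** Inflation `H²(Gal(E/F), Eˣ) ⟶ H²(Gal(L/F), Lˣ)` is injective. -/
theorem inflH_two_injective : Function.Injective (inflH F E L 2).hom := by
  have : FiniteDimensional E L := FiniteDimensional.right F E L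
  have h1 := Coh.infTwo_injective_of_cocycles (unitsRep F L) (fixSub F E L) (h1_fixSub F E L)
  intro x y hxy
  rw [inflH_eq] at hxy
  have h2 : (quotIso F E L 2).hom.hom x = (quotIso F E L 2).hom.hom y := h1 hxy
  have h3 := congrArg (quotIso F E L 2).inv.hom h2
  simpa using h3

/-- **(a2)** A class of `H²(Gal(L/F), Lˣ)` whose restriction to `Gal(L/E)` vanishes is
inflated from `Gal(E/F)`. -/
theorem exists_inflH_eq_of_resH_eq_zero (x : H2 (unitsRep F L))
    (hx : (resH F E L 2).hom x = 0) : ∃ y : H2 (unitsRep F E), (inflH F E L 2).hom y = x := by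
  have : FiniteDimensional E L := FiniteDimensional.right F E L
  have hx' := (resH_apply_eq_zero_iff F E L 2 x).1 hx
  obtain ⟨y, hy⟩ := Coh.exists_inf_eq_of_res_eq_zero_of_cocycles (unitsRep F L) (fixSub F E L)
    (h1_fixSub F E L) x hx'
  refine ⟨(quotIso F E L 2).inv.hom y, ?_⟩
  rw [inflH_eq]
  have h2 : (quotIso F E L 2).hom.hom ((quotIso F E L 2).inv.hom y) = y := by simp
  show (Coh.infl (unitsRep F L) (fixSub F E L) 2).hom
    ((quotIso F E L 2).hom.hom ((quotIso F E L 2).inv.hom y)) = x
  rw [h2]
  exact hy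

/-- **(a3)** Restriction to `Gal(L/E)` kills the classes inflated from `Gal(E/F)`. -/
theorem resH_inflH_apply (y : H2 (unitsRep F E)) :
    (resH F E L 2).hom ((inflH F E L 2).hom y) = 0 := by
  rw [resH_apply_eq_zero_iff, inflH_eq]
  exact Coh.resTwo_infTwo_apply (unitsRep F L) (fixSub F E L) ((quotIso F E L 2).hom.hom y)

/-- **(a)** Exactness of `0 → H²(E/F) → H²(L/F) → H²(L/E)`. -/
theorem resH_eq_zero_iff (x : H2 (unitsRep F L)) :
    (resH F E L 2).hom x = 0 ↔ ∃ y : H2 (unitsRep F E), (inflH F E L 2).hom y = x :=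
  ⟨exists_inflH_eq_of_resH_eq_zero F E L x, fun ⟨y, hy⟩ => hy ▸ resH_inflH_apply F E L y⟩

/-- **(a)**, kernel/range form. -/
theorem ker_resH_eq_range_inflH :
    LinearMap.ker (resH F E L 2).hom = LinearMap.range (inflH F E L 2).hom := by
  ext x
  rw [LinearMap.mem_ker, LinearMap.mem_range]
  exact resH_eq_zero_iff F E L x

end Main

section Functoriality

/-- Composition of two `groupCohomology.map`s, with the composite given explicitly. -/
theorem map_comp_of_eq {k : Type} [CommRing k] {G H K : Type} [Group G] [Group H] [Group K]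
    {A : Rep.{0} k K} {B : Rep.{0} k H} {C : Rep.{0} k G} (f : H →* K) (g : G →* H)
    (φ : Rep.res f A ⟶ B) (ψ : Rep.res g B ⟶ C) (h : G →* K) (χ : Rep.res h A ⟶ C)
    (hh : ∀ x, h x = f (g x)) (hχ : ∀ a : A.V, χ.hom a = ψ.hom (φ.hom a)) (n : ℕ) :
    groupCohomology.map f φ n ≫ groupCohomology.map g ψ n = groupCohomology.map h χ n := by
  have hfg : f.comp g = h := MonoidHom.ext fun x => (hh x).symm
  subst hfg
  refine (map_comp f g φ ψ n).symm.trans (map_congr rfl ?_ n)
  apply LinearMap.ext
  intro a
  exact (hχ a).symm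

/-- **(c1)** Transitivity of inflation. -/
theorem inflH_comp (F E₀ E L : Type) [Field F] [Field E₀] [Field E] [Field L]
    [Algebra F E₀] [Algebra F E] [Algebra F L] [Algebra E₀ E] [Algebra E₀ L] [Algebra E L]
    [IsScalarTower F E₀ E] [IsScalarTower F E₀ L] [IsScalarTower F E L] [IsScalarTower E₀ E L]
    [Normal F E₀] [Normal F E] (n : ℕ) :
    inflH F E₀ E n ≫ inflH F E L n = inflH F E₀ L n := by
  refine map_comp_of_eq _ _ _ _ _ _ (fun σ => ?_) (fun a => ?_) n
  · exact congrFun (congrArg DFunLike.coe
      (IsScalarTower.AlgEquiv.restrictNormalHom_comp F E₀ E L)) σ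
  · apply Additive.toMul.injective
    apply Units.ext
    exact IsScalarTower.algebraMap_apply E₀ E L _

/-- **(c2)** Transitivity of restriction. -/
theorem resH_comp (F E E' L : Type) [Field F] [Field E] [Field E'] [Field L]
    [Algebra F E] [Algebra E E'] [Algebra E' L] [Algebra F L] [Algebra E L] [Algebra F E']
    [IsScalarTower F E L] [IsScalarTower E E' L] [IsScalarTower F E' L] (n : ℕ) :
    resH F E L n ≫ resH E E' L n = resH F E' L n := by
  refine map_comp_of_eq _ _ _ _ _ _ (fun σ => ?_) (fun a => ?_) n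
  · ext x; rfl
  · rfl

/-- Inflation from `E` to `E` is the identity. -/
theorem inflH_self (F E : Type) [Field F] [Field E] [Algebra F E] [Normal F E] (n : ℕ) :
    inflH F E E n = 𝟙 _ := by
  refine (map_congr (AlgEquiv.restrictNormalHom_id F E) ?_ n).trans (map_id n)
  apply LinearMap.ext
  intro a
  apply Additive.toMul.injective
  apply Units.ext
  rfl

/-- Restriction from `F` to `F` is the identity. -/
theorem resH_self (F L : Type) [Field F] [Field L] [Algebra F L] (n : ℕ) :
    resH F F L n = 𝟙 _ := by
  refine (map_congr ?_ ?_ n).trans (map_id n)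
  · ext σ x; rfl
  · rfl

/-- Base change along `F ⊆ E ⊆ M`, `F ⊆ F' ⊆ M` is inflation followed by restriction. -/
theorem inflH_resH_eq_bcH (F E F' M : Type) [Field F] [Field E] [Field F'] [Field M]
    [Algebra F E] [Algebra F F'] [Algebra F' M] [Algebra E M] [Algebra F M]
    [IsScalarTower F E M] [IsScalarTower F F' M] [Normal F E] (n : ℕ) :
    inflH F E M n ≫ resH F F' M n = bcH F E F' M n :=
  map_comp_of_eq _ _ _ _ _ _ (fun _ => rfl) (fun _ => rfl) n

/-- Base change followed by inflation is base change. -/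
theorem bcH_inflH (F E F' E' L : Type) [Field F] [Field E] [Field F'] [Field E'] [Field L]
    [Algebra F E] [Algebra F F'] [Algebra F' E'] [Algebra E E'] [Algebra F E']
    [IsScalarTower F E E'] [IsScalarTower F F' E'] [Normal F E]
    [Algebra E' L] [Algebra F L] [Algebra E L] [Algebra F' L]
    [IsScalarTower F E L] [IsScalarTower F F' L] [IsScalarTower F' E' L] [IsScalarTower E E' L]
    [Normal F' E'] (n : ℕ) :
    bcH F E F' E' n ≫ inflH F' E' L n = bcH F E F' L n := by
  refine map_comp_of_eq _ _ _ _ _ _ (fun σ => ?_) (fun a => ?_) n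
  · apply AlgEquiv.ext
    intro e
    apply (algebraMap E L).injective
    show algebraMap E L (AlgEquiv.restrictNormal (σ.restrictScalars F) E e) =
      algebraMap E L (AlgEquiv.restrictNormal
        ((AlgEquiv.restrictNormal σ E').restrictScalars F) E e)
    rw [AlgEquiv.restrictNormal_commutes, IsScalarTower.algebraMap_apply E E' L,
      IsScalarTower.algebraMap_apply E E' L, AlgEquiv.restrictNormal_commutes]
    show σ _ = algebraMap E' L (AlgEquiv.restrictNormal σ E' (algebraMap E E' e))
    rw [AlgEquiv.restrictNormal_commutes]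
  · apply Additive.toMul.injective
    apply Units.ext
    exact IsScalarTower.algebraMap_apply E E' L _

/-- Base change with `F' = F` is inflation. -/
theorem bcH_eq_inflH (F E L : Type) [Field F] [Field E] [Field L] [Algebra F E] [Algebra E L]
    [Algebra F L] [IsScalarTower F E L] [Normal F E] (n : ℕ) :
    bcH F E F L n = inflH F E L n :=
  map_congr (by ext σ x; rfl) rfl n

/-- Base change with `E' = E` is restriction. -/
theorem bcH_eq_resH (F E L : Type) [Field F] [Field E] [Field L] [Algebra F E] [Algebra E L]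
    [Algebra F L] [IsScalarTower F E L] [Normal F L] (n : ℕ) :
    bcH F L E L n = resH F E L n := by
  refine map_congr ?_ ?_ n
  · ext σ x
    show (AlgEquiv.restrictNormal (σ.restrictScalars F) L) x = σ x
    exact AlgEquiv.restrictNormal_commutes (σ.restrictScalars F) L x
  · apply LinearMap.ext
    intro a
    apply Additive.toMul.injective
    apply Units.ext
    rfl

/-- **(c3)** The square law: inflation commutes with restriction. -/
theorem inflH_resH (F E F' E' L : Type) [Field F] [Field E] [Field F'] [Field E'] [Field L]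
    [Algebra F E] [Algebra F F'] [Algebra F' E'] [Algebra E E'] [Algebra F E']
    [IsScalarTower F E E'] [IsScalarTower F F' E'] [Normal F E]
    [Algebra E' L] [Algebra F L] [Algebra E L] [Algebra F' L]
    [IsScalarTower F E L] [IsScalarTower F F' L] [IsScalarTower F' E' L] [IsScalarTower E E' L]
    [Normal F' E'] (n : ℕ) :
    inflH F E L n ≫ resH F F' L n = bcH F E F' E' n ≫ inflH F' E' L n := by
  rw [inflH_resH_eq_bcH, bcH_inflH]

end Functoriality

section Card

variable (F E L : Type) [Field F] [Field E] [Field L] [Algebra F E] [Algebra E L] [Algebra F L]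
  [IsScalarTower F E L] [Normal F E] [FiniteDimensional F L] [IsGalois F L]

/-- **Counting form of (a).** `|H²(L/F)| ≤ |H²(E/F)| · |H²(L/E)|`, with finiteness. -/
theorem card_H2_le [Finite (H2 (unitsRep F E))] [Finite (H2 (unitsRep E L))] :
    Finite (H2 (unitsRep F L)) ∧
      Nat.card (H2 (unitsRep F L)) ≤
        Nat.card (H2 (unitsRep F E)) * Nat.card (H2 (unitsRep E L)) := by
  let r : H2 (unitsRep F L) →+ H2 (unitsRep E L) := (resH F E L 2).hom.toAddMonoidHom
  let K : AddSubgroup (H2 (unitsRep F L)) := r.ker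
  -- the kernel is the image of inflation
  have hK : ∀ x : K, ∃ y : H2 (unitsRep F E), (inflH F E L 2).hom y = (x : H2 (unitsRep F L)) :=
    fun x => exists_inflH_eq_of_resH_eq_zero F E L x.1 x.2
  let p : H2 (unitsRep F E) → K := fun y =>
    ⟨(inflH F E L 2).hom y, resH_inflH_apply F E L y⟩
  have hp : Function.Surjective p := by
    intro x
    obtain ⟨y, hy⟩ := hK x
    exact ⟨y, Subtype.ext hy⟩
  have hKfin : Finite K := Finite.of_surjective p hp
  have hKcard : Nat.card K ≤ Nat.card (H2 (unitsRep F E)) := Nat.card_le_card_of_surjective p hp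
  -- the quotient embeds into `H²(L/E)`
  let e := QuotientAddGroup.quotientKerEquivRange r
  have hQfin : Finite (H2 (unitsRep F L) ⧸ K) := Finite.of_equiv _ e.symm.toEquiv
  have hQcard : Nat.card (H2 (unitsRep F L) ⧸ K) ≤ Nat.card (H2 (unitsRep E L)) := by
    rw [Nat.card_congr e.toEquiv]
    exact Nat.card_le_card_of_injective _ Subtype.val_injective
  have hfin : Finite (H2 (unitsRep F L)) :=
    Finite.of_equiv _ (AddSubgroup.addGroupEquivQuotientProdAddSubgroup (s := K)).symm
  refine ⟨hfin, ?_⟩
  rw [AddSubgroup.card_eq_card_quotient_mul_card_addSubgroup K, mul_comm]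
  exact Nat.mul_le_mul hKcard hQcard

end Card

/-! ## The statements in the shape of `Local/Plan.lean` -/

section PlanShape

/-- Verbatim body of `Plan.FieldInfRes`. -/
theorem fieldInfRes_holds :
    ∀ (F E L : Type) [Field F] [Field E] [Field L] [Algebra F E] [Algebra E L] [Algebra F L]
      [IsScalarTower F E L] [FiniteDimensional F L] [IsGalois F E] [IsGalois F L],
      Function.Injective (inflH F E L 2).hom ∧
      (∀ y, (resH F E L 2).hom ((inflH F E L 2).hom y) = 0) ∧
      (∀ x, (resH F E L 2).hom x = 0 → ∃ y, (inflH F E L 2).hom y = x) := by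
  intro F E L _ _ _ _ _ _ _ _ _ _
  exact ⟨inflH_two_injective F E L, resH_inflH_apply F E L,
    exists_inflH_eq_of_resH_eq_zero F E L⟩

/-- Verbatim body of `Plan.FieldFunct`. -/
theorem fieldFunct_holds :
    (∀ (F E : Type) [Field F] [Field E] [Algebra F E] [Normal F E] (n : ℕ),
      inflH F E E n = 𝟙 _) ∧
    (∀ (F L : Type) [Field F] [Field L] [Algebra F L] (n : ℕ), resH F F L n = 𝟙 _) ∧
    (∀ (F E L M : Type) [Field F] [Field E] [Field L] [Field M] [Algebra F E] [Algebra F L]
      [Algebra F M] [Algebra E L] [Algebra L M] [Algebra E M] [IsScalarTower F E L]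
      [IsScalarTower F L M] [IsScalarTower F E M] [IsScalarTower E L M] [Normal F E] [Normal F L]
      (n : ℕ), inflH F E L n ≫ inflH F L M n = inflH F E M n) ∧
    (∀ (F E K L : Type) [Field F] [Field E] [Field K] [Field L] [Algebra F E] [Algebra E K]
      [Algebra F K] [Algebra K L] [Algebra E L] [Algebra F L] [IsScalarTower F E L]
      [IsScalarTower E K L] [IsScalarTower F K L] [IsScalarTower F E K]
      (n : ℕ), resH F E L n ≫ resH E K L n = resH F K L n) ∧
    (∀ (F E L : Type) [Field F] [Field E] [Field L] [Algebra F E] [Algebra E L] [Algebra F L]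
      [IsScalarTower F E L] [Normal F E] (n : ℕ), bcH F E F L n = inflH F E L n) ∧
    (∀ (F E L : Type) [Field F] [Field E] [Field L] [Algebra F E] [Algebra E L] [Algebra F L]
      [IsScalarTower F E L] [Normal F L] (n : ℕ), bcH F L E L n = resH F E L n) ∧
    (∀ (F E F' E' L : Type) [Field F] [Field E] [Field F'] [Field E'] [Field L]
      [Algebra F E] [Algebra F F'] [Algebra F' E'] [Algebra E E'] [Algebra F E']
      [IsScalarTower F E E'] [IsScalarTower F F' E'] [Normal F E]
      [Algebra E' L] [Algebra F L] [Algebra E L] [Algebra F' L]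
      [IsScalarTower F E L] [IsScalarTower F F' L] [IsScalarTower F' E' L] [IsScalarTower E E' L]
      [Normal F' E'] (n : ℕ),
      inflH F E L n ≫ resH F F' L n = bcH F E F' E' n ≫ inflH F' E' L n) := by
  refine ⟨?_, ?_, ?_, ?_, ?_, ?_, ?_⟩
  · intro F E _ _ _ _ n
    exact inflH_self F E n
  · intro F L _ _ _ n
    exact resH_self F L n
  · intro F E L M _ _ _ _ _ _ _ _ _ _ _ _ _ _ _ _ n
    exact inflH_comp F E L M n
  · intro F E K L _ _ _ _ _ _ _ _ _ _ _ _ _ _ n
    exact resH_comp F E K L n
  · intro F E L _ _ _ _ _ _ _ _ n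
    exact bcH_eq_inflH F E L n
  · intro F E L _ _ _ _ _ _ _ _ n
    exact bcH_eq_resH F E L n
  · intro F E F' E' L _ _ _ _ _ _ _ _ _ _ _ _ _ _ _ _ _ _ _ _ _ _ n
    exact inflH_resH F E F' E' L n

end PlanShape

end Fermat.Agent.CFT.Local.FieldCoh
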