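import Mathlib
import Fermat.Agent.CFT.Local.Plan
import Fermat.Agent.CFT.Local.FieldCoh

/-!
# `Plan.FieldInfRes` and `Plan.FieldFunct` (unconditional)

The two field-cohomology contract props of `Local/Plan.lean`, proved in `Local/FieldCoh.lean`
(inflation–restriction in degree `2` via Hilbert 90; functoriality of inflation, restriction
and base change).
-/

namespace Fermat.Agent.CFT.Local.FieldCoh

/-- **`Plan.FieldInfRes`** (no hypotheses). -/
theorem fieldInfRes : Plan.FieldInfRes := fieldInfRes_holds

/-- **`Plan.FieldFunct`** (no hypotheses). -/
theorem fieldFunct : Plan.FieldFunct := fieldFunct_holds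

end Fermat.Agent.CFT.Local.FieldCoh
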