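import Fermat.Agent.CFT.Local.Defs
import Fermat.Agent.CFT.Coh.CyclicPlan

/-!
# CFT program, layer Local: the cyclic `2`-classes of a cyclic Galois extension

Pure field theory on top of `Coh/Cyclic.lean`.  For a finite Galois extension `E/F` whose Galois
group is generated by `φ` we define the additive map

`cycClass F E φ hφ : Additive Fˣ →+ H²(Gal(E/F), Eˣ)`,  `a ↦ [Coh.cyc₂ φ a]`

and prove: it is onto, its kernel is the norm group `N(Eˣ)`, `IsUnramClass F E φ a y` means
`y = cycClass a`, and its behaviour under inflation, restriction after inflation and base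
change (`bcH`).
-/

set_option autoImplicit false

namespace Fermat.Agent.CFT.Local.CycClass

open CategoryTheory groupCohomology Fermat.Agent.CFT.Local Fermat.Agent.CFT

section Basic

variable (F E : Type) [Field F] [Field E] [Algebra F E]

/-- The image of `a ∈ Fˣ` in the module `Eˣ`. -/
noncomputable def baseUnit (a : Fˣ) : (unitsRep F E).V :=
  Additive.ofMul (Units.map (algebraMap F E).toMonoidHom a)

lemma baseUnit_mul (a b : Fˣ) : baseUnit F E (a * b) = baseUnit F E a + baseUnit F E b := by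
  simp only [baseUnit, map_mul]
  rfl

lemma baseUnit_pow (a : Fˣ) (m : ℕ) : baseUnit F E (a ^ m) = m • baseUnit F E a := by
  simp only [baseUnit, map_pow]
  rfl

lemma baseUnit_mem_invariants (a : Fˣ) : baseUnit F E a ∈ (unitsRep F E).ρ.invariants := by
  intro g
  show Additive.ofMul (g • (Units.map (algebraMap F E).toMonoidHom a)) = _
  congr 1
  ext
  simp [AlgEquiv.smul_units_def]

end Basic

section Galois

variable (F E : Type) [Field F] [Field E] [Algebra F E] [FiniteDimensional F E] [IsGalois F E]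

/-- For a Galois extension the invariants of `Eˣ` are exactly the image of `Fˣ`. -/
lemma exists_baseUnit_of_mem_invariants (x : (unitsRep F E).V)
    (hx : x ∈ (unitsRep F E).ρ.invariants) : ∃ a : Fˣ, baseUnit F E a = x := by
  have hfix : ∀ g : E ≃ₐ[F] E, g ((Additive.toMul x : Eˣ) : E) = ((Additive.toMul x : Eˣ) : E) := by
    intro g
    have h := hx g
    have h2 : (g • (Additive.toMul x : Eˣ)) = (Additive.toMul x : Eˣ) :=
      congrArg Additive.toMul h
    have h3 := congrArg (fun u : Eˣ => (u : E)) h2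
    simpa [AlgEquiv.smul_units_def] using h3
  obtain ⟨a, ha⟩ := (IsGalois.mem_range_algebraMap_iff_fixed
    ((Additive.toMul x : Eˣ) : E)).2 hfix
  have ha0 : a ≠ 0 := by
    rintro rfl
    rw [map_zero] at ha
    exact (Additive.toMul x : Eˣ).ne_zero ha.symm
  refine ⟨Units.mk0 a ha0, ?_⟩
  have key : Units.map (algebraMap F E).toMonoidHom (Units.mk0 a ha0) = (Additive.toMul x : Eˣ) :=
    Units.ext (by simpa using ha)
  exact (congrArg Additive.ofMul key).trans (ofMul_toMul x)

variable {F E}

/-- The class of the cyclic cocycle of `a ∈ Fˣ`, as an additive map. -/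
noncomputable def cycClass (φ : E ≃ₐ[F] E) (hφ : ∀ σ, σ ∈ Subgroup.zpowers φ) :
    Additive Fˣ →+ H2 (unitsRep F E) where
  toFun a := Cyclic.H2ofInv (unitsRep F E) φ hφ
    ⟨baseUnit F E (Additive.toMul a), baseUnit_mem_invariants F E _⟩
  map_zero' := by
    have h : (⟨baseUnit F E (Additive.toMul (0 : Additive Fˣ)), baseUnit_mem_invariants F E _⟩ :
        (unitsRep F E).ρ.invariants) = 0 := by
      apply Subtype.ext
      show baseUnit F E 1 = 0
      simp only [baseUnit, map_one]
      rfl
    rw [h, map_zero]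
  map_add' a b := by
    rw [← map_add]
    congr 1
    apply Subtype.ext
    exact baseUnit_mul F E _ _

omit [IsGalois F E] in
lemma cycClass_apply (φ : E ≃ₐ[F] E) (hφ : ∀ σ, σ ∈ Subgroup.zpowers φ) (a : Fˣ) :
    cycClass φ hφ (Additive.ofMul a) = Cyclic.H2ofInv (unitsRep F E) φ hφ
      ⟨baseUnit F E a, baseUnit_mem_invariants F E a⟩ := rfl

omit [IsGalois F E] in
/-- `IsUnramClass F E φ a y` says `y = cycClass φ a`. -/
theorem isUnramClass_iff (φ : E ≃ₐ[F] E) (hφ : ∀ σ, σ ∈ Subgroup.zpowers φ) (a : Fˣ)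
    (y : H2 (unitsRep F E)) :
    IsUnramClass F E φ a y ↔ y = cycClass φ hφ (Additive.ofMul a) := by
  have hc : Coh.cyc₂ φ (unitsRep F E) (baseUnit F E a) =
      Cyclic.stdCochain₂ (unitsRep F E) φ (baseUnit F E a) :=
    Cyclic.cyc₂_eq_stdCochain₂ (unitsRep F E) hφ _
  constructor
  · rintro ⟨h, rfl⟩
    rw [cycClass_apply]
    show (H2π (unitsRep F E)).hom _ = (H2π (unitsRep F E)).hom _
    congr 1
    apply Subtype.ext
    exact hc
  · rintro rfl
    refine ⟨?_, ?_⟩
    · show Coh.cyc₂ φ (unitsRep F E) (baseUnit F E a) ∈ _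
      rw [hc]
      exact Cyclic.stdCochain₂_mem_cocycles₂ (unitsRep F E) hφ
        ⟨baseUnit F E a, baseUnit_mem_invariants F E a⟩
    · rw [cycClass_apply]
      show (H2π (unitsRep F E)).hom _ = (H2π (unitsRep F E)).hom _
      congr 1
      apply Subtype.ext
      exact hc

omit [IsGalois F E] in
theorem isUnramClass_cycClass (φ : E ≃ₐ[F] E) (hφ : ∀ σ, σ ∈ Subgroup.zpowers φ) (a : Fˣ) :
    IsUnramClass F E φ a (cycClass φ hφ (Additive.ofMul a)) :=
  (isUnramClass_iff φ hφ a _).2 rfl

/-- Every class in `H²(Gal(E/F), Eˣ)` of a cyclic extension is a cyclic class. -/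
theorem cycClass_surjective (φ : E ≃ₐ[F] E) (hφ : ∀ σ, σ ∈ Subgroup.zpowers φ) :
    Function.Surjective (cycClass φ hφ) := by
  intro y
  obtain ⟨x, rfl⟩ := Cyclic.H2ofInv_surjective (unitsRep F E) hφ y
  obtain ⟨a, ha⟩ := exists_baseUnit_of_mem_invariants F E x.1 x.2
  refine ⟨Additive.ofMul a, ?_⟩
  rw [cycClass_apply]
  congr 1
  apply Subtype.ext
  exact ha

/-- The norm of the representation `Eˣ` is the field norm. -/
lemma norm_unitsRep (b : Eˣ) :
    (unitsRep F E).ρ.norm (Additive.ofMul b) =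
      baseUnit F E (Units.map (Algebra.norm F : E →* F) b) := by
  have h := groupCohomology.norm_ofAlgebraAutOnUnits_eq (K := F) (L := E) b
  have key : (Additive.toMul ((unitsRep F E).ρ.norm (Additive.ofMul b)) : Eˣ) =
      Units.map (algebraMap F E).toMonoidHom (Units.map (Algebra.norm F : E →* F) b) :=
    Units.ext h
  exact (ofMul_toMul ((unitsRep F E).ρ.norm (Additive.ofMul b))).symm.trans
    (congrArg Additive.ofMul key)

/-- The kernel of `cycClass` is the norm group. -/
theorem cycClass_eq_zero_iff (φ : E ≃ₐ[F] E) (hφ : ∀ σ, σ ∈ Subgroup.zpowers φ) (a : Fˣ) :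
    cycClass φ hφ (Additive.ofMul a) = 0 ↔ ∃ b : Eˣ, Algebra.norm F (b : E) = (a : F) := by
  rw [cycClass_apply, Cyclic.H2ofInv_eq_zero_iff]
  constructor
  · rintro ⟨b, hb⟩
    refine ⟨Additive.toMul b, ?_⟩
    have h1 := norm_unitsRep (F := F) (E := E) (Additive.toMul b)
    have h2 : baseUnit F E (Units.map (Algebra.norm F : E →* F) (Additive.toMul b)) =
        baseUnit F E a := h1.symm.trans hb
    have h3 : ((Units.map (algebraMap F E).toMonoidHom
        (Units.map (Algebra.norm F : E →* F) (Additive.toMul b)) : Eˣ) : E) =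
        ((Units.map (algebraMap F E).toMonoidHom a : Eˣ) : E) :=
      congrArg (fun u : Additive Eˣ => ((Additive.toMul u : Eˣ) : E)) h2
    simp only [Units.coe_map, RingHom.toMonoidHom_eq_coe, MonoidHom.coe_coe] at h3
    exact (algebraMap F E).injective h3
  · rintro ⟨b, hb⟩
    refine ⟨Additive.ofMul b, ?_⟩
    rw [norm_unitsRep]
    show baseUnit F E _ = baseUnit F E a
    congr 1
    exact Units.ext (by simpa using hb)

end Galois

/-! ## Functoriality -/

section Functoriality

variable {F E F₁ L : Type} [Field F] [Field E] [Field F₁] [Field L]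
  [Algebra F E] [FiniteDimensional F E] [Algebra F₁ L] [FiniteDimensional F₁ L] [Algebra F F₁]

/-- General functoriality of the cyclic classes: if `ψ φ₁ = φ ^ d`, then the map induced by
`(ψ, f)` sends `cycClass φ a` to `cycClass φ₁ (a ^ (d * |φ₁| / |φ|))`. -/
theorem map_cycClass (ψ : (L ≃ₐ[F₁] L) →* (E ≃ₐ[F] E))
    (f : Rep.res ψ (unitsRep F E) ⟶ unitsRep F₁ L)
    (hf : ∀ a : Fˣ, f.hom (baseUnit F E a) =
      baseUnit F₁ L (Units.map (algebraMap F F₁).toMonoidHom a))
    (φ : E ≃ₐ[F] E) (hφ : ∀ σ, σ ∈ Subgroup.zpowers φ)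
    (φ₁ : L ≃ₐ[F₁] L) (hφ₁ : ∀ σ, σ ∈ Subgroup.zpowers φ₁)
    (d : ℕ) (hd : ψ φ₁ = φ ^ d) (a : Fˣ) :
    (groupCohomology.map ψ f 2).hom (cycClass φ hφ (Additive.ofMul a)) =
      cycClass φ₁ hφ₁ (Additive.ofMul
        ((Units.map (algebraMap F F₁).toMonoidHom a) ^ (d * orderOf φ₁ / orderOf φ))) := by
  have h := Cyclic.map_H2ofInv (unitsRep F E) (unitsRep F₁ L) ψ f hφ hφ₁ d hd
    ⟨baseUnit F E a, baseUnit_mem_invariants F E a⟩
  rw [cycClass_apply, cycClass_apply]
  refine h.trans ?_
  congr 1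
  apply Subtype.ext
  show (d * orderOf φ₁ / orderOf φ) • f.hom (baseUnit F E a) =
    baseUnit F₁ L ((Units.map (algebraMap F F₁).toMonoidHom a) ^ (d * orderOf φ₁ / orderOf φ))
  rw [hf, baseUnit_pow]

end Functoriality

/-! ## Inflation, and restriction after inflation -/

section Towers

/-- Inflation of cyclic classes: if the generator `φ'` of `Gal(L/F)` restricts to `φ ^ d` on `E`,
then `inf [φ, a] = [φ', a ^ (d * [L:F] / [E:F])]`. -/
theorem inflH_cycClass (F E L : Type) [Field F] [Field E] [Field L] [Algebra F E] [Algebra E L]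
    [Algebra F L] [IsScalarTower F E L] [FiniteDimensional F E] [FiniteDimensional F L]
    [Normal F E]
    (φ : E ≃ₐ[F] E) (hφ : ∀ σ, σ ∈ Subgroup.zpowers φ)
    (φ' : L ≃ₐ[F] L) (hφ' : ∀ σ, σ ∈ Subgroup.zpowers φ')
    (d : ℕ) (hd : AlgEquiv.restrictNormalHom E φ' = φ ^ d) (a : Fˣ) :
    (inflH F E L 2).hom (cycClass φ hφ (Additive.ofMul a)) =
      cycClass φ' hφ' (Additive.ofMul (a ^ (d * orderOf φ' / orderOf φ))) := by
  have h := map_cycClass (F := F) (E := E) (F₁ := F) (L := L)
    (AlgEquiv.restrictNormalHom (F := F) (K₁ := L) E) (unitsInflHom F E L) (by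
      intro a
      have key : Units.map (algebraMap E L).toMonoidHom
          (Units.map (algebraMap F E).toMonoidHom a) =
          Units.map (algebraMap F L).toMonoidHom (Units.map (algebraMap F F).toMonoidHom a) :=
        Units.ext (by
          show algebraMap E L (algebraMap F E (a : F)) = algebraMap F L (algebraMap F F (a : F))
          rw [← IsScalarTower.algebraMap_apply F E L]
          rfl)
      exact congrArg Additive.ofMul key) φ hφ φ' hφ' d hd a
  have h2 : Units.map (algebraMap F F).toMonoidHom a = a := by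
    ext
    simp
  rw [h2] at h
  exact h

/-- Restriction after inflation of cyclic classes: `F ⊆ E ⊆ L`, `F ⊆ F₁ ⊆ L`; if the generator
`φ₁` of `Gal(L/F₁)` restricts to `φ ^ d` on `E`, then
`res (inf [φ, a]) = [φ₁, a ^ (d * [L:F₁] / [E:F])]`. -/
theorem resH_inflH_cycClass (F E F₁ L : Type) [Field F] [Field E] [Field F₁] [Field L]
    [Algebra F E] [Algebra E L] [Algebra F L] [IsScalarTower F E L]
    [Algebra F F₁] [Algebra F₁ L] [IsScalarTower F F₁ L]
    [FiniteDimensional F E] [FiniteDimensional F₁ L] [Normal F E]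
    (φ : E ≃ₐ[F] E) (hφ : ∀ σ, σ ∈ Subgroup.zpowers φ)
    (φ₁ : L ≃ₐ[F₁] L) (hφ₁ : ∀ σ, σ ∈ Subgroup.zpowers φ₁)
    (d : ℕ)
    (hd : AlgEquiv.restrictNormalHom E (AlgEquiv.restrictScalarsHom F φ₁ : L ≃ₐ[F] L) = φ ^ d)
    (a : Fˣ) :
    (resH F F₁ L 2).hom ((inflH F E L 2).hom (cycClass φ hφ (Additive.ofMul a))) =
      cycClass φ₁ hφ₁ (Additive.ofMul
        ((Units.map (algebraMap F F₁).toMonoidHom a) ^ (d * orderOf φ₁ / orderOf φ))) := by
  have hcomp : inflH F E L 2 ≫ resH F F₁ L 2 =
      groupCohomology.map ((AlgEquiv.restrictNormalHom (F := F) (K₁ := L) E).comp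
        (AlgEquiv.restrictScalarsHom F : (L ≃ₐ[F₁] L) →* (L ≃ₐ[F] L)))
        ((Rep.resFunctor (AlgEquiv.restrictScalarsHom F : (L ≃ₐ[F₁] L) →* (L ≃ₐ[F] L))).map
          (unitsInflHom F E L) ≫ unitsResHom F F₁ L) 2 :=
    (groupCohomology.map_comp _ _ _ _ 2).symm
  have h := map_cycClass (F := F) (E := E) (F₁ := F₁) (L := L)
    ((AlgEquiv.restrictNormalHom (F := F) (K₁ := L) E).comp
        (AlgEquiv.restrictScalarsHom F : (L ≃ₐ[F₁] L) →* (L ≃ₐ[F] L)))
    ((Rep.resFunctor (AlgEquiv.restrictScalarsHom F : (L ≃ₐ[F₁] L) →* (L ≃ₐ[F] L))).map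
          (unitsInflHom F E L) ≫ unitsResHom F F₁ L) (by
      intro a
      have key : Units.map (algebraMap E L).toMonoidHom
          (Units.map (algebraMap F E).toMonoidHom a) =
          Units.map (algebraMap F₁ L).toMonoidHom (Units.map (algebraMap F F₁).toMonoidHom a) :=
        Units.ext (by
          show algebraMap E L (algebraMap F E (a : F)) = algebraMap F₁ L (algebraMap F F₁ (a : F))
          rw [← IsScalarTower.algebraMap_apply F E L, ← IsScalarTower.algebraMap_apply F F₁ L])
      exact congrArg Additive.ofMul key) φ hφ φ₁ hφ₁ d hd a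
  rw [← hcomp] at h
  exact h

end Towers

/-! ## Cardinality, and the trivial inflation -/

section Card

variable {F E : Type} [Field F] [Field E] [Algebra F E] [FiniteDimensional F E] [IsGalois F E]

/-- The kernel of `cycClass` is the norm group. -/
theorem ker_cycClass (φ : E ≃ₐ[F] E) (hφ : ∀ σ, σ ∈ Subgroup.zpowers φ) :
    (cycClass φ hφ).ker =
      Subgroup.toAddSubgroup (MonoidHom.range (Units.map (Algebra.norm F : E →* F))) := by
  ext a
  rw [AddMonoidHom.mem_ker]
  have h := cycClass_eq_zero_iff φ hφ (Additive.toMul a)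
  rw [ofMul_toMul] at h
  rw [h]
  show _ ↔ Additive.toMul a ∈ MonoidHom.range (Units.map (Algebra.norm F : E →* F))
  rw [MonoidHom.mem_range]
  constructor
  · rintro ⟨b, hb⟩
    exact ⟨b, Units.ext hb⟩
  · rintro ⟨b, hb⟩
    exact ⟨b, congrArg (fun u : Fˣ => (u : F)) hb⟩

/-- For a cyclic extension, `|H²(Gal(E/F), Eˣ)|` is the norm index `[Fˣ : N Eˣ]`
(both are `0` when infinite). -/
theorem card_H2_eq_normIndex (φ : E ≃ₐ[F] E) (hφ : ∀ σ, σ ∈ Subgroup.zpowers φ) :
    Nat.card (H2 (unitsRep F E)) =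
      (MonoidHom.range (Units.map (Algebra.norm F : E →* F))).index := by
  have h1 := AddSubgroup.index_ker (cycClass φ hφ)
  rw [ker_cycClass, Subgroup.index_toAddSubgroup,
    AddMonoidHom.range_eq_top.2 (cycClass_surjective φ hφ)] at h1
  rw [h1]
  exact (Nat.card_congr (Equiv.Set.univ _)).symm

end Card

section Trivial

/-- Inflation from `E` to `E` is the identity on `H²`. -/
theorem inflH_self (F E : Type) [Field F] [Field E] [Algebra F E] [Normal F E]
    (x : H2 (unitsRep F E)) : (inflH F E E 2).hom x = x := by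
  induction x using H2_induction_on with
  | h c =>
    have hres : ∀ σ : E ≃ₐ[F] E, AlgEquiv.restrictNormalHom (F := F) (K₁ := E) E σ = σ := by
      intro σ
      ext y
      exact AlgEquiv.restrictNormal_commutes σ E y
    show (groupCohomology.map (AlgEquiv.restrictNormalHom (F := F) (K₁ := E) E)
      (unitsInflHom F E E) 2).hom ((H2π (unitsRep F E)).hom c) = _
    rw [H2π_comp_map_apply]
    congr 1
    apply Subtype.ext
    funext p
    show (unitsInflHom F E E).hom ((c : _ → _)
      (AlgEquiv.restrictNormalHom (F := F) (K₁ := E) E p.1,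
        AlgEquiv.restrictNormalHom (F := F) (K₁ := E) E p.2)) = (c : _ → _) p
    rw [hres, hres]
    have key : ∀ u : Eˣ, Units.map (algebraMap E E).toMonoidHom u = u := fun u => Units.ext rfl
    exact congrArg Additive.ofMul (key _)

end Trivial

/-! ## Base change -/

section BaseChange

/-- Base change of cyclic classes: in a commutative square `F ⊆ E ⊆ E'`, `F ⊆ F' ⊆ E'`, if the
generator `φ'` of `Gal(E'/F')` restricts to `φ ^ d` on `E`, then
`bc [φ, a] = [φ', a ^ (d * [E':F'] / [E:F])]`. -/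
theorem bcH_cycClass (F E F' E' : Type) [Field F] [Field E] [Field F'] [Field E']
    [Algebra F E] [Algebra F F'] [Algebra F' E'] [Algebra E E'] [Algebra F E']
    [IsScalarTower F E E'] [IsScalarTower F F' E'] [Normal F E]
    [FiniteDimensional F E] [FiniteDimensional F' E']
    (φ : E ≃ₐ[F] E) (hφ : ∀ σ, σ ∈ Subgroup.zpowers φ)
    (φ' : E' ≃ₐ[F'] E') (hφ' : ∀ σ, σ ∈ Subgroup.zpowers φ')
    (d : ℕ) (hd : bcGroupHom F E F' E' φ' = φ ^ d) (a : Fˣ) :
    (bcH F E F' E' 2).hom (cycClass φ hφ (Additive.ofMul a)) =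
      cycClass φ' hφ' (Additive.ofMul
        ((Units.map (algebraMap F F').toMonoidHom a) ^ (d * orderOf φ' / orderOf φ))) :=
  map_cycClass (F := F) (E := E) (F₁ := F') (L := E')
    (bcGroupHom F E F' E') (unitsBcHom F E F' E') (by
      intro a
      have key : Units.map (algebraMap E E').toMonoidHom
          (Units.map (algebraMap F E).toMonoidHom a) =
          Units.map (algebraMap F' E').toMonoidHom (Units.map (algebraMap F F').toMonoidHom a) :=
        Units.ext (by
          show algebraMap E E' (algebraMap F E (a : F)) =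
            algebraMap F' E' (algebraMap F F' (a : F))
          rw [← IsScalarTower.algebraMap_apply F E E', ← IsScalarTower.algebraMap_apply F F' E'])
      exact congrArg Additive.ofMul key) φ hφ φ' hφ' d hd a

end BaseChange

end Fermat.Agent.CFT.Local.CycClass
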