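import Mathlib
import Fermat.Agent.CFT.Local.Defs

/-!
# The ring of integers of a finite extension of `ℚ_q` is `q`-adically complete

For an abstract finite extension `E` of `ℚ_[q]`, the ring `integers q E` (integral closure of
`ℤ_[q]`) is `q`-adically complete, has finite quotients modulo `q ^ j`, is stable under
automorphisms, and every element of `E` has a multiple by a power of `q` in it.  These are the
hypotheses of the abstract norm index theorem `NormIndex.norm_index_eq_finrank`.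
-/

namespace Fermat.Agent.CFT.Local.NormIndex

section Basis

variable {R S ι : Type*} [CommRing R] [CommRing S] [Algebra R S] [Finite ι]

theorem mem_span_pow_iff_of_basis (b : Module.Basis ι R S) (ϖ : R) (n : ℕ) (x : S) :
    x ∈ Ideal.span {algebraMap R S ϖ ^ n} ↔ ∀ i, b.repr x i ∈ Ideal.span {ϖ ^ n} := by
  classical
  haveI := Fintype.ofFinite ι
  constructor
  · intro hx i
    obtain ⟨y, rfl⟩ := Ideal.mem_span_singleton'.1 hx
    refine Ideal.mem_span_singleton'.2 ⟨b.repr y i, ?_⟩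
    have : y * algebraMap R S ϖ ^ n = ϖ ^ n • y := by
      rw [Algebra.smul_def, map_pow, mul_comm]
    rw [this, map_smul, Finsupp.smul_apply, smul_eq_mul, mul_comm]
  · intro h
    choose r hr using fun i => Ideal.mem_span_singleton'.1 (h i)
    refine Ideal.mem_span_singleton'.2 ⟨∑ i, r i • b i, ?_⟩
    conv_rhs => rw [← b.sum_repr x]
    rw [Finset.sum_mul]
    refine Finset.sum_congr rfl fun i _ => ?_
    rw [← hr i, Algebra.smul_def, Algebra.smul_def, map_mul, map_pow]
    ring

/-- A ring with a finite basis over a `ϖ`-adically complete ring is `ϖ`-adically complete. -/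
theorem isAdicComplete_of_basis (b : Module.Basis ι R S) (ϖ : R)
    [IsAdicComplete (Ideal.span {ϖ}) R] :
    IsAdicComplete (Ideal.span {algebraMap R S ϖ}) S := by
  classical
  haveI := Fintype.ofFinite ι
  have hS : ∀ (n : ℕ) (x : S), x ∈ (Ideal.span {algebraMap R S ϖ} ^ n • ⊤ : Submodule S S) ↔
      x ∈ Ideal.span {algebraMap R S ϖ ^ n} := by
    intro n x
    rw [smul_eq_mul, Ideal.mul_top, Ideal.span_singleton_pow]
  have hR : ∀ (n : ℕ) (x : R), x ∈ (Ideal.span {ϖ} ^ n • ⊤ : Submodule R R) ↔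
      x ∈ Ideal.span {ϖ ^ n} := by
    intro n x
    rw [smul_eq_mul, Ideal.mul_top, Ideal.span_singleton_pow]
  refine { haus' := ?_, prec' := ?_ }
  · intro x hx
    have hcoord : ∀ i, b.repr x i = 0 := by
      intro i
      apply IsHausdorff.haus' (I := Ideal.span {ϖ}) (b.repr x i)
      intro n
      rw [SModEq.zero, hR]
      have := hx n
      rw [SModEq.zero, hS] at this
      exact (mem_span_pow_iff_of_basis b ϖ n x).1 this i
    have : b.repr x = 0 := Finsupp.ext hcoord
    exact b.repr.map_eq_zero_iff.1 this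
  · intro f hf
    have hcauchy : ∀ i, ∃ L : R, ∀ n, b.repr (f n) i ≡ L [SMOD (Ideal.span {ϖ} ^ n • ⊤ :
        Submodule R R)] := by
      intro i
      apply IsPrecomplete.prec' (I := Ideal.span {ϖ}) (M := R) (fun n => b.repr (f n) i)
      intro m n hmn
      have := hf hmn
      rw [SModEq.sub_mem, hS] at this
      rw [SModEq.sub_mem, hR]
      have h2 := (mem_span_pow_iff_of_basis b ϖ m (f m - f n)).1 this i
      rwa [map_sub, Finsupp.sub_apply] at h2
    choose L hL using hcauchy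
    refine ⟨∑ i, L i • b i, fun n => ?_⟩
    rw [SModEq.sub_mem, hS, mem_span_pow_iff_of_basis b ϖ n]
    intro i
    have := hL i n
    rw [SModEq.sub_mem, hR] at this
    have e : b.repr (∑ i, L i • b i) i = L i := by
      rw [map_sum, Finsupp.finsetSum_apply]
      simp [Finsupp.single_apply]
    rwa [map_sub, Finsupp.sub_apply, e]

/-- Finite quotients pass to a ring with a finite basis. -/
theorem finite_quotient_of_basis (b : Module.Basis ι R S) (ϖ : R) (j : ℕ)
    [Finite (R ⧸ Ideal.span {ϖ ^ j})] : Finite (S ⧸ Ideal.span {algebraMap R S ϖ ^ j}) := by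
  classical
  haveI := Fintype.ofFinite ι
  let g : (ι → R ⧸ Ideal.span {ϖ ^ j}) → S ⧸ Ideal.span {algebraMap R S ϖ ^ j} :=
    fun t => Ideal.Quotient.mk _ (∑ i, (Quotient.out (t i) : R) • b i)
  apply Finite.of_surjective g
  intro s
  obtain ⟨x, rfl⟩ := Ideal.Quotient.mk_surjective s
  refine ⟨fun i => Ideal.Quotient.mk _ (b.repr x i), ?_⟩
  show Ideal.Quotient.mk _ _ = Ideal.Quotient.mk _ x
  rw [Ideal.Quotient.eq, mem_span_pow_iff_of_basis b ϖ j]
  intro i
  have e : b.repr (∑ i, (Quotient.out (Ideal.Quotient.mk (Ideal.span {ϖ ^ j}) (b.repr x i)) : R)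
      • b i) i = Quotient.out (Ideal.Quotient.mk (Ideal.span {ϖ ^ j}) (b.repr x i)) := by
    rw [map_sum, Finsupp.finsetSum_apply]
    simp [Finsupp.single_apply]
  rw [map_sub, Finsupp.sub_apply, e, ← Ideal.Quotient.eq]
  exact Quotient.out_eq _

end Basis

section Padic

variable (q : ℕ) [Fact q.Prime]

theorem padicInt_isAdicComplete : IsAdicComplete (Ideal.span {(q : ℤ_[q])}) ℤ_[q] := by
  rw [← PadicInt.maximalIdeal_eq_span_p]
  infer_instance

theorem padicInt_finite_quotient (j : ℕ) :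
    Finite (ℤ_[q] ⧸ Ideal.span {(q : ℤ_[q]) ^ j}) := by
  rw [← PadicInt.ker_toZModPow]
  haveI : NeZero (q ^ j) := ⟨pow_ne_zero _ (Fact.out : q.Prime).ne_zero⟩
  exact Finite.of_injective _ (RingHom.kerLift_injective (PadicInt.toZModPow j))

end Padic

section Integers

variable (q : ℕ) [Fact q.Prime] (E : Type) [Field E] [Algebra ℚ_[q] E]

theorem natCast_mem_integers : (q : E) ∈ integers q E := natCast_mem (integers q E) q

/-- Automorphisms over any intermediate field preserve the ring of integers. -/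
theorem algEquiv_mem_integers (F : Type) [Field F] [Algebra ℚ_[q] F] [Algebra F E]
    [IsScalarTower ℚ_[q] F E] (σ : E ≃ₐ[F] E) {x : E} (hx : x ∈ integers q E) :
    σ x ∈ integers q E := by
  letI := intAlgebra q E
  have hx' : IsIntegral ℤ_[q] x := hx
  show IsIntegral ℤ_[q] (σ x)
  let τ : E →ₐ[ℤ_[q]] E :=
    { (σ : E →+* E) with
      commutes' := fun r => by
        show σ (algebraMap ℚ_[q] E (algebraMap ℤ_[q] ℚ_[q] r)) =
          algebraMap ℚ_[q] E (algebraMap ℤ_[q] ℚ_[q] r)
        rw [IsScalarTower.algebraMap_apply ℚ_[q] F E, AlgEquiv.commutes] }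
  exact hx'.map τ

variable [FiniteDimensional ℚ_[q] E]

theorem exists_pow_mul_mem_integers (y : E) : ∃ k : ℕ, (q : E) ^ k * y ∈ integers q E := by
  letI := intAlgebra q E
  haveI : IsScalarTower ℤ_[q] ℚ_[q] E := IsScalarTower.of_algebraMap_eq (fun _ => rfl)
  obtain ⟨a, ha0, ha⟩ := exists_integral_multiples ℤ_[q] ℚ_[q] ({y} : Finset E)
  have hay : IsIntegral ℤ_[q] (a • y) := ha y (Finset.mem_singleton_self y)
  refine ⟨a.valuation, ?_⟩
  show IsIntegral ℤ_[q] ((q : E) ^ a.valuation * y)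
  have hspec := PadicInt.unitCoeff_spec ha0
  have hu : IsIntegral ℤ_[q] ((((PadicInt.unitCoeff ha0)⁻¹ : ℤ_[q]ˣ) : ℤ_[q]) • (a • y)) :=
    hay.smul _
  have e : (((PadicInt.unitCoeff ha0)⁻¹ : ℤ_[q]ˣ) : ℤ_[q]) • (a • y) =
      (q : E) ^ a.valuation * y := by
    rw [smul_smul]
    have h2 : (((PadicInt.unitCoeff ha0)⁻¹ : ℤ_[q]ˣ) : ℤ_[q]) *
        ((PadicInt.unitCoeff ha0 : ℤ_[q]ˣ) : ℤ_[q]) = 1 := by
      rw [← Units.val_mul, inv_mul_cancel, Units.val_one]
    have h1 : (((PadicInt.unitCoeff ha0)⁻¹ : ℤ_[q]ˣ) : ℤ_[q]) * a = (q : ℤ_[q]) ^ a.valuation :=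
      calc (((PadicInt.unitCoeff ha0)⁻¹ : ℤ_[q]ˣ) : ℤ_[q]) * a
          = (((PadicInt.unitCoeff ha0)⁻¹ : ℤ_[q]ˣ) : ℤ_[q]) *
              (((PadicInt.unitCoeff ha0 : ℤ_[q]ˣ) : ℤ_[q]) * (q : ℤ_[q]) ^ a.valuation) :=
            congrArg (fun t => (((PadicInt.unitCoeff ha0)⁻¹ : ℤ_[q]ˣ) : ℤ_[q]) * t) hspec
        _ = (q : ℤ_[q]) ^ a.valuation := by rw [← mul_assoc, h2, one_mul]
    rw [h1, Algebra.smul_def, map_pow, map_natCast]
  rwa [e] at hu

/-- The ring of integers has a finite basis over `ℤ_[q]`, hence is `q`-adically complete. -/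
theorem integers_isAdicComplete :
    IsAdicComplete (Ideal.span {(⟨(q : E), natCast_mem_integers q E⟩ : integers q E)})
      (integers q E) := by
  letI := intAlgebra q E
  haveI : IsScalarTower ℤ_[q] ℚ_[q] E := IsScalarTower.of_algebraMap_eq (fun _ => rfl)
  haveI : Module.IsTorsionFree ℤ_[q] E := by
    rw [Module.isTorsionFree_iff_algebraMap_injective, IsScalarTower.algebraMap_eq ℤ_[q] ℚ_[q] E]
    exact (algebraMap ℚ_[q] E).injective.comp (IsFractionRing.injective ℤ_[q] ℚ_[q])
  haveI : Module.Free ℤ_[q] (integralClosure ℤ_[q] E) :=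
    IsIntegralClosure.module_free ℤ_[q] ℚ_[q] E (integralClosure ℤ_[q] E)
  haveI : Module.Finite ℤ_[q] (integralClosure ℤ_[q] E) :=
    IsIntegralClosure.finite ℤ_[q] ℚ_[q] E (integralClosure ℤ_[q] E)
  haveI := padicInt_isAdicComplete q
  have h := isAdicComplete_of_basis
    (Module.Free.chooseBasis ℤ_[q] (integralClosure ℤ_[q] E)) (q : ℤ_[q])
  have e : algebraMap ℤ_[q] (integralClosure ℤ_[q] E) (q : ℤ_[q]) =
      (⟨(q : E), natCast_mem_integers q E⟩ : integralClosure ℤ_[q] E) :=
    Subtype.ext (by simp)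
  rw [e] at h
  exact h

theorem integers_finite_quotient (j : ℕ) :
    Finite (integers q E ⧸
      Ideal.span {(⟨(q : E), natCast_mem_integers q E⟩ : integers q E) ^ j}) := by
  letI := intAlgebra q E
  haveI : IsScalarTower ℤ_[q] ℚ_[q] E := IsScalarTower.of_algebraMap_eq (fun _ => rfl)
  haveI : Module.IsTorsionFree ℤ_[q] E := by
    rw [Module.isTorsionFree_iff_algebraMap_injective, IsScalarTower.algebraMap_eq ℤ_[q] ℚ_[q] E]
    exact (algebraMap ℚ_[q] E).injective.comp (IsFractionRing.injective ℤ_[q] ℚ_[q])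
  haveI : Module.Free ℤ_[q] (integralClosure ℤ_[q] E) :=
    IsIntegralClosure.module_free ℤ_[q] ℚ_[q] E (integralClosure ℤ_[q] E)
  haveI : Module.Finite ℤ_[q] (integralClosure ℤ_[q] E) :=
    IsIntegralClosure.finite ℤ_[q] ℚ_[q] E (integralClosure ℤ_[q] E)
  haveI := padicInt_finite_quotient q j
  have h := finite_quotient_of_basis
    (Module.Free.chooseBasis ℤ_[q] (integralClosure ℤ_[q] E)) (q : ℤ_[q]) j
  have e : algebraMap ℤ_[q] (integralClosure ℤ_[q] E) (q : ℤ_[q]) =
      (⟨(q : E), natCast_mem_integers q E⟩ : integralClosure ℤ_[q] E) :=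
    Subtype.ext (by simp)
  rw [e] at h
  exact h

end Integers

end Fermat.Agent.CFT.Local.NormIndex
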