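import Mathlib

/-!
# Exactness by successive approximation, and induced modules of a finite cyclic group

* `exists_of_filtered`: let `A` be an abelian group with a decreasing, separated and complete
  filtration `F n` by subgroups, and `f g : A →+ A` with `f ∘ g = 0`, `g` preserving the
  filtration.  If every `x ∈ F n` with `f x = 0` is of the form `g y` modulo `F (n+1)` with
  `y ∈ F n`, then every `x ∈ F 0` with `f x = 0` is `g y` for some `y ∈ F 0`.
* `cyclic_const_of_shift` and `cyclic_exists_shift`: the two exactness statements for the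
  induced module `G → B` of a finite cyclic group `G = ⟨σ⟩`.
-/

namespace Fermat.Agent.CFT.Local.NormIndex

section Filtered

variable {A : Type*} [AddCommGroup A]

/-- A decreasing, separated and complete filtration of an abelian group by subgroups. -/
structure IsCompleteFiltration (F : ℕ → AddSubgroup A) : Prop where
  anti : ∀ n, F (n + 1) ≤ F n
  sep : ∀ x, (∀ n, x ∈ F n) → x = 0
  complete : ∀ y : ℕ → A, (∀ n, y n ∈ F n) →
    ∃ s, ∀ n, s - ∑ i ∈ Finset.range n, y i ∈ F n

theorem IsCompleteFiltration.antitone {F : ℕ → AddSubgroup A} (hF : IsCompleteFiltration F) :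
    Antitone F := antitone_nat_of_succ_le hF.anti

/-- Successive approximation: graded exactness implies exactness. -/
theorem exists_of_filtered {F : ℕ → AddSubgroup A} (hF : IsCompleteFiltration F)
    (f g : A →+ A) (hfg : ∀ x, f (g x) = 0)
    (hg : ∀ n x, x ∈ F n → g x ∈ F n)
    (hgr : ∀ n x, x ∈ F n → f x = 0 → ∃ y ∈ F n, x - g y ∈ F (n + 1))
    (x : A) (hx0 : x ∈ F 0) (hx : f x = 0) : ∃ y ∈ F 0, g y = x := by
  classical
  choose! step hstep1 hstep2 using hgr
  -- the sequence of remainders
  let xs : ℕ → A := fun n => Nat.rec x (fun n xn => xn - g (step n xn)) n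
  have hxs0 : xs 0 = x := rfl
  have hxsS : ∀ n, xs (n + 1) = xs n - g (step n (xs n)) := fun n => rfl
  have hxs : ∀ n, xs n ∈ F n ∧ f (xs n) = 0 := by
    intro n
    induction n with
    | zero => exact ⟨hx0, hx⟩
    | succ n ih =>
      refine ⟨by rw [hxsS]; exact hstep2 n (xs n) ih.1 ih.2, ?_⟩
      rw [hxsS, map_sub, ih.2, hfg, sub_zero]
  let y : ℕ → A := fun n => step n (xs n)
  have hy : ∀ n, y n ∈ F n := fun n => hstep1 n (xs n) (hxs n).1 (hxs n).2
  have hsum : ∀ n, x - g (∑ i ∈ Finset.range n, y i) = xs n := by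
    intro n
    induction n with
    | zero => simp [hxs0]
    | succ n ih =>
      rw [Finset.sum_range_succ, map_add, ← sub_sub, ih, hxsS]
  obtain ⟨s, hs⟩ := hF.complete y hy
  refine ⟨s, by simpa using hs 0, ?_⟩
  have hzero : x - g s = 0 := by
    apply hF.sep
    intro n
    have h1 : x - g s = xs n - g (s - ∑ i ∈ Finset.range n, y i) := by
      rw [← hsum n, map_sub]; abel
    rw [h1]
    exact (F n).sub_mem (hxs n).1 (hg n _ (hs n))
  exact (sub_eq_zero.1 hzero).symm

end Filtered

section Cyclic

variable {G : Type*} [Group G] {B : Type*} [AddCommGroup B]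

/-- If `a (σ⁻¹ g) - a g ∈ T` for all `g` and `σ` generates `G`, then `a` is constant
modulo `T`. -/
theorem cyclic_const_of_shift {σ : G} (hσ : ∀ g : G, g ∈ Subgroup.zpowers σ)
    (T : AddSubgroup B) (a : G → B) (h : ∀ g, a (σ⁻¹ * g) - a g ∈ T) (g : G) :
    a g - a 1 ∈ T := by
  obtain ⟨k, rfl⟩ := Subgroup.mem_zpowers_iff.1 (hσ g)
  induction k with
  | zero => simp
  | succ k ih =>
    have h1 := h (σ ^ ((k : ℤ) + 1))
    have e : σ⁻¹ * σ ^ ((k : ℤ) + 1) = σ ^ (k : ℤ) := by
      rw [add_comm, zpow_one_add, inv_mul_cancel_left]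
    rw [e] at h1
    have : a (σ ^ ((k : ℤ) + 1)) - a 1 = (a (σ ^ (k : ℤ)) - a 1) - (a (σ ^ (k : ℤ)) -
        a (σ ^ ((k : ℤ) + 1))) := by abel
    rw [this]
    exact T.sub_mem ih h1
  | pred k ih =>
    have h1 := h (σ ^ (-(k : ℤ)))
    have e : σ⁻¹ * σ ^ (-(k : ℤ)) = σ ^ (-(k : ℤ) - 1) := by
      rw [← zpow_neg_one, ← zpow_add]; congr 1; ring
    rw [e] at h1
    have : a (σ ^ (-(k : ℤ) - 1)) - a 1 = (a (σ ^ (-(k : ℤ))) - a 1) + (a (σ ^ (-(k : ℤ) - 1)) -
        a (σ ^ (-(k : ℤ)))) := by abel
    rw [this]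
    exact T.add_mem ih h1

variable [Fintype G] [DecidableEq G]

/-- The augmentation ideal of an induced module of a cyclic group is the image of `σ - 1`:
every `a : G → B` is a `σ`-coboundary up to its total sum placed at `1`. -/
theorem cyclic_exists_shift {σ : G} (hσ : ∀ g : G, g ∈ Subgroup.zpowers σ) (a : G → B) :
    ∃ b : G → B, ∀ g, a g = (b (σ⁻¹ * g) - b g) + (if g = 1 then ∑ h, a h else 0) := by
  classical
  -- the set of functions for which the statement holds is a subgroup containing the deltas
  let P : AddSubgroup (G → B) :=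
    { carrier := {a | ∃ b : G → B, ∀ g, a g = (b (σ⁻¹ * g) - b g) +
        (if g = 1 then ∑ h, a h else 0)}
      zero_mem' := ⟨0, fun g => by simp⟩
      add_mem' := by
        rintro a a' ⟨b, hb⟩ ⟨b', hb'⟩
        refine ⟨b + b', fun g => ?_⟩
        simp only [Pi.add_apply, Finset.sum_add_distrib]
        rw [hb g, hb' g]
        split_ifs <;> abel
      neg_mem' := by
        rintro a ⟨b, hb⟩
        refine ⟨-b, fun g => ?_⟩
        simp only [Pi.neg_apply, Finset.sum_neg_distrib]
        rw [hb g]
        split_ifs <;> abel }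
  -- deltas at `1`
  have h1 : ∀ x : B, Pi.single (1 : G) x ∈ P := by
    intro x
    refine ⟨0, fun g => ?_⟩
    simp only [Pi.zero_apply, sub_zero, zero_add, Finset.sum_pi_single', Finset.mem_univ,
      if_true]
    by_cases hg : g = 1
    · simp [hg]
    · simp [hg]
  -- shifting a delta by `σ` changes it by a coboundary
  have hshift : ∀ (g : G) (x : B), Pi.single (σ * g) x - Pi.single g x ∈ P := by
    intro g x
    refine ⟨Pi.single g x, fun h => ?_⟩
    have hs : ∑ h : G, ((Pi.single (σ * g) x - Pi.single g x : G → B)) h = 0 := by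
      simp [Finset.sum_sub_distrib]
    rw [hs]
    simp only [Pi.sub_apply, ite_self, add_zero]
    congr 1
    by_cases hh : h = σ * g
    · subst hh; simp
    · have : σ⁻¹ * h ≠ g := fun e => hh (by rw [← e, mul_inv_cancel_left])
      simp [hh, this]
  have hdelta : ∀ (g : G) (x : B), Pi.single g x ∈ P := by
    intro g x
    obtain ⟨k, rfl⟩ := Subgroup.mem_zpowers_iff.1 (hσ g)
    induction k with
    | zero => simpa using h1 x
    | succ k ih =>
      have := P.add_mem (hshift (σ ^ (k : ℤ)) x) ih
      rw [sub_add_cancel] at this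
      rwa [add_comm, zpow_one_add]
    | pred k ih =>
      have := P.sub_mem ih (hshift (σ ^ (-(k : ℤ) - 1)) x)
      have e : σ * σ ^ (-(k : ℤ) - 1) = σ ^ (-(k : ℤ)) := by
        rw [← zpow_one_add]; congr 1; ring
      rw [e, sub_sub_cancel] at this
      exact this
  have ha : a = ∑ g, Pi.single g (a g) := by
    funext g
    simp [Finset.sum_apply, Pi.single_apply]
  have : a ∈ P := by
    rw [ha]
    exact P.sum_mem fun g _ => hdelta g (a g)
  exact this

end Cyclic

end Fermat.Agent.CFT.Local.NormIndex
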