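import Mathlib
import Fermat.Agent.CFT.Local.FilteredExact
import Fermat.Agent.CFT.Coh.Herbrand

/-!
# A cohomologically trivial subgroup of finite index in the units of a complete ring

Let a finite cyclic group `G = ⟨σ⟩` act on a commutative ring `R` which is `ϖ`-adically complete
(`ϖ` fixed by `G`), and let `θ : R` be such that the `g • θ` are independent over the fixed ring
`R^G` and `ϖ ^ c • R ⊆ Λ := ⊕_g R^G (g • θ)`.  Then
`V := {u ∈ Rˣ | u - 1 ∈ ϖ ^ (c+1) Λ}` is a `G`-stable subgroup on which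
`ker (σ - 1) = im N` and `ker N = im (σ - 1)` (no `exp`/`log` needed).  If moreover the quotients
`R / ϖ ^ j` are finite, `V` has finite index in `Rˣ`, hence the Herbrand quotient of `Rˣ` is `1`.
-/

namespace Fermat.Agent.CFT.Local.NormIndex

open Finset

section Lattice

variable (G : Type*) [Group G] [Fintype G] {R : Type*} [CommRing R] [MulSemiringAction G R]

/-- `ϖ ^ n • Λ`, where `Λ = ∑_g R^G · (g • θ)`. -/
def lat (ϖ θ : R) (n : ℕ) : AddSubgroup R where
  carrier := {x | ∃ a : G → R, (∀ g h : G, h • a g = a g) ∧ x = ϖ ^ n * ∑ g, a g * g • θ}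
  zero_mem' := ⟨0, fun _ _ => smul_zero _, by simp⟩
  add_mem' := by
    rintro x y ⟨a, ha, rfl⟩ ⟨b, hb, rfl⟩
    exact ⟨a + b, fun g h => by simp [smul_add, ha, hb],
      by simp [add_mul, Finset.sum_add_distrib, mul_add]⟩
  neg_mem' := by
    rintro x ⟨a, ha, rfl⟩
    exact ⟨-a, fun g h => by simp [ha], by simp [Finset.sum_neg_distrib]⟩

/-- The hypotheses on `(ϖ, θ, c)`. -/
structure NormalLatticeData (ϖ θ : R) (c : ℕ) : Prop where
  fixed : ∀ g : G, g • ϖ = ϖ
  indep : ∀ a : G → R, (∀ g h : G, h • a g = a g) → ∑ g, a g * g • θ = 0 → ∀ g, a g = 0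
  bound : ∀ x : R, ϖ ^ c * x ∈ lat G ϖ θ 0

variable {G} {ϖ θ : R} {c : ℕ}

theorem mem_lat_iff {n : ℕ} {x : R} :
    x ∈ lat G ϖ θ n ↔ ∃ a : G → R, (∀ g h : G, h • a g = a g) ∧ x = ϖ ^ n * ∑ g, a g * g • θ :=
  Iff.rfl

theorem lat_le_span {n : ℕ} {x : R} (hx : x ∈ lat G ϖ θ n) : x ∈ Ideal.span {ϖ ^ n} := by
  obtain ⟨a, -, rfl⟩ := hx
  exact Ideal.mem_span_singleton'.2 ⟨_, mul_comm _ _⟩

theorem span_le_lat (hL : NormalLatticeData G ϖ θ c) {n m : ℕ} (hm : n + c ≤ m) {x : R}
    (hx : x ∈ Ideal.span {ϖ ^ m}) : x ∈ lat G ϖ θ n := by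
  obtain ⟨r, rfl⟩ := Ideal.mem_span_singleton'.1 hx
  obtain ⟨d, rfl⟩ := Nat.exists_eq_add_of_le hm
  obtain ⟨a, ha, h⟩ := hL.bound (ϖ ^ d * r)
  refine ⟨a, ha, ?_⟩
  rw [pow_zero, one_mul] at h
  rw [← h]; ring

theorem lat_succ_le (hL : NormalLatticeData G ϖ θ c) (n : ℕ) :
    lat G ϖ θ (n + 1) ≤ lat G ϖ θ n := by
  rintro x ⟨a, ha, rfl⟩
  refine ⟨fun g => ϖ * a g, fun g h => by rw [smul_mul', hL.fixed, ha], ?_⟩
  rw [pow_succ, mul_assoc, Finset.mul_sum]
  simp only [mul_assoc]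

theorem lat_antitone (hL : NormalLatticeData G ϖ θ c) : Antitone (lat G ϖ θ) :=
  antitone_nat_of_succ_le (lat_succ_le hL)

theorem smul_mem_lat (hL : NormalLatticeData G ϖ θ c) {n : ℕ} {x : R} (g : G)
    (hx : x ∈ lat G ϖ θ n) : g • x ∈ lat G ϖ θ n := by
  obtain ⟨a, ha, rfl⟩ := hx
  refine ⟨fun h => a (g⁻¹ * h), fun h k => ha _ _, ?_⟩
  rw [smul_mul', smul_pow', hL.fixed, Finset.smul_sum]
  congr 1
  rw [← Equiv.sum_comp (Equiv.mulLeft g) (fun h => a (g⁻¹ * h) * h • θ)]
  refine Finset.sum_congr rfl fun h _ => ?_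
  simp [smul_mul', ha, mul_smul]

/-- Coefficients with respect to the `g • θ` are unique. -/
theorem coeff_unique (hL : NormalLatticeData G ϖ θ c) {a b : G → R}
    (ha : ∀ g h : G, h • a g = a g) (hb : ∀ g h : G, h • b g = b g)
    (h : ∑ g, a g * g • θ = ∑ g, b g * g • θ) (g : G) : a g = b g := by
  have := hL.indep (fun g => a g - b g) (fun g h => by rw [smul_sub, ha, hb])
    (by simp only [sub_mul, Finset.sum_sub_distrib, h, sub_self]) g
  exact sub_eq_zero.1 this

/-- A product of two elements of `ϖ ^ m R` with `m ≥ n` and `m ≥ c` lies in `ϖ ^ n Λ`. -/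
theorem mul_mem_lat (hL : NormalLatticeData G ϖ θ c) {n m m' : ℕ} (h : n + c ≤ m + m') {x y : R}
    (hx : x ∈ Ideal.span {ϖ ^ m}) (hy : y ∈ Ideal.span {ϖ ^ m'}) : x * y ∈ lat G ϖ θ n := by
  apply span_le_lat hL h
  obtain ⟨r, rfl⟩ := Ideal.mem_span_singleton'.1 hx
  obtain ⟨r', rfl⟩ := Ideal.mem_span_singleton'.1 hy
  exact Ideal.mem_span_singleton'.2 ⟨r * r', by ring⟩

theorem span_mono {n m : ℕ} (h : n ≤ m) {x : R} (hx : x ∈ Ideal.span {ϖ ^ m}) :
    x ∈ Ideal.span {ϖ ^ n} := by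
  obtain ⟨r, rfl⟩ := Ideal.mem_span_singleton'.1 hx
  obtain ⟨d, rfl⟩ := Nat.exists_eq_add_of_le h
  exact Ideal.mem_span_singleton'.2 ⟨r * ϖ ^ d, by ring⟩

/-- The key division lemma. -/
theorem div_sub_one_mem_lat (hL : NormalLatticeData G ϖ θ c) {n : ℕ} (u u' : Rˣ)
    (hu' : (u' : R) - 1 ∈ Ideal.span {ϖ ^ c}) (h : (u : R) - u' ∈ lat G ϖ θ n) :
    ((u / u' : Rˣ) : R) - 1 ∈ lat G ϖ θ n := by
  have e : ((u / u' : Rˣ) : R) - 1 = ((u : R) - u') - ((u : R) - u') * (((u' : R) - 1) *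
      ((u'⁻¹ : Rˣ) : R)) := by
    have h1 : (u' : R) * ((u'⁻¹ : Rˣ) : R) = 1 := by simp
    rw [div_eq_mul_inv, Units.val_mul]
    linear_combination ((u : R) - u' + 1) * h1
  rw [e]
  refine (lat G ϖ θ n).sub_mem h (mul_mem_lat hL (m := n) (m' := c) le_rfl (lat_le_span h) ?_)
  exact Ideal.mul_mem_right _ _ hu'

end Lattice

section UnitGroups

set_option linter.unusedSectionVars false

variable {G : Type*} [Group G] [Fintype G] {R : Type*} [CommRing R] [MulSemiringAction G R]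
variable {ϖ θ : R} {c : ℕ}

/-- The action of `g` on units. -/
def unitAct (g : G) : Rˣ →* Rˣ := Units.map (MulSemiringAction.toRingHom G R g : R →* R)

@[simp] theorem coe_unitAct (g : G) (u : Rˣ) : ((unitAct g u : Rˣ) : R) = g • (u : R) := rfl

theorem unitAct_mul (g h : G) (u : Rˣ) : unitAct (g * h) u = unitAct g (unitAct h u) := by
  ext; simp [mul_smul]

/-- `u ↦ σ u / u`. -/
def dU (σ : G) : Rˣ →* Rˣ where
  toFun u := unitAct σ u / u
  map_one' := by simp
  map_mul' u v := by rw [map_mul]; exact mul_div_mul_comm _ _ _ _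

/-- The norm `u ↦ ∏ g, g u`. -/
def nU (G : Type*) [Group G] [Fintype G] {R : Type*} [CommRing R] [MulSemiringAction G R] :
    Rˣ →* Rˣ where
  toFun u := ∏ g : G, unitAct g u
  map_one' := by simp
  map_mul' u v := by simp [Finset.prod_mul_distrib]

theorem dU_apply (σ : G) (u : Rˣ) : dU σ u = unitAct σ u / u := rfl

theorem nU_apply (u : Rˣ) : nU G u = ∏ g : G, unitAct g u := rfl

theorem unitAct_nU (h : G) (u : Rˣ) : unitAct h (nU G u) = nU G u := by
  rw [nU_apply, map_prod]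
  rw [← Equiv.prod_comp (Equiv.mulLeft h) (fun g => unitAct g u)]
  exact Finset.prod_congr rfl fun g _ => (unitAct_mul h g u).symm

theorem nU_unitAct (h : G) (u : Rˣ) : nU G (unitAct h u) = nU G u := by
  rw [nU_apply, nU_apply]
  rw [← Equiv.prod_comp (Equiv.mulRight h) (fun g => unitAct g u)]
  exact Finset.prod_congr rfl fun g _ => (unitAct_mul g h u).symm

theorem dU_nU (σ : G) (u : Rˣ) : dU σ (nU G u) = 1 := by
  rw [dU_apply, unitAct_nU, div_self']

theorem nU_dU (σ : G) (u : Rˣ) : nU G (dU σ u) = 1 := by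
  rw [dU_apply, map_div, nU_unitAct, div_self']

/-- The subgroup `V_k = {u | u - 1 ∈ ϖ ^ (c+1+k) Λ}` of `Rˣ`. -/
def unitGroup (hL : NormalLatticeData G ϖ θ c) (k : ℕ) : Subgroup Rˣ where
  carrier := {u | (u : R) - 1 ∈ lat G ϖ θ (c + 1 + k)}
  one_mem' := by simp
  mul_mem' := by
    intro u v hu hv
    have e : ((u * v : Rˣ) : R) - 1 =
        ((u : R) - 1) + ((v : R) - 1) + ((u : R) - 1) * ((v : R) - 1) := by
      rw [Units.val_mul]; ring
    show ((u * v : Rˣ) : R) - 1 ∈ lat G ϖ θ (c + 1 + k)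
    rw [e]
    exact add_mem (add_mem hu hv) (mul_mem_lat hL (by omega) (lat_le_span hu) (lat_le_span hv))
  inv_mem' := by
    intro u hu
    have := div_sub_one_mem_lat hL (n := c + 1 + k) 1 u (span_mono (by omega) (lat_le_span hu))
      (by rw [Units.val_one, ← neg_sub]; exact neg_mem hu)
    simpa using this

theorem mem_unitGroup_iff (hL : NormalLatticeData G ϖ θ c) {k : ℕ} {u : Rˣ} :
    u ∈ unitGroup hL k ↔ (u : R) - 1 ∈ lat G ϖ θ (c + 1 + k) := Iff.rfl

theorem unitGroup_antitone (hL : NormalLatticeData G ϖ θ c) : Antitone (unitGroup hL) := by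
  intro k m hkm u hu
  exact lat_antitone hL (by omega : c + 1 + k ≤ c + 1 + m) hu

theorem unitAct_mem (hL : NormalLatticeData G ϖ θ c) {k : ℕ} {u : Rˣ} (g : G)
    (hu : u ∈ unitGroup hL k) : unitAct g u ∈ unitGroup hL k := by
  rw [mem_unitGroup_iff] at hu ⊢
  have := smul_mem_lat hL g hu
  rwa [smul_sub, smul_one] at this

theorem dU_mem (hL : NormalLatticeData G ϖ θ c) {k : ℕ} {u : Rˣ} (σ : G)
    (hu : u ∈ unitGroup hL k) : dU σ u ∈ unitGroup hL k :=
  div_mem (unitAct_mem hL σ hu) hu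

theorem nU_mem (hL : NormalLatticeData G ϖ θ c) {k : ℕ} {u : Rˣ}
    (hu : u ∈ unitGroup hL k) : nU G u ∈ unitGroup hL k :=
  prod_mem fun g _ => unitAct_mem hL g hu

theorem sub_one_mem_span_of_mem (hL : NormalLatticeData G ϖ θ c) {k : ℕ} {u : Rˣ}
    (hu : u ∈ unitGroup hL k) : (u : R) - 1 ∈ Ideal.span {ϖ ^ (c + 1 + k)} :=
  lat_le_span hu

theorem mem_pow_smul_top_iff {n : ℕ} {x : R} :
    x ∈ (Ideal.span {ϖ} ^ n • ⊤ : Submodule R R) ↔ x ∈ Ideal.span {ϖ ^ n} := by
  rw [smul_eq_mul, Ideal.mul_top, Ideal.span_singleton_pow]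

theorem isUnit_of_sub_one_mem [IsAdicComplete (Ideal.span {ϖ}) R] {n : ℕ} (hn : 1 ≤ n) {x : R}
    (hx : x - 1 ∈ Ideal.span {ϖ ^ n}) : IsUnit x := by
  have h1 : x - 1 ∈ Ideal.span {ϖ} := by
    have := span_mono hn hx
    rwa [pow_one] at this
  have h2 := IsAdicComplete.le_jacobson_bot (Ideal.span {ϖ}) h1
  have h3 := Ideal.mem_jacobson_bot.1 h2 1
  simpa using h3

/-- Separatedness of the filtration `V_k`. -/
theorem unitGroup_sep (hL : NormalLatticeData G ϖ θ c) [IsAdicComplete (Ideal.span {ϖ}) R]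
    (u : Rˣ) (hu : ∀ k, u ∈ unitGroup hL k) : u = 1 := by
  have : (u : R) - 1 = 0 := by
    apply IsHausdorff.haus' (I := Ideal.span {ϖ}) ((u : R) - 1)
    intro n
    rw [SModEq.zero, mem_pow_smul_top_iff]
    exact span_mono (by omega) (sub_one_mem_span_of_mem hL (hu n))
  exact Units.ext (by simpa using sub_eq_zero.1 this)

/-- Completeness of the filtration `V_k`: infinite products converge. -/
theorem unitGroup_complete (hL : NormalLatticeData G ϖ θ c) [IsAdicComplete (Ideal.span {ϖ}) R]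
    (y : ℕ → Rˣ) (hy : ∀ k, y k ∈ unitGroup hL k) :
    ∃ s : Rˣ, ∀ k, s / ∏ i ∈ Finset.range k, y i ∈ unitGroup hL k := by
  set P : ℕ → Rˣ := fun k => ∏ i ∈ Finset.range k, y i with hP
  have hP0 : P 0 = 1 := by simp [hP]
  have htail : ∀ k m, k ≤ m → P m / P k ∈ unitGroup hL k := by
    intro k m hkm
    induction m, hkm using Nat.le_induction with
    | base => simp
    | succ m hkm ih =>
      have : P (m + 1) / P k = (P m / P k) * y m := by
        simp only [hP, Finset.prod_range_succ]; rw [mul_div_right_comm]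
      rw [this]
      exact mul_mem ih (unitGroup_antitone hL hkm (hy m))
  have hone : ∀ k, ((P k : Rˣ) : R) - 1 ∈ lat G ϖ θ (c + 1) := by
    intro k
    have := htail 0 k (Nat.zero_le k)
    rw [hP0, div_one] at this
    exact this
  have hdiff : ∀ k m, k ≤ m → ((P m : Rˣ) : R) - P k ∈ lat G ϖ θ (c + 1 + k) := by
    intro k m hkm
    have h1 := htail k m hkm
    rw [mem_unitGroup_iff] at h1
    have e : ((P m : Rˣ) : R) - P k = (((P m / P k : Rˣ) : R) - 1) +
        ((P k : R) - 1) * (((P m / P k : Rˣ) : R) - 1) := by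
      have : ((P m : Rˣ) : R) = (P k : R) * ((P m / P k : Rˣ) : R) := by
        rw [← Units.val_mul, mul_div_cancel]
      linear_combination this
    rw [e]
    exact add_mem h1 (mul_mem_lat hL (by omega) (lat_le_span (hone k)) (lat_le_span h1))
  obtain ⟨L, hLim⟩ := IsPrecomplete.prec' (I := Ideal.span {ϖ}) (M := R)
    (fun k => ((P k : Rˣ) : R)) (by
      intro m n hmn
      rw [SModEq.sub_mem, mem_pow_smul_top_iff, ← neg_sub]
      exact neg_mem (span_mono (by omega) (lat_le_span (hdiff m n hmn))))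
  have hLim' : ∀ n, L - P n ∈ Ideal.span {ϖ ^ n} := by
    intro n
    have := hLim n
    rw [SModEq.sub_mem, mem_pow_smul_top_iff, ← neg_sub] at this
    simpa using neg_mem this
  have hLk : ∀ k, L - P k ∈ lat G ϖ θ (c + 1 + k) := by
    intro k
    have e : L - P k = (L - P (2 * c + 1 + k)) + (((P (2 * c + 1 + k) : Rˣ) : R) - P k) := by ring
    rw [e]
    exact add_mem (span_le_lat hL (by omega) (hLim' _)) (hdiff k _ (by omega))
  have hLunit : IsUnit L := by
    apply isUnit_of_sub_one_mem (ϖ := ϖ) (n := c + 1) (by omega)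
    have := hLk 0
    rw [hP0, Units.val_one] at this
    exact lat_le_span this
  obtain ⟨s, rfl⟩ := hLunit
  refine ⟨s, fun k => ?_⟩
  rw [mem_unitGroup_iff]
  exact div_sub_one_mem_lat hL s (P k) (span_mono (by omega) (lat_le_span (hone k))) (hLk k)

/-- The filtration of `Additive Rˣ` by the `V_k` is complete and separated. -/
theorem isCompleteFiltration_unitGroup (hL : NormalLatticeData G ϖ θ c)
    [IsAdicComplete (Ideal.span {ϖ}) R] :
    IsCompleteFiltration (fun k => (unitGroup hL k).toAddSubgroup) where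
  anti k := by
    intro x hx
    exact unitGroup_antitone hL (Nat.le_succ k) hx
  sep x hx := by
    have := unitGroup_sep hL (Additive.toMul x) (fun n => hx n)
    exact Additive.toMul.injective this
  complete y hy := by
    obtain ⟨s, hs⟩ := unitGroup_complete hL (fun k => Additive.toMul (y k)) (fun k => hy k)
    refine ⟨Additive.ofMul s, fun k => ?_⟩
    have := hs k
    show Additive.toMul (Additive.ofMul s - ∑ i ∈ Finset.range k, y i) ∈ unitGroup hL k
    rw [toMul_sub, toMul_sum]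
    exact this

theorem prod_one_add_sub_mem {ι : Type*} (s : Finset ι) (x : ι → R) (J : Ideal R)
    (hx : ∀ i ∈ s, x i ∈ J) : ∏ i ∈ s, (1 + x i) - (1 + ∑ i ∈ s, x i) ∈ J * J := by
  classical
  induction s using Finset.induction_on with
  | empty => simp
  | insert a s ha ih =>
    rw [Finset.prod_insert ha, Finset.sum_insert ha]
    have ih' := ih (fun i hi => hx i (Finset.mem_insert_of_mem hi))
    have hxa := hx a (Finset.mem_insert_self a s)
    have hsum : ∑ i ∈ s, x i ∈ J := J.sum_mem fun i hi => hx i (Finset.mem_insert_of_mem hi)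
    have e : (1 + x a) * ∏ i ∈ s, (1 + x i) - (1 + (x a + ∑ i ∈ s, x i)) =
      (1 + x a) * (∏ i ∈ s, (1 + x i) - (1 + ∑ i ∈ s, x i)) + x a * ∑ i ∈ s, x i := by ring
    rw [e]
    exact add_mem (Ideal.mul_mem_left _ _ ih') (Ideal.mul_mem_mul hxa hsum)

theorem mem_span_sq {n : ℕ} {x : R} (hx : x ∈ Ideal.span {ϖ ^ n} * Ideal.span {ϖ ^ n}) :
    x ∈ Ideal.span {ϖ ^ (n + n)} := by
  rwa [Ideal.span_singleton_mul_span_singleton, ← pow_add] at hx

/-- Graded exactness at `ker (σ - 1) = im N`. -/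
theorem graded_fixed (hL : NormalLatticeData G ϖ θ c) [IsAdicComplete (Ideal.span {ϖ}) R]
    {σ : G} (hσ : ∀ g : G, g ∈ Subgroup.zpowers σ) (k : ℕ) (u : Rˣ) (hu : u ∈ unitGroup hL k)
    (hfix : unitAct σ u = u) : ∃ w ∈ unitGroup hL k, u / nU G w ∈ unitGroup hL (k + 1) := by
  classical
  obtain ⟨a, ha, hx⟩ := hu
  set n := c + 1 + k with hn
  have hσx : σ • ((u : R) - 1) = (u : R) - 1 := by
    rw [smul_sub, smul_one, ← coe_unitAct, hfix]
  let a' : G → R := fun g => ϖ ^ n * a g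
  have ha' : ∀ g h : G, h • a' g = a' g := by
    intro g h; simp only [a', smul_mul', smul_pow', hL.fixed, ha]
  have hx' : (u : R) - 1 = ∑ g, a' g * g • θ := by
    rw [hx, Finset.mul_sum]; simp only [a', mul_assoc]
  have hσx' : σ • ((u : R) - 1) = ∑ g, a' (σ⁻¹ * g) * g • θ := by
    rw [hx', Finset.smul_sum, ← Equiv.sum_comp (Equiv.mulLeft σ) (fun g => a' (σ⁻¹ * g) * g • θ)]
    refine Finset.sum_congr rfl fun h _ => ?_
    simp [smul_mul', ha', mul_smul]
  have hcoef : ∀ g, a' (σ⁻¹ * g) = a' g := fun g =>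
    coeff_unique hL (fun g h => ha' _ _) ha' (by rw [← hσx', hσx, hx']) g
  have hconst : ∀ g, a' g = a' 1 := by
    intro g
    have := cyclic_const_of_shift hσ (⊥ : AddSubgroup R) a'
      (fun g => by rw [hcoef, sub_self]; exact zero_mem _) g
    rw [AddSubgroup.mem_bot] at this
    exact sub_eq_zero.1 this
  have hx'' : (u : R) - 1 = ∑ g : G, a' 1 * g • θ := by
    rw [hx']; exact Finset.sum_congr rfl fun g _ => by rw [hconst g]
  have hwlat : a' 1 * θ ∈ lat G ϖ θ n :=
    ⟨fun g => if g = 1 then a 1 else 0, fun g h => by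
      dsimp only; split_ifs <;> simp [ha], by simp [a', mul_assoc]⟩
  have hwunit : IsUnit (1 + a' 1 * θ) :=
    isUnit_of_sub_one_mem (ϖ := ϖ) (n := n) (by omega) (by simpa using lat_le_span hwlat)
  obtain ⟨w, hw⟩ := hwunit
  have hwV : w ∈ unitGroup hL k := by
    rw [mem_unitGroup_iff, hw]; simpa using hwlat
  refine ⟨w, hwV, ?_⟩
  rw [mem_unitGroup_iff]
  apply div_sub_one_mem_lat hL u (nU G w)
    (span_mono (by omega) (sub_one_mem_span_of_mem hL (nU_mem hL hwV)))
  have hN : ((nU G w : Rˣ) : R) = ∏ g : G, (1 + a' 1 * g • θ) := by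
    rw [nU_apply, Units.coe_prod]
    refine Finset.prod_congr rfl fun g _ => ?_
    rw [coe_unitAct, hw, smul_add, smul_one, smul_mul', ha' 1 g]
  have hprod := prod_one_add_sub_mem (Finset.univ : Finset G) (fun g => a' 1 * g • θ)
    (Ideal.span {ϖ ^ n}) (fun g _ => by
      simp only [a', mul_assoc]
      exact Ideal.mem_span_singleton'.2 ⟨_, mul_comm _ _⟩)
  have e : (u : R) - nU G w = -(∏ g : G, (1 + a' 1 * g • θ) - (1 + ∑ g : G, a' 1 * g • θ)) := by
    rw [hN, ← hx'']; ring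
  rw [e]
  exact neg_mem (span_le_lat hL (by omega) (mem_span_sq hprod))

/-- Graded exactness at `ker N = im (σ - 1)`. -/
theorem graded_norm (hL : NormalLatticeData G ϖ θ c) [IsAdicComplete (Ideal.span {ϖ}) R]
    {σ : G} (hσ : ∀ g : G, g ∈ Subgroup.zpowers σ) (k : ℕ) (u : Rˣ) (hu : u ∈ unitGroup hL k)
    (hN : nU G u = 1) : ∃ w ∈ unitGroup hL k, u / dU σ w ∈ unitGroup hL (k + 1) := by
  classical
  have hu' : (u : R) - 1 ∈ lat G ϖ θ (c + 1 + k) := hu
  obtain ⟨a, ha, hx⟩ := hu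
  set n := c + 1 + k with hn
  let a' : G → R := fun g => ϖ ^ n * a g
  have ha' : ∀ g h : G, h • a' g = a' g := by
    intro g h; simp only [a', smul_mul', smul_pow', hL.fixed, ha]
  have hx' : (u : R) - 1 = ∑ g, a' g * g • θ := by
    rw [hx, Finset.mul_sum]; simp only [a', mul_assoc]
  set s : R := ∑ h, a' h with hs
  have hsfix : ∀ h : G, h • s = s := by
    intro h; rw [hs, Finset.smul_sum]; exact Finset.sum_congr rfl fun g _ => ha' g h
  have htr : ∑ g : G, g • ((u : R) - 1) = ∑ g : G, s * g • θ := by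
    rw [hx']
    simp_rw [Finset.smul_sum, smul_mul', ha', ← mul_smul, hs, Finset.sum_mul]
    rw [Finset.sum_comm]
    conv_rhs => rw [Finset.sum_comm]
    refine Finset.sum_congr rfl fun h _ => ?_
    exact Equiv.sum_comp (Equiv.mulRight h) (fun g => a' h * g • θ)
  have hNu : (1 : R) = ∏ g : G, (1 + g • ((u : R) - 1)) := by
    have := congrArg Units.val hN
    rw [nU_apply, Units.coe_prod] at this
    simp only [coe_unitAct, Units.val_one] at this
    calc (1 : R) = ∏ g : G, g • (u : R) := this.symm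
      _ = ∏ g : G, (1 + g • ((u : R) - 1)) :=
        Finset.prod_congr rfl fun g _ => by rw [smul_sub, smul_one]; ring
  have hprod := prod_one_add_sub_mem (Finset.univ : Finset G) (fun g => g • ((u : R) - 1))
    (Ideal.span {ϖ ^ n}) (fun g _ => lat_le_span (smul_mem_lat hL g hu'))
  rw [← hNu, htr] at hprod
  have hs_lat : ∑ g : G, s * g • θ ∈ lat G ϖ θ (n + 1) := by
    have := span_le_lat hL (n := n + 1) (by omega) (mem_span_sq hprod)
    have e : ∑ g : G, s * g • θ = -(1 - (1 + ∑ g : G, s * g • θ)) := by ring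
    rw [e]; exact neg_mem this
  obtain ⟨b, hb, hbs⟩ := hs_lat
  have hs1 : s = ϖ ^ (n + 1) * b 1 :=
    coeff_unique hL (a := fun _ => s) (b := fun g => ϖ ^ (n + 1) * b g) (fun _ h => hsfix h)
      (fun g h => by simp only [smul_mul', smul_pow', hL.fixed, hb])
      (by rw [hbs, Finset.mul_sum]; simp only [mul_assoc]) 1
  -- the subgroup of fixed multiples of `ϖ ^ n`
  let T : AddSubgroup R :=
    { carrier := {x | ∃ r, (∀ h : G, h • r = r) ∧ x = ϖ ^ n * r}
      zero_mem' := ⟨0, fun h => smul_zero h, by simp⟩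
      add_mem' := by
        rintro x y ⟨r, hr, rfl⟩ ⟨r', hr', rfl⟩
        exact ⟨r + r', fun h => by rw [smul_add, hr, hr'], by ring⟩
      neg_mem' := by
        rintro x ⟨r, hr, rfl⟩
        exact ⟨-r, fun h => by rw [smul_neg, hr], by ring⟩ }
  let aT : G → T := fun g => ⟨a' g, a g, fun h => ha g h, rfl⟩
  obtain ⟨bT, hbT⟩ := cyclic_exists_shift hσ aT
  have hr : ∀ g, ∃ r, (∀ h : G, h • r = r) ∧ (bT g : R) = ϖ ^ n * r := fun g => (bT g).2
  choose r hrfix hreq using hr
  have hbTfix : ∀ g h : G, h • (bT g : R) = bT g := by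
    intro g h; rw [hreq, smul_mul', smul_pow', hL.fixed, hrfix]
  set y : R := ∑ g, (bT g : R) * g • θ with hy_def
  have hy : y ∈ lat G ϖ θ n :=
    ⟨r, fun g h => hrfix g h, by simp only [hy_def, hreq, Finset.mul_sum, mul_assoc]⟩
  have hwunit : IsUnit (1 + y) :=
    isUnit_of_sub_one_mem (ϖ := ϖ) (n := n) (by omega) (by simpa using lat_le_span hy)
  obtain ⟨w, hw⟩ := hwunit
  have hwV : w ∈ unitGroup hL k := by
    rw [mem_unitGroup_iff, hw]; simpa using hy
  refine ⟨w, hwV, ?_⟩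
  have e1 : u / dU σ w = (u * w) / unitAct σ w := by
    rw [dU_apply, div_div_eq_mul_div]
  rw [e1, mem_unitGroup_iff]
  apply div_sub_one_mem_lat hL (u * w) (unitAct σ w)
    (span_mono (by omega) (sub_one_mem_span_of_mem hL (unitAct_mem hL σ hwV)))
  have hσy : σ • y = ∑ g, (bT (σ⁻¹ * g) : R) * g • θ := by
    rw [hy_def, Finset.smul_sum,
      ← Equiv.sum_comp (Equiv.mulLeft σ) (fun g => (bT (σ⁻¹ * g) : R) * g • θ)]
    refine Finset.sum_congr rfl fun h _ => ?_
    simp [smul_mul', hbTfix, mul_smul]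
  have hcoe : ∀ g, ((bT (σ⁻¹ * g) : R) - bT g) = a' g - (if g = 1 then s else 0) := by
    intro g
    have h1 := congrArg (Subtype.val : T → R) (hbT g)
    have h2 : ((∑ h, aT h : T) : R) = s := by
      rw [AddSubgroup.val_finsetSum]
    rw [AddSubgroup.coe_add, AddSubgroup.coe_sub] at h1
    have h3 : (((if g = 1 then ∑ h, aT h else 0 : T)) : R) = if g = 1 then s else 0 := by
      split_ifs
      · exact h2
      · rfl
    rw [h3] at h1
    have h4 : (aT g : R) = a' g := rfl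
    rw [h4] at h1
    linear_combination (-1 : R) * h1
  have hdiff : σ • y - y = ((u : R) - 1) - s * θ := by
    rw [hσy, hy_def, ← Finset.sum_sub_distrib, hx']
    have key : ∀ g : G, (bT (σ⁻¹ * g) : R) * g • θ - (bT g : R) * g • θ =
        a' g * g • θ - (if g = 1 then s * θ else 0) := by
      intro g
      rw [← sub_mul, hcoe g]
      split_ifs with hg
      · subst hg; simp [sub_mul]
      · simp
    simp_rw [key]
    rw [Finset.sum_sub_distrib]
    simp
  have e2 : ((u * w : Rˣ) : R) - unitAct σ w = s * θ + ((u : R) - 1) * y := by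
    rw [Units.val_mul, coe_unitAct, hw, smul_add, smul_one]
    linear_combination (-1 : R) * hdiff
  rw [e2]
  refine add_mem ?_ (mul_mem_lat hL (by omega) (lat_le_span hu') (lat_le_span hy))
  have hn1 : n + 1 = c + 1 + (k + 1) := by omega
  rw [hn1] at hs1
  exact ⟨fun g => if g = 1 then b 1 else 0, fun g h => by
    dsimp only; split_ifs <;> simp [hb], by simp [hs1, mul_assoc]⟩

/-- **(B1)** On `V = V_0`: every `σ`-fixed unit is a norm. -/
theorem exists_nU_eq_of_fixed (hL : NormalLatticeData G ϖ θ c)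
    [IsAdicComplete (Ideal.span {ϖ}) R] {σ : G} (hσ : ∀ g : G, g ∈ Subgroup.zpowers σ)
    (u : Rˣ) (hu : u ∈ unitGroup hL 0) (hfix : unitAct σ u = u) :
    ∃ w ∈ unitGroup hL 0, nU G w = u := by
  have := exists_of_filtered (isCompleteFiltration_unitGroup hL)
    (MonoidHom.toAdditive (dU σ)) (MonoidHom.toAdditive (nU G))
    (fun x => congrArg Additive.ofMul (dU_nU σ (Additive.toMul x)))
    (fun n x hx => nU_mem hL hx)
    (fun n x hx hfx => by
      obtain ⟨w, hw, h⟩ := graded_fixed hL hσ n (Additive.toMul x) hx (by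
        have : dU σ (Additive.toMul x) = 1 := congrArg Additive.toMul hfx
        rwa [dU_apply, div_eq_one] at this)
      exact ⟨Additive.ofMul w, hw, h⟩)
    (Additive.ofMul u) hu (by
      show Additive.ofMul (dU σ u) = 0
      rw [dU_apply, hfix, div_self']; rfl)
  obtain ⟨y, hy, h⟩ := this
  exact ⟨Additive.toMul y, hy, congrArg Additive.toMul h⟩

/-- **(B2)** On `V = V_0`: every unit of norm one is of the form `σ w / w`. -/
theorem exists_dU_eq_of_norm (hL : NormalLatticeData G ϖ θ c)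
    [IsAdicComplete (Ideal.span {ϖ}) R] {σ : G} (hσ : ∀ g : G, g ∈ Subgroup.zpowers σ)
    (u : Rˣ) (hu : u ∈ unitGroup hL 0) (hN : nU G u = 1) :
    ∃ w ∈ unitGroup hL 0, dU σ w = u := by
  have := exists_of_filtered (isCompleteFiltration_unitGroup hL)
    (MonoidHom.toAdditive (nU G)) (MonoidHom.toAdditive (dU σ))
    (fun x => congrArg Additive.ofMul (nU_dU σ (Additive.toMul x)))
    (fun n x hx => dU_mem hL σ hx)
    (fun n x hx hfx => by
      obtain ⟨w, hw, h⟩ := graded_norm hL hσ n (Additive.toMul x) hx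
        (congrArg Additive.toMul hfx)
      exact ⟨Additive.ofMul w, hw, h⟩)
    (Additive.ofMul u) hu (by
      show Additive.ofMul (nU G u) = 0
      rw [hN]; rfl)
  obtain ⟨y, hy, h⟩ := this
  exact ⟨Additive.toMul y, hy, congrArg Additive.toMul h⟩

/-- **(B3)** `V_0` has finite index in `Rˣ` as soon as `R / ϖ ^ (2c+1)` is finite. -/
theorem unitGroup_finiteIndex (hL : NormalLatticeData G ϖ θ c)
    [Finite (R ⧸ Ideal.span {ϖ ^ (2 * c + 1)})] : (unitGroup hL 0).FiniteIndex := by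
  let φ : Rˣ →* (R ⧸ Ideal.span {ϖ ^ (2 * c + 1)})ˣ :=
    Units.map (Ideal.Quotient.mk (Ideal.span {ϖ ^ (2 * c + 1)}) : R →* _)
  have hle : φ.ker ≤ unitGroup hL 0 := by
    intro u hu
    rw [MonoidHom.mem_ker] at hu
    have h1 : Ideal.Quotient.mk (Ideal.span {ϖ ^ (2 * c + 1)}) (u : R) = 1 :=
      congrArg Units.val hu
    rw [← map_one (Ideal.Quotient.mk (Ideal.span {ϖ ^ (2 * c + 1)})), Ideal.Quotient.eq] at h1
    rw [mem_unitGroup_iff]
    exact span_le_lat hL (by omega) h1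
  exact Subgroup.finiteIndex_of_le hle

end UnitGroups

section HerbrandStable

open Herbrand

/-- A stable subgroup of finite index on which both sequences are exact forces the Herbrand
quotient to be `1`. -/
theorem herbrand_of_stable_subgroup {B : Type*} [AddCommGroup B] (f g : B →+ B)
    (hfg : f.comp g = 0) (hgf : g.comp f = 0) (S : AddSubgroup B) [S.FiniteIndex]
    (hfS : ∀ x ∈ S, f x ∈ S) (hgS : ∀ x ∈ S, g x ∈ S)
    (h1 : ∀ x ∈ S, f x = 0 → ∃ y ∈ S, g y = x) (h2 : ∀ x ∈ S, g x = 0 → ∃ y ∈ S, f y = x) :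
    IsFin f g ∧ hq f g = 1 := by
  let fA : S →+ S := (f.comp S.subtype).codRestrict S (fun x => hfS x x.2)
  let gA : S →+ S := (g.comp S.subtype).codRestrict S (fun x => hgS x x.2)
  let fC : B ⧸ S →+ B ⧸ S := QuotientAddGroup.map S S f (fun x hx => hfS x hx)
  let gC : B ⧸ S →+ B ⧸ S := QuotientAddGroup.map S S g (fun x hx => hgS x hx)
  have hE : Exact3 S.subtype (QuotientAddGroup.mk' S) fA gA f g fC gC :=
    { inj := Subtype.val_injective
      surj := QuotientAddGroup.mk'_surjective S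
      exact := by rw [AddSubgroup.range_subtype, QuotientAddGroup.ker_mk']
      fgB := hfg
      gfB := hgf
      fi := fun a => rfl
      gi := fun a => rfl
      fp := fun b => rfl
      gp := fun b => rfl }
  have i1 : idx fA gA = 1 := by
    rw [idx, AddSubgroup.relIndex_eq_one]
    intro x hx
    rw [AddMonoidHom.mem_ker] at hx
    obtain ⟨y, hy, hyx⟩ := h1 x x.2 (congrArg Subtype.val hx)
    exact ⟨⟨y, hy⟩, Subtype.ext hyx⟩
  have i2 : idx gA fA = 1 := by
    rw [idx, AddSubgroup.relIndex_eq_one]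
    intro x hx
    rw [AddMonoidHom.mem_ker] at hx
    obtain ⟨y, hy, hyx⟩ := h2 x x.2 (congrArg Subtype.val hx)
    exact ⟨⟨y, hy⟩, Subtype.ext hyx⟩
  have hA : IsFin fA gA := ⟨by rw [i1]; exact one_ne_zero, by rw [i2]; exact one_ne_zero⟩
  have hqA : hq fA gA = 1 := by simp [hq, i1, i2]
  obtain ⟨hiff, heq⟩ := hq_eq_of_finite_coker hE
  exact ⟨hiff.1 hA, by rw [← heq, hqA]⟩

end HerbrandStable

section UnitsHerbrand

set_option linter.unusedSectionVars false

variable {G : Type*} [Group G] [Fintype G] {R : Type*} [CommRing R] [MulSemiringAction G R]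
variable {ϖ θ : R} {c : ℕ}

/-- `σ - 1` on `Additive Rˣ`. -/
def dA (σ : G) : Additive Rˣ →+ Additive Rˣ := MonoidHom.toAdditive (dU σ)

/-- The norm on `Additive Rˣ`. -/
def nA (G : Type*) [Group G] [Fintype G] (R : Type*) [CommRing R] [MulSemiringAction G R] :
    Additive Rˣ →+ Additive Rˣ := MonoidHom.toAdditive (nU G)

theorem dA_apply (σ : G) (x : Additive Rˣ) :
    dA σ x = Additive.ofMul (dU σ (Additive.toMul x)) := rfl

theorem nA_apply (x : Additive Rˣ) :
    nA G R x = Additive.ofMul (nU G (Additive.toMul x)) := rfl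

/-- **Herbrand quotient of the units is `1`**: for a finite cyclic group `G = ⟨σ⟩` acting on a
`ϖ`-adically complete ring `R` with a normal lattice and finite quotient `R / ϖ ^ (2c+1)`. -/
theorem units_herbrand (hL : NormalLatticeData G ϖ θ c) [IsAdicComplete (Ideal.span {ϖ}) R]
    [Finite (R ⧸ Ideal.span {ϖ ^ (2 * c + 1)})] {σ : G}
    (hσ : ∀ g : G, g ∈ Subgroup.zpowers σ) :
    Herbrand.IsFin (dA σ) (nA G R) ∧ Herbrand.hq (dA σ) (nA G R) = 1 := by
  have hfi := unitGroup_finiteIndex hL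
  have : (unitGroup hL 0).toAddSubgroup.FiniteIndex :=
    Subgroup.finiteIndex_toAddSubgroup_iff.2 hfi
  refine herbrand_of_stable_subgroup _ _ ?_ ?_ (unitGroup hL 0).toAddSubgroup
    (fun x hx => dU_mem hL σ hx) (fun x hx => nU_mem hL hx) ?_ ?_
  · exact AddMonoidHom.ext fun x => congrArg Additive.ofMul (dU_nU σ (Additive.toMul x))
  · exact AddMonoidHom.ext fun x => congrArg Additive.ofMul (nU_dU σ (Additive.toMul x))
  · intro x hx hfx
    obtain ⟨w, hw, h⟩ := exists_nU_eq_of_fixed hL hσ (Additive.toMul x) hx (by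
      have : dU σ (Additive.toMul x) = 1 := congrArg Additive.toMul hfx
      rwa [dU_apply, div_eq_one] at this)
    exact ⟨Additive.ofMul w, hw, congrArg Additive.ofMul h⟩
  · intro x hx hfx
    obtain ⟨w, hw, h⟩ := exists_dU_eq_of_norm hL hσ (Additive.toMul x) hx
      (congrArg Additive.toMul hfx)
    exact ⟨Additive.ofMul w, hw, congrArg Additive.ofMul h⟩

end UnitsHerbrand

end Fermat.Agent.CFT.Local.NormIndex
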