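import Mathlib
import Fermat.Agent.CFT.Local.UnitsLattice

/-!
# The norm index of a cyclic extension (abstract form, no `exp`/`log`)

Let `E/F` be a finite cyclic Galois extension of fields, `O ⊆ E` a Galois-stable subring,
`ϖ ∈ F` nonzero with `ϖ ∈ O`, such that `O` is `ϖ`-adically complete with finite quotients
`O / ϖ ^ j`, every element of `E` has a multiple `ϖ ^ k y ∈ O`, and `v : Eˣ → ℤ` is a
Galois-invariant surjective homomorphism with kernel `Oˣ`.  Then
`[Fˣ : N_{E/F} Eˣ] = [E : F]`.
-/

namespace Fermat.Agent.CFT.Local.NormIndex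

open Finset

section Abstract

variable {F E : Type} [Field F] [Field E] [Algebra F E]

/-- The action of `Gal(E/F)` on a Galois-stable subring. -/
@[reducible] def galAction (O : Subring E) (hO : ∀ (σ : E ≃ₐ[F] E) (x : E), x ∈ O → σ x ∈ O) :
    MulSemiringAction (E ≃ₐ[F] E) O where
  smul σ x := ⟨σ x, hO σ x x.2⟩
  one_smul _ := Subtype.ext rfl
  mul_smul _ _ _ := Subtype.ext rfl
  smul_zero σ := Subtype.ext (map_zero σ)
  smul_add σ _ _ := Subtype.ext (map_add σ _ _)
  smul_one σ := Subtype.ext (map_one σ)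
  smul_mul σ _ _ := Subtype.ext (map_mul σ _ _)

variable [FiniteDimensional F E] [IsGalois F E]

/-- A normal basis, suitably scaled, gives normal lattice data for `O`. -/
theorem exists_normalLatticeData
    (O : Subring E) (hO : ∀ (σ : E ≃ₐ[F] E) (x : E), x ∈ O → σ x ∈ O)
    (ϖ : F) (hϖ0 : ϖ ≠ 0) (hϖ : algebraMap F E ϖ ∈ O)
    (hbdd : ∀ y : E, ∃ k : ℕ, algebraMap F E ϖ ^ k * y ∈ O) :
    letI := galAction O hO
    ∃ (θ : O) (c : ℕ), NormalLatticeData (E ≃ₐ[F] E) (⟨algebraMap F E ϖ, hϖ⟩ : O) θ c := by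
  classical
  letI := galAction O hO
  set b := IsGalois.normalBasis F E with hb
  -- scale the normal basis generator into `O`
  obtain ⟨k₀, hk₀⟩ := hbdd (b 1)
  set θ : O := ⟨algebraMap F E ϖ ^ k₀ * b 1, hk₀⟩ with hθ
  have hsmulθ : ∀ g : E ≃ₐ[F] E, ((g • θ : O) : E) = algebraMap F E ϖ ^ k₀ * b g := by
    intro g
    show g (algebraMap F E ϖ ^ k₀ * b 1) = _
    rw [map_mul, map_pow, AlgEquiv.commutes, ← IsGalois.normalBasis_apply]
  -- the trace-dual basis
  have hB : (Algebra.traceForm F E).Nondegenerate := traceForm_nondegenerate F E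
  set d := (Algebra.traceForm F E).dualBasis hB b with hd
  have hrepr : ∀ (x : E) (g : E ≃ₐ[F] E), b.repr x g = Algebra.trace F E (x * d g) := by
    intro x g
    have h1 := LinearMap.BilinForm.dualBasis_repr_apply hB d x g
    rw [hd, LinearMap.BilinForm.dualBasis_dualBasis hB (Algebra.traceForm_isSymm F) b] at h1
    rw [h1, Algebra.traceForm_apply]
  -- a common denominator for the dual basis
  have hk₁ : ∃ k₁ : ℕ, ∀ g : E ≃ₐ[F] E, algebraMap F E ϖ ^ k₁ * d g ∈ O := by
    choose k hk using fun g : E ≃ₐ[F] E => hbdd (d g)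
    refine ⟨Finset.univ.sup k, fun g => ?_⟩
    obtain ⟨m, hm⟩ := Nat.exists_eq_add_of_le (Finset.le_sup (f := k) (Finset.mem_univ g))
    rw [hm, pow_add, mul_comm (algebraMap F E ϖ ^ k g), mul_assoc]
    exact O.mul_mem (O.pow_mem hϖ m) (hk g)
  obtain ⟨k₁, hk₁⟩ := hk₁
  -- traces of elements of `O` lie in `O`
  have htr : ∀ y : E, y ∈ O → algebraMap F E (Algebra.trace F E y) ∈ O := by
    intro y hy
    rw [trace_eq_sum_automorphisms]
    exact O.sum_mem fun σ _ => hO σ y hy
  refine ⟨θ, k₁ + k₀, ⟨fun g => Subtype.ext (AlgEquiv.commutes g ϖ), ?_, ?_⟩⟩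
  · -- independence
    intro a ha hsum g
    have hfix : ∀ g : E ≃ₐ[F] E, ∃ f : F, algebraMap F E f = (a g : E) := by
      intro g
      have : (a g : E) ∈ Set.range (algebraMap F E) := by
        rw [IsGalois.mem_range_algebraMap_iff_fixed]
        intro σ
        exact congrArg Subtype.val (ha g σ)
      exact this
    choose f hf using hfix
    have hsumE : ∑ g : E ≃ₐ[F] E, (f g * ϖ ^ k₀) • b g = 0 := by
      have := congrArg (Subtype.val : O → E) hsum
      rw [Subring.coe_zero, AddSubmonoidClass.coe_finsetSum] at this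
      rw [← this]
      refine Finset.sum_congr rfl fun g _ => ?_
      rw [Subring.coe_mul, hsmulθ, ← hf g, Algebra.smul_def, map_mul, map_pow]
      ring
    have hzero := Fintype.linearIndependent_iff.1 b.linearIndependent _ hsumE g
    have hfg : f g = 0 := by
      rcases mul_eq_zero.1 hzero with h | h
      · exact h
      · exact absurd (pow_eq_zero_iff (n := k₀) (by
          rintro rfl
          simp at h) |>.1 h) hϖ0
    exact Subtype.ext (by rw [← hf g, hfg, map_zero]; rfl)
  · -- the bound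
    intro x
    refine ⟨fun g => ⟨algebraMap F E (Algebra.trace F E ((x : E) * (algebraMap F E ϖ ^ k₁ * d g))),
      htr _ (O.mul_mem x.2 (hk₁ g))⟩, fun g h => Subtype.ext (AlgEquiv.commutes h _), ?_⟩
    apply Subtype.ext
    rw [pow_zero, one_mul, Subring.coe_mul, AddSubmonoidClass.coe_finsetSum]
    have hx : (x : E) = ∑ g : E ≃ₐ[F] E, b.repr x g • b g := (b.sum_repr (x : E)).symm
    have e1 : ∀ g : E ≃ₐ[F] E,
        algebraMap F E (Algebra.trace F E ((x : E) * (algebraMap F E ϖ ^ k₁ * d g))) *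
          (algebraMap F E ϖ ^ k₀ * b g) =
        algebraMap F E ϖ ^ (k₁ + k₀) * (b.repr (x : E) g • b g) := by
      intro g
      have : (x : E) * (algebraMap F E ϖ ^ k₁ * d g) = ϖ ^ k₁ • ((x : E) * d g) := by
        rw [Algebra.smul_def, map_pow]; ring
      rw [this, map_smul, smul_eq_mul, hrepr, Algebra.smul_def, map_mul, map_pow, pow_add]
      ring
    have e2 : ∀ g : E ≃ₐ[F] E,
        (((⟨algebraMap F E (Algebra.trace F E ((x : E) * (algebraMap F E ϖ ^ k₁ * d g))),
          htr _ (O.mul_mem x.2 (hk₁ g))⟩ : O) * g • θ : O) : E) =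
        algebraMap F E ϖ ^ (k₁ + k₀) * (b.repr (x : E) g • b g) := by
      intro g
      rw [Subring.coe_mul, hsmulθ]
      exact e1 g
    rw [Finset.sum_congr rfl fun g _ => e2 g, ← Finset.mul_sum, ← hx]
    rfl

/-- The Herbrand quotient of `ℤ` with `f = 0`, `g = n` is `n`. -/
theorem int_herbrand (n : ℕ) (hn : n ≠ 0) :
    Herbrand.idx (0 : ℤ →+ ℤ) (n • AddMonoidHom.id ℤ) = n ∧
      Herbrand.idx (n • AddMonoidHom.id ℤ) (0 : ℤ →+ ℤ) = 1 := by
  constructor
  · rw [Herbrand.idx]
    have h1 : (0 : ℤ →+ ℤ).ker = ⊤ := by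
      ext x; simp
    have h2 : (n • AddMonoidHom.id ℤ).range = AddSubgroup.zmultiples (n : ℤ) := by
      ext x
      rw [AddMonoidHom.mem_range, AddSubgroup.mem_zmultiples_iff]
      constructor
      · rintro ⟨y, rfl⟩
        exact ⟨y, by simp [mul_comm]⟩
      · rintro ⟨y, rfl⟩
        exact ⟨y, by simp [mul_comm]⟩
    rw [h1, h2, AddSubgroup.relIndex_top_right, Int.index_zmultiples, Int.natAbs_natCast]
  · rw [Herbrand.idx]
    have h1 : (n • AddMonoidHom.id ℤ).ker = ⊥ := by
      ext x
      rw [AddMonoidHom.mem_ker, AddSubgroup.mem_bot]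
      simp [hn]
    rw [h1, AddSubgroup.relIndex_bot_right]

variable [IsCyclic (E ≃ₐ[F] E)]

/-- **The norm index of a cyclic extension equals its degree** (abstract form). -/
theorem norm_index_eq_finrank
    (O : Subring E) (hO : ∀ (σ : E ≃ₐ[F] E) (x : E), x ∈ O → σ x ∈ O)
    (ϖ : F) (hϖ0 : ϖ ≠ 0) (hϖ : algebraMap F E ϖ ∈ O)
    (hcomplete : IsAdicComplete (Ideal.span {(⟨algebraMap F E ϖ, hϖ⟩ : O)}) O)
    (hfin : ∀ j : ℕ, Finite (O ⧸ Ideal.span {(⟨algebraMap F E ϖ, hϖ⟩ : O) ^ j}))
    (hbdd : ∀ y : E, ∃ k : ℕ, algebraMap F E ϖ ^ k * y ∈ O)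
    (v : Eˣ → ℤ) (hadd : ∀ x y : Eˣ, v (x * y) = v x + v y)
    (hinv : ∀ (σ : E ≃ₐ[F] E) (x : Eˣ), v (Units.map (σ : E →* E) x) = v x)
    (hker : ∀ x : Eˣ, v x = 0 ↔ ((x : E) ∈ O ∧ ((x⁻¹ : Eˣ) : E) ∈ O))
    (hsurj : ∃ x : Eˣ, v x = 1) :
    (MonoidHom.range (Units.map (Algebra.norm F : E →* F))).index = Module.finrank F E := by
  classical
  letI := galAction O hO
  obtain ⟨σ, hσ⟩ := IsCyclic.exists_generator (α := E ≃ₐ[F] E)
  obtain ⟨θ, c, hL⟩ := exists_normalLatticeData O hO ϖ hϖ0 hϖ hbdd
  haveI := hcomplete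
  haveI := hfin (2 * c + 1)
  obtain ⟨hfinA, hqA⟩ := units_herbrand hL hσ
  -- the data on `Eˣ`
  set fB : Additive Eˣ →+ Additive Eˣ := dA (R := E) σ with hfB
  set gB : Additive Eˣ →+ Additive Eˣ := nA (E ≃ₐ[F] E) E with hgB
  set i : Additive Oˣ →+ Additive Eˣ :=
    MonoidHom.toAdditive (Units.map (O.subtype : O →* E)) with hi
  set p : Additive Eˣ →+ ℤ :=
    AddMonoidHom.mk' (fun x => v (Additive.toMul x)) (fun x y => hadd _ _) with hp
  set n := Fintype.card (E ≃ₐ[F] E) with hn
  have hn0 : n ≠ 0 := Fintype.card_ne_zero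
  have hact : ∀ (g : E ≃ₐ[F] E) (u : Eˣ), v (unitAct g u) = v u := by
    intro g u
    have : unitAct g u = Units.map (g : E →* E) u := Units.ext rfl
    rw [this, hinv]
  have hE : Herbrand.Exact3 i p (dA σ) (nA (E ≃ₐ[F] E) O) fB gB (0 : ℤ →+ ℤ)
      (n • AddMonoidHom.id ℤ) :=
    { inj := fun x y h => by
        apply Additive.toMul.injective
        exact Units.map_injective (f := (O.subtype : O →* E)) Subtype.val_injective
          (congrArg Additive.toMul h)
      surj := fun m => by
        obtain ⟨x₁, hx₁⟩ := hsurj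
        refine ⟨m • Additive.ofMul x₁, ?_⟩
        rw [map_zsmul]
        show m • v x₁ = m
        rw [hx₁]; simp
      exact := by
        ext x
        rw [AddMonoidHom.mem_range, AddMonoidHom.mem_ker]
        constructor
        · rintro ⟨a, rfl⟩
          show v (Units.map (O.subtype : O →* E) (Additive.toMul a)) = 0
          rw [hker]
          exact ⟨(Additive.toMul a : Oˣ).val.2, ((Additive.toMul a)⁻¹ : Oˣ).val.2⟩
        · intro hx
          have hx' : v (Additive.toMul x) = 0 := hx
          rw [hker] at hx'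
          refine ⟨Additive.ofMul ⟨⟨_, hx'.1⟩, ⟨_, hx'.2⟩, Subtype.ext (by simp),
            Subtype.ext (by simp)⟩, ?_⟩
          apply Additive.toMul.injective
          exact Units.ext rfl
      fgB := AddMonoidHom.ext fun x => congrArg Additive.ofMul (dU_nU σ (Additive.toMul x))
      gfB := AddMonoidHom.ext fun x => congrArg Additive.ofMul (nU_dU σ (Additive.toMul x))
      fi := fun a => by
        apply Additive.toMul.injective
        exact Units.ext rfl
      gi := fun a => by
        apply Additive.toMul.injective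
        show nU (E ≃ₐ[F] E) (Units.map (O.subtype : O →* E) (Additive.toMul a)) =
          Units.map (O.subtype : O →* E) (nU (E ≃ₐ[F] E) (Additive.toMul a))
        rw [nU_apply, nU_apply, map_prod]
        exact Finset.prod_congr rfl fun g _ => Units.ext rfl
      fp := fun b => by
        show (0 : ℤ) = v (dU σ (Additive.toMul b))
        have h1 : v (dU σ (Additive.toMul b)) + v (Additive.toMul b) = v (Additive.toMul b) := by
          rw [← hadd, dU_apply, div_mul_cancel, hact]
        linarith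
      gp := fun b => by
        show n • v (Additive.toMul b) = p (Additive.ofMul (nU (E ≃ₐ[F] E) (Additive.toMul b)))
        rw [nU_apply, ofMul_prod, map_sum]
        have : ∀ g : E ≃ₐ[F] E, p (Additive.ofMul (unitAct g (Additive.toMul b))) =
            v (Additive.toMul b) := fun g => hact g _
        rw [Finset.sum_congr rfl fun g _ => this g, Finset.sum_const, Finset.card_univ] }
  obtain ⟨hC1, hC2⟩ := int_herbrand n hn0
  have hfinC : Herbrand.IsFin (0 : ℤ →+ ℤ) (n • AddMonoidHom.id ℤ) :=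
    ⟨by rw [hC1]; exact hn0, by rw [hC2]; exact one_ne_zero⟩
  have hqC : Herbrand.hq (0 : ℤ →+ ℤ) (n • AddMonoidHom.id ℤ) = n := by
    simp [Herbrand.hq, hC1, hC2]
  have hmul := hE.hq_mul hfinA hfinC
  rw [hqA, hqC, one_mul] at hmul
  -- Hilbert 90
  have h90 : Herbrand.idx gB fB = 1 := by
    rw [Herbrand.idx, AddSubgroup.relIndex_eq_one]
    intro x hx
    rw [AddMonoidHom.mem_ker] at hx
    have hx1 : nU (E ≃ₐ[F] E) (Additive.toMul x) = 1 := congrArg Additive.toMul hx
    have hnorm : Algebra.norm F ((Additive.toMul x : Eˣ) : E) = 1 := by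
      apply (algebraMap F E).injective
      rw [Algebra.norm_eq_prod_automorphisms, map_one]
      have := congrArg Units.val hx1
      rw [nU_apply, Units.coe_prod] at this
      exact this
    obtain ⟨y, hy⟩ := groupCohomology.exists_div_of_norm_eq_one hσ hnorm
    refine ⟨Additive.ofMul y⁻¹, ?_⟩
    apply Additive.toMul.injective
    apply Units.ext
    show ((dU σ y⁻¹ : Eˣ) : E) = _
    rw [← hy, dU_apply, Units.val_div_eq_div_val, coe_unitAct]
    show σ ((y⁻¹ : Eˣ) : E) / ((y⁻¹ : Eˣ) : E) = _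
    rw [Units.val_inv_eq_inv_val, map_inv₀]
    have h1 : (y : E) ≠ 0 := y.ne_zero
    have h2 : σ (y : E) ≠ 0 := (map_ne_zero σ).2 h1
    field_simp
  have hidx : Herbrand.idx fB gB = n := by
    have : Herbrand.hq fB gB = (Herbrand.idx fB gB : ℚ) := by
      simp [Herbrand.hq, h90]
    rw [this] at hmul
    exact_mod_cast hmul
  -- translate to the norm index
  set j : Fˣ →* Eˣ := Units.map (algebraMap F E : F →* E) with hj
  have hjinj : Function.Injective j := Units.map_injective (algebraMap F E).injective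
  have hker' : (dU (R := E) σ).ker = Subgroup.map j ⊤ := by
    ext x
    rw [MonoidHom.mem_ker, dU_apply, div_eq_one]
    constructor
    · intro hx
      have hfix : ∀ g : E ≃ₐ[F] E, g (x : E) = x := by
        intro g
        have hmem : σ ∈ MulAction.stabilizer (E ≃ₐ[F] E) (x : E) := by
          rw [MulAction.mem_stabilizer_iff]
          exact congrArg Units.val hx
        have := (Subgroup.zpowers_le.2 hmem) (hσ g)
        rw [MulAction.mem_stabilizer_iff] at this
        exact this
      obtain ⟨f, hf⟩ := (IsGalois.mem_range_algebraMap_iff_fixed (F := F) (x : E)).2 hfix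
      have hf0 : f ≠ 0 := by
        rintro rfl
        rw [map_zero] at hf
        exact x.ne_zero hf.symm
      exact ⟨Units.mk0 f hf0, Subgroup.mem_top _, Units.ext hf⟩
    · rintro ⟨f, -, rfl⟩
      exact Units.ext (AlgEquiv.commutes σ _)
  have hrange' : (nU (E ≃ₐ[F] E) (R := E)).range =
      Subgroup.map j (MonoidHom.range (Units.map (Algebra.norm F : E →* F))) := by
    have hcomp : nU (E ≃ₐ[F] E) (R := E) = j.comp (Units.map (Algebra.norm F : E →* F)) := by
      ext x
      show ((nU (E ≃ₐ[F] E) x : Eˣ) : E) = algebraMap F E (Algebra.norm F (x : E))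
      rw [Algebra.norm_eq_prod_automorphisms, nU_apply, Units.coe_prod]
      rfl
    rw [hcomp, MonoidHom.range_comp]
  have hidx' : Herbrand.idx fB gB =
      (MonoidHom.range (Units.map (Algebra.norm F : E →* F))).index := by
    rw [Herbrand.idx, hfB, hgB]
    show (MonoidHom.toAdditive (nU (E ≃ₐ[F] E) (R := E))).range.relIndex
      (MonoidHom.toAdditive (dU (R := E) σ)).ker = _
    rw [MonoidHom.coe_toAdditive_range, MonoidHom.coe_toAdditive_ker,
      Subgroup.relIndex_toAddSubgroup, hker', hrange',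
      Subgroup.relIndex_map_map_of_injective _ _ hjinj, Subgroup.relIndex_top_right]
  rw [← hidx', hidx, hn, ← Nat.card_eq_fintype_card, IsGalois.card_aut_eq_finrank]

end Abstract

end Fermat.Agent.CFT.Local.NormIndex
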