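import Mathlib
import Fermat.Agent.CFT.Local.Defs
import Fermat.Agent.CFT.Local.NormIndexAbstract
import Fermat.Agent.CFT.Local.IntegersComplete

/-!
# The norm index of a cyclic extension of finite extensions of `ℚ_q`

`norm_index_of_ord`: for abstract finite extensions `F ⊆ E` of `ℚ_[q]` with `E/F` cyclic,
`[Fˣ : N_{E/F} Eˣ] = [E : F]`, assuming only the four basic facts on the normalised valuation
`ordZ q E` (additive, surjective, kernel `unitGroup q E`, Galois-invariant), which are part of
`Plan.OrdStmt` / `Plan.RelOrdStmt`.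
-/

namespace Fermat.Agent.CFT.Local.NormIndex

open Fermat.Agent.CFT.Local

theorem norm_index_of_ord (q : ℕ) [Fact q.Prime] (F E : Type) [Field F] [Field E]
    [Algebra ℚ_[q] F] [Algebra ℚ_[q] E] [Algebra F E] [IsScalarTower ℚ_[q] F E]
    [FiniteDimensional ℚ_[q] F] [FiniteDimensional F E] [IsGalois F E] [IsCyclic (E ≃ₐ[F] E)]
    (hadd : ∀ x y : Eˣ, ordZ q E (x * y) = ordZ q E x + ordZ q E y)
    (hunif : ∃ ϖ : Eˣ, ordZ q E ϖ = 1)
    (hunit : ∀ x : Eˣ, x ∈ Local.unitGroup q E ↔ ordZ q E x = 0)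
    (hinv : ∀ (σ : E ≃ₐ[F] E) (x : Eˣ),
      ordZ q E (Units.map σ.toAlgHom.toRingHom.toMonoidHom x) = ordZ q E x) :
    (MonoidHom.range (Units.map (Algebra.norm F : E →* F))).index = Module.finrank F E := by
  haveI : FiniteDimensional ℚ_[q] E := FiniteDimensional.trans ℚ_[q] F E
  have hq : algebraMap F E (q : F) = (q : E) := map_natCast _ _
  have hqF : (q : F) ≠ 0 := by
    have h1 : ((q : ℚ_[q])) ≠ 0 := Nat.cast_ne_zero.2 (Fact.out : q.Prime).ne_zero
    have h2 : algebraMap ℚ_[q] F (q : ℚ_[q]) ≠ 0 :=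
      (map_ne_zero_iff _ (algebraMap ℚ_[q] F).injective).2 h1
    rwa [map_natCast] at h2
  have hmem : algebraMap F E (q : F) ∈ integers q E := by
    rw [hq]; exact natCast_mem_integers q E
  have e : (⟨algebraMap F E (q : F), hmem⟩ : integers q E) =
      ⟨(q : E), natCast_mem_integers q E⟩ := Subtype.ext hq
  refine norm_index_eq_finrank (integers q E)
    (fun σ x hx => algEquiv_mem_integers q E F σ hx) (q : F) hqF hmem ?_ ?_ ?_
    (ordZ q E) hadd ?_ ?_ hunif
  · rw [e]; exact integers_isAdicComplete q E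
  · intro j; rw [e]; exact integers_finite_quotient q E j
  · intro y; rw [hq]; exact exists_pow_mul_mem_integers q E y
  · intro σ x
    have : Units.map (σ : E →* E) x = Units.map σ.toAlgHom.toRingHom.toMonoidHom x :=
      Units.ext rfl
    rw [this, hinv]
  · intro x
    rw [← hunit]
    exact Iff.rfl

end Fermat.Agent.CFT.Local.NormIndex
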