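import Mathlib
import Fermat.Agent.CFT.Local.OrdCore
import Fermat.Agent.CFT.Local.NormIndexLocal

/-!
# The norm index of cyclic extensions of finite extensions of `ℚ_q` (unconditional)

* `norm_index_cyclic`: for abstract finite extensions `F ⊆ E` of `ℚ_[q]` with `E/F` cyclic,
  `[Fˣ : N_{E/F} Eˣ] = [E : F]`.
* `norm_units_iff_unram`: for `E/F` Galois of prime degree, `E/F` is unramified iff every unit
  of `F` is a norm from `Eˣ` (the implication `⇒` being an input: units are norms in unramified
  extensions).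
-/

namespace Fermat.Agent.CFT.Local.NormIndex

open Fermat.Agent.CFT.Local

variable (q : ℕ) [Fact q.Prime] (F E : Type) [Field F] [Field E]
  [Algebra ℚ_[q] F] [Algebra ℚ_[q] E] [Algebra F E] [IsScalarTower ℚ_[q] F E]
  [FiniteDimensional ℚ_[q] F] [FiniteDimensional F E] [IsGalois F E]

include q in
/-- **The norm index of a cyclic extension equals its degree.** -/
theorem norm_index_cyclic [IsCyclic (E ≃ₐ[F] E)] :
    (MonoidHom.range (Units.map (Algebra.norm F : E →* F))).index = Module.finrank F E := by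
  haveI : FiniteDimensional ℚ_[q] E := OrdCore.finiteDimensional_top q F E
  exact norm_index_of_ord q F E (OrdCore.ordZ_mul q E) (OrdCore.exists_ordZ_eq_one q E)
    (OrdCore.mem_unitGroup_iff_ordZ q E) (OrdCore.ordZ_algEquiv q F E)

/-- For a Galois extension of prime degree: unramified iff all units are norms. -/
theorem norm_units_iff_unram (hprime : (Module.finrank F E).Prime)
    (h3 : IsUnram q F E → ∀ u ∈ Local.unitGroup q F,
      ∃ w ∈ Local.unitGroup q E, Algebra.norm F (w : E) = (u : F)) :
    IsUnram q F E ↔ ∀ u ∈ Local.unitGroup q F, ∃ w : Eˣ, Algebra.norm F (w : E) = (u : F) := by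
  haveI : FiniteDimensional ℚ_[q] E := OrdCore.finiteDimensional_top q F E
  constructor
  · intro hun u hu
    obtain ⟨w, -, hw⟩ := h3 hun u hu
    exact ⟨w, hw⟩
  · intro hnorm
    obtain ⟨ϖE, hϖE⟩ := OrdCore.exists_ordZ_eq_one q E
    obtain ⟨e, he0, hef, hee⟩ := OrdCore.exists_ramIdx q F E
    rw [OrdCore.isUnram_iff_ramIdx q F E he0 hee]
    by_contra hne
    set N : Eˣ →* Fˣ := Units.map (Algebra.norm F : E →* F) with hN
    have h5 := OrdCore.ordZ_norm q F E ϖE
    rw [hϖE, mul_one] at h5
    have hF0 : (fDeg q F : ℤ) ≠ 0 := by exact_mod_cast (OrdCore.fDeg_pos q F).ne'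
    have h6 : (e : ℤ) * ordZ q F (N ϖE) = (Module.finrank F E : ℤ) := by
      have h7 : (e : ℤ) * (fDeg q E : ℤ) = (Module.finrank F E : ℤ) * (fDeg q F : ℤ) := by
        exact_mod_cast hef
      rw [← h5] at h7
      apply mul_right_cancel₀ hF0
      linear_combination h7
    have he_dvd : (e : ℤ) ∣ (Module.finrank F E : ℤ) := Dvd.intro _ h6
    have he_eq : e = Module.finrank F E := by
      rcases (Nat.dvd_prime hprime).1 (Int.natCast_dvd_natCast.1 he_dvd) with h | h
      · exact absurd h hne
      · exact h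
    have hord1 : ordZ q F (N ϖE) = 1 := by
      rw [he_eq] at h6
      have hℓ0 : (Module.finrank F E : ℤ) ≠ 0 := by exact_mod_cast hprime.ne_zero
      exact mul_left_cancel₀ hℓ0 (by rw [h6, mul_one])
    have hall : ∀ a : Fˣ, a ∈ N.range := by
      intro a
      have hu : a / (N ϖE) ^ (ordZ q F a) ∈ Local.unitGroup q F := by
        rw [OrdCore.mem_unitGroup_iff_ordZ, div_eq_mul_inv, OrdCore.ordZ_mul, OrdCore.ordZ_inv,
          OrdCore.ordZ_zpow, hord1]
        ring
      obtain ⟨w, hw⟩ := hnorm _ hu
      refine ⟨ϖE ^ (ordZ q F a) * w, ?_⟩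
      have hw' : N w = a / (N ϖE) ^ (ordZ q F a) := Units.ext hw
      rw [map_mul, map_zpow, hw', mul_div_cancel]
    haveI : Fact (Module.finrank F E).Prime := ⟨hprime⟩
    haveI : IsCyclic (E ≃ₐ[F] E) := isCyclic_of_prime_card (IsGalois.card_aut_eq_finrank F E)
    have hidx := norm_index_cyclic q F E
    have htop : N.range = ⊤ := by
      ext a
      simp [hall a]
    rw [← hN, htop, Subgroup.index_top] at hidx
    exact hprime.one_lt.ne hidx

end Fermat.Agent.CFT.Local.NormIndex
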