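import Mathlib
import Fermat.Agent.CFT.Local.Plan
import Fermat.Agent.CFT.Local.NormIndexQ

/-!
# `Plan.NormIndexCyclic` (unconditional)

The norm index of a cyclic extension of finite extensions of `ℚ_q` equals its degree
(proof: `NormIndexQ`, `NormIndexLocal`, `NormIndexAbstract`, `UnitsLattice` — a cohomologically
trivial subgroup of finite index in the units, no `exp`/`log`; structure input: `OrdCore`).
-/

namespace Fermat.Agent.CFT.Local

theorem normIndexCyclic : Plan.NormIndexCyclic :=
  fun q _ F E _ _ _ _ _ _ _ _ _ _ => NormIndex.norm_index_cyclic q F E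

end Fermat.Agent.CFT.Local
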