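import Mathlib
import Fermat.Agent.CFT.Local.Defs
import Fermat.Agent.CFT.Local.Plan
import Fermat.Agent.CFT.Local.CycClass
import Fermat.Agent.CFT.Local.NormIndex
import Fermat.Agent.CFT.Coh.Provide
import Fermat.Agent.CFT.Coh.H2Order

/-!
# CFT program, layer Local: `[H2CardDvd]` — the field dictionary for the counting induction

For a finite Galois extension `E / F` (pure fields, no `q`) and `N ⊲ H ≤ Gal(E/F)`:

* `layerTop H N : IntermediateField (fixedField H) E` : the fixed field of `N`, over `E^H`;
* `layerEquiv H N : H ⧸ N ≃* Gal(E^N / E^H)`;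
* `layerRep H N` : the `H ⧸ N`-module `(Eˣ)^N` (the coefficient module of `Coh.Plan.H2Order`);
* `layerAddEquiv H N : (Eˣ)^N ≃+ (E^N)ˣ`, equivariant (`layerAddEquiv_equivariant`);
* `layerIso H N n` : `Hⁿ(H ⧸ N, (Eˣ)^N) ≅ Hⁿ(Gal(E^N / E^H), (E^N)ˣ)`;
* `card_H2_dvd_finrank_of_layers` : if `H²` of every Galois layer of prime degree inside `E / F`
  is finite of order at most the degree, then `|H²(Gal(E/F), Eˣ)|` divides `[E : F]`
  (Hilbert 90 for `H¹`, `Coh.H2Order.h2Order` for the induction);
* `h2CardDvd : Plan.NormIndexCyclic → Plan.H2CardDvd`, and the unconditional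
  `h2CardDvd_holds : Plan.H2CardDvd` (with `Local.normIndexCyclic`).
-/

set_option autoImplicit false

namespace Fermat.Agent.CFT.Local.H2CardDvd

open CategoryTheory groupCohomology IntermediateField Fermat.Agent.CFT.Local

variable {F E : Type} [Field F] [Field E] [Algebra F E] [FiniteDimensional F E] [IsGalois F E]

/-- The subgroup of `Gal(E/E^H)` corresponding to a subgroup `N` of `H`. -/
noncomputable def layerSub (H : Subgroup (E ≃ₐ[F] E)) (N : Subgroup H) :
    Subgroup (E ≃ₐ[fixedField H] E) :=
  N.map (subgroupEquivAlgEquiv H).toMonoidHom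

instance layerSub_normal (H : Subgroup (E ≃ₐ[F] E)) (N : Subgroup H) [N.Normal] :
    (layerSub H N).Normal :=
  Subgroup.Normal.map inferInstance _ (subgroupEquivAlgEquiv H).surjective

/-- The top field of the layer attached to `N ⊲ H ≤ Gal(E/F)`: the fixed field of `N`, as an
intermediate field of `E / E^H`. -/
noncomputable def layerTop (H : Subgroup (E ≃ₐ[F] E)) (N : Subgroup H) :
    IntermediateField (fixedField H) E :=
  fixedField (layerSub H N)

omit [IsGalois F E] in
theorem subgroupEquivAlgEquiv_apply (H : Subgroup (E ≃ₐ[F] E)) (h : H) (x : E) :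
    subgroupEquivAlgEquiv H h x = (h : E ≃ₐ[F] E) x := rfl

omit [IsGalois F E] in
theorem mem_layerTop_iff (H : Subgroup (E ≃ₐ[F] E)) (N : Subgroup H) (x : E) :
    x ∈ layerTop H N ↔ ∀ n : N, ((n : H) : E ≃ₐ[F] E) x = x := by
  constructor
  · intro hx n
    have := hx ⟨subgroupEquivAlgEquiv H n, Subgroup.mem_map_of_mem _ n.2⟩
    exact this
  · rintro hx ⟨σ, n, hn, rfl⟩
    exact hx ⟨n, hn⟩

/-- The Galois group of the layer is `H ⧸ N`. -/
noncomputable def layerEquiv (H : Subgroup (E ≃ₐ[F] E)) (N : Subgroup H) [N.Normal] :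
    H ⧸ N ≃* (layerTop H N ≃ₐ[fixedField H] layerTop H N) :=
  (QuotientGroup.congr N (layerSub H N) (subgroupEquivAlgEquiv H) rfl).trans
    (IsGalois.normalAutEquivQuotient (layerSub H N))

theorem layerEquiv_mk_apply (H : Subgroup (E ≃ₐ[F] E)) (N : Subgroup H) [N.Normal] (h : H)
    (y : layerTop H N) :
    ((layerEquiv H N (QuotientGroup.mk h) y : layerTop H N) : E) = (h : E ≃ₐ[F] E) (y : E) := by
  change ((AlgEquiv.restrictNormalHom (fixedField (layerSub H N)) (subgroupEquivAlgEquiv H h) y :
    fixedField (layerSub H N)) : E) = _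
  exact AlgEquiv.restrictNormal_commutes (subgroupEquivAlgEquiv H h) (fixedField (layerSub H N)) y

/-- The `H ⧸ N`-module `(Eˣ)^N` attached to `N ⊲ H ≤ Gal(E/F)`. -/
noncomputable abbrev layerRep (H : Subgroup (E ≃ₐ[F] E)) (N : Subgroup H) [N.Normal] :
    Rep ℤ (H ⧸ N) :=
  (Rep.res H.subtype (unitsRep F E)).quotientToInvariants N

omit [FiniteDimensional F E] [IsGalois F E] in
theorem mem_layerRep_iff (H : Subgroup (E ≃ₐ[F] E)) (N : Subgroup H) [N.Normal]
    (x : Additive Eˣ) :
    x ∈ Representation.invariants ((Rep.res H.subtype (unitsRep F E)).ρ.comp N.subtype) ↔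
      ∀ n : N, ((n : H) : E ≃ₐ[F] E) ((Additive.toMul x : Eˣ) : E) = ((Additive.toMul x : Eˣ) : E) := by
  constructor
  · intro hx n
    have := hx n
    exact congrArg (fun u : Additive Eˣ => ((Additive.toMul u : Eˣ) : E)) this
  · intro hx n
    apply Additive.toMul.injective
    apply Units.ext
    exact hx n

/-- `(Eˣ)^N` is the unit group of the fixed field of `N`. -/
noncomputable def layerAddEquiv (H : Subgroup (E ≃ₐ[F] E)) (N : Subgroup H) [N.Normal] :
    (layerRep H N).V ≃+ Additive (layerTop H N)ˣ where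
  toFun x := Additive.ofMul (Units.mk0
    (⟨((Additive.toMul x.1 : Eˣ) : E),
      (mem_layerTop_iff H N _).2 ((mem_layerRep_iff H N x.1).1 x.2)⟩ : layerTop H N)
    (fun h => (Additive.toMul x.1 : Eˣ).ne_zero (congrArg Subtype.val h)))
  invFun y := ⟨Additive.ofMul (Units.map (algebraMap (layerTop H N) E).toMonoidHom
      (Additive.toMul y)),
    (mem_layerRep_iff H N _).2 fun n =>
      (mem_layerTop_iff H N _).1 ((Additive.toMul y : (layerTop H N)ˣ) : layerTop H N).2 n⟩
  left_inv x := by
    apply Subtype.ext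
    apply Additive.toMul.injective
    apply Units.ext
    rfl
  right_inv y := by
    apply Additive.toMul.injective
    apply Units.ext
    apply Subtype.ext
    rfl
  map_add' x y := by
    apply Additive.toMul.injective
    apply Units.ext
    apply Subtype.ext
    rfl

omit [IsGalois F E] in
theorem layerAddEquiv_coe (H : Subgroup (E ≃ₐ[F] E)) (N : Subgroup H) [N.Normal]
    (x : (layerRep H N).V) :
    (((Additive.toMul (layerAddEquiv H N x) : (layerTop H N)ˣ) : layerTop H N) : E) =
      ((Additive.toMul x.1 : Eˣ) : E) := rfl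

/-- The compatibility of `layerAddEquiv` with the actions of `H ⧸ N ≃ Gal(E^N / E^H)`. -/
theorem layerAddEquiv_equivariant (H : Subgroup (E ≃ₐ[F] E)) (N : Subgroup H) [N.Normal]
    (g : H ⧸ N) (x : (layerRep H N).V) :
    layerAddEquiv H N ((layerRep H N).ρ g x) =
      (unitsRep (fixedField H) (layerTop H N)).ρ (layerEquiv H N g) (layerAddEquiv H N x) := by
  induction g using QuotientGroup.induction_on with
  | H h =>
    apply Additive.toMul.injective
    apply Units.ext
    apply Subtype.ext
    rw [layerAddEquiv_coe]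
    change (h : E ≃ₐ[F] E) ((Additive.toMul x.1 : Eˣ) : E) =
      ((layerEquiv H N (QuotientGroup.mk h)
        ((Additive.toMul (layerAddEquiv H N x) : (layerTop H N)ˣ) : layerTop H N) :
          layerTop H N) : E)
    rw [layerEquiv_mk_apply]
    rfl

instance layerTop_isGalois (H : Subgroup (E ≃ₐ[F] E)) (N : Subgroup H) [N.Normal] :
    IsGalois (fixedField H) (layerTop H N) :=
  IsGalois.of_fixedField_normal_subgroup (layerSub H N)

/-- The cohomology of the `H ⧸ N`-module `(Eˣ)^N` is the cohomology of the field layer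
`E^N / E^H`. -/
noncomputable def layerIso (H : Subgroup (E ≃ₐ[F] E)) (N : Subgroup H) [N.Normal] (n : ℕ) :
    groupCohomology (layerRep H N) n ≅
      groupCohomology (unitsRep (fixedField H) (layerTop H N)) n :=
  groupCohomology.mapIso (layerEquiv H N) (layerAddEquiv H N).toIntLinearEquiv
    (fun g => by
      ext x
      exact layerAddEquiv_equivariant H N g x) n

theorem card_layer (H : Subgroup (E ≃ₐ[F] E)) (N : Subgroup H) [N.Normal] :
    Nat.card (H ⧸ N) = Module.finrank (fixedField H) (layerTop H N) := by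
  rw [Nat.card_congr (layerEquiv H N).toEquiv, IsGalois.card_aut_eq_finrank]

/-- **The field dictionary for the counting induction.**  If `H²` of every Galois layer
`E' / F'` of prime degree inside `E / F` is finite of order at most the degree, then
`H²(Gal(E/F), Eˣ)` is finite of order dividing `[E : F]`. -/
theorem card_H2_dvd_finrank_of_layers (F E : Type) [Field F] [Field E] [Algebra F E]
    [FiniteDimensional F E] [IsGalois F E]
    (hlayer : ∀ (F' : IntermediateField F E) (E' : IntermediateField F' E), IsGalois F' E' →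
      (Module.finrank F' E').Prime →
      Finite (H2 (unitsRep F' E')) ∧ Nat.card (H2 (unitsRep F' E')) ≤ Module.finrank F' E') :
    Finite (H2 (unitsRep F E)) ∧ Nat.card (H2 (unitsRep F E)) ∣ Module.finrank F E := by
  classical
  have : Fintype (E ≃ₐ[F] E) := Fintype.ofFinite _
  have hO := Coh.H2Order.h2Order Coh.Provide.infRes2 Coh.Provide.resKer (E ≃ₐ[F] E)
    (unitsRep F E) ?_ ⊤
  · -- transport from `⊤` to the whole group
    have hc : Coh.H2Order.Concl (unitsRep F E) := by
      refine Coh.H2Order.Concl.of_equiv (B' := Rep.res (⊤ : Subgroup (E ≃ₐ[F] E)).subtype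
        (unitsRep F E)) Subgroup.topEquiv.symm (AddEquiv.refl _).toIntLinearEquiv ?_ hO
      intro g
      rfl
    obtain ⟨-, h2, h3⟩ := hc
    refine ⟨h2, ?_⟩
    rw [← IsGalois.card_aut_eq_finrank F E]
    exact h3
  · intro H N _ hp
    have i1 := layerIso H N 1
    have i2 := layerIso H N 2
    have hz : Limits.IsZero (groupCohomology (unitsRep (fixedField H) (layerTop H N)) 1) := by
      have : Subsingleton (H1 (unitsRep (fixedField H) (layerTop H N))) :=
        (H1ofAutOnUnitsUnique (fixedField H) (layerTop H N)).instSubsingleton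
      exact ModuleCat.isZero_of_subsingleton _
    have hcard := card_layer H N
    obtain ⟨hfin, hle⟩ := hlayer (fixedField H) (layerTop H N) inferInstance (hcard ▸ hp)
    refine ⟨hz.of_iso i1, ?_, ?_⟩
    · exact Finite.of_equiv _ i2.toLinearEquiv.symm.toEquiv
    · rw [Nat.card_congr i2.toLinearEquiv.toEquiv, hcard]
      exact hle

/-- `H²` of a Galois extension of prime degree has order the norm index (pure fields). -/
theorem card_H2_eq_normIndex_of_prime (F E : Type) [Field F] [Field E] [Algebra F E]
    [FiniteDimensional F E] [IsGalois F E] (hp : (Module.finrank F E).Prime) :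
    IsCyclic (E ≃ₐ[F] E) ∧ Nat.card (H2 (unitsRep F E)) =
      (MonoidHom.range (Units.map (Algebra.norm F : E →* F))).index := by
  have : Fact (Module.finrank F E).Prime := ⟨hp⟩
  have hc : IsCyclic (E ≃ₐ[F] E) :=
    isCyclic_of_prime_card (p := Module.finrank F E) (IsGalois.card_aut_eq_finrank F E)
  obtain ⟨φ, hφ⟩ := hc.exists_generator
  exact ⟨hc, CycClass.card_H2_eq_normIndex φ hφ⟩

/-- **[H2CardDvd]** from the cyclic norm index. -/
theorem h2CardDvd (hN : Plan.NormIndexCyclic) : Plan.H2CardDvd := by
  intro q _ F E _ _ _ _ _ _ _ _ _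
  refine card_H2_dvd_finrank_of_layers F E (fun F' E' hG hp => ?_)
  have : FiniteDimensional ℚ_[q] F' := Module.Finite.trans F F'
  have : IsScalarTower ℚ_[q] F' E := IsScalarTower.of_algebraMap_eq (fun x => rfl)
  have : IsScalarTower ℚ_[q] F' E' := IsScalarTower.of_algebraMap_eq (fun x => rfl)
  obtain ⟨hc, h1⟩ := card_H2_eq_normIndex_of_prime F' E' hp
  have h2 := hN q F' E'
  have h3 : Nat.card (H2 (unitsRep F' E')) = Module.finrank F' E' := h1.trans h2
  refine ⟨Nat.finite_of_card_ne_zero ?_, h3.le⟩
  rw [h3]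
  exact Module.finrank_pos.ne'

/-- **[H2CardDvd]**, unconditional. -/
theorem h2CardDvd_holds : Plan.H2CardDvd := h2CardDvd normIndexCyclic

end Fermat.Agent.CFT.Local.H2CardDvd
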