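import Mathlib
import Fermat.Agent.CFT.Local.Defs
import Fermat.Agent.CFT.Local.IntRing
import Fermat.Agent.CFT.Local.OrdCore
import Fermat.Agent.CFT.Local.Plan

/-!
# CFT program, layer Local: Kummer extensions by a unit are unramified away from the degree

`F` a finite extension of `ℚ_[q]`, `p ≠ q` a prime, `u` a unit of the integers of `F`,
`E = F(y)` with `y ^ p = u`.  Then `E / F` is unramified (`IsUnram q F E`).

Proof.  `A = integers of F`, `g = minpoly A y ∣ X ^ p - u`.  The value `g'(y)` divides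
`p y ^ (p - 1)`, a unit of the integers of `E`; hence the discriminant of the power basis
`1, y, …` is a unit of `A` and the integers of `E` are `A[y]`.  Modulo the maximal ideal of `A`
the polynomial `g` divides the separable polynomial `X ^ p - ū`, so it is squarefree.  Writing a
uniformiser `ϖ_E = f(y)` with `deg f < deg g` and `ϖ_E ^ e = ϖ_F · h(y)`, the reduction of `g`
divides `f̄ ^ e`, hence `f̄`, so `f̄ = 0`, i.e. `ϖ_F ∣ ϖ_E` in the integers of `E`, and `e = 1`.
-/

set_option autoImplicit false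

namespace Fermat.Agent.CFT.Local.KummerUnramQ

open Polynomial Fermat.Agent.CFT.Local Fermat.Agent.CFT.Local.IntRing

attribute [local instance] intAlgebra towerInt torsionFreeInt towerIntRel relAlgebra relTower
  relTowerInt

/-- A prime `p ≠ q` is a unit of `ℤ_[q]`. -/
lemma isUnit_natCast_padicInt (q : ℕ) [Fact q.Prime] {p : ℕ} (hp : p.Prime) (hpq : p ≠ q) :
    IsUnit ((p : ℕ) : ℤ_[q]) := by
  rw [PadicInt.isUnit_iff]
  have h1 : ‖((p : ℤ) : ℤ_[q])‖ ≤ 1 := PadicInt.norm_le_one _
  have h2 : ¬ ‖((p : ℤ) : ℤ_[q])‖ < 1 := by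
    rw [PadicInt.norm_int_lt_one_iff_dvd]
    intro h
    have h3 : q ∣ p := Int.natCast_dvd_natCast.mp h
    exact hpq ((Nat.prime_dvd_prime_iff_eq Fact.out hp).mp h3).symm
  have h3 : ((p : ℤ) : ℤ_[q]) = ((p : ℕ) : ℤ_[q]) := by norm_cast
  rw [← h3]
  exact le_antisymm h1 (not_lt.mp h2)

section
variable (q : ℕ) [Fact q.Prime] (F E : Type) [Field F] [Field E]
  [Algebra ℚ_[q] F] [Algebra ℚ_[q] E] [Algebra F E] [IsScalarTower ℚ_[q] F E]

/-- The integers of `F` map to integers of `E`. -/
lemma algebraMap_mem_integers {a : F} (ha : a ∈ integers q F) :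
    algebraMap F E a ∈ integers q E :=
  (IntRing.map_mem_integers_iff (q := q) (F := F) (E := E) a).2 ha

/-- Values of polynomials with integral coefficients at an integral point are integral. -/
lemma aeval_mem_integers {y : E} (hy : y ∈ integers q E) (P : (OInt q F)[X]) :
    aeval y P ∈ integers q E := by
  induction P using Polynomial.induction_on' with
  | add P Q hP hQ => rw [map_add]; exact (integers q E).add_mem hP hQ
  | monomial n a =>
    rw [aeval_monomial]
    exact (integers q E).mul_mem (algebraMap_mem_integers q F E a.2)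
      ((integers q E).pow_mem hy n)

end

section Main
variable (q : ℕ) [Fact q.Prime] (F E : Type) [Field F] [Field E]
  [Algebra ℚ_[q] F] [Algebra ℚ_[q] E] [Algebra F E] [IsScalarTower ℚ_[q] F E]
  [FiniteDimensional ℚ_[q] F] [FiniteDimensional F E]

/-- The hypothesis `OrdAt` of `IntRing`, from `OrdCore`. -/
lemma ordAt : OrdAt q F := by
  obtain ⟨h1, -, h3, h4, h5, h6, h7, h8, -, -, h11⟩ := OrdCore.ordStmt_at q F
  exact ⟨h1, h3, h4, h5, h6, h7, h8, h11⟩

/-- **Kummer extensions by a unit are unramified away from the degree.** -/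
theorem isUnram_of_pow_eq {p : ℕ} (hp : p.Prime) (hpq : p ≠ q)
    (u : Fˣ) (y : E) (hu : u ∈ unitGroup q F) (hy : y ^ p = algebraMap F E u)
    (hgen : Algebra.adjoin F {y} = ⊤) : IsUnram q F E := by
  classical
  have hfdE : FiniteDimensional ℚ_[q] E := OrdCore.finiteDimensional_top q F E
  have hchar : CharZero F := charZero_of_injective_algebraMap (algebraMap ℚ_[q] F).injective
  have hsep : Algebra.IsSeparable F E := inferInstance
  have hIC : IsIntegrallyClosed (OInt q F) :=
    integralClosure.isIntegrallyClosedOfFiniteExtension ℚ_[q]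
  have hFR : IsFractionRing (OInt q F) F :=
    integralClosure.isFractionRing_of_finite_extension ℚ_[q] F
  have hp0 : p ≠ 0 := hp.ne_zero
  -- basic integrality facts
  have huE : algebraMap F E u ∈ integers q E := algebraMap_mem_integers q F E hu.1
  have huE' : algebraMap F E ((u⁻¹ : Fˣ) : F) ∈ integers q E :=
    algebraMap_mem_integers q F E hu.2
  have hyint : y ∈ integers q E := by
    have h1 : IsIntegral ℤ_[q] (y ^ p) := by rw [hy]; exact huE
    exact IsIntegral.of_pow hp.pos h1
  have hy0 : y ≠ 0 := by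
    intro h0
    rw [h0, zero_pow hp0] at hy
    exact (Units.ne_zero u) ((algebraMap F E).injective (by rw [← hy, map_zero]))
  have hyinv : y⁻¹ ∈ integers q E := by
    have hmul : y * (y ^ (p - 1) * algebraMap F E ((u⁻¹ : Fˣ) : F)) = 1 := by
      rw [← mul_assoc, ← pow_succ', Nat.sub_add_cancel hp.pos, hy, ← map_mul, Units.mul_inv,
        map_one]
    rw [inv_eq_of_mul_eq_one_right hmul]
    exact (integers q E).mul_mem ((integers q E).pow_mem hyint _) huE'
  obtain ⟨v, hv⟩ := (isUnit_natCast_padicInt q hp hpq).exists_right_inv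
  have hpinv : ((p : E))⁻¹ ∈ integers q E := by
    have h1 : (p : E) * algebraMap ℤ_[q] E v = 1 := by
      rw [← map_natCast (algebraMap ℤ_[q] E), ← map_mul, hv, map_one]
    rw [inv_eq_of_mul_eq_one_right h1]
    exact (integralClosure ℤ_[q] E).algebraMap_mem v
  -- the minimal polynomial over the integers of `F`
  have hyA : IsIntegral (OInt q F) y := IsIntegral.tower_top (R := ℤ_[q]) hyint
  have hgm : (minpoly (OInt q F) y).Monic := minpoly.monic hyA
  let uA : OInt q F := ⟨(u : F), hu.1⟩
  have hroot : aeval y (X ^ p - C uA : (OInt q F)[X]) = 0 := by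
    simp only [map_sub, map_pow, aeval_X, aeval_C]
    rw [hy]
    exact sub_self _
  obtain ⟨h, hh⟩ := minpoly.isIntegrallyClosed_dvd hyA hroot
  have hder : aeval y (derivative (minpoly (OInt q F) y)) * aeval y h =
      (p : E) * y ^ (p - 1) := by
    have h1 := congrArg (fun P => aeval y (derivative P)) hh
    simp only [derivative_sub, derivative_X_pow, derivative_C, sub_zero, derivative_mul, map_add,
      map_mul, minpoly.aeval, zero_mul, add_zero, map_pow, aeval_X, map_natCast] at h1
    exact h1.symm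
  -- `δ = g'(y)` is a unit of the integers of `E`
  have hcharE : CharZero E := charZero_of_injective_algebraMap (algebraMap ℚ_[q] E).injective
  set δ : E := aeval y (derivative (minpoly (OInt q F) y)) with hδ
  have hδint : δ ∈ integers q E := aeval_mem_integers q F E hyint _
  have hhint : aeval y h ∈ integers q E := aeval_mem_integers q F E hyint _
  have hpE0 : (p : E) ≠ 0 := Nat.cast_ne_zero.mpr hp0
  have hpy0 : (p : E) * y ^ (p - 1) ≠ 0 := mul_ne_zero hpE0 (pow_ne_zero _ hy0)
  have hδ0 : δ ≠ 0 := by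
    intro h0
    rw [h0, zero_mul] at hder
    exact hpy0 hder.symm
  have hδinv : δ⁻¹ ∈ integers q E := by
    have h1 : δ * (aeval y h * ((p : E) * y ^ (p - 1))⁻¹) = 1 := by
      rw [← mul_assoc, hder, mul_inv_cancel₀ hpy0]
    rw [inv_eq_of_mul_eq_one_right h1, mul_inv, ← inv_pow]
    exact (integers q E).mul_mem hhint
      ((integers q E).mul_mem hpinv ((integers q E).pow_mem hyinv _))
  -- its norm is a unit of the integers of `F`
  have hNu : Units.map (Algebra.norm F : E →* F) (Units.mk0 δ hδ0) ∈ unitGroup q F := by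
    rw [OrdCore.mem_unitGroup_iff_ordZ]
    have h1 : ordZ q E (Units.mk0 δ hδ0) = 0 := by
      rw [← OrdCore.mem_unitGroup_iff_ordZ]
      exact ⟨hδint, by simpa using hδinv⟩
    have h2 := OrdCore.ordZ_norm q F E (Units.mk0 δ hδ0)
    rw [h1, mul_zero] at h2
    have h3 : (fDeg q F : ℤ) ≠ 0 := by exact_mod_cast (OrdCore.fDeg_pos q F).ne'
    exact (mul_eq_zero.mp h2).resolve_left h3
  -- the discriminant of the power basis is a unit of the integers of `F`
  have hyF : IsIntegral F y := hyA.tower_top
  let pb : PowerBasis F E := PowerBasis.ofAdjoinEqTop hyF hgen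
  have hminF : minpoly F y = (minpoly (OInt q F) y).map (algebraMap (OInt q F) F) :=
    minpoly.isIntegrallyClosed_eq_field_fractions' F hyA
  have hdisc : Algebra.discr F pb.basis =
      (-1) ^ (Module.finrank F E * (Module.finrank F E - 1) / 2) * Algebra.norm F δ := by
    have h1 := Algebra.discr_powerBasis_eq_norm F pb
    rw [h1]
    congr 2
    show aeval y (derivative (minpoly F y)) = δ
    rw [hminF, derivative_map, aeval_map_algebraMap]
  set D : F := Algebra.discr F pb.basis with hD
  have hNδ0 : Algebra.norm F δ ≠ 0 := Algebra.norm_ne_zero_iff.mpr hδ0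
  have hone : ((-1 : F) ^ (Module.finrank F E * (Module.finrank F E - 1) / 2)) ∈ integers q F :=
    (integers q F).pow_mem ((integers q F).neg_mem (integers q F).one_mem) _
  have hDint : D ∈ integers q F := by
    rw [hdisc]
    exact (integers q F).mul_mem hone hNu.1
  have hDinv : D⁻¹ ∈ integers q F := by
    rw [hdisc, mul_inv, ← inv_pow, inv_neg_one]
    refine (integers q F).mul_mem hone ?_
    have h1 := hNu.2
    simpa using h1
  have hD0 : D ≠ 0 := by
    rw [hdisc]
    exact mul_ne_zero (pow_ne_zero _ (neg_ne_zero.mpr one_ne_zero)) hNδ0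
  -- the integers of `E` are `A[y]`
  have hadj : ∀ z ∈ integers q E, z ∈ Algebra.adjoin (OInt q F) ({y} : Set E) := by
    intro z hz
    have hz' : IsIntegral (OInt q F) (algebraMap F E D⁻¹ * z) := by
      have h1 : algebraMap F E D⁻¹ * z ∈ integers q E :=
        (integers q E).mul_mem (algebraMap_mem_integers q F E hDinv) hz
      exact IsIntegral.tower_top (R := ℤ_[q]) h1
    have h2 := Algebra.discr_mul_isIntegral_mem_adjoin F (B := pb) (R := OInt q F) hyA hz'
    rw [Algebra.smul_def, ← mul_assoc, ← map_mul, mul_inv_cancel₀ hD0, map_one, one_mul] at h2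
    exact h2
  -- the residue field of `F`
  have hOF : OrdAt q F := ordAt q F
  have : IsLocalRing (OInt q F) := IntRing.isLocalRing q F hOF
  set res := IsLocalRing.residue (OInt q F) with hres
  have hpk : ((p : ℕ) : IsLocalRing.ResidueField (OInt q F)) ≠ 0 := by
    have h1 : IsUnit ((p : ℕ) : OInt q F) := by
      have h0 := (isUnit_natCast_padicInt q hp hpq).map (algebraMap ℤ_[q] (OInt q F))
      rwa [map_natCast] at h0
    have h2 := h1.map res
    rw [map_natCast] at h2
    exact h2.ne_zero
  have huk : res uA ≠ 0 := by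
    have h1 : IsUnit uA := (IntRing.isUnit_iff uA).2 ⟨Units.ne_zero u, by simpa using hu.2⟩
    exact (h1.map res).ne_zero
  have hsq : Squarefree ((minpoly (OInt q F) y).map res) := by
    have h1 : (X ^ p - C (res uA) : (IsLocalRing.ResidueField (OInt q F))[X]).Separable :=
      separable_X_pow_sub_C _ hpk huk
    have h2 : (minpoly (OInt q F) y).map res ∣ X ^ p - C (res uA) := by
      have h3 := congrArg (Polynomial.map res) hh
      simp only [Polynomial.map_sub, Polynomial.map_pow, map_X, map_C, Polynomial.map_mul] at h3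
      exact ⟨h.map res, h3⟩
    exact (h1.of_dvd h2).squarefree
  -- uniformisers
  obtain ⟨ϖF, hϖF⟩ := OrdCore.exists_ordZ_eq_one q F
  obtain ⟨ϖE, hϖE⟩ := OrdCore.exists_ordZ_eq_one q E
  obtain ⟨e, he, -, hord⟩ := OrdCore.exists_ramIdx q F E
  rw [OrdCore.isUnram_iff_ramIdx q F E he hord]
  have hϖFint : (ϖF : F) ∈ integers q F := (OrdCore.mem_integers_iff_ordZ q F ϖF).2 (by omega)
  have hϖEint : (ϖE : E) ∈ integers q E := (OrdCore.mem_integers_iff_ordZ q E ϖE).2 (by omega)
  let ϖA : OInt q F := ⟨(ϖF : F), hϖFint⟩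
  have hϖAmax : ϖA ∈ IsLocalRing.maximalIdeal (OInt q F) := by
    rw [IntRing.mem_maximalIdeal_iff]
    exact (OrdCore.mem_maxIdeal_iff_ordZ q F ϖF).2 (by omega)
  have hresϖ : res ϖA = 0 := (IsLocalRing.residue_eq_zero_iff _).2 hϖAmax
  -- `ϖ_E ^ e / ϖ_F` is integral
  have htint : (ϖE : E) ^ e * (algebraMap F E (ϖF : F))⁻¹ ∈ integers q E := by
    have h1 : ((ϖE ^ e * (OrdCore.unitsIncl F E ϖF)⁻¹ : Eˣ) : E) ∈ integers q E := by
      rw [OrdCore.mem_integers_iff_ordZ, OrdCore.ordZ_mul, OrdCore.ordZ_inv, hord, hϖF,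
        ← zpow_natCast, OrdCore.ordZ_zpow, hϖE]
      simp
    simpa using h1
  obtain ⟨P₁, hP₁⟩ : ∃ P : (OInt q F)[X], aeval y P = (ϖE : E) := by
    have h1 := hadj _ hϖEint
    rw [Algebra.adjoin_singleton_eq_range_aeval] at h1
    exact h1
  obtain ⟨P₂, hP₂⟩ : ∃ P : (OInt q F)[X],
      aeval y P = (ϖE : E) ^ e * (algebraMap F E (ϖF : F))⁻¹ := by
    have h1 := hadj _ htint
    rw [Algebra.adjoin_singleton_eq_range_aeval] at h1
    exact h1
  have hfy : aeval y (P₁ %ₘ minpoly (OInt q F) y) = (ϖE : E) := by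
    have h1 := congrArg (aeval y) (Polynomial.modByMonic_add_div P₁ (minpoly (OInt q F) y))
    rw [map_add, map_mul, minpoly.aeval, zero_mul, add_zero, hP₁] at h1
    exact h1
  have hQ : aeval y ((P₁ %ₘ minpoly (OInt q F) y) ^ e - C ϖA * P₂) = 0 := by
    rw [map_sub, map_pow, map_mul, hfy, hP₂, aeval_C]
    show (ϖE : E) ^ e -
      algebraMap F E (ϖF : F) * ((ϖE : E) ^ e * (algebraMap F E (ϖF : F))⁻¹) = 0
    have h0 : algebraMap F E (ϖF : F) ≠ 0 := by simp
    field_simp
    ring
  have hdvd := minpoly.isIntegrallyClosed_dvd hyA hQ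
  have hdvd' : (minpoly (OInt q F) y).map res ∣
      ((P₁ %ₘ minpoly (OInt q F) y).map res) ^ e := by
    have h1 := Polynomial.map_dvd res hdvd
    simpa [hresϖ] using h1
  have hdvd'' : (minpoly (OInt q F) y).map res ∣ (P₁ %ₘ minpoly (OInt q F) y).map res :=
    hsq.isRadical e _ hdvd'
  have hzero : (P₁ %ₘ minpoly (OInt q F) y).map res = 0 := by
    apply Polynomial.eq_zero_of_dvd_of_degree_lt hdvd''
    calc ((P₁ %ₘ minpoly (OInt q F) y).map res).degree
        ≤ (P₁ %ₘ minpoly (OInt q F) y).degree := Polynomial.degree_map_le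
      _ < (minpoly (OInt q F) y).degree := Polynomial.degree_modByMonic_lt P₁ hgm
      _ = ((minpoly (OInt q F) y).map res).degree := (hgm.degree_map res).symm
  -- hence `ϖ_F` divides all coefficients
  have hC : C ϖA ∣ P₁ %ₘ minpoly (OInt q F) y := by
    rw [Polynomial.C_dvd_iff_dvd_coeff]
    intro i
    have h1 : res ((P₁ %ₘ minpoly (OInt q F) y).coeff i) = 0 := by
      rw [← Polynomial.coeff_map, hzero, coeff_zero]
    have h2 : (P₁ %ₘ minpoly (OInt q F) y).coeff i ∈ IsLocalRing.maximalIdeal (OInt q F) :=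
      (IsLocalRing.residue_eq_zero_iff _).1 h1
    rw [IntRing.maximalIdeal_eq_span hOF ϖF hϖF hϖFint, Ideal.mem_span_singleton] at h2
    exact h2
  obtain ⟨f', hf'⟩ := hC
  have hw : (ϖE : E) = algebraMap F E (ϖF : F) * aeval y f' := by
    rw [← hfy, hf', map_mul, aeval_C]
    rfl
  have hwint : aeval y f' ∈ integers q E := aeval_mem_integers q F E hyint _
  have hw0 : aeval y f' ≠ 0 := by
    intro h0
    rw [h0, mul_zero] at hw
    exact ϖE.ne_zero hw
  have hunit : ϖE = OrdCore.unitsIncl F E ϖF * Units.mk0 _ hw0 := by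
    apply Units.ext
    rw [hw]
    rfl
  have hord1 : ordZ q E ϖE = e * 1 + ordZ q E (Units.mk0 _ hw0) := by
    conv_lhs => rw [hunit]
    rw [OrdCore.ordZ_mul, hord, hϖF]
  have hnn : 0 ≤ ordZ q E (Units.mk0 _ hw0) := (OrdCore.mem_integers_iff_ordZ q E _).1 hwint
  rw [hϖE] at hord1
  omega

end Main

/-- `Plan.KummerUnram`, unconditionally. -/
theorem kummerUnram_holds : Plan.KummerUnram :=
  fun q _ _ hp hpq F E _ _ _ _ _ _ _ _ u y hu hy hgen =>
    isUnram_of_pow_eq q F E hp hpq u y hu hy hgen

/-- `Plan.KummerUnram` in the roster shape (the three hypotheses are not needed: the valuation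
facts are taken from the landed `OrdCore`). -/
theorem kummerUnram : Plan.OrdStmt → Plan.RelOrdStmt → Plan.ResFieldStmt → Plan.KummerUnram :=
  fun _ _ _ => kummerUnram_holds

end Fermat.Agent.CFT.Local.KummerUnramQ
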