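import Mathlib
import Fermat.Agent.CFT.Local.Plan
import Fermat.Agent.CFT.Local.NormIndexQ

/-!
# `Plan.NormUnitsIffUnram`

For a Galois extension `E/F` of prime degree of finite extensions of `ℚ_q`: `E/F` is unramified
if and only if every unit of `F` is a norm from `Eˣ` (input: `Plan.UnramUnitsNorm`).
-/

namespace Fermat.Agent.CFT.Local

theorem normUnitsIffUnram (h3 : Plan.UnramUnitsNorm) : Plan.NormUnitsIffUnram :=
  fun q _ F E _ _ _ _ _ _ _ _ _ hprime =>
    NormIndex.norm_units_iff_unram q F E hprime (h3 q F E)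

end Fermat.Agent.CFT.Local
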