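import Mathlib
import Fermat.Agent.CFT.Local.Plan
import Fermat.Agent.CFT.Local.OrdCore

/-!
# The valuation statements of the local Plan

`Plan.OrdStmt`, `Plan.OrdBase` and `Plan.RelOrdStmt`, unconditionally (from `Local/OrdCore`).
-/

set_option autoImplicit false

namespace Fermat.Agent.CFT.Local.Ord

open Fermat.Agent.CFT.Local

/-- [Ord] The normalised valuation of a finite extension of `ℚ_q`. -/
theorem ordStmt : Plan.OrdStmt := fun q _ E _ _ _ => OrdCore.ordStmt_at q E

/-- [OrdBase] On `ℚ_q` itself the normalised valuation is the `q`-adic valuation. -/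
theorem ordBase : Plan.OrdBase := fun q _ x => OrdCore.ordZ_base q x

/-- [RelOrd] Ramification index / residue degree in a tower, norms, Galois invariance. -/
theorem relOrdStmt : Plan.RelOrdStmt :=
  fun q _ F E _ _ _ _ _ _ _ _ => OrdCore.relOrdStmt_at q F E

end Fermat.Agent.CFT.Local.Ord
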