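import Mathlib

/-!
# Successive approximation over a complete filtration

Let `g : B →* A` and `f : A →* C` be homomorphisms of commutative groups with `f ∘ g = 1`, and let
`FA`, `FB` be decreasing filtrations of `A`, `B` with `g (FB n) ⊆ FA n`.  If `FA` is separated,
`FB` is complete (infinite products `∏ yₙ`, `yₙ ∈ FB n`, converge) and the sequence
`FB n → FA n → C` is exact "on the graded pieces", then it is exact: every `x ∈ FA 0` with
`f x = 1` is `g y` for some `y ∈ FB 0`.

This is the engine behind "units are norms in unramified extensions" and behind the vanishing of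
the Tate cohomology of the unit groups `1 + π^N M` of a local field.
-/

set_option autoImplicit false

namespace Fermat.Agent.CFT.Local.SuccApprox

open Finset

section Approx

variable {A B C : Type*} [CommGroup A] [CommGroup B] [CommGroup C]

/-- **Successive approximation.**  Exactness on graded pieces of a separated/complete filtration
implies exactness. -/
@[to_additive exists_eq_of_addFiltration /-- **Successive approximation** (additive version).
Exactness on graded pieces of a separated/complete filtration implies exactness. -/]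
theorem exists_eq_of_filtration (FA : ℕ → Subgroup A) (FB : ℕ → Subgroup B) (f : A →* C)
    (g : B →* A)
    (hsep : ∀ x : A, (∀ n, x ∈ FA n) → x = 1)
    (hcomp : ∀ y : ℕ → B, (∀ n, y n ∈ FB n) → ∃ s : B, ∀ n, s / ∏ i ∈ range n, y i ∈ FB n)
    (hg : ∀ n, ∀ y ∈ FB n, g y ∈ FA n) (hfg : ∀ y, f (g y) = 1)
    (hgr : ∀ n, ∀ x ∈ FA n, f x = 1 → ∃ y ∈ FB n, x / g y ∈ FA (n + 1)) :
    ∀ x ∈ FA 0, f x = 1 → ∃ y ∈ FB 0, g y = x := by
  intro x hx0 hfx
  -- choose the correction at each step
  choose! c hc1 hc2 using hgr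
  -- the sequence of remainders
  let r : ℕ → A := fun n => Nat.rec x (fun n xn => xn / g (c n xn)) n
  have hr0 : r 0 = x := rfl
  have hrs : ∀ n, r (n + 1) = r n / g (c n (r n)) := fun n => rfl
  have hr : ∀ n, r n ∈ FA n ∧ f (r n) = 1 := by
    intro n
    induction n with
    | zero => exact ⟨hx0, hfx⟩
    | succ n ih =>
      refine ⟨?_, ?_⟩
      · rw [hrs]; exact hc2 n (r n) ih.1 ih.2
      · rw [hrs, map_div, ih.2, hfg, div_one]
  let y : ℕ → B := fun n => c n (r n)
  have hy : ∀ n, y n ∈ FB n := fun n => hc1 n (r n) (hr n).1 (hr n).2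
  obtain ⟨s, hs⟩ := hcomp y hy
  have hprod : ∀ n, x / g (∏ i ∈ range n, y i) = r n := by
    intro n
    induction n with
    | zero => simp [hr0]
    | succ n ih =>
      rw [prod_range_succ, map_mul, ← div_div, ih, hrs]
  refine ⟨s, ?_, ?_⟩
  · have := hs 0
    simpa using this
  · have key : ∀ n, g s / x ∈ FA n := by
      intro n
      have h1 : g (s / ∏ i ∈ range n, y i) ∈ FA n := hg n _ (hs n)
      have h2 : (r n)⁻¹ ∈ FA n := (FA n).inv_mem (hr n).1
      have h3 : g s / x = g (s / ∏ i ∈ range n, y i) * (r n)⁻¹ := by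
        rw [← hprod n, map_div, inv_div, div_mul_div_cancel]
      rw [h3]
      exact (FA n).mul_mem h1 h2
    exact div_eq_one.mp (hsep _ key)

/-- **Successive approximation, surjectivity form.**  If `g (FB n) ⊆ FA n` and `g` is surjective
on the graded pieces of a separated/complete filtration, then `g : FB 0 → FA 0` is surjective. -/
@[to_additive exists_eq_of_addFiltration_surj /-- **Successive approximation, surjectivity form**
(additive version). -/]
theorem exists_eq_of_filtration_surj (FA : ℕ → Subgroup A) (FB : ℕ → Subgroup B) (g : B →* A)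
    (hsep : ∀ x : A, (∀ n, x ∈ FA n) → x = 1)
    (hcomp : ∀ y : ℕ → B, (∀ n, y n ∈ FB n) → ∃ s : B, ∀ n, s / ∏ i ∈ range n, y i ∈ FB n)
    (hg : ∀ n, ∀ y ∈ FB n, g y ∈ FA n)
    (hgr : ∀ n, ∀ x ∈ FA n, ∃ y ∈ FB n, x / g y ∈ FA (n + 1)) :
    ∀ x ∈ FA 0, ∃ y ∈ FB 0, g y = x := fun x hx =>
  exists_eq_of_filtration FA FB (1 : A →* A) g hsep hcomp hg (fun _ => rfl)
    (fun n x hx _ => hgr n x hx) x hx rfl

end Approx

end Fermat.Agent.CFT.Local.SuccApprox
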