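import Mathlib
import Fermat.Agent.CFT.Local.SuccApprox

/-!
# The index of `n`-th powers in the units of a complete discrete valuation ring

Let `A` be a complete discrete valuation ring with finite residue field, `𝔪` its maximal ideal,
`F` its fraction field and `n` a natural number with `(n : A) ≠ 0`, of valuation `v`.

* `pow_bijOn_principalUnits` : for `m > v`, `x ↦ x ^ n` maps `1 + 𝔪 ^ m` bijectively onto
  `1 + 𝔪 ^ (m + v)` ("strong Hensel" for the polynomial `X ^ n - a`).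
* `index_pow_units` : `(Aˣ : Aˣⁿ) = |μ_n(A)| * |A / n A|`.
* `index_pow_field` : `(Fˣ : Fˣⁿ) = n * |μ_n(F)| * |A / n A|`.
-/

set_option autoImplicit false

namespace Fermat.Agent.CFT.Local.PowIndex

open IsLocalRing

/-! ### Generalities on commutative rings -/

section General

variable {R : Type*} [CommRing R]

/-- First order binomial expansion. -/
theorem exists_one_add_pow (x : R) (n : ℕ) :
    ∃ c : R, (1 + x) ^ n = 1 + n * x + x ^ 2 * c := by
  induction n with
  | zero => exact ⟨0, by simp⟩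
  | succ n ih =>
    obtain ⟨c, hc⟩ := ih
    exact ⟨n + c + x * c, by rw [pow_succ, hc]; push_cast; ring⟩

/-- If `n = u * ϖ ^ v` and `m > v` then `(1 + ϖ ^ m a) ^ n = 1 + ϖ ^ (m + v) a (u + ϖ t)`. -/
theorem one_add_pow_eq {ϖ u : R} {n v m : ℕ} (hn : (n : R) = u * ϖ ^ v) (hm : v < m) (a : R) :
    ∃ t : R, (1 + ϖ ^ m * a) ^ n = 1 + ϖ ^ (m + v) * a * (u + ϖ * t) := by
  obtain ⟨k, rfl⟩ : ∃ k, m = v + 1 + k := ⟨m - (v + 1), by omega⟩
  obtain ⟨c, hc⟩ := exists_one_add_pow (ϖ ^ (v + 1 + k) * a) n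
  exact ⟨ϖ ^ k * a * c, by rw [hc, hn]; ring⟩

/-- The units of `R` congruent to `1` modulo the ideal `I`. -/
def unitsCongr (I : Ideal R) : Subgroup Rˣ :=
  (Units.map (Ideal.Quotient.mk I : R →* R ⧸ I)).ker

theorem mem_unitsCongr {I : Ideal R} {u : Rˣ} : u ∈ unitsCongr I ↔ (u : R) - 1 ∈ I := by
  rw [unitsCongr, MonoidHom.mem_ker, Units.ext_iff, ← Ideal.Quotient.eq]
  simp

theorem unitsCongr_anti {I J : Ideal R} (h : I ≤ J) : unitsCongr I ≤ unitsCongr J :=
  fun _ hu => mem_unitsCongr.2 (h (mem_unitsCongr.1 hu))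

/-- The units congruent to `1` modulo an ideal of finite index have finite index. -/
theorem index_unitsCongr_ne_zero (I : Ideal R) [Finite (R ⧸ I)] : (unitsCongr I).index ≠ 0 := by
  rw [unitsCongr, Subgroup.index_ker]
  exact Nat.card_pos.ne'

/-- Infinite products of units `yⱼ ≡ 1 mod I ^ (m + j)` converge in an `I`-adically complete
ring (`m ≥ 1`). -/
theorem exists_prod_limit (I : Ideal R) [IsAdicComplete I R] {m : ℕ} (hm : 0 < m)
    (y : ℕ → Rˣ) (hy : ∀ j, y j ∈ unitsCongr (I ^ (m + j))) :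
    ∃ s : Rˣ, ∀ j, s / ∏ i ∈ Finset.range j, y i ∈ unitsCongr (I ^ (m + j)) := by
  classical
  set P : ℕ → Rˣ := fun j => ∏ i ∈ Finset.range j, y i with hP
  have hstep : ∀ j, ((P (j + 1) : Rˣ) : R) - P j ∈ I ^ (m + j) := by
    intro j
    have h1 : ((P (j + 1) : Rˣ) : R) - P j = (P j : R) * ((y j : R) - 1) := by
      simp only [hP, Finset.prod_range_succ, Units.val_mul]; ring
    rw [h1]
    exact Ideal.mul_mem_left _ _ (mem_unitsCongr.1 (hy j))
  have hle : ∀ a b, a ≤ b → ((P b : Rˣ) : R) - P a ∈ I ^ (m + a) := by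
    intro a b hab
    induction b, hab using Nat.le_induction with
    | base => simp
    | succ b hab ih =>
      have h2 : ((P (b + 1) : Rˣ) : R) - P a
          = (((P (b + 1) : Rˣ) : R) - P b) + (((P b : Rˣ) : R) - P a) := by ring
      rw [h2]
      exact Ideal.add_mem _ (Ideal.pow_le_pow_right (by omega) (hstep b)) ih
  have hI : ∀ k : ℕ, (I ^ k • ⊤ : Submodule R R) = I ^ k := fun k => by
    rw [← Ideal.one_eq_top, Ideal.smul_eq_mul, mul_one]
  obtain ⟨L, hL⟩ := IsPrecomplete.prec' (I := I) (fun j => ((P j : Rˣ) : R)) (by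
    intro a b hab
    rw [hI, SModEq.sub_mem]
    have := hle a b hab
    rw [← Ideal.neg_mem_iff, neg_sub] at this
    exact Ideal.pow_le_pow_right (by omega) this)
  have hL' : ∀ j, L - P j ∈ I ^ (m + j) := by
    intro j
    have h1 := hL (m + j)
    rw [hI, SModEq.sub_mem] at h1
    have h2 := hle j (m + j) (by omega)
    have h3 : L - P j = -(((P (m + j) : Rˣ) : R) - L) + (((P (m + j) : Rˣ) : R) - P j) := by ring
    rw [h3]
    exact Ideal.add_mem _ (neg_mem (Ideal.pow_le_pow_right (by omega) h1)) h2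
  have hLu : IsUnit L := by
    have h0 : L - 1 ∈ I := by
      have := hL' 0
      simp only [hP, Finset.range_zero, Finset.prod_empty, Units.val_one, add_zero] at this
      exact Ideal.pow_le_self hm.ne' this
    have := Ideal.mem_jacobson_bot.1 (IsAdicComplete.le_jacobson_bot I h0) 1
    simpa using this
  refine ⟨hLu.unit, fun j => ?_⟩
  rw [mem_unitsCongr]
  have h4 : ((hLu.unit / P j : Rˣ) : R) - 1 = (L - P j) * ((P j)⁻¹ : Rˣ) := by
    rw [div_eq_mul_inv, Units.val_mul, IsUnit.unit_spec, sub_mul, Units.mul_inv]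
  rw [h4]
  exact Ideal.mul_mem_right _ _ (hL' j)

/-- A counting lemma: if `φ` is an endomorphism of a commutative group, injective on a subgroup
`H` of finite index with `φ H ≤ H`, then `[G : φ G] = |ker φ| * [H : φ H]`. -/
theorem index_range_eq_card_ker_mul {G : Type*} [CommGroup G] (φ : G →* G) (H : Subgroup G)
    (hH : H.index ≠ 0) (hinj : H ⊓ φ.ker = ⊥) (hle : H.map φ ≤ H) :
    φ.range.index = Nat.card φ.ker * (H.map φ).relIndex H := by
  have h1 : (H.map φ).index = (H ⊔ φ.ker).index * φ.range.index := Subgroup.index_map H φ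
  have h2 : (H.map φ).relIndex H * H.index = (H.map φ).index := Subgroup.relIndex_mul_index hle
  have h3 : H.relIndex (H ⊔ φ.ker) * (H ⊔ φ.ker).index = H.index :=
    Subgroup.relIndex_mul_index le_sup_left
  have h4 : H.relIndex (H ⊔ φ.ker) = Nat.card φ.ker := by
    rw [Subgroup.relIndex_sup_left, ← Subgroup.inf_relIndex_right, hinj,
      Subgroup.relIndex_bot_left]
  rw [h4] at h3
  have hS : (H ⊔ φ.ker).index ≠ 0 := fun h0 => hH (by rw [← h3, h0, mul_zero])
  have h5 : (H ⊔ φ.ker).index * φ.range.index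
      = (H ⊔ φ.ker).index * (Nat.card φ.ker * (H.map φ).relIndex H) := by
    rw [← h1, ← h2, ← h3]; ring
  exact Nat.eq_of_mul_eq_mul_left (Nat.pos_of_ne_zero hS) h5

end General

/-! ### Principal units of a discrete valuation ring -/

section DVR

variable (A : Type*) [CommRing A] [IsDomain A] [IsDiscreteValuationRing A]

/-- The principal units `1 + 𝔪 ^ m` of level `m` (all units for `m = 0`). -/
def principalUnits (m : ℕ) : Subgroup Aˣ := unitsCongr (maximalIdeal A ^ m)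

variable {A}

theorem mem_principalUnits {m : ℕ} {u : Aˣ} :
    u ∈ principalUnits A m ↔ (u : A) - 1 ∈ maximalIdeal A ^ m := mem_unitsCongr

theorem mem_principalUnits_iff_dvd {ϖ : A} (hϖ : Irreducible ϖ) {m : ℕ} {u : Aˣ} :
    u ∈ principalUnits A m ↔ ϖ ^ m ∣ (u : A) - 1 := by
  rw [mem_principalUnits, hϖ.maximalIdeal_eq, Ideal.span_singleton_pow, Ideal.mem_span_singleton]

theorem principalUnits_anti {m m' : ℕ} (h : m ≤ m') : principalUnits A m' ≤ principalUnits A m :=
  unitsCongr_anti (Ideal.pow_le_pow_right h)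

theorem isUnit_add_of_mem_maximalIdeal {u t : A} (hu : IsUnit u) (ht : t ∈ maximalIdeal A) :
    IsUnit (u + t) := by
  by_contra h
  have h1 : u + t ∈ maximalIdeal A := (mem_maximalIdeal _).2 h
  have h2 : u ∈ maximalIdeal A := by simpa using Ideal.sub_mem _ h1 ht
  exact (mem_maximalIdeal _).1 h2 hu

theorem isUnit_one_add_mul {ϖ : A} (hϖ : Irreducible ϖ) {m : ℕ} (hm : 0 < m) (a : A) :
    IsUnit (1 + ϖ ^ m * a) := by
  refine isUnit_add_of_mem_maximalIdeal isUnit_one ?_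
  rw [hϖ.maximalIdeal_eq, Ideal.mem_span_singleton]
  exact Dvd.dvd.mul_right (dvd_pow_self ϖ hm.ne') a

/-- An element of exact valuation `v` is a unit times `ϖ ^ v`. -/
theorem exists_unit_mul_pow_of_mem {ϖ : A} (hϖ : Irreducible ϖ) {x : A} {v : ℕ}
    (hv : x ∈ maximalIdeal A ^ v) (hv' : x ∉ maximalIdeal A ^ (v + 1)) :
    ∃ u : Aˣ, x = u * ϖ ^ v := by
  rw [hϖ.maximalIdeal_eq, Ideal.span_singleton_pow, Ideal.mem_span_singleton] at hv hv'
  obtain ⟨c, hc⟩ := hv
  have hcu : IsUnit c := by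
    by_contra h
    have h1 : c ∈ maximalIdeal A := (mem_maximalIdeal _).2 h
    rw [hϖ.maximalIdeal_eq, Ideal.mem_span_singleton] at h1
    obtain ⟨c', rfl⟩ := h1
    exact hv' ⟨c', by rw [hc]; ring⟩
  exact ⟨hcu.unit, by rw [IsUnit.unit_spec, hc]; ring⟩

/-- The ideal generated by an element of exact valuation `v` is `𝔪 ^ v`. -/
theorem span_eq_maximalIdeal_pow {x : A} {v : ℕ}
    (hv : x ∈ maximalIdeal A ^ v) (hv' : x ∉ maximalIdeal A ^ (v + 1)) :
    Ideal.span {x} = maximalIdeal A ^ v := by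
  obtain ⟨ϖ, hϖ⟩ := IsDiscreteValuationRing.exists_irreducible A
  obtain ⟨u, hu⟩ := exists_unit_mul_pow_of_mem hϖ hv hv'
  rw [hu, Ideal.span_singleton_mul_left_unit u.isUnit, hϖ.maximalIdeal_eq,
    Ideal.span_singleton_pow]

/-- Every nonzero element has an exact valuation. -/
theorem exists_mem_pow_notMem {x : A} (hx : x ≠ 0) :
    ∃ v : ℕ, x ∈ maximalIdeal A ^ v ∧ x ∉ maximalIdeal A ^ (v + 1) := by
  obtain ⟨ϖ, hϖ⟩ := IsDiscreteValuationRing.exists_irreducible A
  obtain ⟨v, u, hu⟩ := IsDiscreteValuationRing.eq_unit_mul_pow_irreducible hx hϖ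
  refine ⟨v, ?_, ?_⟩
  · rw [hϖ.maximalIdeal_eq, Ideal.span_singleton_pow, Ideal.mem_span_singleton, hu]
    exact dvd_mul_left _ _
  · rw [hϖ.maximalIdeal_eq, Ideal.span_singleton_pow, Ideal.mem_span_singleton, hu]
    rintro ⟨c, hc⟩
    have h1 : (u : A) = ϖ * c := by
      have h2 : ϖ ^ v * (u : A) = ϖ ^ v * (ϖ * c) := by rw [mul_comm, hc]; ring
      exact mul_left_cancel₀ (pow_ne_zero v hϖ.ne_zero) h2
    exact hϖ.not_isUnit (isUnit_of_dvd_unit ⟨c, h1⟩ u.isUnit)

/-- `A / x A` is finite for `x ≠ 0` when the residue field is finite. -/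
theorem finite_quotient_span [Finite (ResidueField A)] {x : A} (hx : x ≠ 0) :
    Finite (A ⧸ Ideal.span {x}) := by
  obtain ⟨v, hv, hv'⟩ := exists_mem_pow_notMem hx
  rw [span_eq_maximalIdeal_pow hv hv']
  have : Finite (A ⧸ maximalIdeal A) := inferInstanceAs (Finite (ResidueField A))
  exact Ideal.finite_quotient_pow (IsNoetherian.noetherian _) _

/-- `|A / x A| = |k| ^ v` for `x` of exact valuation `v`. -/
theorem card_quotient_span {x : A} {v : ℕ}
    (hv : x ∈ maximalIdeal A ^ v) (hv' : x ∉ maximalIdeal A ^ (v + 1)) :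
    Nat.card (A ⧸ Ideal.span {x}) = Nat.card (ResidueField A) ^ v := by
  rw [span_eq_maximalIdeal_pow hv hv', ← Submodule.cardQuot_apply,
    cardQuot_pow_of_prime (IsDiscreteValuationRing.not_a_field A), Submodule.cardQuot_apply]
  rfl

/-- `x ↦ x ^ n` maps `1 + 𝔪 ^ m` into `1 + 𝔪 ^ (m + v)` for `m > v = v(n)`. -/
theorem map_pow_le {ϖ : A} (hϖ : Irreducible ϖ) {u : Aˣ} {n v m : ℕ}
    (hn : (n : A) = u * ϖ ^ v) (hm : v < m) :
    (principalUnits A m).map (powMonoidHom n) ≤ principalUnits A (m + v) := by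
  rintro _ ⟨y, hy, rfl⟩
  obtain ⟨a, ha⟩ := (mem_principalUnits_iff_dvd hϖ).1 hy
  obtain ⟨t, ht⟩ := one_add_pow_eq hn hm a
  rw [mem_principalUnits_iff_dvd hϖ, powMonoidHom_apply, Units.val_pow_eq_pow_val]
  have hy' : (y : A) = 1 + ϖ ^ m * a := by rw [← ha]; ring
  rw [hy', ht]
  exact ⟨a * (u + ϖ * t), by ring⟩

/-- There is no `n`-torsion in `1 + 𝔪 ^ m` for `m > v(n)`. -/
theorem eq_one_of_pow_eq_one {ϖ : A} (hϖ : Irreducible ϖ) {u : Aˣ} {n v m : ℕ}
    (hn : (n : A) = u * ϖ ^ v) (hm : v < m) {y : Aˣ} (hy : y ∈ principalUnits A m)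
    (hyn : y ^ n = 1) : y = 1 := by
  obtain ⟨a, ha⟩ := (mem_principalUnits_iff_dvd hϖ).1 hy
  obtain ⟨t, ht⟩ := one_add_pow_eq hn hm a
  have hy' : (y : A) = 1 + ϖ ^ m * a := by rw [← ha]; ring
  have h1 : (y : A) ^ n = 1 := by rw [← Units.val_pow_eq_pow_val, hyn, Units.val_one]
  rw [hy', ht] at h1
  have h2 : ϖ ^ (m + v) * a * ((u : A) + ϖ * t) = 0 := by linear_combination h1
  have h3 : IsUnit ((u : A) + ϖ * t) := by
    refine isUnit_add_of_mem_maximalIdeal u.isUnit ?_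
    rw [hϖ.maximalIdeal_eq, Ideal.mem_span_singleton]
    exact dvd_mul_right _ _
  have h4 : a = 0 := by
    rcases mul_eq_zero.1 h2 with h | h
    · rcases mul_eq_zero.1 h with h | h
      · exact absurd h (pow_ne_zero _ hϖ.ne_zero)
      · exact h
    · exact absurd h h3.ne_zero
  apply Units.ext
  rw [hy', h4]; simp

/-- One step of the successive approximation for `n`-th roots. -/
theorem exists_step {ϖ : A} (hϖ : Irreducible ϖ) {u : Aˣ} {n v m : ℕ}
    (hn : (n : A) = u * ϖ ^ v) (hm : v < m) {w : Aˣ} (hw : w ∈ principalUnits A (m + v)) :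
    ∃ d ∈ principalUnits A m, w / d ^ n ∈ principalUnits A (m + v + 1) := by
  obtain ⟨b, hb⟩ := (mem_principalUnits_iff_dvd hϖ).1 hw
  have hd := isUnit_one_add_mul hϖ (by omega : 0 < m) (((u⁻¹ : Aˣ) : A) * b)
  obtain ⟨t, ht⟩ := one_add_pow_eq hn hm (((u⁻¹ : Aˣ) : A) * b)
  refine ⟨hd.unit, ?_, ?_⟩
  · rw [mem_principalUnits_iff_dvd hϖ, IsUnit.unit_spec]
    exact ⟨((u⁻¹ : Aˣ) : A) * b, by ring⟩
  · rw [mem_principalUnits_iff_dvd hϖ]
    have hu : ((u⁻¹ : Aˣ) : A) * (u : A) = 1 := Units.inv_mul u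
    have h1 : ((w / hd.unit ^ n : Aˣ) : A) - 1
        = ((w : A) - (1 + ϖ ^ m * (((u⁻¹ : Aˣ) : A) * b)) ^ n) * (((hd.unit ^ n)⁻¹ : Aˣ) : A) := by
      rw [div_eq_mul_inv, Units.val_mul, sub_mul]
      congr 1
      have : (1 + ϖ ^ m * (((u⁻¹ : Aˣ) : A) * b)) ^ n = ((hd.unit ^ n : Aˣ) : A) := by
        rw [Units.val_pow_eq_pow_val, IsUnit.unit_spec]
      rw [this, Units.mul_inv]
    rw [h1, ht]
    refine Dvd.dvd.mul_right ⟨-(((u⁻¹ : Aˣ) : A) * b * t), ?_⟩ _
    linear_combination hb - ϖ ^ (m + v) * b * hu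

/-- **Strong Hensel for `X ^ n - a`**: `x ↦ x ^ n` maps `1 + 𝔪 ^ m` *onto* `1 + 𝔪 ^ (m + v)` for
`m > v = v(n)` in a complete discrete valuation ring. -/
theorem map_pow_eq [IsAdicComplete (maximalIdeal A) A] {ϖ : A} (hϖ : Irreducible ϖ) {u : Aˣ}
    {n v m : ℕ} (hn : (n : A) = u * ϖ ^ v) (hm : v < m) :
    (principalUnits A m).map (powMonoidHom n) = principalUnits A (m + v) := by
  refine le_antisymm (map_pow_le hϖ hn hm) (fun x hx => ?_)
  have key := SuccApprox.exists_eq_of_filtration_surj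
    (fun j => principalUnits A (m + j + v)) (fun j => principalUnits A (m + j))
    (powMonoidHom n : Aˣ →* Aˣ) ?_ ?_ ?_ ?_ x hx
  · obtain ⟨y, hy, hyx⟩ := key
    exact ⟨y, hy, hyx⟩
  · intro x hx
    apply Units.ext
    rw [Units.val_one, ← sub_eq_zero]
    refine IsHausdorff.haus' (I := maximalIdeal A) _ (fun k => ?_)
    rw [← Ideal.one_eq_top, Ideal.smul_eq_mul, mul_one, SModEq.sub_mem, sub_zero]
    exact mem_principalUnits.1 (principalUnits_anti (by omega : k ≤ m + k + v) (hx k))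
  · exact fun y hy => exists_prod_limit (maximalIdeal A) (by omega : 0 < m) y hy
  · exact fun j y hy => map_pow_le hϖ hn (by omega : v < m + j) ⟨y, hy, rfl⟩
  · intro j x hx
    have h := exists_step hϖ hn (by omega : v < m + j) hx
    have e : m + (j + 1) + v = m + j + v + 1 := by omega
    rw [e]
    exact h

/-- **(P1)** For `v = v(n) < m`, the map `x ↦ x ^ n` is a bijection from `1 + 𝔪 ^ m` onto
`1 + 𝔪 ^ (m + v)` in a complete discrete valuation ring. -/
theorem pow_bijOn_principalUnits [IsAdicComplete (maximalIdeal A) A] {n v m : ℕ}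
    (hv : (n : A) ∈ maximalIdeal A ^ v) (hv' : (n : A) ∉ maximalIdeal A ^ (v + 1))
    (hm : v < m) :
    Set.BijOn (fun u : Aˣ => u ^ n) {u : Aˣ | (u : A) - 1 ∈ maximalIdeal A ^ m}
      {u : Aˣ | (u : A) - 1 ∈ maximalIdeal A ^ (m + v)} := by
  obtain ⟨ϖ, hϖ⟩ := IsDiscreteValuationRing.exists_irreducible A
  obtain ⟨u, hn⟩ := exists_unit_mul_pow_of_mem hϖ hv hv'
  have hmap := map_pow_eq hϖ hn hm
  refine ⟨fun y hy => ?_, fun y hy y' hy' h => ?_, fun x hx => ?_⟩
  · exact mem_principalUnits.1 (map_pow_le hϖ hn hm ⟨y, mem_principalUnits.2 hy, rfl⟩)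
  · have h1 : y / y' ∈ principalUnits A m :=
      (principalUnits A m).div_mem (mem_principalUnits.2 hy) (mem_principalUnits.2 hy')
    have h2 : (y / y') ^ n = 1 := by
      rw [div_pow]; exact div_eq_one.2 h
    exact div_eq_one.1 (eq_one_of_pow_eq_one hϖ hn hm h1 h2)
  · have hx' : x ∈ principalUnits A (m + v) := mem_principalUnits.2 hx
    rw [← hmap] at hx'
    obtain ⟨y, hy, hyx⟩ := hx'
    exact ⟨y, mem_principalUnits.1 hy, hyx⟩

/-! ### The graded pieces `(1 + 𝔪 ^ m) / (1 + 𝔪 ^ (m + v))` -/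

/-- The cofactor `(u - 1) / ϖ ^ m` of a principal unit of level `m`. -/
noncomputable def cof {ϖ : A} (hϖ : Irreducible ϖ) (m : ℕ) (u : principalUnits A m) : A :=
  Classical.choose ((mem_principalUnits_iff_dvd hϖ).1 u.2)

theorem cof_spec {ϖ : A} (hϖ : Irreducible ϖ) (m : ℕ) (u : principalUnits A m) :
    ((u : Aˣ) : A) - 1 = ϖ ^ m * cof hϖ m u :=
  Classical.choose_spec ((mem_principalUnits_iff_dvd hϖ).1 u.2)

theorem cof_eq_of {ϖ : A} (hϖ : Irreducible ϖ) (m : ℕ) (u : principalUnits A m) {c : A}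
    (h : ((u : Aˣ) : A) - 1 = ϖ ^ m * c) : cof hϖ m u = c :=
  mul_left_cancel₀ (pow_ne_zero m hϖ.ne_zero) ((cof_spec hϖ m u).symm.trans h)

/-- The homomorphism `1 + 𝔪 ^ m → A / ϖ ^ v`, `u ↦ (u - 1) / ϖ ^ m`, for `v ≤ m`. -/
noncomputable def cofHom {ϖ : A} (hϖ : Irreducible ϖ) {m v : ℕ} (hvm : v ≤ m) :
    principalUnits A m →* Multiplicative (A ⧸ Ideal.span {ϖ ^ v}) where
  toFun u := Multiplicative.ofAdd (Ideal.Quotient.mk _ (cof hϖ m u))
  map_one' := by
    have : cof hϖ m (1 : principalUnits A m) = 0 := cof_eq_of hϖ m _ (by simp)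
    rw [this, map_zero]; rfl
  map_mul' u u' := by
    have h : cof hϖ m (u * u')
        = cof hϖ m u + cof hϖ m u' + ϖ ^ m * cof hϖ m u * cof hϖ m u' := by
      apply cof_eq_of
      have h1 := cof_spec hϖ m u
      have h2 := cof_spec hϖ m u'
      rw [Subgroup.coe_mul, Units.val_mul]
      linear_combination ((u' : Aˣ) : A) * h1 + (1 + ϖ ^ m * cof hϖ m u) * h2
    rw [← ofAdd_add, ← map_add]
    congr 1
    rw [h, Ideal.Quotient.eq, Ideal.mem_span_singleton]
    obtain ⟨k, rfl⟩ := Nat.exists_eq_add_of_le hvm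
    exact ⟨ϖ ^ k * cof hϖ (v + k) u * cof hϖ (v + k) u', by ring⟩

theorem cofHom_apply {ϖ : A} (hϖ : Irreducible ϖ) {m v : ℕ} (hvm : v ≤ m)
    (u : principalUnits A m) :
    cofHom hϖ hvm u = Multiplicative.ofAdd (Ideal.Quotient.mk _ (cof hϖ m u)) := rfl

theorem cofHom_surjective {ϖ : A} (hϖ : Irreducible ϖ) {m v : ℕ} (hvm : v ≤ m) (hm : 0 < m) :
    Function.Surjective (cofHom hϖ hvm) := by
  intro x
  obtain ⟨a, ha⟩ := Ideal.Quotient.mk_surjective (Multiplicative.toAdd x)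
  have hu := isUnit_one_add_mul hϖ hm a
  have hmem : hu.unit ∈ principalUnits A m := by
    rw [mem_principalUnits_iff_dvd hϖ, IsUnit.unit_spec]
    exact ⟨a, by ring⟩
  refine ⟨⟨hu.unit, hmem⟩, ?_⟩
  have : cof hϖ m ⟨hu.unit, hmem⟩ = a := cof_eq_of hϖ m _ (by
    show ((hu.unit : Aˣ) : A) - 1 = ϖ ^ m * a
    rw [IsUnit.unit_spec]; ring)
  rw [cofHom_apply, this, ha]; rfl

theorem cofHom_ker {ϖ : A} (hϖ : Irreducible ϖ) {m v : ℕ} (hvm : v ≤ m) :
    (cofHom hϖ hvm).ker = (principalUnits A (m + v)).subgroupOf (principalUnits A m) := by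
  ext u
  rw [MonoidHom.mem_ker, Subgroup.mem_subgroupOf, mem_principalUnits_iff_dvd hϖ, cof_spec hϖ m u,
    cofHom_apply, pow_add, mul_dvd_mul_iff_left (pow_ne_zero m hϖ.ne_zero),
    ← Ideal.mem_span_singleton, ← Ideal.Quotient.eq_zero_iff_mem]
  exact Iff.rfl

/-- `[1 + 𝔪 ^ m : 1 + 𝔪 ^ (m + v)] = |A / ϖ ^ v|` for `1 ≤ m`, `v ≤ m`. -/
theorem relIndex_principalUnits {ϖ : A} (hϖ : Irreducible ϖ) {m v : ℕ} (hvm : v ≤ m)
    (hm : 0 < m) :
    (principalUnits A (m + v)).relIndex (principalUnits A m)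
      = Nat.card (A ⧸ Ideal.span {ϖ ^ v}) := by
  rw [Subgroup.relIndex, ← cofHom_ker hϖ hvm, Subgroup.index_ker,
    MonoidHom.range_eq_top.2 (cofHom_surjective hϖ hvm hm), Subgroup.card_top]
  rfl

/-- **(P2)** The index of the `n`-th powers in the units of a complete discrete valuation ring
with finite residue field, `(n : A) ≠ 0`:  `(Aˣ : Aˣⁿ) = |μ_n(A)| * |A / n A|`. -/
theorem index_pow_units [IsAdicComplete (maximalIdeal A) A] [Finite (ResidueField A)] {n : ℕ}
    (hn : (n : A) ≠ 0) :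
    (powMonoidHom n : Aˣ →* Aˣ).range.index
      = Nat.card (rootsOfUnity n A) * Nat.card (A ⧸ Ideal.span {(n : A)}) := by
  obtain ⟨ϖ, hϖ⟩ := IsDiscreteValuationRing.exists_irreducible A
  obtain ⟨v, u, hu⟩ := IsDiscreteValuationRing.eq_unit_mul_pow_irreducible hn hϖ
  have : Finite (A ⧸ maximalIdeal A) := inferInstanceAs (Finite (ResidueField A))
  have : Finite (A ⧸ maximalIdeal A ^ (v + 1)) :=
    Ideal.finite_quotient_pow (IsNoetherian.noetherian _) _
  have hH : (principalUnits A (v + 1)).index ≠ 0 := index_unitsCongr_ne_zero _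
  have hmap := map_pow_eq hϖ hu (Nat.lt_succ_self v)
  have hinj : principalUnits A (v + 1) ⊓ (powMonoidHom n : Aˣ →* Aˣ).ker = ⊥ := by
    rw [eq_bot_iff]
    rintro y ⟨hy1, hy2⟩
    exact Subgroup.mem_bot.2 (eq_one_of_pow_eq_one hϖ hu (Nat.lt_succ_self v) hy1 hy2)
  have hker : (powMonoidHom n : Aˣ →* Aˣ).ker = rootsOfUnity n A := by
    ext y; simp [MonoidHom.mem_ker, mem_rootsOfUnity]
  rw [index_range_eq_card_ker_mul _ _ hH hinj
      (by rw [hmap]; exact principalUnits_anti (by omega)),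
    hmap, relIndex_principalUnits hϖ (by omega) (by omega), hker, hu,
    Ideal.span_singleton_mul_left_unit u.isUnit]

/-- The `n`-th powers have finite index in the units. -/
theorem index_pow_units_ne_zero [IsAdicComplete (maximalIdeal A) A] [Finite (ResidueField A)]
    {n : ℕ} (hn : (n : A) ≠ 0) : (powMonoidHom n : Aˣ →* Aˣ).range.index ≠ 0 := by
  rw [index_pow_units hn]
  have hn0 : n ≠ 0 := by rintro rfl; simp at hn
  have : NeZero n := ⟨hn0⟩
  have := finite_quotient_span hn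
  exact mul_ne_zero Nat.card_pos.ne' Nat.card_pos.ne'

/-- **(P2)**, characteristic zero form. -/
theorem index_pow_units_of_charZero [IsAdicComplete (maximalIdeal A) A]
    [Finite (ResidueField A)] [CharZero A] {n : ℕ} (hn : 0 < n) :
    (powMonoidHom n : Aˣ →* Aˣ).range.index
      = Nat.card (rootsOfUnity n A) * Nat.card (A ⧸ Ideal.span {(n : A)}) :=
  index_pow_units (Nat.cast_ne_zero.2 hn.ne')

/-- The `n`-th powers are open in the units: they contain `1 + 𝔪 ^ (2 v + 1)`, `v = v(n)`; more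
precisely every `x ≡ 1 mod 𝔪 ^ (2 v + 1)` is `y ^ n` with `y ≡ 1 mod 𝔪 ^ (v + 1)`. -/
theorem exists_pow_eq [IsAdicComplete (maximalIdeal A) A] {n v : ℕ}
    (hv : (n : A) ∈ maximalIdeal A ^ v) (hv' : (n : A) ∉ maximalIdeal A ^ (v + 1)) {x : A}
    (hx : x - 1 ∈ maximalIdeal A ^ (2 * v + 1)) :
    ∃ y : Aˣ, (y : A) ^ n = x ∧ (y : A) - 1 ∈ maximalIdeal A ^ (v + 1) := by
  have hxu : IsUnit x := by
    have h1 : x - 1 ∈ maximalIdeal A := Ideal.pow_le_self (by omega) hx
    have h2 := isUnit_add_of_mem_maximalIdeal isUnit_one h1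
    simpa using h2
  have hmem : hxu.unit ∈ {u : Aˣ | (u : A) - 1 ∈ maximalIdeal A ^ (v + 1 + v)} := by
    have e : v + 1 + v = 2 * v + 1 := by omega
    show ((hxu.unit : Aˣ) : A) - 1 ∈ maximalIdeal A ^ (v + 1 + v)
    rw [e, IsUnit.unit_spec]
    exact hx
  obtain ⟨y, hy, hyx⟩ := (pow_bijOn_principalUnits hv hv' (Nat.lt_succ_self v)).surjOn hmem
  refine ⟨y, ?_, hy⟩
  have := congrArg (fun u : Aˣ => (u : A)) hyx
  simpa using this

/-- The `n`-th powers are open in the units (`(n : A) ≠ 0`). -/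
theorem exists_principalUnits_le_range_pow [IsAdicComplete (maximalIdeal A) A] {n : ℕ}
    (hn : (n : A) ≠ 0) : ∃ N : ℕ, principalUnits A N ≤ (powMonoidHom n : Aˣ →* Aˣ).range := by
  obtain ⟨v, hv, hv'⟩ := exists_mem_pow_notMem hn
  refine ⟨2 * v + 1, fun x hx => ?_⟩
  obtain ⟨y, hy, -⟩ := exists_pow_eq hv hv' (mem_principalUnits.1 hx)
  exact ⟨y, Units.ext (by simpa using hy)⟩

end DVR

/-! ### The fraction field -/

section Field

/-- `(ℤ : n ℤ) = n`, multiplicatively. -/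
theorem index_range_pow_int (n : ℕ) :
    (powMonoidHom n : Multiplicative ℤ →* Multiplicative ℤ).range.index = n := by
  have h : (powMonoidHom n : Multiplicative ℤ →* Multiplicative ℤ).range
      = AddSubgroup.toSubgroup (AddSubgroup.zmultiples (n : ℤ)) := by
    ext x
    rw [MonoidHom.mem_range, Multiplicative.mem_toSubgroup, AddSubgroup.mem_zmultiples_iff]
    constructor
    · rintro ⟨y, rfl⟩
      refine ⟨Multiplicative.toAdd y, ?_⟩
      rw [powMonoidHom_apply, toAdd_pow, smul_eq_mul, nsmul_eq_mul, mul_comm]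
    · rintro ⟨k, hk⟩
      refine ⟨Multiplicative.ofAdd k, ?_⟩
      apply Multiplicative.toAdd.injective
      rw [powMonoidHom_apply, toAdd_pow, toAdd_ofAdd, ← hk, smul_eq_mul, nsmul_eq_mul, mul_comm]
  rw [h, AddSubgroup.index_toSubgroup, Int.index_zmultiples, Int.natAbs_natCast]

variable {A : Type*} [CommRing A] [IsDomain A] [IsDiscreteValuationRing A]
variable (F : Type*) [Field F] [Algebra A F] [IsFractionRing A F]

/-- A uniformizer as a unit of the fraction field. -/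
noncomputable def unifUnit {ϖ : A} (hϖ : Irreducible ϖ) : Fˣ :=
  Units.mk0 (algebraMap A F ϖ)
    (fun h => hϖ.ne_zero ((map_eq_zero_iff _ (IsFractionRing.injective A F)).1 h))

/-- The decomposition `Aˣ × ℤ → Fˣ`, `(u, k) ↦ u ϖ ^ k`. -/
noncomputable def unitsProdHom {ϖ : A} (hϖ : Irreducible ϖ) : Aˣ × Multiplicative ℤ →* Fˣ :=
  (Units.map (algebraMap A F : A →* F)).coprod (zpowersHom Fˣ (unifUnit F hϖ))

omit [IsDomain A] [IsDiscreteValuationRing A] in
theorem unitsProdHom_apply {ϖ : A} (hϖ : Irreducible ϖ) (u : Aˣ) (k : ℤ) :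
    unitsProdHom F hϖ (u, Multiplicative.ofAdd k)
      = Units.map (algebraMap A F : A →* F) u * unifUnit F hϖ ^ k := rfl

omit [IsDomain A] [IsDiscreteValuationRing A] in
theorem eq_zero_of_unit_mul_pow {ϖ : A} (hϖ : Irreducible ϖ) {u u' : A}
    (hu' : IsUnit u') {j : ℕ} (h : u * ϖ ^ j = u') : j = 0 := by
  by_contra hj
  have h1 : IsUnit (ϖ ^ j) := by
    have : IsUnit (u * ϖ ^ j) := h ▸ hu'
    exact (IsUnit.mul_iff.1 this).2
  exact hϖ.not_isUnit ((isUnit_pow_iff hj).1 h1)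

omit [IsDomain A] [IsDiscreteValuationRing A] in
theorem eq_one_of_unit_mul_zpow {ϖ : A} (hϖ : Irreducible ϖ) (u : Aˣ) (k : ℤ)
    (h : Units.map (algebraMap A F : A →* F) u * unifUnit F hϖ ^ k = 1) : u = 1 ∧ k = 0 := by
  have hι := IsFractionRing.injective A F
  obtain ⟨j, rfl | rfl⟩ := Int.eq_nat_or_neg k
  · rw [zpow_natCast] at h
    have h1 : algebraMap A F ((u : A) * ϖ ^ j) = algebraMap A F 1 := by
      have := congrArg (fun x : Fˣ => (x : F)) h
      simpa [unifUnit] using this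
    have h2 := hι h1
    have hj := eq_zero_of_unit_mul_pow hϖ isUnit_one h2
    subst hj
    exact ⟨Units.ext (by simpa using h2), rfl⟩
  · rw [zpow_neg, zpow_natCast, mul_inv_eq_one] at h
    have h1 : algebraMap A F (1 * ϖ ^ j) = algebraMap A F (u : A) := by
      have := congrArg (fun x : Fˣ => (x : F)) h
      simpa [unifUnit] using this.symm
    have h2 := hι h1
    have hj := eq_zero_of_unit_mul_pow hϖ u.isUnit h2
    subst hj
    exact ⟨Units.ext (by simpa using h2.symm), by simp⟩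

omit [IsDomain A] [IsDiscreteValuationRing A] in
theorem unitsProdHom_injective {ϖ : A} (hϖ : Irreducible ϖ) :
    Function.Injective (unitsProdHom F hϖ) := by
  rw [injective_iff_map_eq_one]
  rintro ⟨u, k⟩ h
  have h' := eq_one_of_unit_mul_zpow F hϖ u (Multiplicative.toAdd k) h
  exact Prod.ext h'.1 (Multiplicative.toAdd.injective h'.2)

theorem unitsProdHom_surjective {ϖ : A} (hϖ : Irreducible ϖ) :
    Function.Surjective (unitsProdHom F hϖ) := by
  have hι := IsFractionRing.injective A F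
  intro x
  obtain ⟨a, b, hb, hab⟩ := IsFractionRing.div_surjective A (x : F)
  have hb0 : b ≠ 0 := nonZeroDivisors.ne_zero hb
  have ha0 : a ≠ 0 := by
    rintro rfl
    rw [map_zero, zero_div] at hab
    exact x.ne_zero hab.symm
  obtain ⟨i, u, rfl⟩ := IsDiscreteValuationRing.eq_unit_mul_pow_irreducible ha0 hϖ
  obtain ⟨j, u', rfl⟩ := IsDiscreteValuationRing.eq_unit_mul_pow_irreducible hb0 hϖ
  refine ⟨(u * u'⁻¹, Multiplicative.ofAdd ((i : ℤ) - j)), Units.ext ?_⟩
  have hπ : algebraMap A F ϖ ≠ 0 := (unifUnit F hϖ).ne_zero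
  have hu' : algebraMap A F (u' : A) ≠ 0 := fun h =>
    u'.ne_zero ((map_eq_zero_iff _ hι).1 h)
  have hinv : algebraMap A F ((u'⁻¹ : Aˣ) : A) = (algebraMap A F (u' : A))⁻¹ :=
    eq_inv_of_mul_eq_one_left (by rw [← map_mul, Units.inv_mul, map_one])
  have hval : ((unifUnit F hϖ : Fˣ) : F) = algebraMap A F ϖ := rfl
  rw [unitsProdHom_apply, ← hab, Units.val_mul, Units.val_zpow_eq_zpow_val, hval, zpow_sub₀ hπ,
    zpow_natCast, zpow_natCast, Units.coe_map, MonoidHom.coe_coe, Units.val_mul, map_mul, hinv,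
    map_mul, map_mul, map_pow, map_pow]
  field_simp

theorem unitsProdHom_bijective {ϖ : A} (hϖ : Irreducible ϖ) :
    Function.Bijective (unitsProdHom F hϖ) :=
  ⟨unitsProdHom_injective F hϖ, unitsProdHom_surjective F hϖ⟩

/-- The `n`-th roots of unity of the fraction field of a discrete valuation ring lie in the
ring (`n ≠ 0`). -/
theorem card_rootsOfUnity_eq {n : ℕ} (hn : n ≠ 0) :
    Nat.card (rootsOfUnity n F) = Nat.card (rootsOfUnity n A) := by
  obtain ⟨ϖ, hϖ⟩ := IsDiscreteValuationRing.exists_irreducible A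
  have hι := IsFractionRing.injective A F
  symm
  refine Nat.card_congr (Equiv.ofBijective (restrictRootsOfUnity (algebraMap A F) n) ⟨?_, ?_⟩)
  · intro ζ ζ' h
    have h1 : algebraMap A F ((ζ : Aˣ) : A) = algebraMap A F ((ζ' : Aˣ) : A) := by
      have := congrArg (fun x : rootsOfUnity n F => ((x : Fˣ) : F)) h
      simpa using this
    exact Subtype.ext (Units.ext (hι h1))
  · intro ζ
    obtain ⟨⟨u, k⟩, hp⟩ := unitsProdHom_surjective F hϖ (ζ : Fˣ)
    have hζ : (ζ : Fˣ) ^ n = 1 := (mem_rootsOfUnity n _).1 ζ.2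
    rw [← hp, ← map_pow] at hζ
    have h1 : (u, k) ^ n = 1 := unitsProdHom_injective F hϖ (by rw [hζ, map_one])
    rw [Prod.pow_mk, Prod.mk_eq_one] at h1
    have hk : k = 1 := by
      have h2 : n • Multiplicative.toAdd k = 0 := by
        rw [← toAdd_pow, h1.2]; rfl
      have h3 : Multiplicative.toAdd k = 0 := by
        rcases smul_eq_zero.1 h2 with h | h
        · exact absurd h hn
        · exact h
      exact Multiplicative.toAdd.injective h3
    subst hk
    refine ⟨⟨u, (mem_rootsOfUnity n u).2 h1.1⟩, Subtype.ext ?_⟩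
    rw [← hp]
    apply Units.ext
    simp [unitsProdHom]

/-- **(P3)** The index of the `n`-th powers in the multiplicative group of the fraction field of
a complete discrete valuation ring with finite residue field, `(n : A) ≠ 0`:
`(Fˣ : Fˣⁿ) = n * |μ_n(F)| * |A / n A|`. -/
theorem index_pow_field [IsAdicComplete (maximalIdeal A) A] [Finite (ResidueField A)] {n : ℕ}
    (hn : (n : A) ≠ 0) :
    (powMonoidHom n : Fˣ →* Fˣ).range.index
      = n * Nat.card (rootsOfUnity n F) * Nat.card (A ⧸ Ideal.span {(n : A)}) := by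
  obtain ⟨ϖ, hϖ⟩ := IsDiscreteValuationRing.exists_irreducible A
  have hbij := unitsProdHom_bijective F hϖ
  have hn0 : n ≠ 0 := by rintro rfl; simp at hn
  have h1 : (powMonoidHom n : Fˣ →* Fˣ).range
      = ((powMonoidHom n : Aˣ × Multiplicative ℤ →* Aˣ × Multiplicative ℤ).range).map
        (unitsProdHom F hϖ) := by
    ext x
    constructor
    · rintro ⟨y, rfl⟩
      obtain ⟨p, rfl⟩ := hbij.2 y
      exact ⟨p ^ n, ⟨p, rfl⟩, by simp⟩
    · rintro ⟨_, ⟨p, rfl⟩, rfl⟩
      exact ⟨unitsProdHom F hϖ p, by simp⟩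
  have h2 : (powMonoidHom n : Aˣ × Multiplicative ℤ →* Aˣ × Multiplicative ℤ).range
      = (powMonoidHom n : Aˣ →* Aˣ).range.prod
        (powMonoidHom n : Multiplicative ℤ →* Multiplicative ℤ).range := by
    ext ⟨a, k⟩
    rw [Subgroup.mem_prod]
    constructor
    · rintro ⟨⟨b, l⟩, h⟩
      rw [powMonoidHom_apply, Prod.pow_mk, Prod.mk.injEq] at h
      exact ⟨⟨b, h.1⟩, ⟨l, h.2⟩⟩
    · rintro ⟨⟨b, hb⟩, ⟨l, hl⟩⟩
      exact ⟨(b, l), Prod.ext hb hl⟩
  rw [h1, Subgroup.index_map_of_bijective hbij, h2, Subgroup.index_prod, index_pow_units hn,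
    index_range_pow_int, card_rootsOfUnity_eq (A := A) F hn0]
  ring

/-- The `n`-th powers have finite index in `Fˣ`. -/
theorem index_pow_field_ne_zero [IsAdicComplete (maximalIdeal A) A] [Finite (ResidueField A)]
    {n : ℕ} (hn : (n : A) ≠ 0) : (powMonoidHom n : Fˣ →* Fˣ).range.index ≠ 0 := by
  rw [index_pow_field F hn]
  have hn0 : n ≠ 0 := by rintro rfl; simp at hn
  have : NeZero n := ⟨hn0⟩
  have := finite_quotient_span hn
  exact mul_ne_zero (mul_ne_zero hn0 Nat.card_pos.ne') Nat.card_pos.ne'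

/-- **(P3)**, characteristic zero form, with the residue cardinality made explicit:
`(Fˣ : Fˣⁿ) = n * |μ_n(F)| * |k| ^ v(n)`. -/
theorem index_pow_field_of_charZero [IsAdicComplete (maximalIdeal A) A]
    [Finite (ResidueField A)] [CharZero A] {n : ℕ} (hn : 0 < n) :
    (powMonoidHom n : Fˣ →* Fˣ).range.index
      = n * Nat.card (rootsOfUnity n F) * Nat.card (A ⧸ Ideal.span {(n : A)}) :=
  index_pow_field F (Nat.cast_ne_zero.2 hn.ne')

/-- **(P3)**, prime-to-residue-characteristic form: if `n` is a unit of `A` then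
`(Fˣ : Fˣⁿ) = n * |μ_n(F)|`. -/
theorem index_pow_field_of_isUnit [IsAdicComplete (maximalIdeal A) A]
    [Finite (ResidueField A)] {n : ℕ} (hn : IsUnit (n : A)) :
    (powMonoidHom n : Fˣ →* Fˣ).range.index = n * Nat.card (rootsOfUnity n F) := by
  rw [index_pow_field F hn.ne_zero, Ideal.span_singleton_eq_top.2 hn]
  have : Subsingleton (A ⧸ (⊤ : Ideal A)) := Ideal.Quotient.subsingleton_iff.2 rfl
  have h1 : Nat.card (A ⧸ (⊤ : Ideal A)) = 1 := Nat.card_unique
  rw [h1, mul_one]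

end Field

end Fermat.Agent.CFT.Local.PowIndex
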