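import Mathlib
import Fermat.Agent.CFT.Local.Defs
import Fermat.Agent.CFT.Local.FiniteExtInt
import Fermat.Agent.CFT.Local.PowIndex

/-!
# The ring of integers of a finite extension of `ℚ_[q]` is a complete discrete valuation ring

For an abstract field `E` with `[Algebra ℚ_[q] E] [FiniteDimensional ℚ_[q] E]`, the ring
`integers q E` of `Local/Defs` (the integral closure of `ℤ_[q]` in `E`) is a discrete valuation
ring, complete for its maximal ideal, with finite residue field and fraction field `E`; it is a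
free `ℤ_[q]`-module of rank `[E : ℚ_q]` and `|integers / q| = q ^ [E : ℚ_q]`.

Everything is unconditional.  The only non-formal input is the multiplicativity of the spectral
norm over a complete field (Mathlib) together with `FiniteExtInt.isIntegral_iff_spectralNorm_le_one`.
-/

set_option autoImplicit false

namespace Fermat.Agent.CFT.Local.IntegersDVR

open Fermat.Agent.CFT.Local IsLocalRing

/-! ### Two general facts on adic completeness -/

section General

/-- A module with a finite basis over an `I`-adically precomplete ring is `I`-adically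
precomplete. -/
theorem isPrecomplete_of_basis {R M ι : Type*} [CommRing R] [AddCommGroup M] [Module R M]
    [Fintype ι] (I : Ideal R) [IsPrecomplete I R] (b : Module.Basis ι R M) :
    IsPrecomplete I M := by
  refine ⟨fun f hf => ?_⟩
  have hI : ∀ k : ℕ, (I ^ k • ⊤ : Submodule R R) = I ^ k := fun k => by
    rw [← Ideal.one_eq_top, Ideal.smul_eq_mul, mul_one]
  have hcoord : ∀ i, ∀ {m n : ℕ}, m ≤ n →
      b.repr (f m) i ≡ b.repr (f n) i [SMOD (I ^ m • ⊤ : Submodule R R)] := by
    intro i m n hmn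
    have h := hf hmn
    rw [SModEq.sub_mem] at h ⊢
    have h' : (b.coord i) (f m - f n) ∈ (I ^ m • ⊤ : Submodule R R) := by
      refine Submodule.smul_induction_on h ?_ ?_
      · intro r hr n _
        rw [map_smul]
        exact Submodule.smul_mem_smul hr Submodule.mem_top
      · intro x y hx hy
        rw [map_add]
        exact Submodule.add_mem _ hx hy
    simpa using h'
  choose L hL using fun i => IsPrecomplete.prec' (I := I) (fun n => b.repr (f n) i) (hcoord i)
  refine ⟨∑ i, L i • b i, fun n => ?_⟩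
  rw [SModEq.sub_mem]
  have h1 : f n - ∑ i, L i • b i = ∑ i, (b.repr (f n) i - L i) • b i := by
    conv_lhs => rw [← b.sum_repr (f n)]
    rw [← Finset.sum_sub_distrib]
    simp [sub_smul]
  rw [h1]
  refine Submodule.sum_mem _ (fun i _ => Submodule.smul_mem_smul ?_ Submodule.mem_top)
  have h2 := hL i n
  rw [SModEq.sub_mem, hI] at h2
  exact h2

/-- If `J ^ e = I` with `0 < e` and the ring is `I`-adically precomplete, it is `J`-adically
precomplete. -/
theorem isPrecomplete_of_pow_eq {R : Type*} [CommRing R] {I J : Ideal R} {e : ℕ} (he : 0 < e)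
    (h : J ^ e = I) [IsPrecomplete I R] : IsPrecomplete J R := by
  refine ⟨fun f hf => ?_⟩
  have hI : ∀ (K : Ideal R) (k : ℕ), (K ^ k • ⊤ : Submodule R R) = K ^ k := fun K k => by
    rw [← Ideal.one_eq_top, Ideal.smul_eq_mul, mul_one]
  obtain ⟨L, hL⟩ := IsPrecomplete.prec' (I := I) (fun k => f (e * k)) (by
    intro m n hmn
    have h0 := hf (Nat.mul_le_mul_left e hmn)
    rw [hI, SModEq.sub_mem] at h0 ⊢
    rwa [← h, ← pow_mul])
  refine ⟨L, fun n => ?_⟩
  have h1 := hL n
  have h2 := hf (show n ≤ e * n from Nat.le_mul_of_pos_left n he)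
  rw [hI, SModEq.sub_mem] at h1 h2 ⊢
  have h3 : f (e * n) - L ∈ J ^ n := by
    rw [← h, ← pow_mul] at h1
    exact Ideal.pow_le_pow_right (Nat.le_mul_of_pos_left n he) h1
  have h4 : f n - L = (f n - f (e * n)) + (f (e * n) - L) := by ring
  rw [h4]
  exact Ideal.add_mem _ h2 h3

end General

/-! ### The integral closure of `ℤ_[q]` in a finite extension of `ℚ_[q]` -/

section Closure

variable (q : ℕ) [Fact q.Prime] (E : Type) [Field E] [Algebra ℚ_[q] E]

attribute [local instance] intAlgebra

theorem isScalarTower_int : IsScalarTower ℤ_[q] ℚ_[q] E :=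
  IsScalarTower.of_algebraMap_eq (fun _ => rfl)

attribute [local instance] isScalarTower_int

theorem algebraMap_int_injective : Function.Injective (algebraMap ℤ_[q] E) :=
  (algebraMap ℚ_[q] E).injective.comp (IsFractionRing.injective ℤ_[q] ℚ_[q])

theorem isTorsionFree_int : Module.IsTorsionFree ℤ_[q] E :=
  Module.isTorsionFree_iff_algebraMap_injective.2 (algebraMap_int_injective q E)

attribute [local instance] isTorsionFree_int

variable [FiniteDimensional ℚ_[q] E]

local notation "𝓒" => integralClosure ℤ_[q] E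

theorem isFractionRing_closure : IsFractionRing 𝓒 E :=
  IsIntegralClosure.isFractionRing_of_finite_extension ℤ_[q] ℚ_[q] E 𝓒

theorem isDedekindDomain_closure : IsDedekindDomain 𝓒 :=
  IsIntegralClosure.isDedekindDomain ℤ_[q] ℚ_[q] E 𝓒

theorem finite_closure : Module.Finite ℤ_[q] 𝓒 :=
  IsIntegralClosure.finite ℤ_[q] ℚ_[q] E 𝓒

theorem free_closure : Module.Free ℤ_[q] 𝓒 :=
  IsIntegralClosure.module_free ℤ_[q] ℚ_[q] E 𝓒

theorem finrank_closure : Module.finrank ℤ_[q] 𝓒 = Module.finrank ℚ_[q] E :=
  IsIntegralClosure.rank ℤ_[q] ℚ_[q] E 𝓒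

theorem isIntegral_iff_spectralNorm_le_one (x : E) :
    IsIntegral ℤ_[q] x ↔ spectralNorm ℚ_[q] E x ≤ 1 := by
  refine FiniteExtInt.isIntegral_iff_spectralNorm_le_one (K := ℚ_[q]) ℤ_[q] (L := E) ?_ x
  intro c
  constructor
  · intro hc
    exact ⟨⟨c, hc⟩, rfl⟩
  · rintro ⟨z, rfl⟩
    exact z.2

theorem spectralNorm_mul (x y : E) :
    spectralNorm ℚ_[q] E (x * y) = spectralNorm ℚ_[q] E x * spectralNorm ℚ_[q] E y :=
  spectralAlgNorm_mul (K := ℚ_[q]) (L := E) x y

/-- **Valuation ring property**: `x` or `x⁻¹` is integral. -/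
theorem isIntegral_or_isIntegral_inv (x : E) : IsIntegral ℤ_[q] x ∨ IsIntegral ℤ_[q] x⁻¹ := by
  by_cases hx : x = 0
  · left
    rw [hx]
    exact isIntegral_zero
  · have hmul : spectralNorm ℚ_[q] E x * spectralNorm ℚ_[q] E x⁻¹ = 1 := by
      rw [← spectralNorm_mul, mul_inv_cancel₀ hx, spectralNorm_one]
    by_cases h1 : spectralNorm ℚ_[q] E x ≤ 1
    · exact Or.inl ((isIntegral_iff_spectralNorm_le_one q E x).2 h1)
    · right
      refine (isIntegral_iff_spectralNorm_le_one q E x⁻¹).2 ?_
      by_contra h2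
      have := one_lt_mul_of_lt_of_le (not_le.1 h1) (not_le.1 h2).le
      rw [hmul] at this
      exact lt_irrefl _ this

theorem valuationRing_closure : ValuationRing 𝓒 := by
  have := isFractionRing_closure q E
  rw [ValuationRing.iff_isInteger_or_isInteger 𝓒 E]
  intro x
  rcases isIntegral_or_isIntegral_inv q E x with h | h
  · exact Or.inl ⟨⟨x, h⟩, rfl⟩
  · exact Or.inr ⟨⟨x⁻¹, h⟩, rfl⟩

theorem isLocalRing_closure : IsLocalRing 𝓒 :=
  haveI := valuationRing_closure q E
  inferInstance

omit [FiniteDimensional ℚ_[q] E] in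
/-- The image of `q` in the ring of integers has spectral norm `< 1`. -/
theorem spectralNorm_q_lt_one : spectralNorm ℚ_[q] E ((q : 𝓒) : E) < 1 := by
  have h1 : ((q : 𝓒) : E) = algebraMap ℚ_[q] E (q : ℚ_[q]) := by simp
  rw [h1, spectralNorm_extends, Padic.norm_p]
  have hq : (1 : ℝ) < q := by exact_mod_cast (Fact.out : q.Prime).one_lt
  exact inv_lt_one_of_one_lt₀ hq

omit [FiniteDimensional ℚ_[q] E] in
theorem q_ne_zero : (q : 𝓒) ≠ 0 := by
  intro h
  have h1 : (q : E) = 0 := by
    have := congrArg (fun x : 𝓒 => (x : E)) h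
    simpa using this
  have h2 : (q : ℚ_[q]) = 0 := by
    apply (algebraMap ℚ_[q] E).injective
    simpa using h1
  exact (Fact.out : q.Prime).ne_zero (by exact_mod_cast h2)

theorem not_isUnit_q : ¬ IsUnit (q : 𝓒) := by
  rintro ⟨u, hu⟩
  have h1 : ((u : 𝓒) : E) * (((u⁻¹ : (𝓒)ˣ) : 𝓒) : E) = 1 := by
    rw [← Subalgebra.coe_mul, Units.mul_inv, Subalgebra.coe_one]
  have h2 : spectralNorm ℚ_[q] E ((u : 𝓒) : E) * spectralNorm ℚ_[q] E (((u⁻¹ : (𝓒)ˣ) : 𝓒) : E) = 1 := by
    rw [← spectralNorm_mul, h1, spectralNorm_one]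
  have h3 : spectralNorm ℚ_[q] E ((u : 𝓒) : E) < 1 := by
    rw [hu]; exact spectralNorm_q_lt_one q E
  have h4 : spectralNorm ℚ_[q] E (((u⁻¹ : (𝓒)ˣ) : 𝓒) : E) ≤ 1 :=
    (isIntegral_iff_spectralNorm_le_one q E _).1 ((u⁻¹ : (𝓒)ˣ) : 𝓒).2
  have h5 := mul_lt_one_of_nonneg_of_lt_one_left (spectralNorm_nonneg _) h3 h4
  rw [h2] at h5
  exact lt_irrefl _ h5

omit [FiniteDimensional ℚ_[q] E] in
/-- A prime `p ≠ q` is a unit of the ring of integers. -/
theorem isUnit_natCast_closure {p : ℕ} (hp : p.Prime) (hpq : p ≠ q) : IsUnit (p : 𝓒) := by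
  have h1 : IsUnit (p : ℤ_[q]) := by
    rw [PadicInt.isUnit_iff, PadicInt.norm_natCast_eq_one_iff]
    exact (Nat.coprime_primes Fact.out hp).2 (Ne.symm hpq)
  have h2 := h1.map (algebraMap ℤ_[q] 𝓒)
  rwa [map_natCast] at h2

theorem not_isField_closure : ¬ IsField 𝓒 := fun h => by
  obtain ⟨b, hb⟩ := h.mul_inv_cancel (q_ne_zero q E)
  exact not_isUnit_q q E (IsUnit.of_mul_eq_one b hb)

theorem isDiscreteValuationRing_closure : IsDiscreteValuationRing 𝓒 := by
  have := isLocalRing_closure q E
  have hD := isDedekindDomain_closure q E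
  exact ((IsDiscreteValuationRing.TFAE 𝓒 (not_isField_closure q E)).out 0 2).2 hD

/-! #### Completeness -/

theorem isPrecomplete_closure_module : IsPrecomplete (maximalIdeal ℤ_[q]) 𝓒 := by
  have := finite_closure q E
  have := free_closure q E
  exact isPrecomplete_of_basis _ (Module.Free.chooseBasis ℤ_[q] 𝓒)

omit [FiniteDimensional ℚ_[q] E] in
theorem map_maximalIdeal_int :
    (maximalIdeal ℤ_[q]).map (algebraMap ℤ_[q] 𝓒) = Ideal.span {(q : 𝓒)} := by
  rw [PadicInt.maximalIdeal_eq_span_p, Ideal.map_span, Set.image_singleton, map_natCast]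

theorem isPrecomplete_closure_span : IsPrecomplete (Ideal.span {(q : 𝓒)}) 𝓒 := by
  rw [← map_maximalIdeal_int, IsPrecomplete.map_algebraMap_iff]
  exact isPrecomplete_closure_module q E

/-- `q 𝓒 = 𝔪 ^ e` with `e > 0` (the ramification index). -/
theorem exists_maximalIdeal_pow_eq [IsLocalRing 𝓒] :
    ∃ e : ℕ, 0 < e ∧ maximalIdeal 𝓒 ^ e = Ideal.span {(q : 𝓒)} := by
  have := isDiscreteValuationRing_closure q E
  obtain ⟨v, hv, hv'⟩ := PowIndex.exists_mem_pow_notMem (q_ne_zero q E)
  refine ⟨v, Nat.pos_of_ne_zero ?_, (PowIndex.span_eq_maximalIdeal_pow hv hv').symm⟩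
  rintro rfl
  apply hv'
  rw [zero_add, pow_one]
  exact (mem_maximalIdeal _).2 (not_isUnit_q q E)

theorem isAdicComplete_closure_span : IsAdicComplete (Ideal.span {(q : 𝓒)}) 𝓒 := by
  have := isDedekindDomain_closure q E
  have hP := isPrecomplete_closure_span q E
  have hne : Ideal.span {(q : 𝓒)} ≠ ⊤ := fun h =>
    not_isUnit_q q E (Ideal.span_singleton_eq_top.1 h)
  have hH : IsHausdorff (Ideal.span {(q : 𝓒)}) 𝓒 := IsHausdorff.of_isDomain _ hne
  exact { toIsHausdorff := hH, toIsPrecomplete := hP }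

theorem isAdicComplete_closure [IsLocalRing 𝓒] : IsAdicComplete (maximalIdeal 𝓒) 𝓒 := by
  have := isDedekindDomain_closure q E
  obtain ⟨e, he, hpow⟩ := exists_maximalIdeal_pow_eq q E
  have := isPrecomplete_closure_span q E
  have hP : IsPrecomplete (maximalIdeal 𝓒) 𝓒 := isPrecomplete_of_pow_eq he hpow
  have hH : IsHausdorff (maximalIdeal 𝓒) 𝓒 := inferInstance
  exact { toIsHausdorff := hH, toIsPrecomplete := hP }

/-! #### Cardinalities -/

omit [FiniteDimensional ℚ_[q] E] in
theorem natCard_residueField_int : Nat.card (ResidueField ℤ_[q]) = q := by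
  rw [Nat.card_congr (PadicInt.residueField (p := q)).toEquiv, Nat.card_zmod]

theorem natCard_quot_smul :
    Nat.card (𝓒 ⧸ (maximalIdeal ℤ_[q] • ⊤ : Submodule ℤ_[q] 𝓒)) = q ^ Module.finrank ℚ_[q] E := by
  have := finite_closure q E
  have := free_closure q E
  rw [← Nat.card_congr (TensorProduct.quotTensorEquivQuotSMul 𝓒 (maximalIdeal ℤ_[q])).toEquiv]
  have h := Module.natCard_eq_pow_finrank (K := ResidueField ℤ_[q])
    (V := TensorProduct ℤ_[q] (ResidueField ℤ_[q]) 𝓒)
  rw [Module.finrank_baseChange, finrank_closure, natCard_residueField_int] at h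
  exact h

theorem natCard_quot_span_q :
    Nat.card (𝓒 ⧸ Ideal.span {(q : 𝓒)}) = q ^ Module.finrank ℚ_[q] E := by
  rw [← natCard_quot_smul q E, ← Submodule.cardQuot_apply, ← Submodule.cardQuot_apply]
  unfold Submodule.cardQuot
  congr 1
  ext x
  rw [Submodule.mem_toAddSubgroup, Submodule.mem_toAddSubgroup, PadicInt.maximalIdeal_eq_span_p,
    Submodule.ideal_span_singleton_smul, Submodule.mem_smul_pointwise_iff_exists,
    Ideal.mem_span_singleton]
  constructor
  · rintro ⟨y, rfl⟩
    exact ⟨y, Submodule.mem_top, by rw [Nat.cast_smul_eq_nsmul, nsmul_eq_mul]⟩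
  · rintro ⟨y, -, rfl⟩
    exact ⟨y, by rw [Nat.cast_smul_eq_nsmul, nsmul_eq_mul]⟩

theorem finite_quot_span_q : Finite (𝓒 ⧸ Ideal.span {(q : 𝓒)}) :=
  Nat.finite_of_card_ne_zero (by
    rw [natCard_quot_span_q]
    exact pow_ne_zero _ (Fact.out : q.Prime).ne_zero)

theorem finite_residueField_closure [IsLocalRing 𝓒] : Finite (ResidueField 𝓒) := by
  have := finite_quot_span_q q E
  have hle : Ideal.span {(q : 𝓒)} ≤ maximalIdeal 𝓒 := by
    rw [Ideal.span_singleton_le_iff_mem]
    exact (mem_maximalIdeal _).2 (not_isUnit_q q E)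
  exact Finite.of_surjective (Ideal.Quotient.factor hle) (Ideal.Quotient.factor_surjective hle)

end Closure

/-! ### The ring `integers q E` of `Local/Defs`

The statements below do not mention the auxiliary `ℤ_[q]`-algebra structure: they are the
instance-lemmas to be used via `haveI`. -/

section Integers

variable (q : ℕ) [Fact q.Prime] (E : Type) [Field E] [Algebra ℚ_[q] E]

attribute [local instance] intAlgebra

theorem mem_integers_iff (x : E) : x ∈ integers q E ↔ IsIntegral ℤ_[q] x := Iff.rfl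

variable [FiniteDimensional ℚ_[q] E]

/-- `integers q E` is a valuation ring of `E`. -/
theorem mem_or_inv_mem_integers (x : E) : x ∈ integers q E ∨ x⁻¹ ∈ integers q E :=
  isIntegral_or_isIntegral_inv q E x

theorem isFractionRing_integers : IsFractionRing (integers q E) E :=
  isFractionRing_closure q E

theorem isDedekindDomain_integers : IsDedekindDomain (integers q E) :=
  isDedekindDomain_closure q E

theorem isLocalRing_integers : IsLocalRing (integers q E) :=
  isLocalRing_closure q E

theorem isDiscreteValuationRing_integers : IsDiscreteValuationRing (integers q E) :=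
  isDiscreteValuationRing_closure q E

theorem isAdicComplete_integers [h : IsLocalRing (integers q E)] :
    IsAdicComplete (maximalIdeal (integers q E)) (integers q E) := by
  have h' : IsLocalRing (integralClosure ℤ_[q] E) := h
  exact isAdicComplete_closure q E

theorem isAdicComplete_integers_span :
    IsAdicComplete (Ideal.span {(q : integers q E)}) (integers q E) :=
  isAdicComplete_closure_span q E

theorem finite_residueField_integers [h : IsLocalRing (integers q E)] :
    Finite (ResidueField (integers q E)) := by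
  have h' : IsLocalRing (integralClosure ℤ_[q] E) := h
  exact finite_residueField_closure q E

theorem natCard_quot_span_q_integers :
    Nat.card (integers q E ⧸ Ideal.span {(q : integers q E)}) = q ^ Module.finrank ℚ_[q] E :=
  natCard_quot_span_q q E

theorem finite_quot_span_q_integers :
    Finite (integers q E ⧸ Ideal.span {(q : integers q E)}) :=
  finite_quot_span_q q E

omit [FiniteDimensional ℚ_[q] E] in
theorem q_ne_zero_integers : (q : integers q E) ≠ 0 := q_ne_zero q E

theorem not_isUnit_q_integers : ¬ IsUnit (q : integers q E) := not_isUnit_q q E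

omit [FiniteDimensional ℚ_[q] E] in
theorem isUnit_natCast_integers {p : ℕ} (hp : p.Prime) (hpq : p ≠ q) :
    IsUnit (p : integers q E) := isUnit_natCast_closure q E hp hpq

theorem exists_maximalIdeal_pow_eq_integers [h : IsLocalRing (integers q E)] :
    ∃ e : ℕ, 0 < e ∧ maximalIdeal (integers q E) ^ e = Ideal.span {(q : integers q E)} := by
  have h' : IsLocalRing (integralClosure ℤ_[q] E) := h
  exact exists_maximalIdeal_pow_eq q E

omit [FiniteDimensional ℚ_[q] E] in
/-- `unitGroup q E` is the image of the units of `integers q E`. -/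
theorem range_unitsMap_subtype :
    (Units.map ((integers q E).subtype : integers q E →* E)).range = unitGroup q E := by
  ext u
  constructor
  · rintro ⟨a, rfl⟩
    exact ⟨(a : integers q E).2, ((a⁻¹ : (integers q E)ˣ) : integers q E).2⟩
  · rintro ⟨h1, h2⟩
    refine ⟨⟨⟨(u : E), h1⟩, ⟨((u⁻¹ : Eˣ) : E), h2⟩, ?_, ?_⟩, Units.ext rfl⟩
    · exact Subtype.ext (by simp)
    · exact Subtype.ext (by simp)

omit [FiniteDimensional ℚ_[q] E] in
theorem isUnit_integers_iff (a : integers q E) :
    IsUnit a ↔ (a : E) ≠ 0 ∧ (a : E)⁻¹ ∈ integers q E := by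
  constructor
  · rintro ⟨u, rfl⟩
    have h1 : ((u : integers q E) : E) * (((u⁻¹ : (integers q E)ˣ) : integers q E) : E) = 1 := by
      rw [← Subring.coe_mul, Units.mul_inv, Subring.coe_one]
    have h0 : ((u : integers q E) : E) ≠ 0 := left_ne_zero_of_mul_eq_one h1
    refine ⟨h0, ?_⟩
    rw [← eq_inv_of_mul_eq_one_right h1]
    exact ((u⁻¹ : (integers q E)ˣ) : integers q E).2
  · rintro ⟨h0, h1⟩
    refine IsUnit.of_mul_eq_one (⟨(a : E)⁻¹, h1⟩ : integers q E) (Subtype.ext ?_)
    simp [h0]

omit [FiniteDimensional ℚ_[q] E] in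
/-- The maximal ideal of `integers q E` is the set `maxIdeal q E` of `Local/Defs`. -/
theorem mem_maximalIdeal_integers_iff [IsLocalRing (integers q E)] (a : integers q E) :
    a ∈ maximalIdeal (integers q E) ↔ (a : E) ∈ maxIdeal q E := by
  rw [mem_maximalIdeal, mem_nonunits_iff, isUnit_integers_iff]
  constructor
  · intro h
    refine ⟨a.2, ?_⟩
    by_cases h0 : (a : E) = 0
    · exact Or.inl h0
    · exact Or.inr (fun h1 => h ⟨h0, h1⟩)
  · rintro ⟨-, h | h⟩ ⟨h0, h1⟩
    · exact h0 h
    · exact h h1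

omit [FiniteDimensional ℚ_[q] E] in
theorem mem_maxIdeal_iff [IsLocalRing (integers q E)] (x : E) :
    x ∈ maxIdeal q E ↔ ∃ a ∈ maximalIdeal (integers q E), (a : E) = x := by
  constructor
  · intro hx
    exact ⟨⟨x, hx.1⟩, (mem_maximalIdeal_integers_iff q E _).2 hx, rfl⟩
  · rintro ⟨a, ha, rfl⟩
    exact (mem_maximalIdeal_integers_iff q E a).1 ha

end Integers

end Fermat.Agent.CFT.Local.IntegersDVR
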