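import Mathlib
import Fermat.Agent.CFT.Local.Defs
import Fermat.Agent.CFT.Local.Plan
import Fermat.Agent.CFT.Local.PowIndex
import Fermat.Agent.CFT.Local.IntegersDVR

/-!
# The index of `p`-th powers in a finite extension of `ℚ_[q]`

`powIndex_holds` is the statement `Plan.PowIndex` of the Local layer, proved unconditionally:
for a finite extension `F` of `ℚ_[q]` and a prime `p`,

* `(Fˣ : Fˣᵖ) = p * |μ_p(F)| * q ^ ([F : ℚ_q] * v_q(p))`,
* `(U_F : U_F ∩ Fˣᵖ) = |μ_p(F)| * q ^ ([F : ℚ_q] * v_q(p))`.
-/

set_option autoImplicit false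

namespace Fermat.Agent.CFT.Local.PowIndexQ

open Fermat.Agent.CFT.Local IsLocalRing

section

variable (q : ℕ) [Fact q.Prime] (F : Type) [Field F] [Algebra ℚ_[q] F]
  [FiniteDimensional ℚ_[q] F]

/-- `|O_F / p O_F| = q ^ ([F : ℚ_q] * v_q(p))` for a prime `p`. -/
theorem natCard_quot_span_natCast (p : ℕ) (hp : p.Prime) :
    Nat.card (integers q F ⧸ Ideal.span {(p : integers q F)})
      = q ^ (Module.finrank ℚ_[q] F * padicValNat q p) := by
  by_cases hpq : p = q
  · subst hpq
    rw [padicValNat_self, mul_one]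
    exact IntegersDVR.natCard_quot_span_q_integers p F
  · have : Fact p.Prime := ⟨hp⟩
    have h0 : padicValNat q p = 0 := padicValNat_primes (p := q) (q := p) (Ne.symm hpq)
    have hu : IsUnit (p : integers q F) := IntegersDVR.isUnit_natCast_integers q F hp hpq
    rw [h0, mul_zero, pow_zero, Ideal.span_singleton_eq_top.2 hu]
    have : Subsingleton (integers q F ⧸ (⊤ : Ideal (integers q F))) :=
      Ideal.Quotient.subsingleton_iff.2 rfl
    exact Nat.card_unique

omit [FiniteDimensional ℚ_[q] F] in
theorem natCast_ne_zero {p : ℕ} (hp : p ≠ 0) : (p : integers q F) ≠ 0 := by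
  have : CharZero F := charZero_of_injective_algebraMap (algebraMap ℚ_[q] F).injective
  intro h
  have h1 : ((p : integers q F) : F) = 0 := by rw [h]; rfl
  rw [Subring.coe_natCast, Nat.cast_eq_zero] at h1
  exact hp h1

omit [FiniteDimensional ℚ_[q] F] in
/-- The `p`-th powers of `Fˣ` that are units are the `p`-th powers of units. -/
theorem comap_range_pow {p : ℕ} (hp : 0 < p) :
    (MonoidHom.range (powMonoidHom p : Fˣ →* Fˣ)).comap
        (Units.map ((integers q F).subtype : integers q F →* F))
      = MonoidHom.range (powMonoidHom p : (integers q F)ˣ →* (integers q F)ˣ) := by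
  ext x
  constructor
  · rintro ⟨y, hy⟩
    have hy' : y ^ p = Units.map ((integers q F).subtype : integers q F →* F) x := hy
    have hmem : y ∈ unitGroup q F := by
      let _ := intAlgebra q F
      refine ⟨?_, ?_⟩
      · refine IsIntegral.of_pow hp ?_
        have h1 : (y : F) ^ p = ((x : integers q F) : F) := by
          rw [← Units.val_pow_eq_pow_val, hy']; rfl
        rw [h1]
        exact (x : integers q F).2
      · refine IsIntegral.of_pow hp ?_
        have h1 : ((y⁻¹ : Fˣ) : F) ^ p = (((x⁻¹ : (integers q F)ˣ) : integers q F) : F) := by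
          rw [← Units.val_pow_eq_pow_val, inv_pow, hy', ← map_inv]; rfl
        rw [h1]
        exact ((x⁻¹ : (integers q F)ˣ) : integers q F).2
    rw [← IntegersDVR.range_unitsMap_subtype] at hmem
    obtain ⟨z, rfl⟩ := hmem
    refine ⟨z, ?_⟩
    apply Units.map_injective (f := ((integers q F).subtype : integers q F →* F))
      (Subring.subtype_injective _)
    rw [← hy', powMonoidHom_apply, map_pow]
  · rintro ⟨z, rfl⟩
    exact ⟨Units.map ((integers q F).subtype : integers q F →* F) z, by
      simp only [powMonoidHom_apply, map_pow]⟩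

end

/-- **`Plan.PowIndex`** (Local layer), unconditionally: the index of the `p`-th powers in `Fˣ`
and in the unit group, for every finite extension `F` of `ℚ_[q]` and every prime `p`. -/
theorem powIndex_holds :
    ∀ (q : ℕ) [Fact q.Prime] (p : ℕ), p.Prime →
    ∀ (F : Type) [Field F] [Algebra ℚ_[q] F] [FiniteDimensional ℚ_[q] F],
      (MonoidHom.range (powMonoidHom p : Fˣ →* Fˣ)).index =
        p * Nat.card (rootsOfUnity p F) * q ^ (Module.finrank ℚ_[q] F * padicValNat q p) ∧
      ((MonoidHom.range (powMonoidHom p : Fˣ →* Fˣ)).subgroupOf (unitGroup q F)).index =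
        Nat.card (rootsOfUnity p F) * q ^ (Module.finrank ℚ_[q] F * padicValNat q p) := by
  intro q _ p hp F _ _ _
  have := IntegersDVR.isDiscreteValuationRing_integers q F
  have := IntegersDVR.isAdicComplete_integers q F
  have := IntegersDVR.finite_residueField_integers q F
  have := IntegersDVR.isFractionRing_integers q F
  have hp0 : (p : integers q F) ≠ 0 := natCast_ne_zero q F hp.ne_zero
  refine ⟨?_, ?_⟩
  · rw [PowIndex.index_pow_field F hp0, natCard_quot_span_natCast q F p hp]
  · have h1 := PowIndex.index_pow_units (A := integers q F) hp0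
    rw [natCard_quot_span_natCast q F p hp, ← PowIndex.card_rootsOfUnity_eq F hp.ne_zero] at h1
    rw [← h1, ← comap_range_pow q F hp.pos, Subgroup.index_comap,
      IntegersDVR.range_unitsMap_subtype]
    rfl

/-- **`Plan.PowIndex`**, in Plan shape (no hypotheses). -/
theorem powIndex : Plan.PowIndex := powIndex_holds

/-- Elements `1 + p ^ 2 * t` with `t` in the maximal ideal are `p`-th powers (any `p` with
`p ≠ 0`; "strong Hensel" for `X ^ p - u`). -/
theorem exists_pow_eq_of_eq_one_add (q : ℕ) [Fact q.Prime] {p : ℕ} (hp : p ≠ 0) (F : Type)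
    [Field F] [Algebra ℚ_[q] F] [FiniteDimensional ℚ_[q] F] (u : Fˣ)
    (h : ∃ t ∈ maxIdeal q F, (u : F) = 1 + (p : F) ^ 2 * t) : ∃ w : Fˣ, w ^ p = u := by
  have := IntegersDVR.isDiscreteValuationRing_integers q F
  have := IntegersDVR.isAdicComplete_integers q F
  obtain ⟨t, ht, hu⟩ := h
  obtain ⟨a, ha, rfl⟩ := (IntegersDVR.mem_maxIdeal_iff q F t).1 ht
  have hp0 : (p : integers q F) ≠ 0 := natCast_ne_zero q F hp
  obtain ⟨v, hv, hv'⟩ := PowIndex.exists_mem_pow_notMem hp0
  have hx : (1 + (p : integers q F) ^ 2 * a) - 1 ∈ maximalIdeal (integers q F) ^ (2 * v + 1) := by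
    have h1 : (1 + (p : integers q F) ^ 2 * a) - 1 = (p : integers q F) ^ 2 * a := by ring
    rw [h1, pow_succ, two_mul, pow_add, ← pow_two]
    exact Ideal.mul_mem_mul (Ideal.pow_mem_pow hv 2) ha
  obtain ⟨y, hy, -⟩ := PowIndex.exists_pow_eq hv hv' hx
  refine ⟨Units.map ((integers q F).subtype : integers q F →* F) y, Units.ext ?_⟩
  have h2 : (((y : integers q F) ^ p : integers q F) : F) = (u : F) := by
    rw [hy, hu]
    simp
  rw [← h2]
  simp

/-- **`Plan.PowHensel`** (no hypotheses). -/
theorem powHensel : Plan.PowHensel := fun q _ _ hp F _ _ _ u h =>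
  exists_pow_eq_of_eq_one_add q hp.ne_zero F u h

end Fermat.Agent.CFT.Local.PowIndexQ
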