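import Mathlib

/-!
# Teichmüller representatives in a Henselian local ring with finite residue field

P3 / CFT program, local layer (L5). Pure Mathlib vocabulary; no model of local fields is chosen.

For a Henselian local ring `R` whose residue field is finite of cardinality `Q`:

* `exists_teichmuller` : every `x : R` is congruent modulo the maximal ideal to some `t` with
  `t ^ Q = t`;
* `teichmuller_unique` : two such `t` that are congruent are equal;
* `exists_isPrimitiveRoot` : `R` contains a primitive `(Q - 1)`-th root of unity.
-/

set_option autoImplicit false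

open IsLocalRing Polynomial

namespace Fermat.Agent.CFT.Local.Teichmuller

variable {R : Type*} [CommRing R] [HenselianLocalRing R] [Finite (ResidueField R)]

/-- The residue field has at least two elements. -/
lemma one_lt_card : 1 < Nat.card (ResidueField R) :=
  Finite.one_lt_card

lemma residue_pow_card (x : R) :
    residue R (x ^ Nat.card (ResidueField R) - x) = 0 := by
  have := Fintype.ofFinite (ResidueField R)
  rw [map_sub, map_pow, Nat.card_eq_fintype_card, FiniteField.pow_card, sub_self]

lemma residue_card : ((Nat.card (ResidueField R) : ℕ) : ResidueField R) = 0 := by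
  have := Fintype.ofFinite (ResidueField R)
  rw [Nat.card_eq_fintype_card, FiniteField.cast_card_eq_zero]

/-- The polynomial `X ^ Q - X`. -/
noncomputable def teichPoly (R : Type*) [CommRing R] [IsLocalRing R] : R[X] :=
  X ^ Nat.card (ResidueField R) - X

lemma teichPoly_monic : (teichPoly R).Monic := by
  have h1 : 1 < Nat.card (ResidueField R) := one_lt_card
  refine monic_X_pow_sub ?_
  rw [degree_X]
  exact_mod_cast h1

omit [Finite (ResidueField R)] in
lemma eval_teichPoly (x : R) : (teichPoly R).eval x = x ^ Nat.card (ResidueField R) - x := by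
  simp [teichPoly]

omit [Finite (ResidueField R)] in
lemma eval_derivative_teichPoly (x : R) :
    (derivative (teichPoly R)).eval x =
      (Nat.card (ResidueField R) : R) * x ^ (Nat.card (ResidueField R) - 1) - 1 := by
  simp [teichPoly, derivative_X_pow]

lemma eval_derivative_teichPoly_isUnit (x : R) : IsUnit ((derivative (teichPoly R)).eval x) := by
  have h : residue R ((derivative (teichPoly R)).eval x) = -1 := by
    rw [eval_derivative_teichPoly, map_sub, map_mul, map_natCast, residue_card, zero_mul, map_one,
      zero_sub]
  by_contra hu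
  have h0 : residue R ((derivative (teichPoly R)).eval x) = 0 :=
    (residue_eq_zero_iff _).2 ((mem_maximalIdeal _).2 hu)
  rw [h0] at h
  exact one_ne_zero (neg_eq_zero.mp h.symm)

/-- Every element of `R` is congruent modulo the maximal ideal to a root of `X ^ Q - X`. -/
theorem exists_teichmuller (x : R) :
    ∃ t : R, t ^ Nat.card (ResidueField R) = t ∧ x - t ∈ maximalIdeal R := by
  obtain ⟨t, ht, hxt⟩ := HenselianLocalRing.is_henselian (teichPoly R) teichPoly_monic x
    (by rw [eval_teichPoly, ← residue_eq_zero_iff]; exact residue_pow_card x)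
    (eval_derivative_teichPoly_isUnit x)
  refine ⟨t, ?_, ?_⟩
  · have : (teichPoly R).eval t = 0 := ht
    rw [eval_teichPoly, sub_eq_zero] at this
    exact this
  · have := (maximalIdeal R).neg_mem hxt
    rwa [neg_sub] at this

/-- Two congruent roots of `X ^ Q - X` are equal. -/
theorem teichmuller_unique {s t : R} (hs : s ^ Nat.card (ResidueField R) = s)
    (ht : t ^ Nat.card (ResidueField R) = t) (hst : s - t ∈ maximalIdeal R) : s = t := by
  refine IsLocalRing.eq_of_eval_eq_zero_of_not_isUnit_sub (f := teichPoly R) ?_ ?_
    ((mem_maximalIdeal _).1 hst) (eval_derivative_teichPoly_isUnit s)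
  · rw [eval_teichPoly, hs, sub_self]
  · rw [eval_teichPoly, ht, sub_self]

/-- `R` contains a primitive `(Q - 1)`-th root of unity. -/
theorem exists_isPrimitiveRoot :
    ∃ ζ : R, IsPrimitiveRoot ζ (Nat.card (ResidueField R) - 1) := by
  have := Fintype.ofFinite (ResidueField R)
  obtain ⟨g, hg⟩ := IsCyclic.exists_generator (α := (ResidueField R)ˣ)
  obtain ⟨x, hx⟩ := residue_surjective (g : ResidueField R)
  obtain ⟨t, ht, hxt⟩ := exists_teichmuller x
  have hres : residue R t = g := by
    rw [← hx]
    have : residue R (x - t) = 0 := (residue_eq_zero_iff _).2 hxt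
    rw [map_sub, sub_eq_zero] at this
    exact this.symm
  have htu : IsUnit t := by
    by_contra hu
    have h0 : residue R t = 0 := (residue_eq_zero_iff _).2 ((mem_maximalIdeal _).2 hu)
    rw [hres] at h0
    exact g.ne_zero h0
  have hQ : 1 ≤ Nat.card (ResidueField R) := one_lt_card.le
  have ht1 : t ^ (Nat.card (ResidueField R) - 1) = 1 := by
    have h1 : t ^ (Nat.card (ResidueField R) - 1) * t = 1 * t := by
      rw [← pow_succ, Nat.sub_add_cancel hQ, ht, one_mul]
    exact htu.mul_right_cancel h1
  have hord : orderOf g = Nat.card (ResidueField R) - 1 := by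
    rw [orderOf_eq_card_of_forall_mem_zpowers hg, Nat.card_units]
  refine ⟨t, IsPrimitiveRoot.mk_of_lt t ?_ ht1 ?_⟩
  · exact Nat.sub_pos_of_lt one_lt_card
  · intro l hl0 hl hl1
    have h2 : (g : ResidueField R) ^ l = 1 := by
      rw [← hres, ← map_pow, hl1, map_one]
    have h3 : g ^ l = 1 := Units.ext (by simpa using h2)
    have h4 := orderOf_dvd_of_pow_eq_one h3
    rw [hord] at h4
    exact absurd (Nat.le_of_dvd hl0 h4) (not_le.mpr hl)

end Fermat.Agent.CFT.Local.Teichmuller
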