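import Mathlib
import Fermat.Agent.CFT.Local.Plan
import Fermat.Agent.CFT.Local.IntRing
import Fermat.Agent.CFT.Local.Teichmuller

/-!
# CFT program, layer Local: `ResFieldStmt` (Teichmüller representatives)

`resFieldStmt : Plan.OrdStmt → Plan.ResFieldStmt`: a finite extension `E` of `ℚ_[q]` contains a
primitive `(resCard q E - 1)`-th root of unity, and every integer of `E` is congruent modulo the
maximal ideal to a root of `X ^ resCard q E - X`.

Inputs: `Local/IntRing` (the ring of integers is local, adically complete, with residue field of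
cardinality `resCard q E`) and `Local/Teichmuller` (Hensel).
-/

set_option autoImplicit false

open IsLocalRing

namespace Fermat.Agent.CFT.Local.ResField

open Fermat.Agent.CFT.Local

/-- A local ring which is adically complete for its maximal ideal is Henselian. -/
theorem henselianLocalRing_of_isAdicComplete (R : Type*) [CommRing R] [IsLocalRing R]
    [IsAdicComplete (maximalIdeal R) R] : HenselianLocalRing R :=
  { is_henselian := fun f hf a₀ h₁ h₂ =>
      HenselianRing.is_henselian (I := maximalIdeal R) f hf a₀ h₁
        (h₂.map (Ideal.Quotient.mk (maximalIdeal R))) }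

/-- The body of `Plan.OrdStmt` at one field gives `IntRing.OrdAt`. -/
theorem ordAt_of_ordStmt (h : Plan.OrdStmt) (q : ℕ) [Fact q.Prime] (E : Type) [Field E]
    [Algebra ℚ_[q] E] [FiniteDimensional ℚ_[q] E] : IntRing.OrdAt q E := by
  obtain ⟨h1, -, h3, h4, h5, h6, h7, h8, -, -, h11⟩ := h q E
  exact ⟨h1, h3, h4, h5, h6, h7, h8, h11⟩

section
variable (q : ℕ) [Fact q.Prime] (E : Type) [Field E] [Algebra ℚ_[q] E]
  [FiniteDimensional ℚ_[q] E]

attribute [local instance] intAlgebra IntRing.towerInt IntRing.torsionFreeInt

/-- Teichmüller statement for one field, from `IntRing.OrdAt`. -/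
theorem resField_at (hO : IntRing.OrdAt q E) :
    (∃ ζ : E, IsPrimitiveRoot ζ (resCard q E - 1)) ∧
    (∀ x ∈ integers q E, ∃ t : E, t ^ resCard q E = t ∧ x - t ∈ maxIdeal q E) := by
  have hloc : IsLocalRing (IntRing.OInt q E) := IntRing.isLocalRing q E hO
  have hcomp : IsAdicComplete (maximalIdeal (IntRing.OInt q E)) (IntRing.OInt q E) :=
    IntRing.isAdicComplete hO
  have hcard : Nat.card (ResidueField (IntRing.OInt q E)) = resCard q E :=
    IntRing.card_residue hO
  have hfin : Finite (ResidueField (IntRing.OInt q E)) := by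
    refine Nat.finite_of_card_ne_zero ?_
    rw [hcard]
    exact (pow_pos (Fact.out : q.Prime).pos _).ne'
  have hhens : HenselianLocalRing (IntRing.OInt q E) :=
    henselianLocalRing_of_isAdicComplete _
  constructor
  · obtain ⟨ζ, hζ⟩ := Teichmuller.exists_isPrimitiveRoot (R := IntRing.OInt q E)
    rw [hcard] at hζ
    exact ⟨(ζ : E), hζ.map_of_injective (f := (IntRing.OInt q E).val) Subtype.val_injective⟩
  · intro x hx
    obtain ⟨t, ht, hxt⟩ := Teichmuller.exists_teichmuller (⟨x, hx⟩ : IntRing.OInt q E)
    rw [hcard] at ht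
    refine ⟨(t : E), ?_, ?_⟩
    · have := congrArg Subtype.val ht
      simpa using this
    · exact (IntRing.mem_maximalIdeal_iff _).1 hxt

end

/-- **ResFieldStmt** from `OrdStmt`. -/
theorem resFieldStmt (h : Plan.OrdStmt) : Plan.ResFieldStmt := by
  intro q _ E _ _ _
  exact resField_at q E (ordAt_of_ordStmt h q E)

end Fermat.Agent.CFT.Local.ResField
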