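import Fermat.Agent.CFT.Local.Plan
import Fermat.Agent.CFT.Local.CycClass

/-!
# CFT program, layer Local: `H²` of unramified extensions ([UnramCoh])

Hypothesis-form proofs of the Plan props `UnramH2`, `UnramInfl`, `UnramBC`:

* `unramH2 : OrdStmt → RelOrdStmt → UnramUnitsNorm → UnramStruct → Plan.UnramH2`
* `unramInfl : OrdStmt → RelOrdStmt → UnramStruct → Plan.UnramInfl`
* `unramBC : OrdStmt → RelOrdStmt → UnramStruct → Plan.UnramBC`

The cohomological input is `Local/CycClass.lean` (cyclic classes and their functoriality); the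
arithmetic input is the norm group of an unramified extension (`exists_norm_eq_iff`) and the
compatibility of Frobenius elements (`bcGroupHom_frob`).
-/

set_option autoImplicit false

namespace Fermat.Agent.CFT.Local.UnramCoh

open CategoryTheory groupCohomology Fermat.Agent.CFT.Local Fermat.Agent.CFT.Local.CycClass

/-! ## The valuation as a homomorphism -/

section Ord

variable (hOrd : Plan.OrdStmt) (q : ℕ) [Fact q.Prime] (E : Type) [Field E] [Algebra ℚ_[q] E]
  [FiniteDimensional ℚ_[q] E]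

include hOrd

lemma fDeg_pos : 0 < fDeg q E := (hOrd q E).1

lemma ord_mul (x y : Eˣ) : ordZ q E (x * y) = ordZ q E x + ordZ q E y := (hOrd q E).2.2.1 x y

lemma exists_unif : ∃ ϖ : Eˣ, ordZ q E ϖ = 1 := (hOrd q E).2.2.2.1

lemma mem_unitGroup_iff (x : Eˣ) : x ∈ unitGroup q E ↔ ordZ q E x = 0 :=
  (hOrd q E).2.2.2.2.2.1 x

lemma ord_one : ordZ q E 1 = 0 := by
  have h := ord_mul hOrd q E 1 1
  rw [mul_one] at h
  linarith

/-- The normalised valuation as a monoid homomorphism. -/
noncomputable def ordHom : Eˣ →* Multiplicative ℤ where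
  toFun x := Multiplicative.ofAdd (ordZ q E x)
  map_one' := by rw [ord_one hOrd q E]; rfl
  map_mul' x y := by rw [ord_mul hOrd q E x y]; rfl

lemma ord_zpow (x : Eˣ) (k : ℤ) : ordZ q E (x ^ k) = k * ordZ q E x := by
  have h := map_zpow (ordHom hOrd q E) x k
  have h2 : ordZ q E (x ^ k) = Multiplicative.toAdd ((ordHom hOrd q E x) ^ k) :=
    congrArg Multiplicative.toAdd h
  rw [h2, toAdd_zpow]
  rfl

lemma ord_pow (x : Eˣ) (k : ℕ) : ordZ q E (x ^ k) = k * ordZ q E x := by
  have h := ord_zpow hOrd q E x (k : ℤ)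
  rwa [zpow_natCast] at h

lemma ord_inv (x : Eˣ) : ordZ q E x⁻¹ = - ordZ q E x := by
  have h := ord_mul hOrd q E x x⁻¹
  rw [mul_inv_cancel, ord_one hOrd q E] at h
  linarith

end Ord

/-! ## Towers -/

section Tower

variable (hRel : Plan.RelOrdStmt) (q : ℕ) [Fact q.Prime] (F E : Type) [Field F] [Field E]
  [Algebra ℚ_[q] F] [Algebra ℚ_[q] E] [Algebra F E] [IsScalarTower ℚ_[q] F E]
  [FiniteDimensional ℚ_[q] F] [FiniteDimensional F E]

omit [FiniteDimensional ℚ_[q] F] [FiniteDimensional F E] in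
/-- The image of `a ∈ Fˣ` in `Eˣ`. -/
lemma unitsMap_apply (a : Fˣ) :
    ((Units.map (algebraMap F E).toMonoidHom a : Eˣ) : E) = algebraMap F E (a : F) := rfl

include hRel

lemma exists_ramIdx : ∃ e : ℕ, 0 < e ∧ e * fDeg q E = Module.finrank F E * fDeg q F ∧
    (∀ a : Fˣ, ordZ q E (Units.map (algebraMap F E).toMonoidHom a) = e * ordZ q F a) ∧
    (IsUnram q F E ↔ e = 1) := (hRel q F E).1

lemma ord_norm (x : Eˣ) : (fDeg q F : ℤ) * ordZ q F (Units.map (Algebra.norm F : E →* F) x) =
    (fDeg q E : ℤ) * ordZ q E x := (hRel q F E).2.1 x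

lemma mem_unitGroup_map_iff (a : Fˣ) :
    a ∈ unitGroup q F ↔ Units.map (algebraMap F E).toMonoidHom a ∈ unitGroup q E :=
  (hRel q F E).2.2.2.1 a

lemma mem_integers_map_iff (a : F) : a ∈ integers q F ↔ algebraMap F E a ∈ integers q E :=
  (hRel q F E).2.2.2.2.1 a

lemma mem_maxIdeal_map_iff (a : F) : a ∈ maxIdeal q F ↔ algebraMap F E a ∈ maxIdeal q E :=
  (hRel q F E).2.2.2.2.2 a

/-- In an unramified extension `fDeg E = [E:F] * fDeg F`. -/
lemma fDeg_of_isUnram (hu : IsUnram q F E) : fDeg q E = Module.finrank F E * fDeg q F := by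
  obtain ⟨e, -, h1, -, h2⟩ := exists_ramIdx hRel q F E
  rw [h2.1 hu, one_mul] at h1
  exact h1

/-- In an unramified extension the valuation of `F` is the restriction of that of `E`. -/
lemma ord_map_of_isUnram (hu : IsUnram q F E) (a : Fˣ) :
    ordZ q E (Units.map (algebraMap F E).toMonoidHom a) = ordZ q F a := by
  obtain ⟨e, -, -, h1, h2⟩ := exists_ramIdx hRel q F E
  rw [h1 a, h2.1 hu]
  simp

end Tower

/-! ## The norm group of an unramified extension -/

section NormGroup

variable (hOrd : Plan.OrdStmt) (hRel : Plan.RelOrdStmt) (hNorm : Plan.UnramUnitsNorm)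
  (q : ℕ) [Fact q.Prime] (F E : Type) [Field F] [Field E]
  [Algebra ℚ_[q] F] [Algebra ℚ_[q] E] [Algebra F E] [IsScalarTower ℚ_[q] F E]
  [FiniteDimensional ℚ_[q] F] [FiniteDimensional F E]

include hOrd hRel in
/-- The valuation of a norm from an unramified extension. -/
lemma ord_norm_of_isUnram (hu : IsUnram q F E) (x : Eˣ) :
    ordZ q F (Units.map (Algebra.norm F : E →* F) x) = (Module.finrank F E : ℤ) * ordZ q E x := by
  have h1 := ord_norm hRel q F E x
  rw [fDeg_of_isUnram hRel q F E hu] at h1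
  have h2 : (0 : ℤ) < (fDeg q F : ℤ) := by exact_mod_cast fDeg_pos hOrd q F
  push_cast at h1
  have h3 : (fDeg q F : ℤ) * ordZ q F (Units.map (Algebra.norm F : E →* F) x) =
      (fDeg q F : ℤ) * ((Module.finrank F E : ℤ) * ordZ q E x) := by
    rw [h1]; ring
  exact mul_left_cancel₀ h2.ne' h3

include hOrd hRel hNorm in
/-- **The norm group of an unramified extension** of degree `n` is `{a | n ∣ ord a}`. -/
theorem exists_norm_eq_iff (hu : IsUnram q F E) (a : Fˣ) :
    (∃ b : Eˣ, Algebra.norm F (b : E) = (a : F)) ↔ (Module.finrank F E : ℤ) ∣ ordZ q F a := by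
  constructor
  · rintro ⟨b, hb⟩
    have h1 : Units.map (Algebra.norm F : E →* F) b = a := Units.ext hb
    have h2 := ord_norm_of_isUnram hOrd hRel q F E hu b
    rw [h1] at h2
    exact ⟨_, h2⟩
  · rintro ⟨k, hk⟩
    obtain ⟨ϖ, hϖ⟩ := exists_unif hOrd q F
    set n := Module.finrank F E with hn
    -- the unit part
    set u : Fˣ := a * (ϖ ^ ((n : ℤ) * k))⁻¹ with hu_def
    have hu0 : ordZ q F u = 0 := by
      rw [hu_def, ord_mul hOrd q F, ord_inv hOrd q F, ord_zpow hOrd q F, hϖ, hk]
      ring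
    obtain ⟨w, -, hw⟩ := hNorm q F E hu u ((mem_unitGroup_iff hOrd q F u).2 hu0)
    have hg1 : Units.map (Algebra.norm F : E →* F) w = u := Units.ext hw
    have hg2 : Units.map (Algebra.norm F : E →* F) (Units.map (algebraMap F E).toMonoidHom ϖ) =
        ϖ ^ n := by
      apply Units.ext
      show Algebra.norm F (algebraMap F E (ϖ : F)) = ((ϖ ^ n : Fˣ) : F)
      rw [Algebra.norm_algebraMap, Units.val_pow_eq_pow_val]
    refine ⟨w * (Units.map (algebraMap F E).toMonoidHom ϖ) ^ k, ?_⟩
    have h3 : Units.map (Algebra.norm F : E →* F)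
        (w * (Units.map (algebraMap F E).toMonoidHom ϖ) ^ k) = a := by
      rw [map_mul, map_zpow, hg1, hg2, hu_def, ← zpow_natCast, ← zpow_mul]
      simp
    exact congrArg (fun v : Fˣ => (v : F)) h3

end NormGroup

/-! ## Frobenius elements -/

section Struct

variable (hStruct : Plan.UnramStruct) (q : ℕ) [Fact q.Prime] (F E : Type) [Field F] [Field E]
  [Algebra ℚ_[q] F] [Algebra ℚ_[q] E] [Algebra F E] [IsScalarTower ℚ_[q] F E]
  [FiniteDimensional ℚ_[q] F] [FiniteDimensional F E]

include hStruct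

lemma isGalois_of_isUnram (hu : IsUnram q F E) : IsGalois F E := (hStruct q F E hu).1

/-- A Frobenius element of an unramified extension generates the Galois group, and an
automorphism satisfying the `k`-th power Frobenius congruence is its `k`-th power. -/
lemma frob_spec (hu : IsUnram q F E) (φ : E ≃ₐ[F] E) (hφ : IsFrob q F E φ) :
    (∀ σ : E ≃ₐ[F] E, σ ∈ Subgroup.zpowers φ) ∧
    ∀ (k : ℕ) (σ : E ≃ₐ[F] E),
      (∀ x ∈ integers q E, σ x - x ^ (resCard q F ^ k) ∈ maxIdeal q E) → σ = φ ^ k := by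
  obtain ⟨-, φ₀, -, hgen, hpow⟩ := hStruct q F E hu
  have h1 : φ = φ₀ := by
    have h := hpow 1 φ (fun x hx => by simpa using hφ x hx)
    simpa using h
  subst h1
  exact ⟨hgen, hpow⟩

end Struct

/-! ## [UnramH2] -/

/-- **[UnramH2]** `H²` of an unramified extension through the cyclic cocycles of the Frobenius. -/
theorem unramH2 (hOrd : Plan.OrdStmt) (hRel : Plan.RelOrdStmt) (hNorm : Plan.UnramUnitsNorm)
    (hStruct : Plan.UnramStruct) : Plan.UnramH2 := by
  intro q _ F E _ _ _ _ _ _ _ _ φ hu hφ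
  have := isGalois_of_isUnram hStruct q F E hu
  obtain ⟨hgen, -⟩ := frob_spec hStruct q F E hu φ hφ
  refine ⟨fun a => ⟨_, isUnramClass_cycClass φ hgen a⟩, fun y => ?_, ?_, ?_⟩
  · obtain ⟨a, rfl⟩ := cycClass_surjective φ hgen y
    exact ⟨Additive.toMul a, isUnramClass_cycClass φ hgen _⟩
  · intro a b y z hy hz
    rw [isUnramClass_iff φ hgen] at hy hz ⊢
    rw [hy, hz, ← map_add]
    rfl
  · intro a y hy
    rw [isUnramClass_iff φ hgen] at hy
    rw [hy, cycClass_eq_zero_iff, exists_norm_eq_iff hOrd hRel hNorm q F E hu]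

/-! ## Compatibility of Frobenius elements -/

section FrobCompat

/-- A scalar tower `K → E → L` from the towers `K → F → E`, `K → F → L`, `F → E → L`. -/
lemma isScalarTower_top (K F E L : Type) [Field K] [Field F] [Field E] [Field L]
    [Algebra K F] [Algebra K E] [Algebra K L] [Algebra F E] [Algebra E L] [Algebra F L]
    [IsScalarTower K F E] [IsScalarTower K F L] [IsScalarTower F E L] : IsScalarTower K E L :=
  IsScalarTower.of_algebraMap_eq (fun x => by
    rw [IsScalarTower.algebraMap_apply K F L, IsScalarTower.algebraMap_apply F E L,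
      ← IsScalarTower.algebraMap_apply K F E])

variable (hRel : Plan.RelOrdStmt) (hStruct : Plan.UnramStruct)
  (q : ℕ) [Fact q.Prime] (F E E' : Type) [Field F] [Field E] [Field E']
  [Algebra ℚ_[q] F] [Algebra ℚ_[q] E] [Algebra ℚ_[q] E'] [Algebra F E] [Algebra E E']
  [IsScalarTower ℚ_[q] F E] [IsScalarTower ℚ_[q] E E']
  [FiniteDimensional ℚ_[q] F] [FiniteDimensional F E] [FiniteDimensional ℚ_[q] E]
  [FiniteDimensional E E']

include hRel hStruct in
/-- If `σ ∈ Gal(E/F)` (`E/F` unramified with Frobenius `φ`) is the restriction of a map `τ` of a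
larger field `E'` satisfying the Frobenius congruence with exponent `(resCard q F) ^ f`, then
`σ = φ ^ f`. -/
lemma eq_frob_pow_of_restrict (hu : IsUnram q F E) (φ : E ≃ₐ[F] E) (hφ : IsFrob q F E φ)
    (σ : E ≃ₐ[F] E) (τ : E' → E') (hcomm : ∀ x : E, algebraMap E E' (σ x) = τ (algebraMap E E' x))
    (f : ℕ) (hτ : ∀ y ∈ integers q E', τ y - y ^ (resCard q F ^ f) ∈ maxIdeal q E') :
    σ = φ ^ f := by
  obtain ⟨-, hpow⟩ := frob_spec hStruct q F E hu φ hφ
  refine hpow f σ (fun x hx => ?_)
  rw [mem_maxIdeal_map_iff hRel q E E', map_sub, map_pow, hcomm]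
  exact hτ _ ((mem_integers_map_iff hRel q E E' x).1 hx)

end FrobCompat

/-! ## [UnramInfl] -/

section Infl

variable (hRel : Plan.RelOrdStmt) (q : ℕ) [Fact q.Prime] (F E L : Type) [Field F] [Field E]
  [Field L] [Algebra ℚ_[q] F] [Algebra ℚ_[q] E] [Algebra ℚ_[q] L] [Algebra F E] [Algebra E L]
  [Algebra F L] [IsScalarTower ℚ_[q] F E] [IsScalarTower ℚ_[q] E L] [IsScalarTower F E L]
  [FiniteDimensional ℚ_[q] E] [FiniteDimensional E L]

omit [Algebra ℚ_[q] F] [IsScalarTower ℚ_[q] F E] in
include hRel in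
/-- A subextension of an unramified extension is unramified. -/
lemma isUnram_of_isUnram_top (hu : IsUnram q F L) : IsUnram q F E := by
  intro x
  obtain ⟨y, hy⟩ := hu (Units.map (algebraMap E L).toMonoidHom x)
  refine ⟨y, ?_⟩
  rw [mem_unitGroup_map_iff hRel q E L]
  have h : Units.map (algebraMap E L).toMonoidHom
      (x * (Units.map (algebraMap F E).toMonoidHom y)⁻¹) =
      Units.map (algebraMap E L).toMonoidHom x * (Units.map (algebraMap F L).toMonoidHom y)⁻¹ := by
    rw [map_mul, map_inv]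
    congr 2
    apply Units.ext
    show algebraMap E L (algebraMap F E (y : F)) = algebraMap F L (y : F)
    rw [← IsScalarTower.algebraMap_apply F E L]
  rw [h]
  exact hy

end Infl

/-- **[UnramInfl]** Inflation of the cyclic class between unramified extensions. -/
theorem unramInfl (hRel : Plan.RelOrdStmt) (hStruct : Plan.UnramStruct) : Plan.UnramInfl := by
  intro q _ F E L _ _ _ _ _ _ _ _ _ _ _ _ _ _ _ _ φE φL a y huL hφE hφL hy
  have : IsScalarTower ℚ_[q] E L := isScalarTower_top ℚ_[q] F E L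
  have : FiniteDimensional ℚ_[q] E := FiniteDimensional.trans ℚ_[q] F E
  have : FiniteDimensional E L := FiniteDimensional.right F E L
  have huE : IsUnram q F E := isUnram_of_isUnram_top hRel q F E L huL
  obtain ⟨hgenE, -⟩ := frob_spec hStruct q F E huE φE hφE
  have := isGalois_of_isUnram hStruct q F L huL
  obtain ⟨hgenL, -⟩ := frob_spec hStruct q F L huL φL hφL
  have hd : AlgEquiv.restrictNormalHom E φL = φE ^ 1 :=
    eq_frob_pow_of_restrict hRel hStruct q F E L huE φE hφE _ φL
      (fun x => AlgEquiv.restrictNormal_commutes φL E x) 1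
      (fun y hy => by simpa using hφL y hy)
  rw [isUnramClass_iff φE hgenE] at hy
  rw [isUnramClass_iff φL hgenL, hy, inflH_cycClass F E L φE hgenE φL hgenL 1 hd a]
  have h1 : orderOf φL = Module.finrank F L := by
    rw [orderOf_eq_card_of_forall_mem_zpowers hgenL, IsGalois.card_aut_eq_finrank]
  have h2 : orderOf φE = Module.finrank F E := by
    rw [orderOf_eq_card_of_forall_mem_zpowers hgenE, IsGalois.card_aut_eq_finrank]
  have h3 : 1 * orderOf φL / orderOf φE = Module.finrank E L := by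
    rw [h1, h2, one_mul, ← Module.finrank_mul_finrank F E L]
    exact Nat.mul_div_cancel_left _ Module.finrank_pos
  rw [h3]

/-! ## [UnramBC] -/

section ResDeg

variable (hOrd : Plan.OrdStmt) (hRel : Plan.RelOrdStmt) (q : ℕ) [Fact q.Prime] (F E : Type)
  [Field F] [Field E] [Algebra ℚ_[q] F] [Algebra ℚ_[q] E] [Algebra F E] [IsScalarTower ℚ_[q] F E]
  [FiniteDimensional ℚ_[q] F] [FiniteDimensional F E] [FiniteDimensional ℚ_[q] E]

include hOrd hRel in
/-- Ramification index and residue degree of a finite extension: `e * f = [E:F]`,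
`fDeg E = fDeg F * f`, `ord_E = e * ord_F` on `F`. -/
lemma exists_ramIdx_resDeg : ∃ e f : ℕ, e * f = Module.finrank F E ∧
    fDeg q E = fDeg q F * f ∧ resCard q E = resCard q F ^ f ∧
    (∀ a : Fˣ, ordZ q E (Units.map (algebraMap F E).toMonoidHom a) = e * ordZ q F a) := by
  obtain ⟨e, -, he, hord, -⟩ := exists_ramIdx hRel q F E
  obtain ⟨ϖ, hϖ⟩ := exists_unif hOrd q E
  have h1 := ord_norm hRel q F E ϖ
  rw [hϖ, mul_one] at h1
  have hF : (0 : ℤ) < (fDeg q F : ℤ) := by exact_mod_cast fDeg_pos hOrd q F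
  have hE : (0 : ℤ) < (fDeg q E : ℤ) := by exact_mod_cast fDeg_pos hOrd q E
  set m := ordZ q F (Units.map (Algebra.norm F : E →* F) ϖ) with hm
  have hm0 : 0 < m := by
    by_contra hneg
    rw [not_lt] at hneg
    have : (fDeg q F : ℤ) * m ≤ 0 := mul_nonpos_of_nonneg_of_nonpos hF.le hneg
    omega
  obtain ⟨f, hf⟩ : ∃ f : ℕ, (f : ℤ) = m := ⟨m.toNat, Int.toNat_of_nonneg hm0.le⟩
  have hfd : fDeg q E = fDeg q F * f := by
    have : ((fDeg q E : ℕ) : ℤ) = ((fDeg q F * f : ℕ) : ℤ) := by
      push_cast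
      rw [hf, h1]
    exact_mod_cast this
  refine ⟨e, f, ?_, hfd, ?_, hord⟩
  · rw [hfd] at he
    have h2 : fDeg q F * (e * f) = fDeg q F * Module.finrank F E := by
      calc fDeg q F * (e * f) = e * (fDeg q F * f) := by ring
        _ = Module.finrank F E * fDeg q F := he
        _ = fDeg q F * Module.finrank F E := by ring
    exact Nat.eq_of_mul_eq_mul_left (fDeg_pos hOrd q F) h2
  · unfold resCard
    rw [hfd, pow_mul]

end ResDeg

/-- **[UnramBC]** Base change of the cyclic class of an unramified extension `E'/F` along an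
arbitrary finite extension `E/F`, into an unramified extension `L/E` containing `E'`. -/
theorem unramBC (hOrd : Plan.OrdStmt) (hRel : Plan.RelOrdStmt) (hStruct : Plan.UnramStruct) :
    Plan.UnramBC := by
  intro q _ F E E' L _ _ _ _ _ _ _ _ _ _ _ _ _ _ _ _ _ _ _ _ _ _ _ _ φ ψ a y huE' hφ huL hψ hy
  have : FiniteDimensional ℚ_[q] E := FiniteDimensional.trans ℚ_[q] F E
  have : FiniteDimensional ℚ_[q] E' := FiniteDimensional.trans ℚ_[q] F E'
  have : FiniteDimensional F L := FiniteDimensional.trans F E L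
  have : FiniteDimensional E' L := FiniteDimensional.right F E' L
  have : IsScalarTower ℚ_[q] E' L := isScalarTower_top ℚ_[q] F E' L
  obtain ⟨hgen, -⟩ := frob_spec hStruct q F E' huE' φ hφ
  have := isGalois_of_isUnram hStruct q E L huL
  obtain ⟨hgenψ, -⟩ := frob_spec hStruct q E L huL ψ hψ
  obtain ⟨e, f, hef, -, hres, hord⟩ := exists_ramIdx_resDeg hOrd hRel q F E
  -- Frobenius compatibility
  have hd : bcGroupHom F E' E L ψ = φ ^ f :=
    eq_frob_pow_of_restrict hRel hStruct q F E' L huE' φ hφ _ ψ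
      (fun x => AlgEquiv.restrictNormal_commutes (ψ.restrictScalars F) E' x) f
      (fun y hy => by rw [← hres]; exact hψ y hy)
  rw [isUnramClass_iff φ hgen] at hy
  have h1 : orderOf ψ = Module.finrank E L := by
    rw [orderOf_eq_card_of_forall_mem_zpowers hgenψ, IsGalois.card_aut_eq_finrank]
  have h2 : orderOf φ = Module.finrank F E' := by
    rw [orderOf_eq_card_of_forall_mem_zpowers hgen, IsGalois.card_aut_eq_finrank]
  have hdvd : orderOf φ ∣ f * orderOf ψ := by
    apply orderOf_dvd_of_pow_eq_one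
    rw [pow_mul, ← hd, ← map_pow, pow_orderOf_eq_one, map_one]
  refine ⟨(Units.map (algebraMap F E).toMonoidHom a) ^ (f * orderOf ψ / orderOf φ), ?_, ?_⟩
  · rw [isUnramClass_iff ψ hgenψ, hy]
    exact bcH_cycClass F E' E L φ hgen ψ hgenψ f hd a
  · rw [ord_pow hOrd q E, hord a]
    obtain ⟨k, hk⟩ := hdvd
    have hn : (0 : ℚ) < (Module.finrank F E' : ℚ) := by exact_mod_cast Module.finrank_pos
    have hn1 : (0 : ℚ) < (Module.finrank E L : ℚ) := by exact_mod_cast Module.finrank_pos
    have hk' : f * orderOf ψ / orderOf φ = k := by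
      rw [hk]
      exact Nat.mul_div_cancel_left _ (orderOf_pos φ)
    rw [hk']
    rw [h1, h2] at hk
    have hkq : (f : ℚ) * (Module.finrank E L : ℚ) = (Module.finrank F E' : ℚ) * (k : ℚ) := by
      exact_mod_cast hk
    have hefq : (e : ℚ) * (f : ℚ) = (Module.finrank F E : ℚ) := by exact_mod_cast hef
    push_cast
    rw [← hefq]
    field_simp
    linear_combination (-(e : ℚ) * (ordZ q F a : ℚ)) * hkq

end Fermat.Agent.CFT.Local.UnramCoh
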