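import Mathlib

/-!
# Construction of unramified extensions (valuation ring form)

P3 / CFT program, local layer (L5). Pure Mathlib vocabulary; no model of local fields is chosen.

Let `V` be a valuation subring of a field `K` with finite residue field.  For every `n > 0`
there is a monic `G : V[X]` of degree `n`, irreducible over `K`, such that in
`E := AdjoinRoot (G.map (algebraMap V K))` every nonzero element is an element of `K` times a
unit of the `V`-order `V[θ]` (in particular times an element which is integral over `V` together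
with its inverse).  No completeness is used: `V[X]/(G)` is local with residue field
`k[X]/(Ḡ)`, a field.
-/

set_option autoImplicit false

open IsLocalRing Polynomial

namespace Fermat.Agent.CFT.Local.UnramConstr

/-- Over a finite field there are monic irreducible polynomials of every positive degree. -/
theorem exists_monic_irreducible_natDegree (k : Type*) [Field k] [Finite k] {n : ℕ} (hn : 0 < n) :
    ∃ f : k[X], f.Monic ∧ Irreducible f ∧ f.natDegree = n := by
  obtain ⟨p, hp⟩ := CharP.exists k
  have := Fintype.ofFinite k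
  have : Fact p.Prime := ⟨CharP.char_is_prime k p⟩
  have : NeZero n := ⟨hn.ne'⟩
  obtain ⟨α, hα⟩ := Field.exists_primitive_element_of_finite_bot k (FiniteField.Extension k p n)
  have hint : IsIntegral k α := IsIntegral.of_finite k α
  refine ⟨minpoly k α, minpoly.monic hint, minpoly.irreducible hint, ?_⟩
  rw [(Field.primitive_element_iff_minpoly_natDegree_eq k α).1 hα,
    FiniteField.finrank_extension]

variable {K : Type*} [Field K]

/-- Scaling a nonzero polynomial over the fraction field of a valuation ring to a polynomial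
over the valuation ring with nonzero reduction. -/
theorem exists_scaling (V : ValuationSubring K) (p : K[X]) (hp : p ≠ 0) :
    ∃ (c : K) (P : (↥V)[X]), c ≠ 0 ∧ P.map (algebraMap V K) = C c⁻¹ * p ∧
      P.map (residue V) ≠ 0 := by
  obtain ⟨i₀, hi₀, hmax⟩ := Finset.exists_max_image p.support
    (fun i => V.valuation (p.coeff i)) (nonempty_support_iff.2 hp)
  have hc : p.coeff i₀ ≠ 0 := mem_support_iff.1 hi₀
  have hcoeff : ∀ i, (C (p.coeff i₀)⁻¹ * p).coeff i ∈ V := by
    intro i
    rw [coeff_C_mul, ← V.valuation_le_one_iff, map_mul, map_inv₀]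
    by_cases hi : i ∈ p.support
    · have h1 := hmax i hi
      have h2 : V.valuation (p.coeff i₀) ≠ 0 := (Valuation.ne_zero_iff _).2 hc
      rw [inv_mul_le_iff₀ (zero_lt_iff.2 h2), mul_one]
      exact h1
    · rw [notMem_support_iff.1 hi, map_zero, mul_zero]
      exact zero_le_one
  have hsub : (↑(C (p.coeff i₀)⁻¹ * p).coeffs : Set K) ⊆ V.toSubring := by
    intro x hx
    obtain ⟨i, -, rfl⟩ := Polynomial.mem_coeffs_iff.1 (Finset.mem_coe.1 hx)
    exact hcoeff i
  refine ⟨p.coeff i₀, (C (p.coeff i₀)⁻¹ * p).toSubring V.toSubring hsub, hc,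
    map_toSubring _ _ hsub, ?_⟩
  intro h0
  have h1 := congrArg (fun f => f.coeff i₀) h0
  simp only [coeff_map, coeff_zero] at h1
  have h2 : ((C (p.coeff i₀)⁻¹ * p).toSubring V.toSubring hsub).coeff i₀ = 1 := by
    apply Subtype.ext
    rw [coeff_toSubring' , coeff_C_mul, inv_mul_cancel₀ hc]
    rfl
  rw [h2, map_one] at h1
  exact one_ne_zero h1

/-- If `G` is monic over a local ring `V` with irreducible reduction, then an element of
`V[X]/(G)` whose reduction is nonzero is a unit. -/
theorem isUnit_mk_of_map_residue_ne_zero {V : Type*} [CommRing V] [IsLocalRing V] {G : V[X]}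
    (hG : G.Monic) (hirr : Irreducible (G.map (residue V))) {P : V[X]}
    (hdeg : P.natDegree < G.natDegree) (hP : P.map (residue V) ≠ 0) :
    IsUnit (AdjoinRoot.mk G P) := by
  have : Module.Finite V (AdjoinRoot G) := hG.finite_adjoinRoot
  set I : Ideal (AdjoinRoot G) := Ideal.map (AdjoinRoot.of G) (maximalIdeal V) with hI
  -- `𝔪 B` is a maximal ideal
  have hfield : IsField ((ResidueField V)[X] ⧸
      Ideal.span ({Polynomial.map (Ideal.Quotient.mk (maximalIdeal V)) G} :
        Set (ResidueField V)[X])) := by
    have : (Ideal.span ({Polynomial.map (Ideal.Quotient.mk (maximalIdeal V)) G} :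
        Set (ResidueField V)[X])).IsMaximal :=
      PrincipalIdealRing.isMaximal_of_irreducible hirr
    exact (Ideal.Quotient.maximal_ideal_iff_isField_quotient _).1 this
  have hImax : I.IsMaximal := by
    refine (Ideal.Quotient.maximal_ideal_iff_isField_quotient _).2 ?_
    exact MulEquiv.isField hfield
      (AdjoinRoot.quotEquivQuotMap G (maximalIdeal V)).toRingEquiv.toMulEquiv
  -- `mk G P ∉ 𝔪 B`
  have hnot : AdjoinRoot.mk G P ∉ I := by
    intro hmem
    have h1 : AdjoinRoot.quotEquivQuotMap G (maximalIdeal V)
        (Ideal.Quotient.mk I (AdjoinRoot.mk G P)) = 0 := by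
      rw [Ideal.Quotient.eq_zero_iff_mem.2 hmem, map_zero]
    rw [AdjoinRoot.quotEquivQuotMap_apply_mk, Ideal.Quotient.eq_zero_iff_mem,
      Ideal.mem_span_singleton] at h1
    have hmon : (Polynomial.map (Ideal.Quotient.mk (maximalIdeal V)) G).Monic := hG.map _
    refine hmon.not_dvd_of_natDegree_lt hP ?_ h1
    calc (Polynomial.map (Ideal.Quotient.mk (maximalIdeal V)) P).natDegree ≤ P.natDegree :=
          natDegree_map_le
      _ < G.natDegree := hdeg
      _ = (Polynomial.map (Ideal.Quotient.mk (maximalIdeal V)) G).natDegree :=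
          (hG.natDegree_map _).symm
  -- every maximal ideal of `B` is `𝔪 B`
  by_contra hu
  obtain ⟨M, hM, hmem⟩ := exists_max_ideal_of_mem_nonunits (mem_nonunits_iff.2 hu)
  have hcomap : M.comap (algebraMap V (AdjoinRoot G)) = maximalIdeal V :=
    IsLocalRing.eq_maximalIdeal (Ideal.isMaximal_comap_of_isIntegral_of_isMaximal M)
  have hle : I ≤ M := by
    rw [hI, Ideal.map_le_iff_le_comap, ← hcomap]
    rfl
  exact hnot ((hImax.eq_of_le hM.ne_top hle) ▸ hmem)

/-- **Unramified extensions of every degree** (valuation ring form).  For a valuation subring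
`V` of `K` with finite residue field and `n > 0` there is a monic `G : V[X]` of degree `n`,
irreducible over `K`, such that every nonzero element of `AdjoinRoot (G.map (algebraMap V K))`
is an element of `K` times an element which is integral over `V` together with its inverse. -/
theorem exists_unramified (V : ValuationSubring K) [Finite (ResidueField V)] {n : ℕ}
    (hn : 0 < n) :
    ∃ G : (↥V)[X], G.Monic ∧ G.natDegree = n ∧ Irreducible (G.map (algebraMap V K)) ∧
      ∀ x : AdjoinRoot (G.map (algebraMap V K)), x ≠ 0 →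
        ∃ (c : K) (u v : AdjoinRoot (G.map (algebraMap V K))), c ≠ 0 ∧
          x = AdjoinRoot.of _ c * u ∧ u * v = 1 ∧ IsIntegral V u ∧ IsIntegral V v := by
  obtain ⟨g₀, hg₀m, hg₀i, hg₀d⟩ := exists_monic_irreducible_natDegree (ResidueField V) hn
  obtain ⟨G, hGmap, hGdeg, hGm⟩ := lifts_and_natDegree_eq_and_monic
    ((mem_lifts g₀).2 (map_surjective (residue V) residue_surjective g₀)) hg₀m
  have hGirr : Irreducible G :=
    Monic.irreducible_of_irreducible_map (residue V) G hGm (by rw [hGmap]; exact hg₀i)
  have hgirr : Irreducible (G.map (algebraMap V K)) :=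
    (Monic.irreducible_iff_irreducible_map_fraction_map hGm).1 hGirr
  have hgm : (G.map (algebraMap V K)).Monic := hGm.map _
  refine ⟨G, hGm, hGdeg.trans hg₀d, hgirr, ?_⟩
  intro x hx
  have : Module.Finite V (AdjoinRoot G) := hGm.finite_adjoinRoot
  -- write `x = mk p₀` with `deg p₀ < n`
  obtain ⟨p, rfl⟩ := AdjoinRoot.mk_surjective x
  set p₀ := p %ₘ (G.map (algebraMap V K)) with hp₀
  have hxp₀ : AdjoinRoot.mk (G.map (algebraMap V K)) p =
      AdjoinRoot.mk (G.map (algebraMap V K)) p₀ := by
    rw [AdjoinRoot.mk_eq_mk, hp₀]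
    refine ⟨p /ₘ (G.map (algebraMap V K)), ?_⟩
    have := modByMonic_add_div p (G.map (algebraMap V K))
    linear_combination (-1 : K[X]) * this
  have hp₀0 : p₀ ≠ 0 := by
    intro h0
    rw [hxp₀, h0, map_zero] at hx
    exact hx rfl
  have hp₀deg : p₀.natDegree < G.natDegree := by
    have h1 := natDegree_modByMonic_lt p hgm (fun h1 => by
      have h2 := hgirr.not_isUnit
      rw [h1] at h2
      exact h2 isUnit_one)
    rwa [hGm.natDegree_map] at h1
  obtain ⟨c, P, hc, hPmap, hPres⟩ := exists_scaling V p₀ hp₀0
  have hPdeg : P.natDegree < G.natDegree := by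
    have h1 : (P.map (algebraMap V K)).natDegree = P.natDegree :=
      natDegree_map_eq_of_injective (IsFractionRing.injective V K) P
    rw [← h1, hPmap, natDegree_C_mul (inv_ne_zero hc)]
    exact hp₀deg
  have hunit : IsUnit (AdjoinRoot.mk G P) :=
    isUnit_mk_of_map_residue_ne_zero hGm (by rw [hGmap]; exact hg₀i) hPdeg hPres
  obtain ⟨b', hb'⟩ := hunit.exists_right_inv
  -- the map `V[X]/(G) → K[X]/(g)`
  set ι : AdjoinRoot G →+* AdjoinRoot (G.map (algebraMap V K)) :=
    AdjoinRoot.map (algebraMap V K) G (G.map (algebraMap V K)) dvd_rfl with hι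
  have hιmk : ∀ Q : (↥V)[X], ι (AdjoinRoot.mk G Q) =
      AdjoinRoot.mk (G.map (algebraMap V K)) (Q.map (algebraMap V K)) := by
    intro Q
    induction Q using Polynomial.induction_on with
    | C a => simp [hι, AdjoinRoot.mk_C]
    | add f g hf hg => simp only [map_add, Polynomial.map_add, hf, hg]
    | monomial k a _ =>
      simp [hι, AdjoinRoot.mk_C, AdjoinRoot.mk_X]
  have hιint : ∀ b : AdjoinRoot G, IsIntegral V (ι b) := by
    intro b
    refine IsIntegral.map_of_comp_eq (RingHom.id V) ι ?_ (IsIntegral.of_finite V b)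
    ext a
    simp [hι, AdjoinRoot.algebraMap_eq, AdjoinRoot.algebraMap_eq']
  refine ⟨c, ι (AdjoinRoot.mk G P), ι b', hc, ?_, ?_, hιint _, hιint _⟩
  · rw [hxp₀, hιmk, hPmap, map_mul, AdjoinRoot.mk_C, ← mul_assoc, ← map_mul,
      mul_inv_cancel₀ hc, map_one, one_mul]
  · rw [← map_mul, hb', map_one]

/-- Transitivity of integrality through a subring of integral elements. -/
theorem isIntegral_of_isIntegralElem_subring {R₀ K' E : Type*} [CommRing R₀] [CommRing K']
    [CommRing E] [Algebra R₀ K'] [Algebra K' E] [Algebra R₀ E] [IsScalarTower R₀ K' E]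
    (S : Subring K') (hS : ∀ a ∈ S, IsIntegral R₀ a) {x : E}
    (hx : ((algebraMap K' E).comp S.subtype).IsIntegralElem x) : IsIntegral R₀ x := by
  obtain ⟨p, hp, hpx⟩ := hx
  let j : S →+* integralClosure R₀ K' :=
    S.subtype.codRestrict (integralClosure R₀ K') (fun a => hS a a.2)
  have hx' : IsIntegral (integralClosure R₀ K') x := by
    refine ⟨p.map j, hp.map j, ?_⟩
    rw [eval₂_map]
    have hcomp : (algebraMap (integralClosure R₀ K') E).comp j =
        (algebraMap K' E).comp S.subtype := by
      ext a
      rfl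
    rw [hcomp]
    exact hpx
  exact isIntegral_trans x hx'

/-- The residue field of a local ring which is a finite module over a local ring with finite
residue field is finite. -/
theorem finite_residueField_of_module_finite (R₀ S : Type*) [CommRing R₀] [IsLocalRing R₀]
    [Finite (ResidueField R₀)] [CommRing S] [IsLocalRing S] [Algebra R₀ S]
    [Module.Finite R₀ S] : Finite (ResidueField S) := by
  have hmax : ((maximalIdeal S).under R₀).IsMaximal :=
    Ideal.isMaximal_comap_of_isIntegral_of_isMaximal _
  have hJ : (maximalIdeal S).under R₀ = maximalIdeal R₀ := IsLocalRing.eq_maximalIdeal hmax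
  have h1 : Finite (R₀ ⧸ (maximalIdeal S).under R₀) := by
    rw [hJ]
    exact ‹Finite (ResidueField R₀)›
  have h2 : Module.Finite (R₀ ⧸ (maximalIdeal S).under R₀) (S ⧸ maximalIdeal S) :=
    Module.Finite.of_restrictScalars_finite R₀ _ _
  change Finite (S ⧸ maximalIdeal S)
  exact Module.finite_of_finite (R₀ ⧸ (maximalIdeal S).under R₀)

/-- The residue field of a valuation subring which is the (module-finite) integral closure of a
local ring with finite residue field is finite. -/
theorem finite_residueField_valuationSubring {R₀ : Type*} [CommRing R₀] [IsLocalRing R₀]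
    [Finite (ResidueField R₀)] [Algebra R₀ K] (V : ValuationSubring K)
    (hV : ∀ a : K, a ∈ V ↔ IsIntegral R₀ a) [Module.Finite R₀ (integralClosure R₀ K)] :
    Finite (ResidueField V) := by
  let e : ↥(integralClosure R₀ K) ≃+* ↥V :=
    { toFun := fun a => ⟨a.1, (hV a.1).2 a.2⟩
      invFun := fun a => ⟨a.1, (hV a.1).1 a.2⟩
      left_inv := fun _ => rfl
      right_inv := fun _ => rfl
      map_mul' := fun _ _ => rfl
      map_add' := fun _ _ => rfl }
  have : IsLocalRing ↥(integralClosure R₀ K) := e.symm.isLocalRing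
  have := finite_residueField_of_module_finite R₀ ↥(integralClosure R₀ K)
  exact Finite.of_equiv _ (IsLocalRing.ResidueField.mapEquiv e).toEquiv

/-- **Unramified extensions of every degree**, with integrality over a base ring `R₀` such that
the valuation subring `V` consists of `R₀`-integral elements. -/
theorem exists_unramified_of_integral {R₀ : Type*} [CommRing R₀] [Algebra R₀ K]
    (V : ValuationSubring K) (hV : ∀ a ∈ V, IsIntegral R₀ a) [Finite (ResidueField V)] {n : ℕ}
    (hn : 0 < n) :
    ∃ g : K[X], g.Monic ∧ g.natDegree = n ∧ Irreducible g ∧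
      ∀ x : AdjoinRoot g, x ≠ 0 →
        ∃ (c : K) (u v : AdjoinRoot g), c ≠ 0 ∧
          x = AdjoinRoot.of g c * u ∧ u * v = 1 ∧ IsIntegral R₀ u ∧ IsIntegral R₀ v := by
  obtain ⟨G, hGm, hGdeg, hgirr, hx⟩ := exists_unramified V hn
  refine ⟨G.map (algebraMap V K), hGm.map _, by rw [hGm.natDegree_map, hGdeg], hgirr, ?_⟩
  intro x hx0
  obtain ⟨c, u, v, hc, hxu, huv, hu, hv⟩ := hx x hx0
  exact ⟨c, u, v, hc, hxu, huv,
    isIntegral_of_isIntegralElem_subring V.toSubring hV hu,
    isIntegral_of_isIntegralElem_subring V.toSubring hV hv⟩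

end Fermat.Agent.CFT.Local.UnramConstr
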