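import Mathlib
import Fermat.Agent.CFT.Local.Defs
import Fermat.Agent.CFT.Local.UnramConstr

/-!
# Unramified extensions of finite extensions of `ℚ_[q]` (core, in the vocabulary of `Local/Defs`)

P3 / CFT program, local layer (L5), package [UnramExists].

* `mem_integers_map_iff`, `mem_unitGroup_map_iff` : integers and units in towers;
* `isUnram_tower_iff` : `L/F` is unramified iff `E/F` and `L/E` are (clause (3) of
  `Plan.UnramExists`; pure algebra, no finiteness);
* `exists_isUnram_finrank_eq` : unramified extensions of every degree exist (clause (1) of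
  `Plan.UnramExists`), assuming only that `integers q F` is a valuation ring.
-/

set_option autoImplicit false

open IsLocalRing Polynomial

namespace Fermat.Agent.CFT.Local.UnramCore

open Fermat.Agent.CFT.Local

variable (q : ℕ) [Fact q.Prime]

/-! ## Integers and units in towers -/

section Tower

variable (E L : Type) [Field E] [Field L] [Algebra ℚ_[q] E] [Algebra ℚ_[q] L] [Algebra E L]
  [IsScalarTower ℚ_[q] E L]

theorem mem_integers_iff (x : E) :
    x ∈ integers q E ↔
      ((algebraMap ℚ_[q] E).comp (algebraMap ℤ_[q] ℚ_[q])).IsIntegralElem x := Iff.rfl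

theorem intMap_comp :
    (algebraMap E L).comp ((algebraMap ℚ_[q] E).comp (algebraMap ℤ_[q] ℚ_[q])) =
      (algebraMap ℚ_[q] L).comp (algebraMap ℤ_[q] ℚ_[q]) := by
  rw [← RingHom.comp_assoc, ← IsScalarTower.algebraMap_eq]

/-- An element of `E` is integral iff its image in `L` is. -/
theorem mem_integers_map_iff (x : E) : algebraMap E L x ∈ integers q L ↔ x ∈ integers q E := by
  rw [mem_integers_iff, mem_integers_iff, ← intMap_comp q E L]
  exact RingHom.IsIntegralElem.map_iff (algebraMap E L).injective

/-- A unit of `E` is an integral unit iff its image in `L` is. -/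
theorem mem_unitGroup_map_iff (u : Eˣ) :
    Units.map (algebraMap E L).toMonoidHom u ∈ unitGroup q L ↔ u ∈ unitGroup q E := by
  change (algebraMap E L (u : E) ∈ integers q L ∧
    algebraMap E L ((u⁻¹ : Eˣ) : E) ∈ integers q L) ↔ _
  rw [mem_integers_map_iff, mem_integers_map_iff]
  rfl

end Tower

/-! ## Transitivity of unramifiedness -/

section Trans

variable (F E L : Type) [Field F] [Field E] [Field L] [Algebra ℚ_[q] F] [Algebra ℚ_[q] E]
  [Algebra ℚ_[q] L] [Algebra F E] [Algebra F L] [Algebra E L] [IsScalarTower ℚ_[q] E L]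
  [IsScalarTower F E L]

omit [Fact q.Prime] [Algebra ℚ_[q] F] [Algebra ℚ_[q] E] [Algebra ℚ_[q] L]
  [IsScalarTower ℚ_[q] E L] in
theorem units_map_tower (z : Fˣ) :
    Units.map (algebraMap E L).toMonoidHom (Units.map (algebraMap F E).toMonoidHom z) =
      Units.map (algebraMap F L).toMonoidHom z := by
  ext
  simp [← IsScalarTower.algebraMap_apply]

omit [Algebra ℚ_[q] F] in
/-- Clause (3) of `Plan.UnramExists`: `L/F` is unramified iff `E/F` and `L/E` are. -/
theorem isUnram_tower_iff : IsUnram q F L ↔ IsUnram q F E ∧ IsUnram q E L := by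
  constructor
  · intro h
    refine ⟨fun x => ?_, fun x => ?_⟩
    · obtain ⟨z, hz⟩ := h (Units.map (algebraMap E L).toMonoidHom x)
      refine ⟨z, ?_⟩
      rw [← mem_unitGroup_map_iff q E L, map_mul, map_inv, units_map_tower]
      exact hz
    · obtain ⟨z, hz⟩ := h x
      refine ⟨Units.map (algebraMap F E).toMonoidHom z, ?_⟩
      rw [units_map_tower]
      exact hz
  · rintro ⟨h1, h2⟩ x
    obtain ⟨y, hy⟩ := h2 x
    obtain ⟨z, hz⟩ := h1 y
    refine ⟨z, ?_⟩
    have h3 := (mem_unitGroup_map_iff q E L _).2 hz
    rw [map_mul, map_inv, units_map_tower] at h3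
    have h4 := (unitGroup q L).mul_mem hy h3
    convert h4 using 1
    group

end Trans

/-! ## Existence of unramified extensions -/

section Exists

variable (F : Type) [Field F] [Algebra ℚ_[q] F] [FiniteDimensional ℚ_[q] F]

/-- The valuation subring `integers q F`, given that it is a valuation ring. -/
noncomputable def valSubring (hval : ∀ x : F, x ∈ integers q F ∨ x⁻¹ ∈ integers q F) :
    ValuationSubring F :=
  { integers q F with mem_or_inv_mem' := hval }

omit [FiniteDimensional ℚ_[q] F] in
theorem mem_valSubring_iff (hval : ∀ x : F, x ∈ integers q F ∨ x⁻¹ ∈ integers q F) (x : F) :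
    x ∈ valSubring q F hval ↔ x ∈ integers q F := Iff.rfl

theorem finite_residueField_padicInt : Finite (ResidueField ℤ_[q]) :=
  Finite.of_equiv _ (PadicInt.residueField (p := q)).symm.toEquiv

/-- The integral closure of `ℤ_[q]` in a finite extension of `ℚ_[q]` is a finite module. -/
theorem finite_integralClosure :
    letI := intAlgebra q F
    Module.Finite ℤ_[q] (integralClosure ℤ_[q] F) := by
  let _ := intAlgebra q F
  have : IsScalarTower ℤ_[q] ℚ_[q] F := IsScalarTower.of_algebraMap_eq (fun _ => rfl)
  exact IsIntegralClosure.finite ℤ_[q] ℚ_[q] F (integralClosure ℤ_[q] F)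

theorem finite_residueField_valSubring
    (hval : ∀ x : F, x ∈ integers q F ∨ x⁻¹ ∈ integers q F) :
    Finite (ResidueField (valSubring q F hval)) := by
  let _ := intAlgebra q F
  have := finite_integralClosure q F
  have := finite_residueField_padicInt q
  exact UnramConstr.finite_residueField_valuationSubring (R₀ := ℤ_[q]) (valSubring q F hval)
    (fun _ => Iff.rfl)

/-- Clause (1) of `Plan.UnramExists`: unramified extensions of every degree exist. -/
theorem exists_isUnram_finrank_eq
    (hval : ∀ x : F, x ∈ integers q F ∨ x⁻¹ ∈ integers q F) (n : ℕ) (hn : 0 < n) :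
    ∃ (E : Type) (_ : Field E) (_ : Algebra ℚ_[q] E) (_ : Algebra F E)
      (_ : IsScalarTower ℚ_[q] F E) (_ : FiniteDimensional F E),
      IsUnram q F E ∧ Module.finrank F E = n := by
  let _ := intAlgebra q F
  have := finite_residueField_valSubring q F hval
  obtain ⟨g, hgm, hgdeg, hgirr, hx⟩ :=
    UnramConstr.exists_unramified_of_integral (R₀ := ℤ_[q]) (valSubring q F hval)
      (fun _ ha => ha) hn
  have : Fact (Irreducible g) := ⟨hgirr⟩
  have hg0 : g ≠ 0 := hgm.ne_zero
  have hfd : FiniteDimensional F (AdjoinRoot g) := (AdjoinRoot.powerBasis hg0).finite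
  refine ⟨AdjoinRoot g, inferInstance, inferInstance, inferInstance, inferInstance, hfd, ?_, ?_⟩
  · intro x
    obtain ⟨c, u, v, hc, hxu, huv, hu, hv⟩ := hx (x : AdjoinRoot g) x.ne_zero
    refine ⟨Units.mk0 c hc, ?_⟩
    have hval1 : ((x * (Units.map (algebraMap F (AdjoinRoot g)).toMonoidHom (Units.mk0 c hc))⁻¹ :
        (AdjoinRoot g)ˣ) : AdjoinRoot g) = u := by
      have hc' : (AdjoinRoot.of g c) ≠ 0 := by
        rw [Ne, map_eq_zero]
        exact hc
      rw [Units.val_mul, Units.val_inv_eq_inv_val]
      change (x : AdjoinRoot g) * (AdjoinRoot.of g c)⁻¹ = u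
      rw [hxu]
      field_simp
    have hval2 : (((x * (Units.map (algebraMap F (AdjoinRoot g)).toMonoidHom
        (Units.mk0 c hc))⁻¹)⁻¹ : (AdjoinRoot g)ˣ) : AdjoinRoot g) = v := by
      rw [Units.val_inv_eq_inv_val, hval1]
      exact inv_eq_of_mul_eq_one_right huv
    refine ⟨?_, ?_⟩
    · rw [hval1]
      exact hu
    · rw [hval2]
      exact hv
  · rw [(AdjoinRoot.powerBasis hg0).finrank, AdjoinRoot.powerBasis_dim, hgdeg]

end Exists

end Fermat.Agent.CFT.Local.UnramCore
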