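import Mathlib
import Fermat.Agent.CFT.Local.Plan
import Fermat.Agent.CFT.Local.IntRing
import Fermat.Agent.CFT.Local.Teichmuller
import Fermat.Agent.CFT.Local.ResField
import Fermat.Agent.CFT.Local.UnramCore

/-!
# CFT program, layer Local: `UnramExists` and `UnramComposite`

* `exists_primitiveRoot_adjoin_eq_top` : an unramified extension `E/F` is generated by a primitive
  `(resCard q E - 1)`-th root of unity;
* `unramExists : OrdStmt → RelOrdStmt → ResFieldStmt → Plan.UnramExists`;
* `unramComposite : OrdStmt → RelOrdStmt → ResFieldStmt → Plan.UnramComposite`.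
-/

set_option autoImplicit false

open IsLocalRing Polynomial

namespace Fermat.Agent.CFT.Local.UnramExists

open Fermat.Agent.CFT.Local

/-! ## The maximal ideal in towers, uniqueness of Teichmüller representatives -/

section Basic

variable (q : ℕ) [Fact q.Prime] (E L : Type) [Field E] [Field L] [Algebra ℚ_[q] E]
  [Algebra ℚ_[q] L] [Algebra E L] [IsScalarTower ℚ_[q] E L]

/-- An element of `E` lies in the maximal ideal iff its image in `L` does. -/
theorem mem_maxIdeal_map_iff (x : E) : algebraMap E L x ∈ maxIdeal q L ↔ x ∈ maxIdeal q E := by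
  unfold maxIdeal
  simp only [Set.mem_ofPred_eq]
  rw [UnramCore.mem_integers_map_iff, ← map_inv₀, UnramCore.mem_integers_map_iff, map_eq_zero]

theorem neg_mem_maxIdeal {x : E} (hx : x ∈ maxIdeal q E) : -x ∈ maxIdeal q E := by
  obtain ⟨h1, h2⟩ := hx
  refine ⟨(integers q E).neg_mem h1, ?_⟩
  rcases h2 with h2 | h2
  · left
    rw [h2, neg_zero]
  · right
    intro h3
    apply h2
    have := (integers q E).neg_mem h3
    rwa [inv_neg, neg_neg] at this

end Basic

section Teich

variable (q : ℕ) [Fact q.Prime] (E : Type) [Field E] [Algebra ℚ_[q] E]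

/-- A root of `X ^ Q - X` (`Q ≥ 2`) is an integer. -/
theorem mem_integers_of_pow_eq {Q : ℕ} (hQ : 1 < Q) {s : E} (hs : s ^ Q = s) :
    s ∈ integers q E := by
  rw [UnramCore.mem_integers_iff]
  refine ⟨X ^ Q - X, monic_X_pow_sub (by rw [degree_X]; exact_mod_cast hQ), ?_⟩
  simp [hs]

theorem one_lt_resCard (h0 : 0 < fDeg q E) : 1 < resCard q E :=
  Nat.one_lt_pow h0.ne' (Fact.out : q.Prime).one_lt

variable [FiniteDimensional ℚ_[q] E]

attribute [local instance] intAlgebra IntRing.towerInt IntRing.torsionFreeInt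

/-- Uniqueness of Teichmüller representatives. -/
theorem teich_unique_at (hO : IntRing.OrdAt q E) {s t : E} (hs : s ^ resCard q E = s)
    (ht : t ^ resCard q E = t) (hst : s - t ∈ maxIdeal q E) : s = t := by
  have hloc : IsLocalRing (IntRing.OInt q E) := IntRing.isLocalRing q E hO
  have hcomp : IsAdicComplete (maximalIdeal (IntRing.OInt q E)) (IntRing.OInt q E) :=
    IntRing.isAdicComplete hO
  have hcard : Nat.card (ResidueField (IntRing.OInt q E)) = resCard q E :=
    IntRing.card_residue hO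
  have hfin : Finite (ResidueField (IntRing.OInt q E)) := by
    refine Nat.finite_of_card_ne_zero ?_
    rw [hcard]
    exact (pow_pos (Fact.out : q.Prime).pos _).ne'
  have hhens : HenselianLocalRing (IntRing.OInt q E) :=
    ResField.henselianLocalRing_of_isAdicComplete _
  have hQ := one_lt_resCard q E hO.1
  have hsi : s ∈ integers q E := mem_integers_of_pow_eq q E hQ hs
  have hti : t ∈ integers q E := mem_integers_of_pow_eq q E hQ ht
  have key := Teichmuller.teichmuller_unique (R := IntRing.OInt q E)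
    (s := ⟨s, hsi⟩) (t := ⟨t, hti⟩)
    (by rw [hcard]; exact Subtype.ext hs) (by rw [hcard]; exact Subtype.ext ht)
    ((IntRing.mem_maximalIdeal_iff _).2 hst)
  exact congrArg Subtype.val key

end Teich

/-! ## Roots of unity and the residue degree -/

section Gen

variable (hOrd : Plan.OrdStmt) (hRel : Plan.RelOrdStmt) (hRes : Plan.ResFieldStmt)
include hOrd hRes

/-- If a subextension `E₀ ⊆ E` contains a primitive `(resCard q E - 1)`-th root of unity, then
`fDeg q E ≤ fDeg q E₀`. -/
theorem fDeg_le_of_primitiveRoot (q : ℕ) [Fact q.Prime] (E₀ E : Type) [Field E₀] [Field E]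
    [Algebra ℚ_[q] E₀] [Algebra ℚ_[q] E] [Algebra E₀ E] [IsScalarTower ℚ_[q] E₀ E]
    [FiniteDimensional ℚ_[q] E₀] [FiniteDimensional ℚ_[q] E] (ζ₀ : E₀)
    (hζ₀ : IsPrimitiveRoot ζ₀ (resCard q E - 1)) : fDeg q E ≤ fDeg q E₀ := by
  have hO : IntRing.OrdAt q E := ResField.ordAt_of_ordStmt hOrd q E
  have hO₀ := hOrd q E₀
  have hQ : 1 < resCard q E := one_lt_resCard q E hO.1
  have hQ₀ : 1 < resCard q E₀ := one_lt_resCard q E₀ hO₀.1
  have hadd : ∀ x y : E₀, x ∈ maxIdeal q E₀ → y ∈ maxIdeal q E₀ → x + y ∈ maxIdeal q E₀ :=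
    hO₀.2.2.2.2.2.2.2.1
  have hpos : 0 < resCard q E - 1 := Nat.sub_pos_of_lt hQ
  have hpos₀ : 0 < resCard q E₀ - 1 := Nat.sub_pos_of_lt hQ₀
  -- elements of `S'` are integral units satisfying `s ^ Q = s`
  have hS : ∀ s ∈ nthRootsFinset (resCard q E - 1) (1 : E₀),
      s ^ resCard q E = s ∧ s ≠ 0 ∧ s⁻¹ ∈ integers q E₀ := by
    intro s hs
    rw [mem_nthRootsFinset hpos] at hs
    have h1 : s ^ resCard q E = s := by
      have : resCard q E = (resCard q E - 1) + 1 := by omega
      rw [this, pow_succ, hs, one_mul]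
    have h2 : s ≠ 0 := by
      rintro rfl
      rw [zero_pow hpos.ne'] at hs
      exact zero_ne_one hs
    refine ⟨h1, h2, ?_⟩
    have h3 : s⁻¹ ^ resCard q E = s⁻¹ := by rw [inv_pow, h1]
    exact mem_integers_of_pow_eq q E₀ hQ h3
  have hSint : ∀ s ∈ nthRootsFinset (resCard q E - 1) (1 : E₀), s ∈ integers q E₀ :=
    fun s hs => mem_integers_of_pow_eq q E₀ hQ (hS s hs).1
  -- Teichmüller representatives in `E₀`
  choose t ht using (hRes q E₀).2
  classical
  let T : E₀ → E₀ := fun s => if h : s ∈ integers q E₀ then t s h else 0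
  have hT : ∀ s ∈ nthRootsFinset (resCard q E - 1) (1 : E₀),
      T s ^ resCard q E₀ = T s ∧ s - T s ∈ maxIdeal q E₀ := by
    intro s hs
    simp only [T, dif_pos (hSint s hs)]
    exact ht s (hSint s hs)
  have hmaps : ∀ s ∈ nthRootsFinset (resCard q E - 1) (1 : E₀),
      T s ∈ nthRootsFinset (resCard q E₀ - 1) (1 : E₀) := by
    intro s hs
    obtain ⟨h1, h2⟩ := hT s hs
    rw [mem_nthRootsFinset hpos₀]
    have hT0 : T s ≠ 0 := by
      intro h0
      rw [h0, sub_zero] at h2
      rcases h2.2 with h3 | h3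
      · exact (hS s hs).2.1 h3
      · exact h3 (hS s hs).2.2
    have h3 : T s ^ (resCard q E₀ - 1) * T s = 1 * T s := by
      rw [← pow_succ, Nat.sub_add_cancel hQ₀.le, h1, one_mul]
    exact mul_right_cancel₀ hT0 h3
  have hinj : Set.InjOn T (nthRootsFinset (resCard q E - 1) (1 : E₀) : Set E₀) := by
    intro s hs s' hs' hss'
    have hs1 := hT s hs
    have hs2 := hT s' hs'
    have h1 : s - s' ∈ maxIdeal q E₀ := by
      have := hadd _ _ hs1.2 (neg_mem_maxIdeal q E₀ hs2.2)
      rw [hss'] at this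
      convert this using 1
      ring
    have h2 : algebraMap E₀ E s - algebraMap E₀ E s' ∈ maxIdeal q E := by
      rw [← map_sub]
      exact (mem_maxIdeal_map_iff q E₀ E _).2 h1
    have h3 := teich_unique_at q E hO
      (by rw [← map_pow, (hS s hs).1]) (by rw [← map_pow, (hS s' hs').1]) h2
    exact (algebraMap E₀ E).injective h3
  have hcard : (nthRootsFinset (resCard q E - 1) (1 : E₀)).card = resCard q E - 1 :=
    hζ₀.card_nthRootsFinset
  have hcard₀ : (nthRootsFinset (resCard q E₀ - 1) (1 : E₀)).card ≤ resCard q E₀ - 1 := by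
    unfold nthRootsFinset
    exact (Multiset.toFinset_card_le _).trans (card_nthRoots _ _)
  have hle : resCard q E - 1 ≤ resCard q E₀ - 1 := by
    rw [← hcard]
    exact (Finset.card_le_card_of_injOn T hmaps hinj).trans hcard₀
  have hle' : resCard q E ≤ resCard q E₀ := by omega
  exact (Nat.pow_le_pow_iff_right (Fact.out : q.Prime).one_lt).1 hle'

include hRel

/-- An unramified extension `E/F` is generated by a primitive `(resCard q E - 1)`-th root of
unity. -/
theorem exists_primitiveRoot_adjoin_eq_top (q : ℕ) [Fact q.Prime] (F E : Type) [Field F]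
    [Field E] [Algebra ℚ_[q] F] [Algebra ℚ_[q] E] [Algebra F E] [IsScalarTower ℚ_[q] F E]
    [FiniteDimensional ℚ_[q] F] [FiniteDimensional F E] (hur : IsUnram q F E) :
    ∃ ζ : E, IsPrimitiveRoot ζ (resCard q E - 1) ∧ IntermediateField.adjoin F {ζ} = ⊤ := by
  have hfdE : FiniteDimensional ℚ_[q] E := FiniteDimensional.trans ℚ_[q] F E
  obtain ⟨⟨ζ, hζ⟩, -⟩ := hRes q E
  refine ⟨ζ, hζ, ?_⟩
  have hfd₀ : FiniteDimensional ℚ_[q] (IntermediateField.adjoin F {ζ}) :=
    FiniteDimensional.trans ℚ_[q] F (IntermediateField.adjoin F {ζ})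
  have htow : IsScalarTower ℚ_[q] (IntermediateField.adjoin F {ζ}) E :=
    IsScalarTower.of_algebraMap_eq (fun x => rfl)
  obtain ⟨⟨e, he0, he, -, heur⟩, -⟩ := hRel q F E
  have he1 : e = 1 := heur.1 hur
  obtain ⟨⟨e₀, he₀0, he₀, -, -⟩, -⟩ := hRel q F (IntermediateField.adjoin F {ζ})
  have hfF : 0 < fDeg q F := (hOrd q F).1
  have hζ₀ : IsPrimitiveRoot
      (⟨ζ, IntermediateField.mem_adjoin_simple_self F ζ⟩ : IntermediateField.adjoin F {ζ})
      (resCard q E - 1) :=
    IsPrimitiveRoot.of_map_of_injective (f := algebraMap (IntermediateField.adjoin F {ζ}) E)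
      hζ (algebraMap (IntermediateField.adjoin F {ζ}) E).injective
  have key : fDeg q E ≤ fDeg q (IntermediateField.adjoin F {ζ}) :=
    fDeg_le_of_primitiveRoot hOrd hRes q (IntermediateField.adjoin F {ζ}) E _ hζ₀
  have h1 : Module.finrank F E * fDeg q F ≤
      Module.finrank F (IntermediateField.adjoin F {ζ}) * fDeg q F := by
    calc Module.finrank F E * fDeg q F = fDeg q E := by rw [← he, he1, one_mul]
      _ ≤ fDeg q (IntermediateField.adjoin F {ζ}) := key
      _ ≤ e₀ * fDeg q (IntermediateField.adjoin F {ζ}) := Nat.le_mul_of_pos_left _ he₀0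
      _ = _ := he₀
  have h2 : Module.finrank F E ≤ Module.finrank F (IntermediateField.adjoin F {ζ}) :=
    Nat.le_of_mul_le_mul_right h1 hfF
  exact IntermediateField.eq_of_le_of_finrank_le le_top
    (by rwa [IntermediateField.finrank_top'])

omit hOrd hRel hRes in
/-- `q ^ a - 1` divides `q ^ (a * c) - 1`. -/
theorem pow_sub_one_dvd (q a c : ℕ) : q ^ a - 1 ∣ q ^ (a * c) - 1 :=
  Nat.pow_sub_one_dvd_pow_sub_one q (dvd_mul_right a c)

omit hOrd hRel hRes in
/-- A field containing a primitive `k`-th root of unity contains a primitive `m`-th root of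
unity for every divisor `m` of `k` (`k ≠ 0`). -/
theorem exists_primitiveRoot_of_dvd {K : Type*} [Field K] {ζ : K} {k m : ℕ}
    (hζ : IsPrimitiveRoot ζ k) (hk : k ≠ 0) (hmk : m ∣ k) : ∃ ζ' : K, IsPrimitiveRoot ζ' m := by
  have hdvd : k / m ∣ k := Nat.div_dvd_of_dvd hmk
  have hne : k / m ≠ 0 := by
    intro h0
    obtain ⟨c, hc⟩ := hdvd
    rw [h0, zero_mul] at hc
    exact hk hc
  refine ⟨ζ ^ (k / m), ?_⟩
  have := hζ.pow_of_dvd hne hdvd
  rwa [Nat.div_div_self hmk hk] at this

omit hOrd hRel hRes in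
/-- If `E = F(ζ)` with `ζ` a primitive `m`-th root of unity and `L` contains a primitive `m`-th
root of unity, then `E` embeds in `L` over `F`. -/
theorem nonempty_algHom_of_primitiveRoot {F E L : Type*} [Field F] [Field E] [Field L]
    [Algebra F E] [Algebra F L] {m : ℕ} (hm : 0 < m) {ζ : E} (hζ : IsPrimitiveRoot ζ m)
    (htop : IntermediateField.adjoin F {ζ} = ⊤) {ζ' : L} (hζ' : IsPrimitiveRoot ζ' m) :
    Nonempty (E →ₐ[F] L) := by
  have hint : IsIntegral F ζ := by
    refine ⟨X ^ m - 1, monic_X_pow_sub (by rw [degree_one]; exact_mod_cast hm), ?_⟩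
    simp [hζ.pow_eq_one]
  have hdvd : minpoly F ζ ∣ X ^ m - 1 := by
    apply minpoly.dvd
    simp [hζ.pow_eq_one]
  have hsplit : ((minpoly F ζ).map (algebraMap F L)).Splits := by
    have h1 : (minpoly F ζ).map (algebraMap F L) ∣ X ^ m - C (1 : L) := by
      have := Polynomial.map_dvd (algebraMap F L) hdvd
      simpa using this
    exact (X_pow_sub_one_splits hζ').of_dvd (X_pow_sub_C_ne_zero hm 1) h1
  refine IntermediateField.nonempty_algHom_of_adjoin_splits (S := {ζ}) ?_ htop
  intro s hs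
  rw [Set.mem_singleton_iff] at hs
  subst hs
  exact ⟨hint, hsplit⟩

/-- Clause (2) of `Plan.UnramExists`: an unramified extension of degree `n` embeds in every
finite extension whose residue degree is divisible by `n`. -/
theorem nonempty_algHom_of_isUnram (q : ℕ) [Fact q.Prime] (F E L : Type) [Field F] [Field E]
    [Field L] [Algebra ℚ_[q] F] [Algebra ℚ_[q] E] [Algebra ℚ_[q] L] [Algebra F E] [Algebra F L]
    [IsScalarTower ℚ_[q] F E] [IsScalarTower ℚ_[q] F L] [FiniteDimensional ℚ_[q] F]
    [FiniteDimensional F E] [FiniteDimensional F L] (hur : IsUnram q F E)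
    (hdvd : Module.finrank F E * fDeg q F ∣ fDeg q L) : Nonempty (E →ₐ[F] L) := by
  have hfdE : FiniteDimensional ℚ_[q] E := FiniteDimensional.trans ℚ_[q] F E
  have hfdL : FiniteDimensional ℚ_[q] L := FiniteDimensional.trans ℚ_[q] F L
  obtain ⟨ζ, hζ, htop⟩ := exists_primitiveRoot_adjoin_eq_top hOrd hRel hRes q F E hur
  obtain ⟨⟨e, he0, he, -, heur⟩, -⟩ := hRel q F E
  have he1 : e = 1 := heur.1 hur
  have hfE : fDeg q E = Module.finrank F E * fDeg q F := by rw [← he, he1, one_mul]
  have hQE : 1 < resCard q E := one_lt_resCard q E (hOrd q E).1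
  have hQL : 1 < resCard q L := one_lt_resCard q L (hOrd q L).1
  obtain ⟨⟨ζL, hζL⟩, -⟩ := hRes q L
  obtain ⟨c, hc⟩ := hdvd
  have hdiv : resCard q E - 1 ∣ resCard q L - 1 := by
    unfold resCard
    rw [hc, ← hfE]
    exact pow_sub_one_dvd q _ c
  obtain ⟨ζ', hζ'⟩ := exists_primitiveRoot_of_dvd hζL (by omega) hdiv
  exact nonempty_algHom_of_primitiveRoot (by omega) hζ htop hζ'

/-- The body of `Plan.UnramComposite`. -/
theorem isUnram_composite (q : ℕ) [Fact q.Prime] (F E E' L : Type) [Field F] [Field E]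
    [Field E'] [Field L] [Algebra ℚ_[q] F] [Algebra ℚ_[q] E] [Algebra ℚ_[q] E']
    [Algebra ℚ_[q] L] [Algebra F E] [Algebra F E'] [Algebra F L] [Algebra E L] [Algebra E' L]
    [IsScalarTower ℚ_[q] F E] [IsScalarTower ℚ_[q] F E'] [IsScalarTower ℚ_[q] F L]
    [IsScalarTower F E L] [IsScalarTower F E' L]
    [FiniteDimensional ℚ_[q] F] [FiniteDimensional F L]
    (hur : IsUnram q F E') (hadj : Algebra.adjoin E (Set.range (algebraMap E' L)) = ⊤) :
    IsUnram q E L := by
  -- finiteness and towers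
  have hfdFE : FiniteDimensional F E := FiniteDimensional.left F E L
  have hfdFE' : FiniteDimensional F E' := FiniteDimensional.left F E' L
  have hfdEL : FiniteDimensional E L := FiniteDimensional.right F E L
  have hfdE : FiniteDimensional ℚ_[q] E := FiniteDimensional.trans ℚ_[q] F E
  have hfdE' : FiniteDimensional ℚ_[q] E' := FiniteDimensional.trans ℚ_[q] F E'
  have htEL : IsScalarTower ℚ_[q] E L := IsScalarTower.of_algebraMap_eq (fun x => by
    rw [IsScalarTower.algebraMap_apply ℚ_[q] F L, IsScalarTower.algebraMap_apply ℚ_[q] F E,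
      ← IsScalarTower.algebraMap_apply F E L])
  -- `E' = F(ζ')`
  obtain ⟨ζ', hζ', htop'⟩ := exists_primitiveRoot_adjoin_eq_top hOrd hRel hRes q F E' hur
  have hQE' : 1 < resCard q E' := one_lt_resCard q E' (hOrd q E').1
  have hm : 0 < resCard q E' - 1 := by omega
  have hζL : IsPrimitiveRoot (algebraMap E' L ζ') (resCard q E' - 1) :=
    hζ'.map_of_injective (algebraMap E' L).injective
  -- `L = E(ζ')`
  have hadj' : IntermediateField.adjoin E {algebraMap E' L ζ'} = ⊤ := by
    have hall : ∀ x' : E', algebraMap E' L x' ∈ IntermediateField.adjoin E {algebraMap E' L ζ'} := by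
      have hle : IntermediateField.adjoin F {ζ'} ≤
          ((IntermediateField.adjoin E {algebraMap E' L ζ'}).restrictScalars F).comap
            (IsScalarTower.toAlgHom F E' L) := by
        rw [IntermediateField.adjoin_le_iff]
        intro x hx
        rw [Set.mem_singleton_iff] at hx
        subst hx
        exact IntermediateField.mem_adjoin_simple_self E _
      intro x'
      have hx' : x' ∈ IntermediateField.adjoin F {ζ'} := by rw [htop']; trivial
      exact hle hx'
    rw [eq_top_iff]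
    intro x _
    have hx : x ∈ Algebra.adjoin E (Set.range (algebraMap E' L)) := by rw [hadj]; trivial
    have hsub : Algebra.adjoin E (Set.range (algebraMap E' L)) ≤
        (IntermediateField.adjoin E {algebraMap E' L ζ'}).toSubalgebra := by
      apply Algebra.adjoin_le
      rintro _ ⟨x', rfl⟩
      exact hall x'
    exact hsub hx
  -- the unramified extension `E''/E` of degree `d = fDeg q E'`
  have hd : 0 < fDeg q E' := (hOrd q E').1
  obtain ⟨E'', _, _, _, _, _, hur'', hdeg''⟩ :=
    UnramCore.exists_isUnram_finrank_eq q E (hOrd q E).2.2.2.2.2.2.2.2.2.2 (fDeg q E') hd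
  have hfdE'' : FiniteDimensional ℚ_[q] E'' := FiniteDimensional.trans ℚ_[q] E E''
  obtain ⟨⟨e, he0, he, -, heur⟩, -⟩ := hRel q E E''
  have he1 : e = 1 := heur.1 hur''
  have hfE'' : fDeg q E'' = fDeg q E' * fDeg q E := by rw [← hdeg'', ← he, he1, one_mul]
  have hQE'' : 1 < resCard q E'' := one_lt_resCard q E'' (hOrd q E'').1
  obtain ⟨⟨ζ₂, hζ₂⟩, -⟩ := hRes q E''
  have hdiv : resCard q E' - 1 ∣ resCard q E'' - 1 := by
    unfold resCard
    rw [hfE'']
    exact pow_sub_one_dvd q _ _
  obtain ⟨ζ'', hζ''⟩ := exists_primitiveRoot_of_dvd hζ₂ (by omega) hdiv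
  obtain ⟨φ⟩ := nonempty_algHom_of_primitiveRoot (F := E) hm hζL hadj' hζ''
  -- conclude by the tower `E ⊆ L ⊆ E''`
  let _ : Algebra L E'' := φ.toRingHom.toAlgebra
  have ht1 : IsScalarTower E L E'' := IsScalarTower.of_algebraMap_eq (fun x => (φ.commutes x).symm)
  have ht2 : IsScalarTower ℚ_[q] L E'' := IsScalarTower.of_algebraMap_eq (fun x => by
    rw [IsScalarTower.algebraMap_apply ℚ_[q] E E'', IsScalarTower.algebraMap_apply ℚ_[q] E L,
      ← IsScalarTower.algebraMap_apply E L E''])
  exact ((UnramCore.isUnram_tower_iff q E L E'').1 hur'').1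

/-- **UnramExists**. -/
theorem unramExists : Plan.UnramExists := by
  intro q _ F _ _ _
  refine ⟨fun n hn => ?_, ?_, ?_⟩
  · exact UnramCore.exists_isUnram_finrank_eq q F (hOrd q F).2.2.2.2.2.2.2.2.2.2 n hn
  · intro E L _ _ _ _ _ _ _ _ _ _ hur hdvd
    exact nonempty_algHom_of_isUnram hOrd hRel hRes q F E L hur hdvd
  · intro E L _ _ _ _ _ _ _ _ _ _ _ _
    exact UnramCore.isUnram_tower_iff q F E L

/-- **UnramComposite**. -/
theorem unramComposite : Plan.UnramComposite := by
  intro q _ F E E' L _ _ _ _ _ _ _ _ _ _ _ _ _ _ _ _ _ _ _ _ hur hadj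
  exact isUnram_composite hOrd hRel hRes q F E E' L hur hadj

end Gen

end Fermat.Agent.CFT.Local.UnramExists
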