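import Mathlib

/-!
# Unramified extensions of complete discretely valued fields are cyclic (abstract form)

`A ⊆ B` integrally closed local domains with fraction fields `F ⊆ E`, `B` the integral closure
of `A` in `E`, `B` complete.  If the residue field of `B` is generated by the powers of one
element `ᾱ` whose `Q`-power Frobenius conjugates `ᾱ^(Q^i)`, `i < [E:F]`, are pairwise distinct
(and `Q`-th power fixes the image of `A`), then `E/F` is Galois, cyclic, generated by the
Frobenius element.
-/

set_option autoImplicit false
set_option linter.unusedSectionVars false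
open IsLocalRing Polynomial

namespace Fermat.Agent.CFT.Local.UnramGalois

/-- The reduction map `A → B → B/𝔪`. -/
noncomputable abbrev rho (A B : Type*) [CommRing A] [CommRing B] [IsLocalRing B] [Algebra A B] :
    A →+* ResidueField B :=
  (residue B).comp (algebraMap A B)

lemma residue_aeval {A B : Type*} [CommRing A] [CommRing B] [IsLocalRing B] [Algebra A B]
    (P : A[X]) (b : B) :
    residue B (aeval b P) = P.eval₂ (rho A B) (residue B b) := by
  rw [aeval_def, hom_eval₂]

/-- Polynomials over `A` commute with the `p^f`-power Frobenius of the residue field of `B`,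
if `A` has residue field with `p^f` elements. -/
lemma eval₂_pow_card {A B : Type*} [CommRing A] [CommRing B] [IsLocalRing B] [Algebra A B]
    (p f : ℕ) [Fact p.Prime] [CharP (ResidueField B) p]
    (hA : ∀ a : A, rho A B a ^ (p ^ f) = rho A B a) (P : A[X]) (t : ResidueField B) :
    P.eval₂ (rho A B) t ^ (p ^ f) = P.eval₂ (rho A B) (t ^ (p ^ f)) := by
  have : ExpChar (ResidueField B) p := ExpChar.prime Fact.out
  have h := hom_eval₂ P (rho A B) (iterateFrobenius (ResidueField B) p f) t
  have hcomp : (iterateFrobenius (ResidueField B) p f).comp (rho A B) = rho A B := by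
    ext a
    simp only [RingHom.comp_apply, iterateFrobenius_def]
    exact hA a
  rw [hcomp] at h
  simpa only [iterateFrobenius_def] using h

/-- The minimal polynomial of `α` over `A`. -/
noncomputable abbrev gpoly (A : Type*) {B : Type*} [CommRing A] [CommRing B] [Algebra A B]
    (α : B) : A[X] := minpoly A α

open scoped Classical in
/-- The set of Frobenius conjugates of `ᾱ`. -/
noncomputable def conjSet {B : Type*} [CommRing B] [IsLocalRing B] (Q : ℕ) (α : B) (n : ℕ) :
    Finset (ResidueField B) :=
  (Finset.range n).image (fun i => residue B α ^ Q ^ i)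

lemma isIntegral_alpha (A E : Type*) {B : Type*} [CommRing A] [CommRing E] [CommRing B]
    [Algebra A E] [Algebra A B] [Algebra B E] [IsScalarTower A B E] [IsIntegralClosure B A E]
    (α : B) : IsIntegral A α := IsIntegralClosure.isIntegral A E α

lemma gpoly_monic (A E : Type*) {B : Type*} [CommRing A] [CommRing E] [CommRing B]
    [Algebra A E] [Algebra A B] [Algebra B E] [IsScalarTower A B E] [IsIntegralClosure B A E]
    (α : B) : (gpoly A α).Monic := minpoly.monic (isIntegral_alpha A E α)

section Core

variable (A F E : Type*) {B : Type*} [CommRing A] [IsDomain A] [IsIntegrallyClosed A]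
  [Field F] [Algebra A F] [IsFractionRing A F]
  [Field E] [Algebra F E] [FiniteDimensional F E] [Algebra A E] [IsScalarTower A F E]
  [CommRing B] [IsDomain B] [IsLocalRing B] [Algebra A B] [Algebra B E] [IsScalarTower A B E]
  [IsIntegralClosure B A E]

/-- The minimal polynomial of `α` over `F` is the image of the one over `A`. -/
lemma minpoly_field_eq (α : B) :
    minpoly F (algebraMap B E α) = (gpoly A α).map (algebraMap A F) := by
  have hs : IsIntegral A (algebraMap B E α) := (isIntegral_alpha A E α).algebraMap
  rw [minpoly.isIntegrallyClosed_eq_field_fractions' F hs,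
    minpoly.algebraMap_eq (IsIntegralClosure.algebraMap_injective B A E) α]

lemma natDegree_gpoly_le (α : B) : (gpoly A α).natDegree ≤ Module.finrank F E := by
  have h1 := minpoly.natDegree_le (A := F) (algebraMap B E α)
  rwa [minpoly_field_eq A F E α, (gpoly_monic A E α).natDegree_map] at h1

variable (Q : ℕ) (α : B)
  (hFrob : ∀ (P : A[X]) (t : ResidueField B),
      P.eval₂ (rho A B) t ^ Q = P.eval₂ (rho A B) (t ^ Q))
  (hinj : ∀ i j, i < Module.finrank F E → j < Module.finrank F E →
    residue B α ^ Q ^ i = residue B α ^ Q ^ j → i = j)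

include hFrob hinj

/-- All Frobenius conjugates of `ᾱ` are roots of the reduction of the minimal polynomial. -/
lemma eval_conj (i : ℕ) :
    ((gpoly A α).map (rho A B)).eval (residue B α ^ Q ^ i) = 0 := by
  rw [eval_map]
  induction i with
  | zero =>
    rw [pow_zero, pow_one, ← residue_aeval, minpoly.aeval, map_zero]
  | succ i ih =>
    rw [pow_succ, pow_mul, ← hFrob, ih, zero_pow]
    rintro rfl
    have h1 := hFrob 0 0
    simp at h1

lemma card_conjSet : (conjSet Q α (Module.finrank F E)).card = Module.finrank F E := by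
  classical
  unfold conjSet
  rw [Finset.card_image_of_injOn, Finset.card_range]
  intro i hi j hj hij
  exact hinj i j (Finset.mem_range.1 hi) (Finset.mem_range.1 hj) hij

lemma conjSet_subset_roots (n : ℕ) :
    (conjSet Q α n).val ⊆ ((gpoly A α).map (rho A B)).roots := by
  classical
  intro t ht
  rw [Finset.mem_val, conjSet, Finset.mem_image] at ht
  obtain ⟨i, -, rfl⟩ := ht
  rw [mem_roots ((gpoly_monic A E α).map _).ne_zero]
  exact eval_conj A F E Q α hFrob hinj i

/-- The minimal polynomial of `α` has degree `[E:F]`. -/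
lemma natDegree_gpoly : (gpoly A α).natDegree = Module.finrank F E := by
  apply le_antisymm (natDegree_gpoly_le A F E α)
  have h1 := card_le_degree_of_subset_roots
    (conjSet_subset_roots A F E Q α hFrob hinj (Module.finrank F E))
  rwa [card_conjSet A F E Q α hFrob hinj, (gpoly_monic A E α).natDegree_map] at h1

/-- The roots of the reduction are exactly the Frobenius conjugates of `ᾱ`. -/
lemma roots_eq : ((gpoly A α).map (rho A B)).roots = (conjSet Q α (Module.finrank F E)).val := by
  symm
  apply Multiset.eq_of_le_of_card_le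
  · exact Finset.val_le_iff_val_subset.2
      (conjSet_subset_roots A F E Q α hFrob hinj (Module.finrank F E))
  · refine (card_roots' _).trans ?_
    rw [(gpoly_monic A E α).natDegree_map, natDegree_gpoly A F E Q α hFrob hinj, Finset.card_val,
      card_conjSet A F E Q α hFrob hinj]

/-- The reduction of the minimal polynomial is separable. -/
lemma separable_map : ((gpoly A α).map (rho A B)).Separable := by
  have hne : (gpoly A α).map (rho A B) ≠ 0 := ((gpoly_monic A E α).map _).ne_zero
  have hsplit : ((gpoly A α).map (rho A B)).Splits := by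
    rw [splits_iff_card_roots, roots_eq A F E Q α hFrob hinj, Finset.card_val,
      card_conjSet A F E Q α hFrob hinj, (gpoly_monic A E α).natDegree_map,
      natDegree_gpoly A F E Q α hFrob hinj]
  rw [← nodup_roots_iff_of_splits hne hsplit, roots_eq A F E Q α hFrob hinj]
  exact Finset.nodup _

/-- Roots of the minimal polynomial in `B` are simple modulo the maximal ideal. -/
lemma isUnit_derivative {β : B} (hβ : aeval β (gpoly A α) = 0) :
    IsUnit (aeval β (derivative (gpoly A α))) := by
  rw [← IsLocalRing.notMem_maximalIdeal, ← IsLocalRing.residue_eq_zero_iff, residue_aeval,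
    ← eval_map, ← derivative_map]
  have h0 : ((gpoly A α).map (rho A B)).eval (residue B β) = 0 := by
    rw [eval_map, ← residue_aeval, hβ, map_zero]
  have := (separable_map A F E Q α hFrob hinj).eval₂_derivative_ne_zero (RingHom.id _)
    (x := residue B β) (by simpa [eval₂_id] using h0)
  simpa [eval₂_id] using this

/-- Key lemma: two roots of the minimal polynomial which are congruent modulo the maximal ideal
are equal. -/
lemma root_unique {β₁ β₂ : B} (h₁ : aeval β₁ (gpoly A α) = 0) (h₂ : aeval β₂ (gpoly A α) = 0)
    (h : residue B β₁ = residue B β₂) : β₁ = β₂ := by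
  obtain ⟨c, hc⟩ := ((gpoly A α).map (algebraMap A B)).binomExpansion β₁ (β₂ - β₁)
  rw [add_sub_cancel, eval_map_algebraMap, eval_map_algebraMap, h₁, h₂, zero_add, derivative_map,
    eval_map_algebraMap] at hc
  have hmem : β₂ - β₁ ∈ maximalIdeal B := by
    rw [← residue_eq_zero_iff, map_sub, h, sub_self]
  have hu : IsUnit (aeval β₁ (derivative (gpoly A α)) + c * (β₂ - β₁)) := by
    have h3 := isUnit_derivative A F E Q α hFrob hinj h₁
    rw [← IsLocalRing.notMem_maximalIdeal] at h3 ⊢
    intro hm
    apply h3
    have := Ideal.sub_mem _ hm (Ideal.mul_mem_left _ c hmem)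
    simpa using this
  have h4 : (β₂ - β₁) * (aeval β₁ (derivative (gpoly A α)) + c * (β₂ - β₁)) = 0 := by
    linear_combination -hc
  rcases mul_eq_zero.1 h4 with h5 | h5
  · exact (sub_eq_zero.1 h5).symm
  · exact absurd h5 hu.ne_zero

/-- Hensel: every root of the reduction lifts to a root in `B`. -/
lemma exists_root_lift [IsAdicComplete (maximalIdeal B) B] {t : ResidueField B}
    (ht : ((gpoly A α).map (rho A B)).eval t = 0) :
    ∃ β : B, aeval β (gpoly A α) = 0 ∧ residue B β = t := by
  obtain ⟨a₀, rfl⟩ := residue_surjective t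
  have hmon : ((gpoly A α).map (algebraMap A B)).Monic := (gpoly_monic A E α).map _
  have h1 : ((gpoly A α).map (algebraMap A B)).eval a₀ ∈ maximalIdeal B := by
    rw [← residue_eq_zero_iff, eval_map_algebraMap, residue_aeval, ← eval_map]
    exact ht
  have h2 : IsUnit (Ideal.Quotient.mk (maximalIdeal B)
      (((gpoly A α).map (algebraMap A B)).derivative.eval a₀)) := by
    change IsUnit (residue B _)
    rw [isUnit_iff_ne_zero, derivative_map, eval_map_algebraMap, residue_aeval, ← eval_map,
      ← derivative_map]
    have := (separable_map A F E Q α hFrob hinj).eval₂_derivative_ne_zero (RingHom.id _)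
      (x := residue B a₀) (by simpa [eval₂_id] using ht)
    simpa [eval₂_id] using this
  obtain ⟨β, hβ, hβ'⟩ := HenselianRing.is_henselian (I := maximalIdeal B) _ hmon a₀ h1 h2
  refine ⟨β, ?_, ?_⟩
  · rw [← eval_map_algebraMap]
    exact hβ
  · rw [← sub_eq_zero, ← map_sub, residue_eq_zero_iff]
    exact hβ'

/-- `α` is a primitive element of `E/F`. -/
lemma adjoin_eq_top : Algebra.adjoin F {algebraMap B E α} = ⊤ := by
  have h1 : IntermediateField.adjoin F {algebraMap B E α} = ⊤ := by
    rw [Field.primitive_element_iff_minpoly_natDegree_eq, minpoly_field_eq A F E α,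
      (gpoly_monic A E α).natDegree_map, natDegree_gpoly A F E Q α hFrob hinj]
  have h2 := IntermediateField.adjoin_simple_toSubalgebra_of_isAlgebraic
    (IsAlgebraic.of_finite F (algebraMap B E α))
  rw [h1] at h2
  exact h2.symm.trans IntermediateField.top_toSubalgebra

/-- Every root of the minimal polynomial in `B` is a Galois conjugate of `α`. -/
lemma exists_aut_of_root {β : B} (hβ : aeval β (gpoly A α) = 0) :
    ∃ σ : E ≃ₐ[F] E, σ (algebraMap B E α) = algebraMap B E β := by
  have hint : IsIntegral F (algebraMap B E α) := IsIntegral.of_finite F _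
  let pb := PowerBasis.ofAdjoinEqTop hint (adjoin_eq_top A F E Q α hFrob hinj)
  have hgen : pb.gen = algebraMap B E α := PowerBasis.ofAdjoinEqTop_gen _ _
  have hy : aeval (algebraMap B E β) (minpoly F pb.gen) = 0 := by
    rw [hgen, minpoly_field_eq A F E α, aeval_map_algebraMap, aeval_algebraMap_apply, hβ,
      map_zero]
  refine ⟨AlgEquiv.ofBijective (pb.lift _ hy) (AlgHom.bijective _), ?_⟩
  rw [AlgEquiv.coe_ofBijective]
  conv_lhs => rw [← hgen]
  exact pb.lift_gen _ hy

/-- An automorphism is determined by its value at `α`. -/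
lemma aut_ext {σ τ : E ≃ₐ[F] E} (h : σ (algebraMap B E α) = τ (algebraMap B E α)) : σ = τ := by
  have hint : IsIntegral F (algebraMap B E α) := IsIntegral.of_finite F _
  let pb := PowerBasis.ofAdjoinEqTop hint (adjoin_eq_top A F E Q α hFrob hinj)
  have hgen : pb.gen = algebraMap B E α := PowerBasis.ofAdjoinEqTop_gen _ _
  have h' : (σ : E →ₐ[F] E) = (τ : E →ₐ[F] E) := pb.algHom_ext (by rw [hgen]; exact h)
  exact AlgEquiv.coe_toAlgHom_injective h'

omit hFrob hinj in
/-- Galois automorphisms preserve the maximal ideal of `B`. -/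
lemma res_mem_maximalIdeal (σ : E ≃ₐ[F] E) {b : B} (hb : b ∈ maximalIdeal B) :
    galRestrict A F E B σ b ∈ maximalIdeal B := by
  rw [mem_maximalIdeal, mem_nonunits_iff] at hb ⊢
  exact fun hu => hb ((isUnit_map_iff (galRestrict A F E B σ) b).1 hu)

omit hFrob hinj in
lemma res_residue_congr (σ : E ≃ₐ[F] E) {b b' : B} (h : residue B b = residue B b') :
    residue B (galRestrict A F E B σ b) = residue B (galRestrict A F E B σ b') := by
  rw [← sub_eq_zero, ← map_sub, residue_eq_zero_iff] at h
  rw [← sub_eq_zero, ← map_sub, ← map_sub, residue_eq_zero_iff]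
  exact res_mem_maximalIdeal A F E σ h

omit hFrob hinj in
lemma res_root (α : B) (σ : E ≃ₐ[F] E) : aeval (galRestrict A F E B σ α) (gpoly A α) = 0 := by
  rw [aeval_algHom_apply, minpoly.aeval, map_zero]

/-- **Abstract structure theorem for unramified extensions.** -/
theorem exists_frobenius [IsAdicComplete (maximalIdeal B) B]
    (hgen : ∀ t : ResidueField B, t ≠ 0 → ∃ j : ℕ, t = residue B α ^ j) :
    IsGalois F E ∧ ∃ φ : E ≃ₐ[F] E,
      (∀ b : B, residue B (galRestrict A F E B φ b) = residue B b ^ Q) ∧
      (∀ σ : E ≃ₐ[F] E, σ ∈ Subgroup.zpowers φ) ∧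
      ∀ (k : ℕ) (σ : E ≃ₐ[F] E),
        (∀ b : B, residue B (galRestrict A F E B σ b) = residue B b ^ Q ^ k) → σ = φ ^ k := by
  have hQ : Q ≠ 0 := by
    rintro rfl
    have h1 := hFrob 0 0
    simp at h1
  obtain ⟨β, hβ, hβr⟩ := exists_root_lift A F E Q α hFrob hinj (t := residue B α ^ Q ^ 1)
    (eval_conj A F E Q α hFrob hinj 1)
  obtain ⟨φ, hφ⟩ := exists_aut_of_root A F E Q α hFrob hinj hβ
  have hφα : galRestrict A F E B φ α = β := by
    apply IsIntegralClosure.algebraMap_injective B A E
    rw [algebraMap_galRestrict_apply, hφ]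
  have hfrob : ∀ b : B, residue B (galRestrict A F E B φ b) = residue B b ^ Q := by
    intro b
    by_cases hb : residue B b = 0
    · rw [hb, zero_pow hQ, residue_eq_zero_iff]
      exact res_mem_maximalIdeal A F E φ ((residue_eq_zero_iff _).1 hb)
    · obtain ⟨j, hj⟩ := hgen _ hb
      have h1 : residue B b = residue B (α ^ j) := by rw [hj, map_pow]
      rw [res_residue_congr A F E φ h1, map_pow, map_pow, hφα, hβr, h1, map_pow, pow_one,
        ← pow_mul, ← pow_mul, mul_comm]
  have hpow : ∀ (k : ℕ) (b : B),
      residue B (galRestrict A F E B (φ ^ k) b) = residue B b ^ Q ^ k := by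
    intro k
    induction k with
    | zero => intro b; simp
    | succ k ih =>
      intro b
      rw [pow_succ, map_mul, AlgEquiv.mul_apply, ih, hfrob, ← pow_mul, pow_succ, mul_comm]
  have hkey : ∀ (σ : E ≃ₐ[F] E) (k : ℕ),
      residue B (galRestrict A F E B σ α) = residue B α ^ Q ^ k → σ = φ ^ k := by
    intro σ k h
    apply aut_ext A F E Q α hFrob hinj
    rw [← algebraMap_galRestrict_apply A, ← algebraMap_galRestrict_apply A]
    congr 1
    apply root_unique A F E Q α hFrob hinj (res_root A F E α σ) (res_root A F E α (φ ^ k))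
    rw [h, hpow]
  have hall : ∀ σ : E ≃ₐ[F] E, ∃ i < Module.finrank F E, σ = φ ^ i := by
    intro σ
    have h1 : residue B (galRestrict A F E B σ α) ∈ ((gpoly A α).map (rho A B)).roots := by
      rw [mem_roots (((gpoly_monic A E α).map _).ne_zero), IsRoot.def, eval_map, ← residue_aeval,
        res_root, map_zero]
    rw [roots_eq A F E Q α hFrob hinj, Finset.mem_val] at h1
    classical
    simp only [conjSet, Finset.mem_image, Finset.mem_range] at h1
    obtain ⟨i, hi, hi'⟩ := h1
    exact ⟨i, hi, hkey σ i hi'.symm⟩
  refine ⟨?_, φ, hfrob, ?_, ?_⟩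
  · apply IsGalois.of_card_aut_eq_finrank
    apply le_antisymm
    · rw [Nat.card_eq_fintype_card]
      exact AlgEquiv.card_le
    · have hinj' : Function.Injective (fun i : Fin (Module.finrank F E) => φ ^ (i : ℕ)) := by
        intro i j hij
        apply Fin.ext
        apply hinj i j i.2 j.2
        have h2 := congrArg (fun σ => residue B (galRestrict A F E B σ α)) hij
        simpa only [hpow] using h2
      have h3 := Nat.card_le_card_of_injective _ hinj'
      simpa using h3
  · intro σ
    obtain ⟨i, -, rfl⟩ := hall σ
    exact Subgroup.npow_mem_zpowers φ i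
  · intro k σ hσ
    exact hkey σ k (hσ α)

end Core

/-! ## Existence of a generator -/

section Generator

variable {B : Type*} [CommRing B] [IsLocalRing B]

/-- A lift `α` of a generator of the unit group of the residue field: every nonzero residue is a
power of `ᾱ`, and the conjugates `ᾱ^(Q^i)`, `i < n`, are distinct when the residue field has
`Q^n` elements. -/
lemma exists_generator [Finite (ResidueField B)] (Q n : ℕ)
    (hcard : Nat.card (ResidueField B) = Q ^ n) :
    ∃ α : B, (∀ t : ResidueField B, t ≠ 0 → ∃ j : ℕ, t = residue B α ^ j) ∧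
      ∀ i j, i < n → j < n → residue B α ^ Q ^ i = residue B α ^ Q ^ j → i = j := by
  obtain ⟨u, hu⟩ := IsCyclic.exists_generator (α := (ResidueField B)ˣ)
  obtain ⟨α, hα⟩ := residue_surjective (u : ResidueField B)
  have hord : orderOf u = Q ^ n - 1 := by
    rw [orderOf_eq_card_of_forall_mem_zpowers hu, Nat.card_units, hcard]
  have hQ2 : 2 ≤ Q := by
    by_contra hlt
    have h1 : Q ^ n ≤ 1 := by
      interval_cases Q
      · rcases Nat.eq_zero_or_pos n with rfl | hn
        · simp
        · simp [zero_pow hn.ne']
      · simp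
    have h2 : 1 < Nat.card (ResidueField B) := Finite.one_lt_card
    omega
  have key : ∀ i j, i < j → j < n → (u : ResidueField B) ^ Q ^ i ≠ (u : ResidueField B) ^ Q ^ j := by
    intro i j hij hjn h
    have h1 : u ^ Q ^ i = u ^ Q ^ j := Units.ext (by simpa using h)
    rw [pow_eq_pow_iff_modEq, hord] at h1
    have h2 : Q ^ n - 1 ∣ Q ^ j - Q ^ i :=
      (Nat.modEq_iff_dvd' (Nat.pow_le_pow_right (by omega) hij.le)).1 h1
    have h3 : Q ^ i < Q ^ j := Nat.pow_lt_pow_right (by omega) hij
    have h4 : Q ^ j < Q ^ n := Nat.pow_lt_pow_right (by omega) hjn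
    have h5 : 0 < Q ^ i := Nat.pos_of_ne_zero (pow_ne_zero _ (by omega))
    have h6 := Nat.le_of_dvd (by omega) h2
    omega
  refine ⟨α, ?_, ?_⟩
  · intro t ht
    have h1 : Units.mk0 t ht ∈ Submonoid.powers u := mem_powers_iff_mem_zpowers.2 (hu _)
    obtain ⟨j, hj⟩ := h1
    have hj' : u ^ j = Units.mk0 t ht := hj
    refine ⟨j, ?_⟩
    rw [hα, ← Units.val_pow_eq_pow_val, hj', Units.val_mk0]
  · intro i j hi hj h
    rw [hα] at h
    rcases lt_trichotomy i j with hij | hij | hij
    · exact absurd h (key i j hij hj)
    · exact hij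
    · exact absurd h.symm (key j i hij hi)

end Generator

/-! ## Cardinality of `S/𝔪_R S` -/

lemma card_quotient_map_maximalIdeal {R S : Type*} [CommRing R] [CommRing S] [Algebra R S]
    [IsLocalRing R] [Module.Finite R S] [Module.Free R S] :
    Nat.card (S ⧸ (maximalIdeal R).map (algebraMap R S)) =
      Nat.card (ResidueField R) ^ Module.finrank R S := by
  rw [← IsLocalRing.finrank_quotient_map (R := R) (S := S)]
  let : Field (R ⧸ maximalIdeal R) := Ideal.Quotient.field _
  have : Module.Finite (R ⧸ maximalIdeal R) (S ⧸ (maximalIdeal R).map (algebraMap R S)) :=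
    Module.Finite.of_restrictScalars_finite R _ _
  exact Module.natCard_eq_pow_finrank (K := R ⧸ maximalIdeal R)

section Final

variable (A F E : Type*) {B : Type*} [CommRing A] [IsDomain A] [IsIntegrallyClosed A]
  [Field F] [Algebra A F] [IsFractionRing A F]
  [Field E] [Algebra F E] [FiniteDimensional F E] [Algebra A E] [IsScalarTower A F E]
  [CommRing B] [IsDomain B] [IsLocalRing B] [Algebra A B] [Algebra B E] [IsScalarTower A B E]
  [IsIntegralClosure B A E]

/-- **Structure of unramified extensions, abstract form.** If `A` has residue field with `p^f`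
elements and `B` (complete) has residue field of characteristic `p` with `(p^f)^[E:F]` elements,
then `E/F` is Galois and cyclic, generated by the unique Frobenius element. -/
theorem exists_frobenius_of_card [IsAdicComplete (maximalIdeal B) B]
    (p f : ℕ) [Fact p.Prime] [CharP (ResidueField B) p] [Finite (ResidueField B)]
    (hA : ∀ a : A, rho A B a ^ (p ^ f) = rho A B a)
    (hcard : Nat.card (ResidueField B) = (p ^ f) ^ Module.finrank F E) :
    IsGalois F E ∧ ∃ φ : E ≃ₐ[F] E,
      (∀ b : B, residue B (galRestrict A F E B φ b) = residue B b ^ (p ^ f)) ∧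
      (∀ σ : E ≃ₐ[F] E, σ ∈ Subgroup.zpowers φ) ∧
      ∀ (k : ℕ) (σ : E ≃ₐ[F] E),
        (∀ b : B, residue B (galRestrict A F E B σ b) = residue B b ^ (p ^ f) ^ k) →
          σ = φ ^ k := by
  obtain ⟨α, hgen, hinj⟩ := exists_generator (B := B) (p ^ f) (Module.finrank F E) hcard
  exact exists_frobenius A F E (p ^ f) α (eval₂_pow_card p f hA) hinj hgen

end Final

end Fermat.Agent.CFT.Local.UnramGalois
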