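import Mathlib

/-!
# Units are norms in unramified extensions (complete DVR form)

P3 / CFT program, local layer (L5). Pure Mathlib vocabulary; no model of local fields is chosen.

Main result: `Fermat.Agent.CFT.Local.UnramNorm.norm_units_surjective` — for a discrete valuation
ring `A` with finite residue field and a complete local ring `B`, finite free over `A`, with
`𝔪_A B = 𝔪_B`, the norm `Bˣ → Aˣ` is surjective.

Proof: residue norm and residue trace are surjective (finite fields), and
`N(1 + ϖ^m b) = 1 + ϖ^m Tr b + ϖ^(2m) c`; successive approximation and completeness of `B`.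
-/

set_option autoImplicit false

open IsLocalRing Module

namespace Fermat.Agent.CFT.Local.UnramNorm

section NormQuot

variable {R S : Type*} [CommRing R] [CommRing S] [Algebra R S]
variable [Module.Free R S] [Module.Finite R S]

attribute [local instance] Ideal.Quotient.field

/-- Norm commutes with reduction modulo the maximal ideal (norm analogue of Mathlib's
`Algebra.trace_quotient_mk`). -/
lemma norm_quotient_mk [IsLocalRing R] (x : S) :
    Algebra.norm (R ⧸ maximalIdeal R)
        (Ideal.Quotient.mk (Ideal.map (algebraMap R S) (maximalIdeal R)) x) =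
      Ideal.Quotient.mk (maximalIdeal R) (Algebra.norm R x) := by
  classical
  let ι := Module.Free.ChooseBasisIndex R S
  let b : Module.Basis ι R S := Module.Free.chooseBasis R S
  rw [Algebra.norm_eq_matrix_det b, Algebra.norm_eq_matrix_det (basisQuotient b), RingHom.map_det]
  congr 1
  ext i j
  simp only [Algebra.leftMulMatrix_apply, Algebra.coe_lmul_eq_mul, LinearMap.toMatrix_apply,
    basisQuotient_apply, LinearMap.mul_apply', RingHom.mapMatrix_apply, Matrix.map_apply,
    ← map_mul, basisQuotient_repr]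

/-- `N(1 + r b) = 1 + r Tr(b) + r² c`. -/
lemma exists_norm_one_add_smul (r : R) (b : S) :
    ∃ c : R, Algebra.norm R (1 + r • b) = 1 + r * Algebra.trace R S b + r ^ 2 * c := by
  classical
  let ι := Module.Free.ChooseBasisIndex R S
  let bas : Module.Basis ι R S := Module.Free.chooseBasis R S
  refine ⟨((1 + (Polynomial.X : Polynomial R) •
      (Algebra.leftMulMatrix bas b).map Polynomial.C).det).divX.divX.eval r, ?_⟩
  rw [Algebra.norm_eq_matrix_det bas, Algebra.trace_eq_matrix_trace bas, map_add, map_one,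
    map_smul, Matrix.det_one_add_smul]
  ring

/-- Residue trace is surjective: every `a : R` is a trace modulo the maximal ideal, when the
residue field of `R` is finite and `𝔪_R S` is a maximal ideal of `S`. -/
lemma exists_trace_sub_mem [IsLocalRing R] [Finite (R ⧸ maximalIdeal R)]
    (hmax : (Ideal.map (algebraMap R S) (maximalIdeal R)).IsMaximal) (a : R) :
    ∃ b : S, Algebra.trace R S b - a ∈ maximalIdeal R := by
  have := hmax
  have : Module.Finite (R ⧸ maximalIdeal R) (S ⧸ Ideal.map (algebraMap R S) (maximalIdeal R)) :=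
    Module.Finite.of_restrictScalars_finite R _ _
  obtain ⟨y, hy⟩ := Algebra.trace_surjective (R ⧸ maximalIdeal R)
    (S ⧸ Ideal.map (algebraMap R S) (maximalIdeal R)) (Ideal.Quotient.mk _ a)
  obtain ⟨b, rfl⟩ := Ideal.Quotient.mk_surjective y
  refine ⟨b, ?_⟩
  rw [Algebra.trace_quotient_mk] at hy
  exact Ideal.Quotient.eq.mp hy

/-- Residue norm is surjective on units. -/
lemma exists_norm_sub_mem [IsLocalRing R] [Finite (R ⧸ maximalIdeal R)]
    (hmax : (Ideal.map (algebraMap R S) (maximalIdeal R)).IsMaximal) (a : R) :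
    ∃ b : S, Algebra.norm R b - a ∈ maximalIdeal R := by
  have := hmax
  have : Module.Finite (R ⧸ maximalIdeal R) (S ⧸ Ideal.map (algebraMap R S) (maximalIdeal R)) :=
    Module.Finite.of_restrictScalars_finite R _ _
  have : Finite (S ⧸ Ideal.map (algebraMap R S) (maximalIdeal R)) :=
    Module.finite_of_finite (R ⧸ maximalIdeal R)
  obtain ⟨y, hy⟩ := FiniteField.norm_surjective (R ⧸ maximalIdeal R)
    (S ⧸ Ideal.map (algebraMap R S) (maximalIdeal R)) (Ideal.Quotient.mk _ a)
  obtain ⟨b, rfl⟩ := Ideal.Quotient.mk_surjective y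
  refine ⟨b, ?_⟩
  rw [norm_quotient_mk] at hy
  exact Ideal.Quotient.eq.mp hy

end NormQuot

section Main

variable (A B : Type*) [CommRing A] [IsDomain A] [IsDiscreteValuationRing A]
  [Finite (A ⧸ maximalIdeal A)]
  [CommRing B] [IsLocalRing B] [IsAdicComplete (maximalIdeal B) B]
  [Algebra A B] [Module.Finite A B] [Module.Free A B]

/-- **Units are norms in unramified extensions** (complete DVR form). `A` a discrete valuation
ring with finite residue field, `B` a complete local ring, finite free over `A`, with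
`𝔪_A B = 𝔪_B`. Then the norm `Bˣ → Aˣ` is surjective. -/
theorem norm_units_surjective
    (hunr : (maximalIdeal A).map (algebraMap A B) = maximalIdeal B) (u : Aˣ) :
    ∃ x : Bˣ, Algebra.norm A (x : B) = u := by
  classical
  obtain ⟨ϖ, hϖ⟩ := IsDiscreteValuationRing.exists_irreducible A
  have hm : maximalIdeal A = Ideal.span {ϖ} := hϖ.maximalIdeal_eq
  have hmax : (Ideal.map (algebraMap A B) (maximalIdeal A)).IsMaximal := by
    rw [hunr]; infer_instance
  have hmA : ∀ m : ℕ, (maximalIdeal A) ^ m = Ideal.span {ϖ ^ m} := by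
    intro m; rw [hm, Ideal.span_singleton_pow]
  have hmB : ∀ m : ℕ, (maximalIdeal B) ^ m = Ideal.span {algebraMap A B ϖ ^ m} := by
    intro m
    rw [← hunr, hm, Ideal.map_span, Set.image_singleton, Ideal.span_singleton_pow]
  -- `ϖ ^ m • b` lies in `𝔪_B ^ m`
  have hsmul : ∀ (m : ℕ) (b : B), ϖ ^ m • b ∈ (maximalIdeal B) ^ m := by
    intro m b
    rw [hmB, Ideal.mem_span_singleton', Algebra.smul_def, map_pow]
    exact ⟨b, mul_comm _ _⟩
  have hunit : ∀ (m : ℕ) (b : B), 1 ≤ m → IsUnit (1 + ϖ ^ m • b) := by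
    intro m b hm1
    have h1 : ϖ ^ m • b ∈ maximalIdeal B :=
      Ideal.pow_le_self (by omega) (hsmul m b)
    by_contra hcon
    have h2 : 1 + ϖ ^ m • b ∈ maximalIdeal B := (IsLocalRing.mem_maximalIdeal _).mpr hcon
    have h3 : (1 : B) ∈ maximalIdeal B := by
      have := (maximalIdeal B).sub_mem h2 h1
      simp at this
    exact (Ideal.ne_top_iff_one _).mp (IsLocalRing.maximalIdeal.isMaximal B).ne_top h3
  -- the approximation step
  have step : ∀ m : ℕ, 1 ≤ m → ∀ x : B, IsUnit x →
      Algebra.norm A x - u ∈ (maximalIdeal A) ^ m →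
      ∃ x' : B, IsUnit x' ∧ x' - x ∈ (maximalIdeal B) ^ m ∧
        Algebra.norm A x' - u ∈ (maximalIdeal A) ^ (m + 1) := by
    intro m hm1 x hx hN
    obtain ⟨v, hv⟩ := hx.map (Algebra.norm A)
    rw [hmA, Ideal.mem_span_singleton'] at hN
    obtain ⟨c, hc⟩ := hN
    obtain ⟨b, hb⟩ := exists_trace_sub_mem (R := A) (S := B) hmax (-((↑v⁻¹ : A) * c))
    rw [hm, Ideal.mem_span_singleton'] at hb
    obtain ⟨d, hd⟩ := hb
    obtain ⟨e, he⟩ := exists_norm_one_add_smul (R := A) (S := B) (ϖ ^ m) b
    refine ⟨x * (1 + ϖ ^ m • b), hx.mul (hunit m b hm1), ?_, ?_⟩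
    · have : x * (1 + ϖ ^ m • b) - x = ϖ ^ m • (x * b) := by
        rw [mul_add, mul_one, add_sub_cancel_left, mul_smul_comm]
      rw [this]
      exact hsmul m _
    · rw [map_mul, he, hmA, Ideal.mem_span_singleton']
      have hT : Algebra.trace A B b = d * ϖ - (↑v⁻¹ : A) * c := by
        linear_combination -hd
      have hvv : (v : A) * (↑v⁻¹ : A) = 1 := by simp
      obtain ⟨k, rfl⟩ : ∃ k, m = k + 1 := ⟨m - 1, by omega⟩
      refine ⟨(v : A) * d + (v : A) * ϖ ^ k * e, ?_⟩
      rw [← hv, hT]
      have hu : (u : A) = (v : A) - c * ϖ ^ (k + 1) := by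
        rw [hv]; linear_combination hc
      rw [hu]
      linear_combination (c * ϖ ^ (k + 1)) * hvv
  -- start of the recursion
  obtain ⟨y0, hy0⟩ := exists_norm_sub_mem (R := A) (S := B) hmax (u : A)
  have hy0u : IsUnit y0 := by
    by_contra hcon
    have h2 : y0 ∈ maximalIdeal B := (IsLocalRing.mem_maximalIdeal _).mpr hcon
    rw [← pow_one (maximalIdeal B), hmB, Ideal.mem_span_singleton'] at h2
    obtain ⟨b, hb⟩ := h2
    have h3 : Algebra.norm A y0 ∈ maximalIdeal A := by
      rw [← hb, pow_one, map_mul, Algebra.norm_algebraMap]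
      refine Ideal.mul_mem_left _ _ ?_
      rw [hm]
      refine Ideal.pow_mem_of_mem _ (Ideal.mem_span_singleton_self ϖ) _ ?_
      exact Module.finrank_pos
    have h4 : (u : A) ∈ maximalIdeal A := by
      have h5 := (maximalIdeal A).sub_mem h3 hy0
      rwa [sub_sub_cancel] at h5
    exact (IsLocalRing.mem_maximalIdeal _).mp h4 u.isUnit
  let P : ℕ → B → Prop := fun m x =>
    IsUnit x ∧ Algebra.norm A x - u ∈ (maximalIdeal A) ^ (m + 1)
  have hex : ∀ (m : ℕ) (x : {x : B // P m x}),
      ∃ x' : {x : B // P (m + 1) x}, (x' : B) - x ∈ (maximalIdeal B) ^ (m + 1) := by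
    intro m x
    obtain ⟨x', h1, h2, h3⟩ := step (m + 1) (by omega) x.1 x.2.1 x.2.2
    exact ⟨⟨x', h1, h3⟩, h2⟩
  choose nxt hnxt using hex
  let s : (m : ℕ) → {x : B // P m x} := fun m =>
    Nat.rec (motive := fun m => {x : B // P m x}) ⟨y0, hy0u, by simpa using hy0⟩
      (fun m x => nxt m x) m
  have hs : ∀ m, (s (m + 1)).1 - (s m).1 ∈
      (maximalIdeal B) ^ (m + 1) := fun m => hnxt m (s m)
  have hcauchy : ∀ m n : ℕ, m ≤ n → (s n).1 - (s m).1 ∈
      (maximalIdeal B) ^ (m + 1) := by
    intro m n hmn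
    induction n, hmn using Nat.le_induction with
    | base => simp
    | succ n hmn ih =>
      have h1 := hs n
      have h2 : (maximalIdeal B) ^ (n + 1) ≤ (maximalIdeal B) ^ (m + 1) :=
        Ideal.pow_le_pow_right (by omega)
      have := ((maximalIdeal B) ^ (m + 1)).add_mem (h2 h1) ih
      simpa using this
  obtain ⟨L, hL⟩ := IsPrecomplete.prec (I := maximalIdeal B) (M := B) inferInstance
    (f := fun m => (s m).1) (by
      intro m n hmn
      rw [SModEq.sub_mem, smul_eq_mul, Ideal.mul_top]
      have := hcauchy m n hmn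
      have h2 : (maximalIdeal B) ^ (m + 1) ≤ (maximalIdeal B) ^ m :=
        Ideal.pow_le_pow_right (by omega)
      have := h2 this
      rw [← neg_sub]
      exact neg_mem this)
  -- `L` is a unit and its norm is `u`
  have hLn : ∀ n : ℕ, ∃ b : B, L = (s n).1 * (1 + ϖ ^ n • b) := by
    intro n
    have h := hL n
    rw [SModEq.sub_mem, smul_eq_mul, Ideal.mul_top, hmB, Ideal.mem_span_singleton'] at h
    obtain ⟨b, hb⟩ := h
    obtain ⟨w, hw⟩ := (s n).2.1
    refine ⟨-((↑w⁻¹ : B) * b), ?_⟩
    have hww : (w : B) * (↑w⁻¹ : B) = 1 := by simp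
    rw [← hw, Algebra.smul_def, map_pow]
    rw [← hw] at hb
    linear_combination hb + (b * (algebraMap A B) ϖ ^ n) * hww
  have hLunit : IsUnit L := by
    obtain ⟨b, hb⟩ := hLn 1
    rw [hb]
    exact (s 1).2.1.mul (hunit 1 b le_rfl)
  refine ⟨hLunit.unit, ?_⟩
  rw [IsUnit.unit_spec]
  have hzero : Algebra.norm A L - (u : A) = 0 := by
    refine IsHausdorff.haus' (I := maximalIdeal A) (M := A) _ ?_
    intro n
    rw [SModEq.sub_mem, smul_eq_mul, Ideal.mul_top, sub_zero]
    obtain ⟨b, hb⟩ := hLn n
    obtain ⟨e, he⟩ := exists_norm_one_add_smul (R := A) (S := B) (ϖ ^ n) b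
    have h1 : Algebra.norm A (s n).1 - u ∈ (maximalIdeal A) ^ n :=
      Ideal.pow_le_pow_right (by omega) (s n).2.2
    have h2 : Algebra.norm A L - Algebra.norm A (s n).1 ∈
        (maximalIdeal A) ^ n := by
      rw [hb, map_mul, he, hmA, Ideal.mem_span_singleton']
      refine ⟨Algebra.norm A (s n).1 *
        (Algebra.trace A B b + ϖ ^ n * e), ?_⟩
      ring
    have := ((maximalIdeal A) ^ n).add_mem h2 h1
    simpa using this
  exact sub_eq_zero.mp hzero

end Main

section Variants

variable (A B : Type*) [CommRing A] [IsDomain A] [IsDiscreteValuationRing A]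
  [Finite (ResidueField A)]
  [CommRing B] [IsLocalRing B] [IsAdicComplete (maximalIdeal B) B]
  [Algebra A B] [Module.Finite A B] [Module.Free A B]

/-- `norm_units_surjective` with the finiteness hypothesis stated for `IsLocalRing.ResidueField`. -/
theorem norm_units_surjective'
    (hunr : (maximalIdeal A).map (algebraMap A B) = maximalIdeal B) (u : Aˣ) :
    ∃ x : Bˣ, Algebra.norm A (x : B) = u :=
  haveI : Finite (A ⧸ maximalIdeal A) := inferInstanceAs (Finite (ResidueField A))
  norm_units_surjective A B hunr u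

/-- The norm homomorphism on unit groups is surjective. -/
theorem unitsMap_norm_surjective
    (hunr : (maximalIdeal A).map (algebraMap A B) = maximalIdeal B) :
    Function.Surjective (Units.map (Algebra.norm A : B →* A)) := by
  intro u
  obtain ⟨x, hx⟩ := norm_units_surjective' A B hunr u
  exact ⟨x, Units.ext hx⟩

/-- Field form: with `K`, `L` localizations of `A`, `B` (e.g. the fraction fields), every unit of
`A` is the `L/K`-norm of a unit of `B`. -/
theorem exists_unit_norm_eq
    (hunr : (maximalIdeal A).map (algebraMap A B) = maximalIdeal B)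
    (K L : Type*) [CommRing K] [CommRing L] [Algebra A K] [Algebra B L] [Algebra K L]
    [Algebra A L] [IsScalarTower A K L] [IsScalarTower A B L]
    (M : Submonoid A) [IsLocalization M K]
    [IsLocalization (Algebra.algebraMapSubmonoid B M) L] (u : Aˣ) :
    ∃ x : Bˣ, Algebra.norm K (algebraMap B L (x : B)) = algebraMap A K (u : A) := by
  obtain ⟨x, hx⟩ := norm_units_surjective' A B hunr u
  exact ⟨x, by rw [Algebra.norm_localization A M (x : B), hx]⟩

end Variants

end Fermat.Agent.CFT.Local.UnramNorm
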