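import Mathlib
import Fermat.Agent.CFT.Local.IntRing
import Fermat.Agent.CFT.Local.UnramNorm
import Fermat.Agent.CFT.Local.UnramGalois
import Fermat.Agent.CFT.Local.Plan

/-!
# CFT program, layer Local: unramified extensions (`UnramUnitsNorm`, `UnramStruct`)
-/

set_option autoImplicit false
open Fermat.Agent.CFT.Local IsLocalRing
open Fermat.Agent.CFT.Local.IntRing

namespace Fermat.Agent.CFT.Local.UnramQ

section Rel
variable {q : ℕ} [Fact q.Prime] {F E : Type} [Field F] [Field E]
  [Algebra ℚ_[q] F] [Algebra ℚ_[q] E] [Algebra F E] [IsScalarTower ℚ_[q] F E]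

attribute [local instance] intAlgebra towerInt torsionFreeInt towerIntRel relAlgebra relTower
  relTowerInt isIntegralClosureRel

lemma charZeroOf (q : ℕ) [Fact q.Prime] (F : Type) [Field F] [Algebra ℚ_[q] F] : CharZero F :=
  charZero_of_injective_algebraMap (algebraMap ℚ_[q] F).injective

lemma isFractionRingOInt (q : ℕ) [Fact q.Prime] (F : Type) [Field F] [Algebra ℚ_[q] F]
    [FiniteDimensional ℚ_[q] F] : IsFractionRing (OInt q F) F :=
  integralClosure.isFractionRing_of_finite_extension ℚ_[q] F

lemma torsionFreeRel (q : ℕ) [Fact q.Prime] (F E : Type) [Field F] [Field E]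
    [Algebra ℚ_[q] F] [Algebra ℚ_[q] E] [Algebra F E] [IsScalarTower ℚ_[q] F E] :
    Module.IsTorsionFree (OInt q F) E := by
  rw [Module.isTorsionFree_iff_algebraMap_injective]
  intro a b hab
  exact Subtype.ext ((algebraMap F E).injective hab)

attribute [local instance] torsionFreeRel

variable [FiniteDimensional ℚ_[q] F] [FiniteDimensional F E]

/-- The integers of `E` are a finite module over the integers of `F`. -/
lemma relFinite (hF : OrdAt q F) : Module.Finite (OInt q F) (OInt q E) := by
  have := isDiscreteValuationRing q F hF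
  have := isFractionRingOInt q F
  have := charZeroOf q F
  exact IsIntegralClosure.finite (OInt q F) F E (OInt q E)

/-- The integers of `E` are a free module over the integers of `F`. -/
lemma relFree (hF : OrdAt q F) : Module.Free (OInt q F) (OInt q E) := by
  have := isDiscreteValuationRing q F hF
  have := isFractionRingOInt q F
  have := charZeroOf q F
  exact IsIntegralClosure.module_free (OInt q F) F E (OInt q E)

lemma relFinrank (hF : OrdAt q F) :
    Module.finrank (OInt q F) (OInt q E) = Module.finrank F E := by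
  have := isDiscreteValuationRing q F hF
  have := isFractionRingOInt q F
  have := charZeroOf q F
  exact IsIntegralClosure.rank (OInt q F) F E (OInt q E)

lemma finiteDimensionalTop (q : ℕ) [Fact q.Prime] (F E : Type) [Field F] [Field E]
    [Algebra ℚ_[q] F] [Algebra ℚ_[q] E] [Algebra F E] [IsScalarTower ℚ_[q] F E]
    [FiniteDimensional ℚ_[q] F] [FiniteDimensional F E] : FiniteDimensional ℚ_[q] E :=
  Module.Finite.trans F E

omit [FiniteDimensional ℚ_[q] F] [FiniteDimensional F E] in
/-- The maximal ideal of `F` lies under that of `E`. -/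
lemma map_maximalIdeal_le_rel [IsLocalRing (OInt q F)] [IsLocalRing (OInt q E)] :
    (maximalIdeal (OInt q F)).map (algebraMap (OInt q F) (OInt q E)) ≤
      maximalIdeal (OInt q E) := by
  rw [Ideal.map_le_iff_le_comap]
  intro a ha
  rw [Ideal.mem_comap, mem_maximalIdeal_iff, relAlgebra_coe, map_mem_maxIdeal_iff,
    ← mem_maximalIdeal_iff]
  exact ha

omit [FiniteDimensional ℚ_[q] F] [FiniteDimensional F E] in
/-- In an unramified extension, the maximal ideal of `F` generates that of `E`. -/
lemma map_maximalIdeal_eq (hE : OrdAt q E) [IsLocalRing (OInt q F)] [IsLocalRing (OInt q E)]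
    (hun : IsUnram q F E) :
    (maximalIdeal (OInt q F)).map (algebraMap (OInt q F) (OInt q E)) =
      maximalIdeal (OInt q E) := by
  apply le_antisymm map_maximalIdeal_le_rel
  obtain ⟨ϖ, hϖ, hϖi, hϖm⟩ := exists_uniformizer hE
  rw [maximalIdeal_eq_span hE ϖ hϖ hϖi, Ideal.span_singleton_le_iff_mem]
  obtain ⟨y, hy⟩ := hun ϖ
  have hyE : algebraMap F E (y : F) ∈ maxIdeal q E := by
    have h1 : ordZ q E (ϖ * (Units.map (algebraMap F E).toMonoidHom y)⁻¹) = 0 :=
      (hE.2.2.2.2.1 _).1 hy
    rw [hE.2.1, ordZ_inv hE, hϖ] at h1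
    exact (coe_mem_maxIdeal_iff hE (Units.map (algebraMap F E).toMonoidHom y)).2 (by omega)
  have hyF : (y : F) ∈ maxIdeal q F := (map_mem_maxIdeal_iff _).1 hyE
  have ha : (⟨(y : F), hyF.1⟩ : OInt q F) ∈ maximalIdeal (OInt q F) :=
    (mem_maximalIdeal_iff _).2 hyF
  have hfac : (⟨(ϖ : E), hϖi⟩ : OInt q E) =
      algebraMap (OInt q F) (OInt q E) ⟨(y : F), hyF.1⟩ *
        ⟨((ϖ * (Units.map (algebraMap F E).toMonoidHom y)⁻¹ : Eˣ) : E), hy.1⟩ := by
    apply Subtype.ext
    have hy0 : algebraMap F E (y : F) ≠ 0 := (map_ne_zero _).2 y.ne_zero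
    simp only [Subalgebra.coe_mul, relAlgebra_coe, Units.val_mul, Units.val_inv_eq_inv_val,
      Units.coe_map, RingHom.toMonoidHom_eq_coe, MonoidHom.coe_coe]
    field_simp
  rw [hfac]
  exact Ideal.mul_mem_right _ _ (Ideal.mem_map_of_mem _ ha)

/-- The residue field is finite. -/
lemma finite_residueField {q : ℕ} [Fact q.Prime] {F : Type} [Field F] [Algebra ℚ_[q] F]
    [FiniteDimensional ℚ_[q] F] (hF : OrdAt q F) [IsLocalRing (OInt q F)] :
    Finite (ResidueField (OInt q F)) := by
  apply Nat.finite_of_card_ne_zero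
  change Nat.card (OInt q F ⧸ maximalIdeal (OInt q F)) ≠ 0
  rw [card_residue hF]
  exact pow_ne_zero _ (Fact.out : q.Prime).ne_zero

/-- Norms from `E` to `F` of integers are computed integrally. -/
lemma algebraMap_norm (hF : OrdAt q F) (x : OInt q E) :
    ((Algebra.norm (OInt q F) x : OInt q F) : F) = Algebra.norm F (x : E) := by
  have := isDiscreteValuationRing q F hF
  have := isFractionRingOInt q F
  have := charZeroOf q F
  have := finiteDimensionalTop q F E
  have hD : IsDedekindDomain (OInt q E) := integralClosure.isDedekindDomain ℤ_[q] ℚ_[q] E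
  have := relFinite (E := E) hF
  have := relFree (E := E) hF
  have h2 : algebraMap (OInt q F) F (Algebra.intNorm (OInt q F) (OInt q E) x) =
      Algebra.norm F (algebraMap (OInt q E) E x) :=
    Algebra.algebraMap_intNorm (A := OInt q F) (K := F) (L := E) (B := OInt q E) x
  rw [Algebra.intNorm_eq_norm] at h2
  exact h2

/-- **UnramUnitsNorm** at a pair of fields: in an unramified extension every unit is the norm
of a unit. -/
theorem unramUnitsNorm_at (hF : OrdAt q F) (hE : OrdAt q E) (hun : IsUnram q F E)
    (u : Fˣ) (hu : u ∈ unitGroup q F) :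
    ∃ w ∈ unitGroup q E, Algebra.norm F (w : E) = (u : F) := by
  have := finiteDimensionalTop q F E
  have hdvr := isDiscreteValuationRing q F hF
  have := isLocalRing q E hE
  have := isAdicComplete hE
  have := relFinite (E := E) hF
  have := relFree (E := E) hF
  have := finite_residueField hF
  let u' : (OInt q F)ˣ :=
    ⟨⟨(u : F), hu.1⟩, ⟨((u⁻¹ : Fˣ) : F), hu.2⟩, Subtype.ext (by simp), Subtype.ext (by simp)⟩
  obtain ⟨x, hx⟩ := UnramNorm.norm_units_surjective' (OInt q F) (OInt q E)
    (map_maximalIdeal_eq hE hun) u'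
  refine ⟨Units.map (OInt q E).val.toMonoidHom x,
    ⟨(x : OInt q E).2, ((x⁻¹ : (OInt q E)ˣ) : OInt q E).2⟩, ?_⟩
  have h2 := algebraMap_norm hF (x : OInt q E)
  rw [hx] at h2
  exact h2.symm

/-! ## Structure of unramified extensions -/

/-- The residue characteristic. -/
lemma charP_residueField [IsLocalRing (OInt q E)] : CharP (ResidueField (OInt q E)) q := by
  rw [CharP.charP_iff_prime_eq_zero (Fact.out : q.Prime)]
  have h1 : ((q : ℕ) : OInt q E) ∈ maximalIdeal (OInt q E) := by
    apply IntRing.map_maximalIdeal_le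
    rw [map_maximalIdeal_eq_span]
    exact Ideal.mem_span_singleton_self _
  have h2 := (IsLocalRing.residue_eq_zero_iff _).2 h1
  rwa [map_natCast] at h2

/-- The `resCard`-power map fixes the residue field of `F`. -/
lemma pow_resCard_sub_mem (hF : OrdAt q F) [IsLocalRing (OInt q F)] (a : OInt q F) :
    a ^ resCard q F - a ∈ maximalIdeal (OInt q F) := by
  have := finite_residueField hF
  let _ : Fintype (ResidueField (OInt q F)) := Fintype.ofFinite _
  have hc : Fintype.card (ResidueField (OInt q F)) = resCard q F := by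
    rw [← Nat.card_eq_fintype_card]
    exact card_residue hF
  have h1 := FiniteField.pow_card (IsLocalRing.residue (OInt q F) a)
  rw [hc] at h1
  rw [← IsLocalRing.residue_eq_zero_iff, map_sub, map_pow, h1, sub_self]

/-- The residue field of an unramified extension of degree `n` has `resCard ^ n` elements. -/
lemma card_residueField_unram (hF : OrdAt q F) (hE : OrdAt q E) [IsLocalRing (OInt q F)]
    [IsLocalRing (OInt q E)] (hun : IsUnram q F E) :
    Nat.card (ResidueField (OInt q E)) = resCard q F ^ Module.finrank F E := by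
  have := relFinite (E := E) hF
  have := relFree (E := E) hF
  have h1 := UnramGalois.card_quotient_map_maximalIdeal (R := OInt q F) (S := OInt q E)
  rw [map_maximalIdeal_eq hE hun, relFinrank hF] at h1
  rw [← card_residue hF]
  exact h1

/-- **UnramStruct** at a pair of fields: an unramified extension is Galois, cyclic, generated by
its Frobenius element, which is characterised (with its powers) by the Frobenius congruence. -/
theorem unramStruct_at (hF : OrdAt q F) (hE : OrdAt q E) (hun : IsUnram q F E) :
    IsGalois F E ∧ ∃ φ : E ≃ₐ[F] E, IsFrob q F E φ ∧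
      (∀ σ : E ≃ₐ[F] E, σ ∈ Subgroup.zpowers φ) ∧
      ∀ (k : ℕ) (σ : E ≃ₐ[F] E),
        (∀ x ∈ integers q E, σ x - x ^ (resCard q F ^ k) ∈ maxIdeal q E) → σ = φ ^ k := by
  have := finiteDimensionalTop q F E
  have hdvr := isDiscreteValuationRing q F hF
  have := isLocalRing q E hE
  have := isAdicComplete hE
  have := isFractionRingOInt q F
  have := finite_residueField hE
  have := charP_residueField (q := q) (E := E)
  have hA : ∀ a : OInt q F, UnramGalois.rho (OInt q F) (OInt q E) a ^ (q ^ fDeg q F) =
      UnramGalois.rho (OInt q F) (OInt q E) a := by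
    intro a
    have h1 := pow_resCard_sub_mem hF a
    have h2 : algebraMap (OInt q F) (OInt q E) (a ^ resCard q F - a) ∈
        maximalIdeal (OInt q E) :=
      map_maximalIdeal_le_rel (Ideal.mem_map_of_mem _ h1)
    rw [← IsLocalRing.residue_eq_zero_iff, map_sub, map_pow, map_sub, map_pow, sub_eq_zero] at h2
    exact h2
  have hcard : Nat.card (ResidueField (OInt q E)) = (q ^ fDeg q F) ^ Module.finrank F E :=
    card_residueField_unram hF hE hun
  obtain ⟨hgal, φ, hφ, hcyc, huniq⟩ :=
    UnramGalois.exists_frobenius_of_card (OInt q F) F E q (fDeg q F) hA hcard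
  have hcoe : ∀ (σ : E ≃ₐ[F] E) (b : OInt q E),
      ((galRestrict (OInt q F) F E (OInt q E) σ b : OInt q E) : E) = σ (b : E) :=
    fun σ b => algebraMap_galRestrict_apply (OInt q F) σ b
  refine ⟨hgal, φ, ?_, hcyc, ?_⟩
  · intro x hx
    have h1 := hφ ⟨x, hx⟩
    rw [← map_pow, ← sub_eq_zero, ← map_sub, IsLocalRing.residue_eq_zero_iff,
      mem_maximalIdeal_iff] at h1
    simpa only [Subalgebra.coe_sub, Subalgebra.coe_pow, hcoe, resCard] using h1
  · intro k σ hσ
    apply huniq k σ
    intro b
    have h1 := hσ (b : E) b.2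
    rw [← map_pow, ← sub_eq_zero, ← map_sub, IsLocalRing.residue_eq_zero_iff,
      mem_maximalIdeal_iff]
    simpa only [Subalgebra.coe_sub, Subalgebra.coe_pow, hcoe, resCard] using h1

/-- **UnramUnitsH1** at a pair of fields: in an unramified extension with Frobenius `φ`, a unit
of norm `1` is of the form `φ w / w` for a unit `w`. -/
theorem unramUnitsH1_at (hF : OrdAt q F) (hE : OrdAt q E) (φ : E ≃ₐ[F] E)
    (hun : IsUnram q F E) (hφ : IsFrob q F E φ) (u : Eˣ) (hN : Algebra.norm F (u : E) = 1) :
    ∃ w ∈ unitGroup q E, (u : E) * (w : E) = φ (w : E) := by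
  obtain ⟨hgal, φ₀, -, hcyc, huniq⟩ := unramStruct_at hF hE hun
  have hφeq : φ = φ₀ := by
    have h1 := huniq 1 φ (fun x hx => by simpa only [pow_one] using hφ x hx)
    simpa only [pow_one] using h1
  subst hφeq
  have : IsCyclic (E ≃ₐ[F] E) := isCyclic_iff_exists_zpowers_eq_top.2
    ⟨φ, (Subgroup.eq_top_iff' _).2 hcyc⟩
  have hNinv : Algebra.norm F ((u : E)⁻¹) = 1 := by rw [Algebra.norm_inv, hN, inv_one]
  obtain ⟨y, hy⟩ := groupCohomology.exists_div_of_norm_eq_one hcyc hNinv
  have hφy0 : φ (y : E) ≠ 0 := (map_ne_zero _).2 y.ne_zero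
  have h1 : φ (y : E) = (u : E) * (y : E) := by
    have h2 := (div_eq_iff hφy0).1 hy
    rw [eq_comm]
    conv_lhs => rw [h2]
    rw [← mul_assoc, mul_inv_cancel₀ u.ne_zero, one_mul]
  obtain ⟨a, ha⟩ := hun y
  refine ⟨_, ha, ?_⟩
  simp only [Units.val_mul, Units.val_inv_eq_inv_val, Units.coe_map, RingHom.toMonoidHom_eq_coe,
    MonoidHom.coe_coe, map_mul, map_inv₀, AlgEquiv.commutes, h1]
  ring

end Rel

/-! ## The Plan statements -/

/-- The body of `Plan.OrdStmt` at one field. -/
lemma ordAt_of_plan (h : Plan.OrdStmt) (q : ℕ) [Fact q.Prime] (E : Type) [Field E]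
    [Algebra ℚ_[q] E] [FiniteDimensional ℚ_[q] E] : OrdAt q E := by
  obtain ⟨h1, -, h3, h4, h5, h6, h7, h8, -, -, h11⟩ := h q E
  exact ⟨h1, h3, h4, h5, h6, h7, h8, h11⟩

/-- **[UnramNorm]** In an unramified extension every unit is the norm of a unit. -/
theorem unramUnitsNorm (h : Plan.OrdStmt) : Plan.UnramUnitsNorm := by
  intro q _ F E _ _ _ _ _ _ _ _ hun u hu
  have := finiteDimensionalTop q F E
  exact unramUnitsNorm_at (ordAt_of_plan h q F) (ordAt_of_plan h q E) hun u hu

/-- **[UnramStruct]** An unramified extension is Galois, cyclic, generated by its Frobenius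
element, which is characterised (together with its powers) by the Frobenius congruence. -/
theorem unramStruct (h : Plan.OrdStmt) : Plan.UnramStruct := by
  intro q _ F E _ _ _ _ _ _ _ _ hun
  have := finiteDimensionalTop q F E
  exact unramStruct_at (ordAt_of_plan h q F) (ordAt_of_plan h q E) hun

/-- **[UnramUnitsH1]** In an unramified extension a unit of norm `1` is `φ w / w`. -/
theorem unramUnitsH1 (h : Plan.OrdStmt) : Plan.UnramUnitsH1 := by
  intro q _ F E _ _ _ _ _ _ _ _ φ hun hφ u _ hN
  have := finiteDimensionalTop q F E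
  exact unramUnitsH1_at (ordAt_of_plan h q F) (ordAt_of_plan h q E) φ hun hφ u hN

end Fermat.Agent.CFT.Local.UnramQ
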