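import Fermat.Agent.CFT.Local.Plan
import Fermat.Agent.CFT.Local.Ord
import Fermat.Agent.CFT.Local.ResField
import Fermat.Agent.CFT.Local.UnramExists
import Fermat.Agent.CFT.Local.UnramQ
import Fermat.Agent.CFT.Local.NormIndex
import Fermat.Agent.CFT.Local.NormUnits
import Fermat.Agent.CFT.Local.FieldCohPlan
import Fermat.Agent.CFT.Local.H2CardDvd
import Fermat.Agent.CFT.Local.UnramCoh
import Fermat.Agent.CFT.Local.PowIndexQ
import Fermat.Agent.CFT.Local.KummerUnramQ
import Fermat.Agent.CFT.Local.Inv
import Fermat.Agent.CFT.Local.ClassAt
import Fermat.Agent.CFT.Local.NormLimitation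

/-!
# CFT program, layer Local: every contract of `Local/Plan.lean`, unconditionally

One import for the consumers of the local layer (Global, Formation, Top).  Each theorem below is
the frozen contract of `Fermat.Agent.CFT.Local.Plan` with the same name (first letter lowered),
with no hypothesis left: the providers' theorems are composed here once and for all.

All 28 contracts are provided.
-/

set_option autoImplicit false

namespace Fermat.Agent.CFT.Local.Provide

/-! ## Block 0: integers, order, residue field -/

theorem ordStmt : Plan.OrdStmt := Ord.ordStmt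

theorem ordBase : Plan.OrdBase := Ord.ordBase

theorem relOrdStmt : Plan.RelOrdStmt := Ord.relOrdStmt

theorem resFieldStmt : Plan.ResFieldStmt := ResField.resFieldStmt ordStmt

/-! ## Block 1: unramified extensions -/

theorem unramUnitsNorm : Plan.UnramUnitsNorm := UnramQ.unramUnitsNorm ordStmt

theorem unramUnitsH1 : Plan.UnramUnitsH1 := UnramQ.unramUnitsH1 ordStmt

theorem unramStruct : Plan.UnramStruct := UnramQ.unramStruct ordStmt

theorem unramExists : Plan.UnramExists :=
  UnramExists.unramExists ordStmt relOrdStmt resFieldStmt

theorem unramComposite : Plan.UnramComposite :=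
  UnramExists.unramComposite ordStmt relOrdStmt resFieldStmt

/-! ## Block 2: norm index -/

theorem normIndexCyclic : Plan.NormIndexCyclic := Local.normIndexCyclic

theorem normUnitsIffUnram : Plan.NormUnitsIffUnram := Local.normUnitsIffUnram unramUnitsNorm

/-! ## Block 3: field cohomology -/

theorem fieldInfRes : Plan.FieldInfRes := FieldCoh.fieldInfRes

theorem fieldFunct : Plan.FieldFunct := FieldCoh.fieldFunct

/-! ## Block 4: `H²` and the invariant -/

theorem h2CardDvd : Plan.H2CardDvd := H2CardDvd.h2CardDvd_holds

theorem unramH2 : Plan.UnramH2 := UnramCoh.unramH2 ordStmt relOrdStmt unramUnitsNorm unramStruct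

theorem unramInfl : Plan.UnramInfl := UnramCoh.unramInfl relOrdStmt unramStruct

theorem unramBC : Plan.UnramBC := UnramCoh.unramBC ordStmt relOrdStmt unramStruct

theorem h2Card : Plan.H2Card :=
  Inv.h2Card ordStmt unramStruct unramExists unramComposite fieldFunct fieldInfRes unramH2
    unramBC h2CardDvd

theorem invBasic : Plan.InvBasic :=
  Inv.invBasic ordStmt unramStruct unramExists unramComposite unramInfl fieldFunct fieldInfRes
    unramH2 unramBC h2CardDvd

theorem invUnram : Plan.InvUnram :=
  Inv.invUnram ordStmt unramStruct unramExists unramComposite unramInfl fieldFunct fieldInfRes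
    unramH2

theorem invInfl : Plan.InvInfl :=
  Inv.invInfl ordStmt unramStruct unramExists unramComposite unramInfl fieldFunct fieldInfRes
    unramH2 unramBC h2CardDvd

theorem invRes : Plan.InvRes :=
  Inv.invRes ordStmt unramStruct unramExists unramComposite unramInfl fieldFunct fieldInfRes
    unramH2 unramBC h2CardDvd

theorem invBaseChange : Plan.InvBaseChange := Inv.invBaseChange fieldFunct invInfl invRes

theorem localClassAt : Plan.LocalClassAt := ClassAt.localClassAt invBasic invRes

theorem normLimitation : Plan.NormLimitation := NormLimitation.normLimitation invBasic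

/-! ## Block 5: power index, Hensel, Kummer -/

theorem powIndex : Plan.PowIndex := PowIndexQ.powIndex

theorem powHensel : Plan.PowHensel := PowIndexQ.powHensel

theorem kummerUnram : Plan.KummerUnram := KummerUnramQ.kummerUnram_holds

end Fermat.Agent.CFT.Local.Provide
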