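import Mathlib
import Fermat.Agent.CFT.Local.UnramQ
import Fermat.Agent.CFT.Local.Ord
import Fermat.Agent.CFT.Local.NormIndexAbstract
import Fermat.Agent.CFT.Local.IntegersComplete
import Fermat.Agent.CFT.Global.Defs
import Fermat.Agent.CFT.Coh.HerbrandCyclic

/-!
# CFT program, layer Local: cohomology of the unit group of the integers

For finite extensions `F ⊆ E` of `ℚ_[q]` the unit group `unitGroup q E` of the ring of integers
is a `Gal(E/F)`-submodule of `Eˣ`; `unitGroupRep q F E` is the corresponding object of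
`Rep ℤ (E ≃ₐ[F] E)` (built with `Global.subRep`, the same construction as the global
`localUnitsRep`).

* Generic part (any finite group `G` acting on a commutative group `M`, any `G`-stable subgroup
  `H`): the dictionary `valSub` / `mkSub` between `(Global.subRep G H hH).V` and `H`, the
  criterion `isZero_subRep_of_cyclic` (cyclic `G = ⟨g⟩`, `ker N = im (g - 1)` and
  `fixed = im N` on `H` imply `Hⁿ(G, H) = 0` for all `n ≥ 1`), and `h0_subRep_eq_one_iff`.
* CORE A (`IsUnram q F E`): `isZero_unitGroupRep` (`Hⁿ(Gal(E/F), 𝒪_Eˣ) = 0`, `n ≥ 1`),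
  `h0_unitGroupRep` (`Ĥ⁰ = 0`), with the elementary forms `exists_norm_of_fixed`,
  `exists_div_of_norm_eq_one`.
* CORE B (`E/F` cyclic): `herbrand_unitGroupRep` (both Tate groups are finite and the Herbrand
  quotient of `𝒪_Eˣ` is `1`).
-/

set_option autoImplicit false

namespace Fermat.Agent.CFT.Local.UnitsCoh

open CategoryTheory Fermat.Agent.CFT Fermat.Agent.CFT.Local Fermat.Agent.CFT.Herbrand

/-! ## Generic: cohomology of a finite cyclic group -/

/-- For a finite cyclic group `G = ⟨g⟩`: if `ker N = im (g - 1)` and `ker (g - 1) = im N` on `A`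
then `Hⁿ(G, A) = 0` for all `n ≥ 1`. -/
theorem isZero_of_cyclic {k G : Type} [CommRing k] [Group G] [Fintype G] (A : Rep.{0} k G)
    (g : G) (hg : ∀ x, x ∈ Subgroup.zpowers g)
    (hN : ∀ a : A.V, A.ρ.norm a = 0 → ∃ b : A.V, A.ρ g b - b = a)
    (hI : ∀ a : A.V, A.ρ g a = a → ∃ b : A.V, A.ρ.norm b = a) (n : ℕ) (hn : 1 ≤ n) :
    Limits.IsZero (groupCohomology A n) := by
  have hcyc : IsCyclic G := ⟨g, hg⟩
  let _ : CommGroup G := IsCyclic.commGroup
  rcases Nat.even_or_odd n with hi | hi
  · have : NeZero n := ⟨by omega⟩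
    refine Limits.IsZero.of_iso ?_ (Rep.FiniteCyclicGroup.groupCohomologyIsoEven A g hg n hi)
    rw [← ShortComplex.exact_iff_isZero_homology, ShortComplex.moduleCat_exact_iff]
    intro a ha
    have ha' : A.ρ g a - a = 0 := ha
    obtain ⟨b, hb⟩ := hI a (sub_eq_zero.1 ha')
    exact ⟨b, hb⟩
  · refine Limits.IsZero.of_iso ?_ (Rep.FiniteCyclicGroup.groupCohomologyIsoOdd A g hg n hi)
    rw [← ShortComplex.exact_iff_isZero_homology, ShortComplex.moduleCat_exact_iff]
    intro a ha
    have ha' : A.ρ.norm a = 0 := ha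
    obtain ⟨b, hb⟩ := hN a ha'
    exact ⟨b, hb⟩

/-- The index `idx f g` is invariant under isomorphisms. -/
theorem idx_congr {A B : Type*} [AddCommGroup A] [AddCommGroup B] (e : A ≃+ B)
    {fA gA : A →+ A} {fB gB : B →+ B} (hf : ∀ a, e (fA a) = fB (e a))
    (hg : ∀ a, e (gA a) = gB (e a)) : idx fA gA = idx fB gB := by
  have h1 : gA.range.map e.toAddMonoidHom = gB.range := by
    ext b
    constructor
    · rintro ⟨_, ⟨a, rfl⟩, rfl⟩
      exact ⟨e a, (hg a).symm⟩
    · rintro ⟨b, rfl⟩
      refine ⟨gA (e.symm b), ⟨_, rfl⟩, ?_⟩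
      show e (gA (e.symm b)) = gB b
      rw [hg, e.apply_symm_apply]
  have h2 : fA.ker.map e.toAddMonoidHom = fB.ker := by
    ext b
    rw [AddSubgroup.mem_map, AddMonoidHom.mem_ker]
    constructor
    · rintro ⟨a, ha, rfl⟩
      rw [AddMonoidHom.mem_ker] at ha
      show fB (e a) = 0
      rw [← hf, ha, map_zero]
    · intro hb
      refine ⟨e.symm b, ?_, by simp⟩
      rw [AddMonoidHom.mem_ker]
      apply e.injective
      rw [hf, e.apply_symm_apply, hb, map_zero]
  rw [idx, idx, ← h1, ← h2, AddSubgroup.relIndex_map_map_of_injective _ _ e.injective]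

/-! ## Generic: the sub-representation on a stable subgroup -/

section Generic

variable {G M : Type} [Group G] [CommGroup M] [MulDistribMulAction G M]
  (H : Subgroup M) (hH : ∀ (g : G), ∀ x ∈ H, g • x ∈ H)

/-- The underlying element of `M` of an element of the sub-representation on `H`. -/
def valSub (x : (Global.subRep G H hH).V) : M := Additive.toMul (x.1 : Additive M)

/-- The element of the sub-representation attached to an element of `H`. -/
def mkSub (u : M) (hu : u ∈ H) : (Global.subRep G H hH).V := ⟨Additive.ofMul u, hu⟩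

theorem valSub_mem (x : (Global.subRep G H hH).V) : valSub H hH x ∈ H := x.2

@[simp] theorem valSub_mkSub (u : M) (hu : u ∈ H) : valSub H hH (mkSub H hH u hu) = u := rfl

theorem valSub_injective : Function.Injective (valSub H hH) := by
  intro x y h
  exact Subtype.ext (Additive.toMul.injective h)

theorem mkSub_valSub (x : (Global.subRep G H hH).V) :
    mkSub H hH (valSub H hH x) (valSub_mem H hH x) = x := rfl

theorem valSub_zero : valSub H hH 0 = 1 := rfl

theorem valSub_add (x y : (Global.subRep G H hH).V) :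
    valSub H hH (x + y) = valSub H hH x * valSub H hH y := rfl

theorem valSub_sub (x y : (Global.subRep G H hH).V) :
    valSub H hH (x - y) = valSub H hH x / valSub H hH y := rfl

theorem valSub_ρ (g : G) (x : (Global.subRep G H hH).V) :
    valSub H hH ((Global.subRep G H hH).ρ g x) = g • valSub H hH x := rfl

theorem valSub_sum {ι : Type} (s : Finset ι) (f : ι → (Global.subRep G H hH).V) :
    valSub H hH (∑ i ∈ s, f i) = ∏ i ∈ s, valSub H hH (f i) := by
  classical
  induction s using Finset.induction_on with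
  | empty => simp [valSub_zero]
  | insert a s ha ih => rw [Finset.sum_insert ha, Finset.prod_insert ha, valSub_add, ih]

theorem valSub_norm [Fintype G] (x : (Global.subRep G H hH).V) :
    valSub H hH ((Global.subRep G H hH).ρ.norm x) = ∏ g : G, g • valSub H hH x := by
  rw [Representation.norm, LinearMap.sum_apply, valSub_sum]
  rfl

theorem valSub_eq_one_iff (x : (Global.subRep G H hH).V) : valSub H hH x = 1 ↔ x = 0 :=
  ⟨fun h => valSub_injective H hH (h.trans (valSub_zero H hH).symm), fun h => by rw [h]; rfl⟩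

/-- **Cyclic criterion for a stable subgroup**, in elementary (multiplicative) form. -/
theorem isZero_subRep_of_cyclic [Fintype G] (g : G) (hg : ∀ x, x ∈ Subgroup.zpowers g)
    (hN : ∀ u ∈ H, ∏ σ : G, σ • u = 1 → ∃ w ∈ H, g • w / w = u)
    (hI : ∀ u ∈ H, g • u = u → ∃ w ∈ H, ∏ σ : G, σ • w = u) (n : ℕ) (hn : 1 ≤ n) :
    Limits.IsZero (groupCohomology (Global.subRep G H hH) n) := by
  refine isZero_of_cyclic (Global.subRep G H hH) g hg (fun a ha => ?_) (fun a ha => ?_) n hn
  · obtain ⟨w, hw, hwa⟩ := hN (valSub H hH a) (valSub_mem H hH a) (by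
      rw [← valSub_norm, ha]; rfl)
    refine ⟨mkSub H hH w hw, valSub_injective H hH ?_⟩
    rw [valSub_sub, valSub_ρ, valSub_mkSub, hwa]
  · obtain ⟨w, hw, hwa⟩ := hI (valSub H hH a) (valSub_mem H hH a) (by
      rw [← valSub_ρ, ha])
    refine ⟨mkSub H hH w hw, valSub_injective H hH ?_⟩
    rw [valSub_norm, valSub_mkSub, hwa]

/-- `Ĥ⁰(G, H) = 0` in elementary (multiplicative) form. -/
theorem h0_subRep_eq_one_iff [Fintype G] :
    h0 (ofRepresentation (Global.subRep G H hH).ρ) = 1 ↔
      ∀ u ∈ H, (∀ g : G, g • u = u) → ∃ w ∈ H, ∏ g : G, g • w = u := by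
  rw [h0, AddSubgroup.relIndex_eq_one]
  constructor
  · intro h u hu hfix
    have h1 : mkSub H hH u hu ∈ invariants (ofRepresentation (Global.subRep G H hH).ρ) :=
      fun g => valSub_injective H hH (by
        rw [ofRepresentation_apply, valSub_ρ, valSub_mkSub, hfix g])
    obtain ⟨y, hy⟩ := h h1
    refine ⟨valSub H hH y, valSub_mem H hH y, ?_⟩
    have h2 := congrArg (valSub H hH) hy
    rw [nEnd_apply, valSub_sum, valSub_mkSub] at h2
    exact h2
  · intro h x hx
    obtain ⟨w, hw, hwx⟩ := h (valSub H hH x) (valSub_mem H hH x) (fun g => by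
      have := hx g
      rw [ofRepresentation_apply] at this
      rw [← valSub_ρ, this])
    refine ⟨mkSub H hH w hw, valSub_injective H hH ?_⟩
    rw [nEnd_apply, valSub_sum, ← hwx]
    rfl

end Generic

/-! ## The unit group of the integers as a Galois module -/

section Local

open Fermat.Agent.CFT.Local.UnramQ Fermat.Agent.CFT.Local.IntRing

variable (q : ℕ) [Fact q.Prime] (F E : Type) [Field F] [Field E]
  [Algebra ℚ_[q] F] [Algebra ℚ_[q] E] [Algebra F E] [IsScalarTower ℚ_[q] F E]

theorem coe_smul_unit (σ : E ≃ₐ[F] E) (u : Eˣ) : ((σ • u : Eˣ) : E) = σ (u : E) := rfl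

/-- The unit group of the ring of integers is Galois stable. -/
theorem smul_mem_unitGroup (σ : E ≃ₐ[F] E) (u : Eˣ) (hu : u ∈ unitGroup q E) :
    σ • u ∈ unitGroup q E := by
  refine ⟨NormIndex.algEquiv_mem_integers q E F σ hu.1, ?_⟩
  have h := NormIndex.algEquiv_mem_integers q E F σ hu.2
  have h2 : (((σ • u)⁻¹ : Eˣ) : E) = σ ((u⁻¹ : Eˣ) : E) := by
    rw [← smul_inv', coe_smul_unit]
  rw [h2]
  exact h

/-- The `Gal(E/F)`-module `𝒪_Eˣ` (units of the ring of integers of `E`). -/
noncomputable abbrev unitGroupRep : Rep ℤ (E ≃ₐ[F] E) :=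
  Global.subRep (E ≃ₐ[F] E) (unitGroup q E) (fun σ u hu => smul_mem_unitGroup q F E σ u hu)

/-- The inclusion `𝒪_Eˣ → Eˣ` as a morphism of `Gal(E/F)`-modules. -/
noncomputable def unitGroupIncl : unitGroupRep q F E ⟶ unitsRep F E :=
  Global.subRepIncl (E ≃ₐ[F] E) (unitGroup q E)
    (fun σ u hu => smul_mem_unitGroup q F E σ u hu)

theorem map_subtype_mem_unitGroup (x : (integers q E)ˣ) :
    Units.map (integers q E).subtype.toMonoidHom x ∈ unitGroup q E := by
  refine ⟨(x : integers q E).2, ?_⟩
  rw [← map_inv]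
  exact ((x⁻¹ : (integers q E)ˣ) : integers q E).2

/-- The unit group of the subring `integers q E` is the underlying group of `unitGroupRep`. -/
noncomputable def intUnitsEquiv : Additive (integers q E)ˣ ≃+ (unitGroupRep q F E).V where
  toFun x := mkSub (unitGroup q E) _ (Units.map (integers q E).subtype.toMonoidHom x.toMul)
    (map_subtype_mem_unitGroup q E x.toMul)
  invFun y := Additive.ofMul
    ⟨⟨(valSub (unitGroup q E) _ y : Eˣ), (valSub_mem (unitGroup q E) _ y).1⟩,
      ⟨((valSub (unitGroup q E) _ y)⁻¹ : Eˣ), (valSub_mem (unitGroup q E) _ y).2⟩,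
      Subtype.ext (by simp), Subtype.ext (by simp)⟩
  left_inv x := by
    apply Additive.toMul.injective
    exact Units.ext (Subtype.ext rfl)
  right_inv y := by
    apply valSub_injective
    exact Units.ext rfl
  map_add' x y := by
    apply valSub_injective
    rw [valSub_add]
    exact Units.ext rfl

theorem valSub_intUnitsEquiv (x : Additive (integers q E)ˣ) :
    valSub (unitGroup q E) _ (intUnitsEquiv q F E x) =
      Units.map (integers q E).subtype.toMonoidHom x.toMul := rfl

variable [FiniteDimensional ℚ_[q] F] [FiniteDimensional F E]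

/-! ### CORE A: unramified extensions -/

/-- In an unramified extension every Galois-invariant unit is the norm of a unit. -/
theorem exists_norm_of_fixed (hun : IsUnram q F E) (u : Eˣ) (hu : u ∈ unitGroup q E)
    (hfix : ∀ σ : E ≃ₐ[F] E, σ • u = u) :
    ∃ w ∈ unitGroup q E, ∏ σ : E ≃ₐ[F] E, σ • w = u := by
  have := finiteDimensionalTop q F E
  have hF := ordAt_of_plan Ord.ordStmt q F
  have hE := ordAt_of_plan Ord.ordStmt q E
  obtain ⟨hgal, -⟩ := unramStruct_at hF hE hun
  have hmem : (u : E) ∈ Set.range (algebraMap F E) := by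
    rw [IsGalois.mem_range_algebraMap_iff_fixed]
    intro σ
    have h := congrArg (fun v : Eˣ => (v : E)) (hfix σ)
    exact h
  obtain ⟨a, ha⟩ := hmem
  have ha0 : a ≠ 0 := by
    rintro rfl
    rw [map_zero] at ha
    exact u.ne_zero ha.symm
  have hinv : algebraMap F E a⁻¹ = ((u⁻¹ : Eˣ) : E) := by
    rw [map_inv₀, ha, Units.val_inv_eq_inv_val]
  have hau : Units.mk0 a ha0 ∈ unitGroup q F := by
    refine ⟨?_, ?_⟩
    · rw [Units.val_mk0, ← map_mem_integers_iff (q := q) (F := F) (E := E), ha]
      exact hu.1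
    · have h3 : (((Units.mk0 a ha0)⁻¹ : Fˣ) : F) = a⁻¹ := by
        rw [Units.val_inv_eq_inv_val, Units.val_mk0]
      rw [h3, ← map_mem_integers_iff (q := q) (F := F) (E := E), hinv]
      exact hu.2
  obtain ⟨w, hw, hNw⟩ := unramUnitsNorm_at hF hE hun (Units.mk0 a ha0) hau
  refine ⟨w, hw, Units.ext ?_⟩
  rw [Units.coe_prod, ← ha]
  have h1 := Algebra.norm_eq_prod_automorphisms F (w : E)
  rw [hNw, Units.val_mk0] at h1
  rw [h1]
  rfl

/-- In an unramified extension with Frobenius `φ`, a unit of norm `1` is `φ w / w` for a unit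
`w`. -/
theorem exists_div_of_norm_eq_one (hun : IsUnram q F E) (φ : E ≃ₐ[F] E) (hφ : IsFrob q F E φ)
    (u : Eˣ) (hN : ∏ σ : E ≃ₐ[F] E, σ • u = 1) :
    ∃ w ∈ unitGroup q E, φ • w / w = u := by
  have := finiteDimensionalTop q F E
  have hF := ordAt_of_plan Ord.ordStmt q F
  have hE := ordAt_of_plan Ord.ordStmt q E
  obtain ⟨hgal, -⟩ := unramStruct_at hF hE hun
  have hnorm : Algebra.norm F (u : E) = 1 := by
    apply (algebraMap F E).injective
    rw [Algebra.norm_eq_prod_automorphisms, map_one]
    have h := congrArg (fun v : Eˣ => (v : E)) hN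
    simp only [Units.coe_prod, Units.val_one] at h
    exact h
  obtain ⟨w, hw, hw2⟩ := unramUnitsH1_at hF hE φ hun hφ u hnorm
  refine ⟨w, hw, Units.ext ?_⟩
  rw [Units.val_div_eq_div_val, coe_smul_unit, ← hw2, mul_div_assoc, div_self w.ne_zero, mul_one]

/-- **CORE A**: the units of an unramified extension are cohomologically trivial in positive
degrees, `Hⁿ(Gal(E/F), 𝒪_Eˣ) = 0` for `n ≥ 1`. -/
theorem isZero_unitGroupRep (hun : IsUnram q F E) (n : ℕ) (hn : 1 ≤ n) :
    Limits.IsZero (groupCohomology (unitGroupRep q F E) n) := by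
  have := finiteDimensionalTop q F E
  have hF := ordAt_of_plan Ord.ordStmt q F
  have hE := ordAt_of_plan Ord.ordStmt q E
  obtain ⟨hgal, φ, hφ, hcyc, -⟩ := unramStruct_at hF hE hun
  refine isZero_subRep_of_cyclic (unitGroup q E) _ φ hcyc (fun u _ hN => ?_) (fun u hu hfix => ?_)
    n hn
  · exact exists_div_of_norm_eq_one q F E hun φ hφ u hN
  · refine exists_norm_of_fixed q F E hun u hu (fun σ => ?_)
    obtain ⟨k, rfl⟩ := Subgroup.mem_zpowers_iff.1 (hcyc σ)
    have hfix' : φ⁻¹ • u = u := by
      conv_lhs => rw [← hfix]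
      rw [inv_smul_smul]
    induction k using Int.induction_on with
    | zero => rw [zpow_zero, one_smul]
    | succ k ih => rw [zpow_add_one, mul_smul, hfix, ih]
    | pred k ih => rw [zpow_sub_one, mul_smul, hfix', ih]

/-- **CORE A**, degree `0`: in an unramified extension `Ĥ⁰(Gal(E/F), 𝒪_Eˣ) = 0`. -/
theorem h0_unitGroupRep (hun : IsUnram q F E) :
    h0 (ofRepresentation (unitGroupRep q F E).ρ) = 1 :=
  (h0_subRep_eq_one_iff (unitGroup q E) _).2
    (fun u hu hfix => exists_norm_of_fixed q F E hun u hu hfix)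

/-! ### CORE B: cyclic extensions -/

/-- **CORE B**: for a cyclic extension `E/F` of finite extensions of `ℚ_[q]` both Tate groups of
the unit group `𝒪_Eˣ` are finite, and its Herbrand quotient is `1`. -/
theorem herbrand_unitGroupRep [IsGalois F E] [IsCyclic (E ≃ₐ[F] E)] :
    IsFinH (ofRepresentation (unitGroupRep q F E).ρ) ∧
      herbrand (ofRepresentation (unitGroupRep q F E).ρ) = 1 := by
  have := finiteDimensionalTop q F E
  have hqE : algebraMap F E (q : F) = (q : E) := map_natCast _ _
  have hqF : (q : F) ≠ 0 := by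
    have h1 : ((q : ℚ_[q])) ≠ 0 := Nat.cast_ne_zero.2 (Fact.out : q.Prime).ne_zero
    have h2 : algebraMap ℚ_[q] F (q : ℚ_[q]) ≠ 0 :=
      (map_ne_zero_iff _ (algebraMap ℚ_[q] F).injective).2 h1
    rwa [map_natCast] at h2
  have hmem : algebraMap F E (q : F) ∈ integers q E := by
    rw [hqE]; exact NormIndex.natCast_mem_integers q E
  have e : (⟨algebraMap F E (q : F), hmem⟩ : integers q E) =
      ⟨(q : E), NormIndex.natCast_mem_integers q E⟩ := Subtype.ext hqE
  have hO : ∀ (σ : E ≃ₐ[F] E) (x : E), x ∈ integers q E → σ x ∈ integers q E :=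
    fun σ x hx => NormIndex.algEquiv_mem_integers q E F σ hx
  let _ := NormIndex.galAction (integers q E) hO
  obtain ⟨σ, hσ⟩ := IsCyclic.exists_generator (α := E ≃ₐ[F] E)
  obtain ⟨θ, c, hL⟩ := NormIndex.exists_normalLatticeData (integers q E) hO (q : F) hqF hmem
    (fun y => by rw [hqE]; exact NormIndex.exists_pow_mul_mem_integers q E y)
  have : IsAdicComplete (Ideal.span {(⟨algebraMap F E (q : F), hmem⟩ : integers q E)})
      (integers q E) := by
    rw [e]; exact NormIndex.integers_isAdicComplete q E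
  have : Finite (integers q E ⧸
      Ideal.span {(⟨algebraMap F E (q : F), hmem⟩ : integers q E) ^ (2 * c + 1)}) := by
    rw [e]; exact NormIndex.integers_finite_quotient q E _
  obtain ⟨hfinA, hqA⟩ := NormIndex.units_herbrand hL hσ
  have hd : ∀ x : Additive (integers q E)ˣ,
      intUnitsEquiv q F E (NormIndex.dA σ x) =
        dEnd (ofRepresentation (unitGroupRep q F E).ρ) σ (intUnitsEquiv q F E x) := by
    intro x
    apply valSub_injective
    rw [dEnd_apply, ofRepresentation_apply, valSub_sub]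
    exact Units.ext rfl
  have hn : ∀ x : Additive (integers q E)ˣ,
      intUnitsEquiv q F E (NormIndex.nA (E ≃ₐ[F] E) (integers q E) x) =
        nEnd (ofRepresentation (unitGroupRep q F E).ρ) (intUnitsEquiv q F E x) := by
    intro x
    apply valSub_injective
    rw [nEnd_apply, valSub_sum, valSub_intUnitsEquiv, NormIndex.nA_apply, toMul_ofMul,
      NormIndex.nU_apply, map_prod]
    exact Finset.prod_congr rfl fun g _ => Units.ext rfl
  have h1 := idx_congr (intUnitsEquiv q F E) hd hn
  have h2 := idx_congr (intUnitsEquiv q F E) hn hd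
  rw [isFinH_iff _ hσ, herbrand_eq_hq _ hσ]
  refine ⟨⟨h1 ▸ hfinA.1, h2 ▸ hfinA.2⟩, ?_⟩
  rw [Herbrand.hq, ← h1, ← h2]
  exact hqA

end Local

end Fermat.Agent.CFT.Local.UnitsCoh
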