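import Mathlib
import Fermat.Prelude.Def_GaloisRep_CompletionBridge
import Fermat.Prelude.Def_GroupCohomology_ContinuousH2
import Fermat.Prelude.Def_ExtEndgame_ProductionDatum

/-!
# Krasner bridge: the local Galois group of the Prelude versus the decomposition group

With `r := localGaloisToGlobal q : Gal(PadicAlgCl q / ℚ_[q]) →* Gal(ℚ̄/ℚ)` (Prelude):

* `exists_mem_adjoin_padicEmbedding` : every element of `PadicAlgCl q` lies in
  `ℚ_[q]⟮padicEmbedding q b⟯` for some algebraic number `b` (Krasner's lemma).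
* `exists_global_level` (KB1), `exists_local_level` (KB2): the subgroups `r ⁻¹' F.fixingSubgroup`
  (`F/ℚ` finite) and `E.fixingSubgroup` (`E/ℚ_[q]` finite) are cofinal in each other.
* `localGaloisToGlobal_injective` (KB3).
* `range_localGaloisToGlobal` (KB4): the range of `r` is the decomposition group of
  `padicPlace q`.
* `isLevelConstant₁_local_iff`, `isLevelConstant₂_local_iff`: the Prelude's level-constant local
  cochains are the cochains that are right-invariant under an open subgroup.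
* versions for `ExtCitation.primeLocalToGlobal`.
-/

set_option autoImplicit false

open Polynomial IntermediateField

open scoped Pointwise

namespace Fermat.Agent.CFT.Local.KrasnerBridge

variable (q : ℕ) [Fact q.Prime]

/-- Every element of `PadicAlgCl q` algebraic over `ℚ` is in the range of `padicEmbedding q`. -/
lemma mem_range_padicEmbedding_of_isRoot (g : ℚ[X]) (hg : g ≠ 0) (b : PadicAlgCl q)
    (hb : aeval b g = 0) : ∃ b₀ : AlgebraicClosure ℚ, padicEmbedding q b₀ = b := by
  have hsplit : (g.map (algebraMap ℚ (AlgebraicClosure ℚ))).Splits := IsAlgClosed.splits _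
  have hmem : b ∈ (g.map (algebraMap ℚ (PadicAlgCl q))).roots := by
    rw [Polynomial.mem_roots (Polynomial.map_ne_zero hg)]
    simpa [Polynomial.IsRoot.def, Polynomial.eval_map_algebraMap] using hb
  have hmap : g.map (algebraMap ℚ (PadicAlgCl q)) =
      (g.map (algebraMap ℚ (AlgebraicClosure ℚ))).map (padicEmbedding q).toRingHom := by
    rw [Polynomial.map_map]
    congr 1
    exact (Subsingleton.elim _ _)
  rw [hmap, Splits.roots_map hsplit, Multiset.mem_map] at hmem
  obtain ⟨b₀, _, hb₀⟩ := hmem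
  exact ⟨b₀, hb₀⟩

/-- **Krasner approximation.** Every element of `PadicAlgCl q` lies in the field generated over
`ℚ_[q]` by the image of a single algebraic number. -/
theorem exists_mem_adjoin_padicEmbedding (α : PadicAlgCl q) :
    ∃ b₀ : AlgebraicClosure ℚ, α ∈ ℚ_[q]⟮padicEmbedding q b₀⟯ := by
  classical
  have hint : IsIntegral ℚ_[q] α := Algebra.IsIntegral.isIntegral α
  set f := minpoly ℚ_[q] α with hf
  have fmon : f.Monic := minpoly.monic hint
  have firr : Irreducible f := minpoly.irreducible hint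
  have fa0 : aeval α f = 0 := minpoly.aeval _ _
  have fnatdeg0 : f.natDegree ≠ 0 := (Irreducible.natDegree_pos firr).ne'
  let S : Finset (PadicAlgCl q) := {x ∈ (f.rootSet (PadicAlgCl q)).toFinset | x ≠ α}
  let δ : ℝ := if hS : S.Nonempty then Finset.min' (S.image fun x => ‖α - x‖)
      (Finset.image_nonempty.mpr hS) else 1
  have norm_sub_le : ∀ a' : PadicAlgCl q, IsConjRoot ℚ_[q] α a' → α ≠ a' → δ ≤ ‖α - a'‖ := by
    intro a' conj ne
    by_cases hS : S.Nonempty <;> simp only [hS, ↓reduceDIte, δ]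
    · apply Finset.min'_le (S.image fun x => ‖α - x‖) (‖α - a'‖)
      apply Finset.mem_image_of_mem
      simp only [Finset.mem_filter, Set.mem_toFinset, S]
      rw [hf, ← (isConjRoot_iff_mem_minpoly_rootSet hint)]
      exact ⟨conj, ne.symm⟩
    · simp only [ne_eq, Finset.not_nonempty_iff_eq_empty, Finset.filter_eq_empty_iff,
        Set.mem_toFinset, not_not, S] at hS
      rw [isConjRoot_iff_mem_minpoly_rootSet hint] at conj
      exact (ne (hS conj).symm).elim
  have δpos : δ > 0 := by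
    by_cases hS : S.Nonempty <;> simp only [hS, ↓reduceDIte, δ]
    · simp only [gt_iff_lt, Finset.lt_min'_iff, Finset.mem_image, forall_exists_index, and_imp,
        forall_apply_eq_imp_iff₂]
      rintro a' ha'
      simp only [Finset.mem_filter, Set.mem_toFinset, S] at ha'
      rw [norm_pos_iff, sub_ne_zero]
      exact ha'.2.symm
    · linarith
  have hε : (δ / (max ‖α‖ 1)) ^ f.natDegree / (f.natDegree + 1) > 0 := by positivity
  have hdense : DenseRange (algebraMap ℚ ℚ_[q]) := by
    have := Padic.denseRange_ratCast (p := q)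
    convert this using 1
    ext x
    exact eq_ratCast _ x
  obtain ⟨g, gmon, gdeg, gcoeff⟩ :=
    exists_monic_and_natDegree_eq_and_norm_map_algebraMap_coeff_sub_lt hdense fmon hε
  obtain ⟨b, hb, hab⟩ := exists_aroots_norm_sub_lt_of_norm_coeff_sub_lt
      hε fa0 fmon (gmon.map _) (gdeg ▸ (g.natDegree_map _)) gcoeff (IsAlgClosed.splits _)
  have hab : ‖α - b‖ < δ := by
    rw [← Real.rpow_natCast, ← mul_comm_div, div_self, one_mul,
        ← Real.rpow_mul (div_pos δpos (by positivity)).le, mul_inv_cancel₀] at hab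
    · simpa [mul_assoc, div_mul_cancel₀ _ (by positivity : (max ‖α‖ 1) > 0).ne'] using hab
    · simp [fnatdeg0]
    · positivity
  have hb0 : aeval b g = 0 := by
    have h2 := (Polynomial.mem_aroots.mp hb).2
    rwa [Polynomial.aeval_map_algebraMap] at h2
  obtain ⟨b₀, hb₀⟩ := mem_range_padicEmbedding_of_isRoot q g gmon.ne_zero b hb0
  refine ⟨b₀, ?_⟩
  rw [hb₀]
  have masp : ((minpoly ℚ_[q] α).map (algebraMap ℚ_[q] (PadicAlgCl q))).Splits :=
    IsAlgClosed.splits _
  exact IsKrasner.krasner (minpoly.irreducible hint).separable masp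
    (Algebra.IsIntegral.isIntegral b)
    fun a' h1 h2 ↦ lt_of_lt_of_le hab (norm_sub_le a' h1 h2)

/-- An automorphism fixing `b` fixes `ℚ_[q]⟮b⟯` pointwise. -/
lemma fixes_adjoin_simple {K L : Type*} [Field K] [Field L] [Algebra K L] (τ : L ≃ₐ[K] L) (b : L)
    (hb : τ b = b) {x : L} (hx : x ∈ K⟮b⟯) : τ x = x := by
  obtain ⟨r, s, rfl⟩ := (IntermediateField.mem_adjoin_simple_iff K x).1 hx
  rw [map_div₀, ← AlgEquiv.coe_toAlgHom, ← Polynomial.aeval_algHom_apply,
    ← Polynomial.aeval_algHom_apply, AlgEquiv.coe_toAlgHom, hb]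

/-- (KB1) Every open subgroup of the local Galois group contains the preimage of a global level
subgroup. -/
theorem exists_global_level (E : IntermediateField ℚ_[q] (PadicAlgCl q))
    [FiniteDimensional ℚ_[q] E] :
    ∃ F : IntermediateField ℚ (AlgebraicClosure ℚ), FiniteDimensional ℚ F ∧
      ∀ τ : PadicAlgCl q ≃ₐ[ℚ_[q]] PadicAlgCl q,
        localGaloisToGlobal q τ ∈ F.fixingSubgroup → τ ∈ E.fixingSubgroup := by
  obtain ⟨α, hα⟩ := Field.exists_primitive_element ℚ_[q] E
  obtain ⟨b₀, hb₀⟩ := exists_mem_adjoin_padicEmbedding q (α : PadicAlgCl q)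
  have hint : IsIntegral ℚ b₀ := ((AlgebraicClosure.isAlgebraic ℚ).isAlgebraic b₀).isIntegral
  refine ⟨ℚ⟮b₀⟯, adjoin.finiteDimensional hint, fun τ hτ => ?_⟩
  rw [IntermediateField.mem_fixingSubgroup_iff] at hτ ⊢
  have h1 : localGaloisToGlobal q τ b₀ = b₀ := hτ b₀ (mem_adjoin_simple_self ℚ b₀)
  have h2 : τ (padicEmbedding q b₀) = padicEmbedding q b₀ := by
    rw [← padicEmbedding_localGaloisToGlobal, h1]
  have h3 : τ (α : PadicAlgCl q) = α := fixes_adjoin_simple τ _ h2 hb₀
  intro x hx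
  have hx' : (⟨x, hx⟩ : E) ∈ ℚ_[q]⟮α⟯ := by rw [hα]; trivial
  obtain ⟨r, s, hrs⟩ := (IntermediateField.mem_adjoin_simple_iff ℚ_[q] _).1 hx'
  have hx2 : x = aeval (α : PadicAlgCl q) r / aeval (α : PadicAlgCl q) s := by
    have := congrArg E.val hrs
    rw [map_div₀] at this
    rw [show (α : PadicAlgCl q) = E.val α from rfl, Polynomial.aeval_algHom_apply,
      Polynomial.aeval_algHom_apply]
    exact this
  rw [hx2, map_div₀, ← AlgEquiv.coe_toAlgHom, ← Polynomial.aeval_algHom_apply,
    ← Polynomial.aeval_algHom_apply, AlgEquiv.coe_toAlgHom, h3]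

/-- (KB2) The preimage of every global level subgroup is open in the local Galois group. -/
theorem exists_local_level (F : IntermediateField ℚ (AlgebraicClosure ℚ))
    [FiniteDimensional ℚ F] :
    ∃ E : IntermediateField ℚ_[q] (PadicAlgCl q), FiniteDimensional ℚ_[q] E ∧
      ∀ τ : PadicAlgCl q ≃ₐ[ℚ_[q]] PadicAlgCl q,
        τ ∈ E.fixingSubgroup → localGaloisToGlobal q τ ∈ F.fixingSubgroup := by
  obtain ⟨β, hβ⟩ := Field.exists_primitive_element ℚ F
  refine ⟨ℚ_[q]⟮padicEmbedding q (β : AlgebraicClosure ℚ)⟯,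
    adjoin.finiteDimensional (Algebra.IsIntegral.isIntegral _), fun τ hτ => ?_⟩
  rw [IntermediateField.mem_fixingSubgroup_iff] at hτ ⊢
  have h1 : τ (padicEmbedding q (β : AlgebraicClosure ℚ)) = padicEmbedding q β :=
    hτ _ (mem_adjoin_simple_self ℚ_[q] _)
  have h2 : localGaloisToGlobal q τ (β : AlgebraicClosure ℚ) = β := by
    apply (padicEmbedding q).toRingHom.injective
    change padicEmbedding q _ = padicEmbedding q _
    rw [padicEmbedding_localGaloisToGlobal, h1]
  intro x hx
  have hx' : (⟨x, hx⟩ : F) ∈ ℚ⟮β⟯ := by rw [hβ]; trivial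
  obtain ⟨r, s, hrs⟩ := (IntermediateField.mem_adjoin_simple_iff ℚ _).1 hx'
  have hx2 : x = aeval (β : AlgebraicClosure ℚ) r / aeval (β : AlgebraicClosure ℚ) s := by
    have := congrArg F.val hrs
    rw [map_div₀] at this
    rw [show (β : AlgebraicClosure ℚ) = F.val β from rfl, Polynomial.aeval_algHom_apply,
      Polynomial.aeval_algHom_apply]
    exact this
  rw [hx2, map_div₀, ← AlgEquiv.coe_toAlgHom, ← Polynomial.aeval_algHom_apply,
    ← Polynomial.aeval_algHom_apply, AlgEquiv.coe_toAlgHom, h2]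

/-- (KB3) The local Galois group injects into the global one. -/
theorem localGaloisToGlobal_injective : Function.Injective (localGaloisToGlobal q) := by
  rw [injective_iff_map_eq_one]
  intro τ hτ
  ext y
  obtain ⟨b₀, hb₀⟩ := exists_mem_adjoin_padicEmbedding q y
  have h2 : τ (padicEmbedding q b₀) = padicEmbedding q b₀ := by
    rw [← padicEmbedding_localGaloisToGlobal, hτ]; rfl
  simpa using fixes_adjoin_simple τ _ h2 hb₀

open groupCohomology in
/-- Level-constancy of a local 1-cochain in the sense of the Prelude is right-invariance under an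
open subgroup of the local Galois group. -/
theorem isLevelConstant₁_local_iff {X : Type*} (f : (PadicAlgCl q ≃ₐ[ℚ_[q]] PadicAlgCl q) → X) :
    IsLevelConstant₁ (localGaloisToGlobal q) f ↔
      ∃ E : IntermediateField ℚ_[q] (PadicAlgCl q), FiniteDimensional ℚ_[q] E ∧
        ∀ g s, s ∈ E.fixingSubgroup → f (g * s) = f g := by
  constructor
  · rintro ⟨F, hF, h⟩
    obtain ⟨E, hE, hEF⟩ := exists_local_level q F
    exact ⟨E, hE, fun g s hs => h g s (hEF s hs)⟩
  · rintro ⟨E, hE, h⟩
    obtain ⟨F, hF, hFE⟩ := exists_global_level q E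
    exact ⟨F, hF, fun g s hs => h g s (hFE s hs)⟩

open groupCohomology in
/-- Level-constancy of a local 2-cochain in the sense of the Prelude is right-invariance under an
open subgroup of the local Galois group. -/
theorem isLevelConstant₂_local_iff {X : Type*}
    (f : (PadicAlgCl q ≃ₐ[ℚ_[q]] PadicAlgCl q) × (PadicAlgCl q ≃ₐ[ℚ_[q]] PadicAlgCl q) → X) :
    IsLevelConstant₂ (localGaloisToGlobal q) f ↔
      ∃ E : IntermediateField ℚ_[q] (PadicAlgCl q), FiniteDimensional ℚ_[q] E ∧
        ∀ g g' s s', s ∈ E.fixingSubgroup → s' ∈ E.fixingSubgroup →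
          f (g * s, g' * s') = f (g, g') := by
  constructor
  · rintro ⟨F, hF, h⟩
    obtain ⟨E, hE, hEF⟩ := exists_local_level q F
    exact ⟨E, hE, fun g g' s s' hs hs' => h g g' s s' (hEF s hs) (hEF s' hs')⟩
  · rintro ⟨E, hE, h⟩
    obtain ⟨F, hF, hFE⟩ := exists_global_level q E
    exact ⟨F, hF, fun g g' s s' hs hs' => h g g' s s' (hFE s hs) (hFE s' hs')⟩

section Decomposition

open TensorProduct

/-- Elements of the decomposition group preserve membership in the place. -/
lemma apply_mem_padicPlace_iff (σ : AlgebraicClosure ℚ ≃ₐ[ℚ] AlgebraicClosure ℚ)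
    (hσ : σ ∈ (padicPlace q).decompositionSubgroup ℚ) (x : AlgebraicClosure ℚ) :
    σ x ∈ padicPlace q ↔ x ∈ padicPlace q := by
  have h : σ • padicPlace q = padicPlace q := MulAction.mem_stabilizer_iff.1 hσ
  conv_lhs => rw [← h]
  rw [ValuationSubring.mem_pointwise_smul_iff_inv_smul_mem]
  simp [AlgEquiv.smul_def]

lemma norm_natCast_self : ‖((q : ℕ) : PadicAlgCl q)‖ = (q : ℝ)⁻¹ := by
  rw [← map_natCast (algebraMap ℚ_[q] (PadicAlgCl q))]
  exact (PadicAlgCl.norm_extends q _).trans Padic.norm_p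

/-- Elements of the decomposition group do not increase the `q`-adic norm. -/
lemma norm_padicEmbedding_apply_le (σ : AlgebraicClosure ℚ ≃ₐ[ℚ] AlgebraicClosure ℚ)
    (hσ : σ ∈ (padicPlace q).decompositionSubgroup ℚ) (x : AlgebraicClosure ℚ) :
    ‖padicEmbedding q (σ x)‖ ≤ ‖padicEmbedding q x‖ := by
  by_contra hlt
  push Not at hlt
  have hx : x ≠ 0 := by
    rintro rfl
    simp at hlt
  have hιx : padicEmbedding q x ≠ 0 := (_root_.map_ne_zero _).2 hx
  set a := ‖padicEmbedding q x‖ with ha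
  set b := ‖padicEmbedding q (σ x)‖ with hb
  have ha0 : 0 < a := norm_pos_iff.2 hιx
  have hq1 : (1 : ℝ) < q := by exact_mod_cast (Fact.out : q.Prime).one_lt
  have hq0 : (0 : ℝ) < q := by linarith
  obtain ⟨n, hn⟩ := pow_unbounded_of_one_lt (q : ℝ) ((one_lt_div ha0).2 hlt)
  obtain ⟨k, hk1, hk2⟩ := exists_mem_Ioc_zpow (pow_pos ha0 n) hq1
  set u : AlgebraicClosure ℚ := x ^ n * ((q : ℕ) : AlgebraicClosure ℚ) ^ (k + 1) with hu
  have hnu : ‖padicEmbedding q u‖ = a ^ n * ((q : ℝ)⁻¹) ^ (k + 1) := by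
    rw [hu, map_mul, map_pow, map_zpow₀, map_natCast, norm_mul, norm_pow, norm_zpow,
      norm_natCast_self]
  have hnσu : ‖padicEmbedding q (σ u)‖ = b ^ n * ((q : ℝ)⁻¹) ^ (k + 1) := by
    rw [hu, map_mul, map_pow, map_zpow₀, map_natCast, map_mul, map_pow, map_zpow₀, map_natCast,
      norm_mul, norm_pow, norm_zpow, norm_natCast_self]
  have hqk : (0 : ℝ) < (q : ℝ) ^ (k + 1) := zpow_pos hq0 _
  have h1 : u ∈ padicPlace q := by
    rw [mem_padicPlace_iff, ← NNReal.coe_le_coe, coe_nnnorm, hnu, NNReal.coe_one, inv_zpow,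
      ← div_eq_mul_inv, div_le_one hqk]
    exact hk2
  have h2 : σ u ∉ padicPlace q := by
    rw [mem_padicPlace_iff, ← NNReal.coe_le_coe, coe_nnnorm, hnσu, NNReal.coe_one, not_le,
      inv_zpow, ← div_eq_mul_inv, one_lt_div hqk]
    calc (q : ℝ) ^ (k + 1) = q * (q : ℝ) ^ k := by rw [zpow_add_one₀ hq0.ne', mul_comm]
      _ < q * a ^ n := by gcongr
      _ < (b / a) ^ n * a ^ n := by gcongr
      _ = b ^ n := by rw [div_pow, div_mul_cancel₀ _ (pow_ne_zero _ ha0.ne')]
  exact h2 ((apply_mem_padicPlace_iff q σ hσ u).2 h1)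

/-- Elements of the decomposition group are isometries for the `q`-adic norm. -/
lemma norm_padicEmbedding_apply (σ : AlgebraicClosure ℚ ≃ₐ[ℚ] AlgebraicClosure ℚ)
    (hσ : σ ∈ (padicPlace q).decompositionSubgroup ℚ) (x : AlgebraicClosure ℚ) :
    ‖padicEmbedding q (σ x)‖ = ‖padicEmbedding q x‖ := by
  refine le_antisymm (norm_padicEmbedding_apply_le q σ hσ x) ?_
  have := norm_padicEmbedding_apply_le q σ⁻¹ (inv_mem hσ) (σ x)
  simpa using this

/-- The `ℚ_[q]`-algebra map `ℚ_[q] ⊗ ℚ̄ → PadicAlgCl q` attached to an embedding of `ℚ̄`. -/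
noncomputable def tensorEval (g : AlgebraicClosure ℚ →ₐ[ℚ] PadicAlgCl q) :
    (ℚ_[q] ⊗[ℚ] AlgebraicClosure ℚ) →ₐ[ℚ_[q]] PadicAlgCl q :=
  Algebra.TensorProduct.lift (Algebra.ofId ℚ_[q] (PadicAlgCl q)) g (fun _ _ => Commute.all _ _)

@[simp] lemma tensorEval_tmul (g : AlgebraicClosure ℚ →ₐ[ℚ] PadicAlgCl q) (c : ℚ_[q])
    (b : AlgebraicClosure ℚ) :
    tensorEval q g (c ⊗ₜ b) = algebraMap ℚ_[q] (PadicAlgCl q) c * g b := rfl

lemma norm_algebraMap_sub_ratCast (c : ℚ_[q]) (r : ℚ) :
    ‖algebraMap ℚ_[q] (PadicAlgCl q) c - (r : PadicAlgCl q)‖ = ‖c - (r : ℚ_[q])‖ := by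
  rw [← map_ratCast (algebraMap ℚ_[q] (PadicAlgCl q)), ← map_sub]
  exact PadicAlgCl.norm_extends q _

/-- The kernel of evaluation through `padicEmbedding q` is contained in the kernel of evaluation
through `padicEmbedding q ∘ σ` for `σ` in the decomposition group (continuity of `σ`). -/
lemma tensorEval_comp_eq_zero (σ : AlgebraicClosure ℚ ≃ₐ[ℚ] AlgebraicClosure ℚ)
    (hσ : σ ∈ (padicPlace q).decompositionSubgroup ℚ) (t : ℚ_[q] ⊗[ℚ] AlgebraicClosure ℚ)
    (ht : tensorEval q (padicEmbedding q) t = 0) :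
    tensorEval q ((padicEmbedding q).comp (σ : AlgebraicClosure ℚ →ₐ[ℚ] AlgebraicClosure ℚ)) t
      = 0 := by
  obtain ⟨s, rfl⟩ := TensorProduct.exists_finset t
  simp only [map_sum, tensorEval_tmul, AlgHom.comp_apply, AlgEquiv.coe_toAlgHom] at ht ⊢
  rw [← norm_le_zero_iff]
  refine le_of_forall_pos_le_add fun ε hε => ?_
  rw [zero_add]
  set B : ℝ := ∑ i ∈ s, ‖padicEmbedding q i.2‖ with hB
  have hB0 : 0 ≤ B := Finset.sum_nonneg fun _ _ => norm_nonneg _
  set δ : ℝ := ε / (2 * (B + 1)) with hδ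
  have hδ0 : 0 < δ := by positivity
  have hrat : ∀ c : ℚ_[q], ∃ r : ℚ, ‖c - (r : ℚ_[q])‖ < δ := fun c => Padic.rat_dense q c hδ0
  choose r hr using hrat
  set x : AlgebraicClosure ℚ := ∑ i ∈ s, (r i.1 : AlgebraicClosure ℚ) * i.2 with hx
  have hιx : padicEmbedding q x = ∑ i ∈ s, (r i.1 : PadicAlgCl q) * padicEmbedding q i.2 := by
    rw [hx, map_sum]
    exact Finset.sum_congr rfl fun i _ => by rw [map_mul, map_ratCast]
  have hισx : padicEmbedding q (σ x) =
      ∑ i ∈ s, (r i.1 : PadicAlgCl q) * padicEmbedding q (σ i.2) := by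
    rw [hx, map_sum, map_sum]
    exact Finset.sum_congr rfl fun i _ => by rw [map_mul, map_mul, map_ratCast, map_ratCast]
  have hnx : ‖padicEmbedding q x‖ ≤ δ * B := by
    have h1 : padicEmbedding q x = - ∑ i ∈ s,
        (algebraMap ℚ_[q] (PadicAlgCl q) i.1 - (r i.1 : PadicAlgCl q)) * padicEmbedding q i.2 := by
      rw [hιx, eq_neg_iff_add_eq_zero, ← Finset.sum_add_distrib, ← ht]
      exact Finset.sum_congr rfl fun i _ => by ring
    rw [h1, norm_neg, hB, Finset.mul_sum]
    refine (norm_sum_le _ _).trans (Finset.sum_le_sum fun i _ => ?_)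
    rw [norm_mul, norm_algebraMap_sub_ratCast]
    exact mul_le_mul_of_nonneg_right (hr i.1).le (norm_nonneg _)
  have h2 : ∑ i ∈ s, algebraMap ℚ_[q] (PadicAlgCl q) i.1 * padicEmbedding q (σ i.2) =
      ∑ i ∈ s, (algebraMap ℚ_[q] (PadicAlgCl q) i.1 - (r i.1 : PadicAlgCl q)) *
        padicEmbedding q (σ i.2) + padicEmbedding q (σ x) := by
    rw [hισx, ← Finset.sum_add_distrib]
    exact Finset.sum_congr rfl fun i _ => by ring
  rw [h2]
  have h3 : ‖∑ i ∈ s, (algebraMap ℚ_[q] (PadicAlgCl q) i.1 - (r i.1 : PadicAlgCl q)) *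
        padicEmbedding q (σ i.2)‖ ≤ δ * B := by
    rw [hB, Finset.mul_sum]
    refine (norm_sum_le _ _).trans (Finset.sum_le_sum fun i _ => ?_)
    rw [norm_mul, norm_algebraMap_sub_ratCast, norm_padicEmbedding_apply q σ hσ]
    exact mul_le_mul_of_nonneg_right (hr i.1).le (norm_nonneg _)
  have h4 : ‖padicEmbedding q (σ x)‖ ≤ δ * B := by
    rw [norm_padicEmbedding_apply q σ hσ]; exact hnx
  have h5 : 2 * (δ * B) ≤ ε := by
    rw [hδ]
    have : 2 * (ε / (2 * (B + 1)) * B) = ε * (B / (B + 1)) := by field_simp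
    rw [this]
    have : B / (B + 1) ≤ 1 := by rw [div_le_one (by linarith)]; linarith
    nlinarith
  calc _ ≤ _ + _ := norm_add_le _ _
    _ ≤ δ * B + δ * B := add_le_add h3 h4
    _ ≤ ε := by linarith

/-- (KB4, surjectivity) Every element of the decomposition group of `padicPlace q` comes from the
local Galois group. -/
theorem exists_localGaloisToGlobal_eq (σ : AlgebraicClosure ℚ ≃ₐ[ℚ] AlgebraicClosure ℚ)
    (hσ : σ ∈ (padicPlace q).decompositionSubgroup ℚ) :
    ∃ τ : PadicAlgCl q ≃ₐ[ℚ_[q]] PadicAlgCl q, localGaloisToGlobal q τ = σ := by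
  set Φ := tensorEval q (padicEmbedding q) with hΦ
  set Φ' := tensorEval q
    ((padicEmbedding q).comp (σ : AlgebraicClosure ℚ →ₐ[ℚ] AlgebraicClosure ℚ)) with hΦ'
  have hsurj : Function.Surjective Φ := by
    intro y
    obtain ⟨b₀, hb₀⟩ := exists_mem_adjoin_padicEmbedding q y
    have hint : IsAlgebraic ℚ_[q] (padicEmbedding q b₀) := Algebra.IsAlgebraic.isAlgebraic _
    have hy : y ∈ Algebra.adjoin ℚ_[q] {padicEmbedding q b₀} := by
      rw [← IntermediateField.adjoin_simple_toSubalgebra_of_isAlgebraic hint]; exact hb₀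
    have hle : Algebra.adjoin ℚ_[q] {padicEmbedding q b₀} ≤ Φ.range := by
      rw [Algebra.adjoin_le_iff]
      rintro _ rfl
      exact ⟨1 ⊗ₜ b₀, by simp [hΦ]⟩
    exact hle hy
  have hker : RingHom.ker Φ.toRingHom ≤ RingHom.ker Φ'.toRingHom :=
    fun t ht => tensorEval_comp_eq_zero q σ hσ t ht
  let τ₀ : PadicAlgCl q →ₐ[ℚ_[q]] PadicAlgCl q := AlgHom.liftOfSurjective Φ hsurj Φ' hker
  have hτ₀ : ∀ b, τ₀ (padicEmbedding q b) = padicEmbedding q (σ b) := by
    intro b
    have h1 : padicEmbedding q b = Φ (1 ⊗ₜ b) := by simp [hΦ]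
    rw [h1, AlgHom.liftOfSurjective_apply]
    simp [hΦ']
  refine ⟨(Algebra.IsAlgebraic.algEquivEquivAlgHom ℚ_[q] (PadicAlgCl q)).symm τ₀, ?_⟩
  ext x
  apply (padicEmbedding q).toRingHom.injective
  change padicEmbedding q _ = padicEmbedding q _
  rw [padicEmbedding_localGaloisToGlobal, ← hτ₀ x]
  have h2 : ((Algebra.IsAlgebraic.algEquivEquivAlgHom ℚ_[q] (PadicAlgCl q)).symm τ₀ :
      PadicAlgCl q →ₐ[ℚ_[q]] PadicAlgCl q) = τ₀ :=
    (Algebra.IsAlgebraic.algEquivEquivAlgHom ℚ_[q] (PadicAlgCl q)).apply_symm_apply τ₀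
  exact congrArg (fun f : PadicAlgCl q →ₐ[ℚ_[q]] PadicAlgCl q => f (padicEmbedding q x)) h2

/-- (KB4) The image of the local Galois group is the decomposition group of `padicPlace q`. -/
theorem range_localGaloisToGlobal :
    (localGaloisToGlobal q).range = (padicPlace q).decompositionSubgroup ℚ := by
  ext σ
  constructor
  · rintro ⟨τ, rfl⟩
    exact localGaloisToGlobal_mem_decompositionSubgroup q τ
  · intro hσ
    obtain ⟨τ, hτ⟩ := exists_localGaloisToGlobal_eq q σ hσ
    exact ⟨τ, hτ⟩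

end Decomposition

section PrimeLocal

open ExtCitation groupCohomology

/-- Local instance used to state the `Nat.Primes` versions (any two instances of this `Prop` are
definitionally equal). -/
local instance factPrimeCoe (q : Nat.Primes) : Fact (q : ℕ).Prime := ⟨q.2⟩

/-- (KB3) for `ExtCitation.primeLocalToGlobal`. -/
theorem primeLocalToGlobal_injective (q : Nat.Primes) :
    Function.Injective (primeLocalToGlobal q) := by
  exact localGaloisToGlobal_injective (q : ℕ)

/-- (KB4) for `ExtCitation.primeLocalToGlobal`: its range is the decomposition group of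
`ExtCitation.primeLocalPlace q`. -/
theorem range_primeLocalToGlobal (q : Nat.Primes) :
    (primeLocalToGlobal q).range = (primeLocalPlace q).decompositionSubgroup ℚ := by
  exact range_localGaloisToGlobal (q : ℕ)

/-- Level-constant 1-cochains on `primeLocalGaloisGroup q`. -/
theorem isLevelConstant₁_primeLocal_iff (q : Nat.Primes) {X : Type*}
    (f : primeLocalGaloisGroup q → X) :
    IsLevelConstant₁ (primeLocalToGlobal q) f ↔
      ∃ E : IntermediateField ℚ_[(q : ℕ)] (PadicAlgCl (q : ℕ)),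
        FiniteDimensional ℚ_[(q : ℕ)] E ∧
          ∀ g s : primeLocalGaloisGroup q, s ∈ E.fixingSubgroup → f (g * s) = f g := by
  exact isLevelConstant₁_local_iff (q : ℕ) f

/-- Level-constant 2-cochains on `primeLocalGaloisGroup q`. -/
theorem isLevelConstant₂_primeLocal_iff (q : Nat.Primes) {X : Type*}
    (f : primeLocalGaloisGroup q × primeLocalGaloisGroup q → X) :
    IsLevelConstant₂ (primeLocalToGlobal q) f ↔
      ∃ E : IntermediateField ℚ_[(q : ℕ)] (PadicAlgCl (q : ℕ)),
        FiniteDimensional ℚ_[(q : ℕ)] E ∧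
          ∀ g g' s s' : primeLocalGaloisGroup q, s ∈ E.fixingSubgroup → s' ∈ E.fixingSubgroup →
            f (g * s, g' * s') = f (g, g') := by
  exact isLevelConstant₂_local_iff (q : ℕ) f

end PrimeLocal

end Fermat.Agent.CFT.Local.KrasnerBridge

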