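import Mathlib
import Fermat.Prelude.Def_ExtCitation_KummerBridge
import Fermat.Agent.CFT.Local.KrasnerBridge

/-!
# Hilbert 90 for level cocycles with values in `Maps(T, Ωˣ)`; the local multiplicative group

* `exists_coboundary_of_subgroup` : a level 1-cocycle of a subgroup of `Gal(Ω/K)` in `Ωˣ` is a
  coboundary (Dedekind independence at a finite level; no Galois correspondence needed).
* `exists_fun_coboundary` : the same with coefficients in `T → Ωˣ` for a `Gal(Ω/K)`-set `T`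
  (degree-one Shapiro/Mackey by hand).
* `exists_fun_coboundary_padic` : the case `Ω = PadicAlgCl q`, `K = ℚ_[q]` with the Prelude's
  level-constancy along `localGaloisToGlobal q` as hypothesis.
* `exists_pow_eq_unit` : `(PadicAlgCl q)ˣ` is divisible.
* `apply_eq_pow_cycloExp`, `padic_apply_eq_pow_cycloExp` : the Galois action on `p`-th roots of
  unity is through the Prelude's `cycloExp`/`cycloChar`, globally and along `localGaloisToGlobal`.
* `exists_pow_eq_of_pow_eq_one` : the `p`-torsion of `(PadicAlgCl q)ˣ` is generated by the image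
  of a primitive `p`-th root of unity of `ℚ̄`.
-/

set_option autoImplicit false

namespace Fermat.Agent.CFT.Local.Hilbert90Fun

variable {K Ω : Type*} [Field K] [Field Ω] [Algebra K Ω]

/-- **Hilbert 90 for level cocycles on a subgroup.** Let `H` be a subgroup of `Gal(Ω/K)` and
`a : Gal(Ω/K) → Ωˣ` a function which is a 1-cocycle on `H` and is right-invariant under the
fixing subgroup of a finite subextension `L`. Then `a` is a coboundary on `H`. -/
theorem exists_coboundary_of_subgroup (H : Subgroup (Ω ≃ₐ[K] Ω)) (a : (Ω ≃ₐ[K] Ω) → Ωˣ)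
    (hcoc : ∀ h ∈ H, ∀ h' ∈ H, a (h * h') = h • a h' * a h)
    (L : IntermediateField K Ω) [FiniteDimensional K L]
    (hlev : ∀ g s, s ∈ L.fixingSubgroup → a (g * s) = a g) :
    ∃ b : Ωˣ, ∀ h ∈ H, a h = h • b / b := by
  classical
  -- restriction to `L`
  let res : (Ω ≃ₐ[K] Ω) → (L →ₐ[K] Ω) := fun g => (g : Ω →ₐ[K] Ω).comp L.val
  have hres_mul : ∀ g g' : Ω ≃ₐ[K] Ω, res (g * g') = (g : Ω →ₐ[K] Ω).comp (res g') := by
    intro g g'; rfl
  -- the coefficient attached to an embedding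
  let A : (L →ₐ[K] Ω) → Ω := fun ρ =>
    if h : ∃ g ∈ H, res g = ρ then ((a h.choose : Ωˣ) : Ω) else 0
  have hA : ∀ g ∈ H, A (res g) = a g := by
    intro g hg
    have hex : ∃ g' ∈ H, res g' = res g := ⟨g, hg, rfl⟩
    have hAval : A (res g) = ((a hex.choose : Ωˣ) : Ω) := dif_pos hex
    rw [hAval]
    obtain ⟨hg', hres'⟩ := hex.choose_spec
    set g' := hex.choose with hg'def
    have hs : g⁻¹ * g' ∈ L.fixingSubgroup := by
      rw [IntermediateField.mem_fixingSubgroup_iff]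
      intro x hx
      have h1 : g' x = g x := by
        have := congrArg (fun ρ : L →ₐ[K] Ω => ρ ⟨x, hx⟩) hres'
        simpa [res] using this
      change g⁻¹ (g' x) = x
      rw [h1]
      exact g.symm_apply_apply x
    have := hlev g (g⁻¹ * g') hs
    rw [mul_inv_cancel_left] at this
    rw [this]
  have hA0 : ∀ ρ, (¬ ∃ g ∈ H, res g = ρ) → A ρ = 0 := fun ρ h => dif_neg h
  -- Dedekind independence
  have hli : LinearIndependent Ω (fun ρ : L →ₐ[K] Ω => (ρ : L → Ω)) :=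
    LinearIndependent.comp (ι' := L →ₐ[K] Ω) (linearIndependent_monoidHom L Ω)
      (fun ρ => (ρ : L →* Ω)) (fun x y h => by ext z; exact DFunLike.ext_iff.1 h z)
  have hne : ∃ x : L, ∑ ρ : L →ₐ[K] Ω, A ρ * ρ x ≠ 0 := by
    by_contra hcon
    push Not at hcon
    have h0 : ∑ ρ : L →ₐ[K] Ω, A ρ • (ρ : L → Ω) = 0 := by
      funext x
      simpa [Finset.sum_apply] using hcon x
    have h1 := (Fintype.linearIndependent_iff.1 hli) A h0 (res 1)
    rw [hA 1 H.one_mem] at h1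
    exact Units.ne_zero _ h1
  obtain ⟨x, hx⟩ := hne
  set b₀ : Ω := ∑ ρ : L →ₐ[K] Ω, A ρ * ρ x with hb₀
  have hkey : ∀ h ∈ H, h b₀ * (a h : Ω) = b₀ := by
    intro h hh
    -- the permutation `ρ ↦ h ∘ ρ` of the embeddings
    let e : (L →ₐ[K] Ω) ≃ (L →ₐ[K] Ω) :=
      { toFun := fun ρ => (h : Ω →ₐ[K] Ω).comp ρ
        invFun := fun ρ => ((h⁻¹ : Ω ≃ₐ[K] Ω) : Ω →ₐ[K] Ω).comp ρ
        left_inv := fun ρ => by
          ext z
          change h⁻¹ (h (ρ z)) = ρ z
          exact h.symm_apply_apply _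
        right_inv := fun ρ => by
          ext z
          change h (h⁻¹ (ρ z)) = ρ z
          exact h.apply_symm_apply _ }
    have hterm : ∀ ρ : L →ₐ[K] Ω, h (A ρ) * (a h : Ω) = A (e ρ) := by
      intro ρ
      by_cases hρ : ∃ g ∈ H, res g = ρ
      · obtain ⟨g, hg, rfl⟩ := hρ
        have h1 : e (res g) = res (h * g) := rfl
        rw [h1, hA g hg, hA (h * g) (H.mul_mem hh hg), hcoc h hh g hg]
        simp [AlgEquiv.smul_units_def]
      · have hρ' : ¬ ∃ g ∈ H, res g = e ρ := by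
          rintro ⟨g, hg, hge⟩
          refine hρ ⟨h⁻¹ * g, H.mul_mem (H.inv_mem hh) hg, ?_⟩
          have : res (h⁻¹ * g) = e.symm (res g) := rfl
          rw [this, hge, Equiv.symm_apply_apply]
        rw [hA0 ρ hρ, hA0 (e ρ) hρ', map_zero, zero_mul]
    calc h b₀ * (a h : Ω) = ∑ ρ : L →ₐ[K] Ω, (h (A ρ) * (a h : Ω)) * h (ρ x) := by
          rw [hb₀, map_sum, Finset.sum_mul]
          refine Finset.sum_congr rfl fun ρ _ => ?_
          rw [map_mul]; ring
      _ = ∑ ρ : L →ₐ[K] Ω, A (e ρ) * (e ρ) x := by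
          refine Finset.sum_congr rfl fun ρ _ => ?_
          rw [hterm ρ]; rfl
      _ = b₀ := by
          rw [hb₀]
          exact Equiv.sum_comp e (fun ρ => A ρ * ρ x)
  refine ⟨(Units.mk0 b₀ hx)⁻¹, fun h hh => ?_⟩
  have h2 := hkey h hh
  apply Units.ext
  have hb₀h : h b₀ ≠ 0 := (map_ne_zero h).2 hx
  simp only [AlgEquiv.smul_units_def, map_inv, Units.val_div_eq_div_val, Units.val_inv_eq_inv_val,
    Units.coe_map, Units.val_mk0, MonoidHom.coe_coe]
  field_simp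
  rw [mul_comm]
  exact h2

/-- **Hilbert 90 with coefficients in `Maps(T, Ωˣ)`** (degree-one Shapiro/Mackey by hand).
Let `T` be a `Gal(Ω/K)`-set and `c : Gal(Ω/K) → T → Ωˣ` a 1-cocycle for the action
`(g • φ) t = g • φ (g⁻¹ • t)` which is right-invariant under the fixing subgroup of a finite
subextension. Then `c` is a coboundary. -/
theorem exists_fun_coboundary (T : Type*) [MulAction (Ω ≃ₐ[K] Ω) T]
    (c : (Ω ≃ₐ[K] Ω) → T → Ωˣ)
    (hc : ∀ g h t, c (g * h) t = g • c h (g⁻¹ • t) * c g t)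
    (L : IntermediateField K Ω) [FiniteDimensional K L]
    (hlev : ∀ g s, s ∈ L.fixingSubgroup → c (g * s) = c g) :
    ∃ φ : T → Ωˣ, ∀ g t, c g t = g • φ (g⁻¹ • t) / φ t := by
  classical
  -- the point case at every `t₀`
  have hpt : ∀ t₀ : T, ∃ b : Ωˣ, ∀ h ∈ MulAction.stabilizer (Ω ≃ₐ[K] Ω) t₀,
      c h t₀ = h • b / b := by
    intro t₀
    refine exists_coboundary_of_subgroup (MulAction.stabilizer (Ω ≃ₐ[K] Ω) t₀)
      (fun h => c h t₀) ?_ L (fun g s hs => by rw [hlev g s hs])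
    intro h hh h' _
    have h1 : h⁻¹ • t₀ = t₀ := by
      rw [inv_smul_eq_iff]; exact (MulAction.mem_stabilizer_iff.1 hh).symm
    change c (h * h') t₀ = h • c h' t₀ * c h t₀
    rw [hc h h' t₀, h1]
  choose b hb using hpt
  -- orbit representatives
  let rep : T → T := fun t => (Quotient.mk (MulAction.orbitRel (Ω ≃ₐ[K] Ω) T) t).out
  have hrep : ∀ t, ∃ g : Ω ≃ₐ[K] Ω, g • rep t = t := by
    intro t
    have h1 : (MulAction.orbitRel (Ω ≃ₐ[K] Ω) T).r (rep t) t :=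
      Quotient.exact (Quotient.out_eq _)
    rw [MulAction.orbitRel_apply] at h1
    obtain ⟨g, hg⟩ := h1
    exact ⟨g⁻¹, by rw [← hg, inv_smul_smul]⟩
  have hrep_smul : ∀ (g : Ω ≃ₐ[K] Ω) t, rep (g • t) = rep t := by
    intro g t
    have : Quotient.mk (MulAction.orbitRel (Ω ≃ₐ[K] Ω) T) (g • t) =
        Quotient.mk (MulAction.orbitRel (Ω ≃ₐ[K] Ω) T) t :=
      Quotient.sound ((MulAction.orbitRel_apply).2 ⟨g, rfl⟩)
    change (Quotient.mk (MulAction.orbitRel (Ω ≃ₐ[K] Ω) T) (g • t)).out = _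
    rw [this]
  choose γ hγ using hrep
  let φ : T → Ωˣ := fun t => γ t • b (rep t) / c (γ t) t
  -- independence of the choice of `γ t`
  have hP : ∀ t (g : Ω ≃ₐ[K] Ω), g • rep t = t → φ t = g • b (rep t) / c g t := by
    intro t g hg
    set t₀ := rep t with ht₀
    set g₁ := γ t with hg₁
    have hg₁t : g₁ • t₀ = t := hγ t
    have hg₁inv : g₁⁻¹ • t = t₀ := by rw [inv_smul_eq_iff, hg₁t]
    have hh : g₁⁻¹ * g ∈ MulAction.stabilizer (Ω ≃ₐ[K] Ω) t₀ := by
      rw [MulAction.mem_stabilizer_iff, mul_smul, hg, hg₁inv]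
    have h2 : c g t = g₁ • (c (g₁⁻¹ * g) t₀) * c g₁ t := by
      have := hc g₁ (g₁⁻¹ * g) t
      rwa [mul_inv_cancel_left, hg₁inv] at this
    have h3 := hb t₀ (g₁⁻¹ * g) hh
    change g₁ • b t₀ / c g₁ t = g • b t₀ / c g t
    rw [h2, h3, smul_div', ← mul_smul, mul_inv_cancel_left]
    rw [eq_div_iff_mul_eq', ← mul_assoc, mul_comm (g₁ • b t₀ / c g₁ t), mul_assoc,
      div_mul_cancel, div_mul_cancel]
  refine ⟨φ, fun g t => ?_⟩
  have h1 : φ (g⁻¹ • t) = (g⁻¹ * γ t) • b (rep t) / c (g⁻¹ * γ t) (g⁻¹ • t) := by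
    have := hP (g⁻¹ • t) (g⁻¹ * γ t) (by rw [hrep_smul, mul_smul, hγ t])
    rwa [hrep_smul] at this
  have h2 : c (γ t) t = g • c (g⁻¹ * γ t) (g⁻¹ • t) * c g t := by
    have := hc g (g⁻¹ * γ t) t
    rwa [mul_inv_cancel_left] at this
  have h3 : φ t = γ t • b (rep t) / c (γ t) t := rfl
  rw [h1, h3, h2, smul_div', ← mul_smul, mul_inv_cancel_left]
  rw [eq_div_iff_mul_eq', ← mul_div_assoc, div_eq_iff_eq_mul]
  rw [← mul_assoc, div_mul_cancel, mul_comm]

section Padic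

open ExtCitation groupCohomology KrasnerBridge

variable (q : ℕ) [Fact q.Prime]

/-- **[LIM4], raw form.** A 1-cocycle of the local Galois group with values in
`Maps(T, (PadicAlgCl q)ˣ)` which is level-constant in the sense of the Prelude is a
coboundary. -/
theorem exists_fun_coboundary_padic (T : Type*)
    [MulAction (PadicAlgCl q ≃ₐ[ℚ_[q]] PadicAlgCl q) T]
    (c : (PadicAlgCl q ≃ₐ[ℚ_[q]] PadicAlgCl q) → T → (PadicAlgCl q)ˣ)
    (hc : ∀ g h t, c (g * h) t = g • c h (g⁻¹ • t) * c g t)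
    (hlev : IsLevelConstant₁ (localGaloisToGlobal q) c) :
    ∃ φ : T → (PadicAlgCl q)ˣ, ∀ g t, c g t = g • φ (g⁻¹ • t) / φ t := by
  obtain ⟨E, hE, h⟩ := (isLevelConstant₁_local_iff q c).1 hlev
  exact exists_fun_coboundary T c hc E h

/-- Continuous Hilbert 90 for the local Galois group (the case `T = point`). -/
theorem exists_coboundary_padic
    (a : (PadicAlgCl q ≃ₐ[ℚ_[q]] PadicAlgCl q) → (PadicAlgCl q)ˣ)
    (ha : ∀ g h, a (g * h) = g • a h * a g)
    (hlev : IsLevelConstant₁ (localGaloisToGlobal q) a) :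
    ∃ b : (PadicAlgCl q)ˣ, ∀ g, a g = g • b / b := by
  obtain ⟨E, hE, h⟩ := (isLevelConstant₁_local_iff q a).1 hlev
  obtain ⟨b, hb⟩ := exists_coboundary_of_subgroup ⊤ a (fun g _ h _ => ha g h) E h
  exact ⟨b, fun g => hb g trivial⟩

/-- `(PadicAlgCl q)ˣ` is a divisible group. -/
theorem exists_pow_eq_unit (n : ℕ) (hn : n ≠ 0) (x : (PadicAlgCl q)ˣ) :
    ∃ y : (PadicAlgCl q)ˣ, y ^ n = x := by
  obtain ⟨z, hz⟩ := IsAlgClosed.exists_pow_nat_eq (x : PadicAlgCl q) (Nat.pos_of_ne_zero hn)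
  have hz0 : z ≠ 0 := by
    rintro rfl
    rw [zero_pow hn] at hz
    exact x.ne_zero hz.symm
  exact ⟨Units.mk0 z hz0, Units.ext (by simpa using hz)⟩

variable (p : ℕ) [Fact p.Prime]

/-- The Galois action on `p`-th roots of unity of `ℚ̄` is through `cycloExp`. -/
theorem apply_eq_pow_cycloExp (σ : AlgebraicClosure ℚ ≃ₐ[ℚ] AlgebraicClosure ℚ)
    (ζ : AlgebraicClosure ℚ) (hζ : ζ ^ p = 1) : σ ζ = ζ ^ cycloExp p σ := by
  have : NeZero p := ⟨(Fact.out : p.Prime).ne_zero⟩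
  have hζ0 : ζ ≠ 0 := by
    rintro rfl
    rw [zero_pow (Fact.out : p.Prime).ne_zero] at hζ
    exact zero_ne_one hζ
  have ht : Units.mk0 ζ hζ0 ∈ rootsOfUnity p (AlgebraicClosure ℚ) := by
    rw [mem_rootsOfUnity]
    exact Units.ext (by simpa using hζ)
  have h := modularCyclotomicCharacter.spec (AlgebraicClosure ℚ) (card_rootsOfUnity_eq_self p)
    (σ : AlgebraicClosure ℚ ≃+* AlgebraicClosure ℚ) ht
  simpa [cycloExp] using h

/-- The Galois action on `p`-th roots of unity of `ℚ̄` is through `cycloChar`. -/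
theorem apply_eq_pow_cycloChar (σ : AlgebraicClosure ℚ ≃ₐ[ℚ] AlgebraicClosure ℚ)
    (ζ : AlgebraicClosure ℚ) (hζ : ζ ^ p = 1) :
    σ ζ = ζ ^ ((cycloChar p σ : (ZMod p)ˣ) : ZMod p).val :=
  apply_eq_pow_cycloExp p σ ζ hζ

/-- Every `p`-th root of unity of `PadicAlgCl q` comes from `ℚ̄`. -/
theorem exists_padicEmbedding_eq_of_pow_eq_one (ζ : PadicAlgCl q) (hζ : ζ ^ p = 1) :
    ∃ ζ₀ : AlgebraicClosure ℚ, ζ₀ ^ p = 1 ∧ padicEmbedding q ζ₀ = ζ := by
  have hp0 : p ≠ 0 := (Fact.out : p.Prime).ne_zero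
  have hg : (Polynomial.X ^ p - 1 : Polynomial ℚ) ≠ 0 := Polynomial.X_pow_sub_C_ne_zero
    (Nat.pos_of_ne_zero hp0) (1 : ℚ)
  obtain ⟨ζ₀, h⟩ := mem_range_padicEmbedding_of_isRoot q _ hg ζ (by simp [hζ])
  refine ⟨ζ₀, ?_, h⟩
  apply (padicEmbedding q).toRingHom.injective
  change padicEmbedding q (ζ₀ ^ p) = padicEmbedding q 1
  rw [map_pow, h, hζ, map_one]

/-- The local Galois group acts on `p`-th roots of unity of `PadicAlgCl q` through
`cycloExp p ∘ localGaloisToGlobal q`. -/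
theorem padic_apply_eq_pow_cycloExp (τ : PadicAlgCl q ≃ₐ[ℚ_[q]] PadicAlgCl q)
    (ζ : PadicAlgCl q) (hζ : ζ ^ p = 1) :
    τ ζ = ζ ^ cycloExp p (localGaloisToGlobal q τ) := by
  obtain ⟨ζ₀, hζ₀, rfl⟩ := exists_padicEmbedding_eq_of_pow_eq_one q p ζ hζ
  rw [← padicEmbedding_localGaloisToGlobal, apply_eq_pow_cycloExp p _ ζ₀ hζ₀, map_pow]

/-- The `p`-torsion of `(PadicAlgCl q)ˣ` is generated by the image of any primitive `p`-th root
of unity of `ℚ̄`. -/
theorem exists_pow_eq_of_pow_eq_one (ζ₀ : AlgebraicClosure ℚ) (hζ₀ : IsPrimitiveRoot ζ₀ p)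
    (y : PadicAlgCl q) (hy : y ^ p = 1) :
    ∃ k : ℕ, k < p ∧ padicEmbedding q ζ₀ ^ k = y := by
  have hprim : IsPrimitiveRoot (padicEmbedding q ζ₀) p :=
    hζ₀.map_of_injective (padicEmbedding q).toRingHom.injective
  have : NeZero p := ⟨(Fact.out : p.Prime).ne_zero⟩
  obtain ⟨k, hk, hk'⟩ := hprim.eq_pow_of_pow_eq_one hy
  exact ⟨k, hk, hk'⟩

end Padic

end Fermat.Agent.CFT.Local.Hilbert90Fun
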