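import Mathlib
import Fermat.Prelude.Def_GroupCohomology_ContinuousUnramified

/-!
# The archimedean place is invisible for odd `p`

For `p ≠ 2` and `M : Rep (ZMod p) G_ℚ`, the local cohomology groups at the archimedean place
of `ExtCitation.extArithIndex S` (the group `archimedeanDecomposition`, of order dividing `2`)
vanish, so `sha₁` and `sha₂` only see the places `v ∈ S`.

Generic statements: for a finite group `G` whose order is invertible in `k`,
`H¹(G, A) = 0` and the Prelude's `continuousH2 r A` is trivial for every `r`.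
-/

set_option autoImplicit false

open CategoryTheory groupCohomology ExtCitation

namespace Fermat.Agent.CFT.Local.Archimedean

section Generic

variable {k G : Type} [CommRing k] [Group G] [Finite G]

/-- `H¹(G, A) = 0` for a finite group whose order is invertible in `k`. -/
theorem H1_eq_zero_of_isUnit_card (A : Rep k G) (hu : IsUnit (Nat.card G : k)) (x : H1 A) :
    x = 0 := by
  classical
  let _ : Fintype G := Fintype.ofFinite G
  induction x using H1_induction_on with
  | h c =>
    rw [H1π_eq_zero_iff]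
    obtain ⟨u, hu⟩ := hu.exists_left_inv
    refine ⟨-(u • ∑ h, c h), ?_⟩
    ext g
    rw [d₀₁_hom_apply]
    have hc := (mem_cocycles₁_iff (c : G → A)).1 c.2
    have hsum : ∑ h, c (g * h) = ∑ h, c h :=
      Fintype.sum_equiv (Equiv.mulLeft g) _ _ (fun _ => rfl)
    have h2 : ∑ h, c (g * h) = A.ρ g (∑ h, c h) + (Nat.card G : k) • c g := by
      simp only [hc, Finset.sum_add_distrib, map_sum, Finset.sum_const, Finset.card_univ,
        Nat.card_eq_fintype_card, Nat.cast_smul_eq_nsmul]
    rw [hsum] at h2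
    have h3 : c g = u • (∑ h, c h) - A.ρ g (u • ∑ h, c h) := by
      have : u • ((Nat.card G : k) • c g) = c g := by rw [smul_smul, hu, one_smul]
      rw [← this, map_smul, ← smul_sub]
      congr 1
      rw [eq_sub_iff_add_eq, add_comm]
      exact h2.symm
    rw [map_neg, sub_neg_eq_add, h3]
    abel

/-- The Prelude's `continuousH2 r A` vanishes for a finite group whose order is invertible
in `k` (for every comparison map `r`). -/
theorem continuousH2_eq_zero_of_isUnit_card
    (r : G →* (AlgebraicClosure ℚ ≃ₐ[ℚ] AlgebraicClosure ℚ)) (A : Rep k G)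
    (hu : IsUnit (Nat.card G : k)) (z : continuousH2 r A) : z = 0 := by
  classical
  let _ : Fintype G := Fintype.ofFinite G
  obtain ⟨c, rfl⟩ := Submodule.mkQ_surjective _ z
  obtain ⟨u, hu⟩ := hu.exists_left_inv
  change continuousH2π r A c = 0
  rw [continuousH2π_eq_zero_iff, mem_levelCoboundaries₂_iff]
  have hcoc := (mem_cocycles₂_iff c.1).1 c.2.1
  obtain ⟨F, hF, hlev⟩ := c.2.2
  refine ⟨fun g => u • ∑ j, c.1 (g, j), ⟨F, hF, fun g s hs => ?_⟩, ?_⟩
  · have hj : ∀ j, c.1 (g * s, j) = c.1 (g, j) := fun j => by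
      have := hlev g j s 1 hs (by rw [map_one]; exact one_mem _)
      rwa [mul_one] at this
    simp only [hj]
  · ext ⟨g, h⟩
    rw [d₁₂_hom_apply]
    have hsum : ∑ j, c.1 (g, h * j) = ∑ j, c.1 (g, j) :=
      Fintype.sum_equiv (Equiv.mulLeft h) _ _ (fun _ => rfl)
    have h2 : ∑ j, c.1 (g * h, j) + (Nat.card G : k) • c.1 (g, h) =
        A.ρ g (∑ j, c.1 (h, j)) + ∑ j, c.1 (g, j) := by
      rw [← hsum, map_sum, ← Finset.sum_add_distrib]
      have : (Nat.card G : k) • c.1 (g, h) = ∑ _j : G, c.1 (g, h) := by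
        simp only [Finset.sum_const, Finset.card_univ, Nat.card_eq_fintype_card,
          Nat.cast_smul_eq_nsmul]
      rw [this, ← Finset.sum_add_distrib]
      exact Finset.sum_congr rfl fun j _ => hcoc g h j
    have h3 : c.1 (g, h) = u • (A.ρ g (∑ j, c.1 (h, j)) +
        ∑ j, c.1 (g, j) - ∑ j, c.1 (g * h, j)) := by
      have : u • ((Nat.card G : k) • c.1 (g, h)) = c.1 (g, h) := by
        rw [smul_smul, hu, one_smul]
      rw [← this]
      congr 1
      rw [eq_sub_iff_add_eq, add_comm]
      exact h2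
    rw [h3, map_smul, smul_sub, smul_add]
    abel

end Generic

section Arch

/-- The order of the archimedean decomposition group divides `2`. -/
theorem natCard_archimedeanDecomposition_dvd : Nat.card archimedeanDecomposition ∣ 2 := by
  unfold archimedeanDecomposition
  rw [Nat.card_zpowers]
  exact orderOf_dvd_of_pow_eq_one complexConjugation_sq

instance finite_archimedeanDecomposition : Finite archimedeanDecomposition :=
  Nat.finite_of_card_ne_zero fun h => by
    have := natCard_archimedeanDecomposition_dvd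
    rw [h] at this
    omega

variable {p : ℕ} [Fact p.Prime]

theorem isUnit_natCard_archimedeanDecomposition (hp2 : p ≠ 2) :
    IsUnit ((Nat.card archimedeanDecomposition : ℕ) : ZMod p) := by
  rw [ZMod.isUnit_iff_coprime]
  exact Nat.Coprime.coprime_dvd_left natCard_archimedeanDecomposition_dvd
    ((Nat.coprime_primes Nat.prime_two (Fact.out : p.Prime)).2 (Ne.symm hp2))

/-- (A1) The archimedean local `H¹` vanishes for odd `p`. -/
theorem H1_archimedean_eq_zero (hp2 : p ≠ 2)
    (M : Rep (ZMod p) (AlgebraicClosure ℚ ≃ₐ[ℚ] AlgebraicClosure ℚ))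
    (x : H1 (Rep.res archimedeanLoc M)) : x = 0 :=
  H1_eq_zero_of_isUnit_card _ (isUnit_natCard_archimedeanDecomposition hp2) x

/-- (A2) The archimedean local continuous `H²` vanishes for odd `p`. -/
theorem continuousH2_archimedean_eq_zero (hp2 : p ≠ 2)
    (M : Rep (ZMod p) (AlgebraicClosure ℚ ≃ₐ[ℚ] AlgebraicClosure ℚ))
    (z : continuousH2 archimedeanLoc (Rep.res archimedeanLoc M)) : z = 0 :=
  continuousH2_eq_zero_of_isUnit_card _ _ (isUnit_natCard_archimedeanDecomposition hp2) z

variable (S : Finset Nat.Primes)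

/-- (A3) The archimedean component of `locTotal₂S` vanishes for odd `p`. -/
theorem locTotal₂S_inl (hp2 : p ≠ 2)
    (M : Rep (ZMod p) (AlgebraicClosure ℚ ≃ₐ[ℚ] AlgebraicClosure ℚ)) (u : Unit)
    (x : continuousH2S S M) : locTotal₂S S M x (Sum.inl u) = 0 :=
  continuousH2_archimedean_eq_zero hp2 M _

/-- (A3) The archimedean component of `locTotal` vanishes for odd `p`. -/
theorem locTotal_inl (hp2 : p ≠ 2)
    (A : Rep (ZMod p) (AlgebraicClosure ℚ ≃ₐ[ℚ] AlgebraicClosure ℚ)) (u : Unit)
    (x : H1 A) : locTotal (extArithLoc S) A x (Sum.inl u) = 0 :=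
  H1_archimedean_eq_zero hp2 A _

/-- For odd `p`, `sha₂` is cut out by the places in `S` alone. -/
theorem mem_sha₂_iff (hp2 : p ≠ 2)
    (M : Rep (ZMod p) (AlgebraicClosure ℚ ≃ₐ[ℚ] AlgebraicClosure ℚ)) (x : continuousH2S S M) :
    x ∈ sha₂ S M ↔ ∀ q : ↥S, locTotal₂S S M x (Sum.inr q) = 0 := by
  rw [sha₂, LinearMap.mem_ker]
  constructor
  · intro h q
    rw [h]; rfl
  · intro h
    funext v
    rcases v with u | q
    · exact locTotal₂S_inl S hp2 M u x
    · exact h q

/-- The `q`-component of `locTotal₂S` is `locRes₂S` along `primeLocalToGlobal q`. -/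
theorem locTotal₂S_inr (M : Rep (ZMod p) (AlgebraicClosure ℚ ≃ₐ[ℚ] AlgebraicClosure ℚ))
    (x : continuousH2S S M) (q : ↥S) :
    locTotal₂S S M x (Sum.inr q) = locRes₂S S M (primeLocalToGlobal q.1) x := rfl

/-- For odd `p`, `sha₂` is cut out by the places in `S` alone (`primeLocalToGlobal` form). -/
theorem mem_sha₂_iff' (hp2 : p ≠ 2)
    (M : Rep (ZMod p) (AlgebraicClosure ℚ ≃ₐ[ℚ] AlgebraicClosure ℚ)) (x : continuousH2S S M) :
    x ∈ sha₂ S M ↔ ∀ q : ↥S, locRes₂S S M (primeLocalToGlobal q.1) x = 0 :=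
  mem_sha₂_iff S hp2 M x

/-- For odd `p`, `sha₁` is cut out by the places in `S` alone. -/
theorem mem_sha₁_iff (hp2 : p ≠ 2)
    (A : Rep (ZMod p) (AlgebraicClosure ℚ ≃ₐ[ℚ] AlgebraicClosure ℚ)) (x : H1 A) :
    x ∈ sha₁ S A ↔ x ∈ continuousH1S S A ∧
      ∀ q : ↥S, locTotal (extArithLoc S) A x (Sum.inr q) = 0 := by
  rw [sha₁, Submodule.mem_inf, LinearMap.mem_ker]
  refine and_congr_right fun _ => ?_
  constructor
  · intro h q
    rw [h]; rfl
  · intro h
    funext v
    rcases v with u | q
    · exact locTotal_inl S hp2 A u x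
    · exact h q

/-- The `q`-component of `locTotal` is restriction along `primeLocalToGlobal q`. -/
theorem locTotal_inr (A : Rep (ZMod p) (AlgebraicClosure ℚ ≃ₐ[ℚ] AlgebraicClosure ℚ))
    (x : H1 A) (q : ↥S) :
    locTotal (extArithLoc S) A x (Sum.inr q) =
      (map (primeLocalToGlobal q.1) (𝟙 (Rep.res (primeLocalToGlobal q.1) A)) 1).hom x := rfl

end Arch

end Fermat.Agent.CFT.Local.Archimedean
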