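import Fermat.Agent.CFT.Local.Plan2
import Fermat.Agent.CFT.Local.Provide
import Fermat.Agent.CFT.Local.CycClass

/-!
# CFT program, layer Local: norm groups of unramified extensions and local crossing

Providers for `Plan2.UnramNormIff`, `Plan2.CyclicClassNorm`, `Plan2.LocalCrossing`.
-/

set_option autoImplicit false

namespace Fermat.Agent.CFT.Local.Crossing

open CategoryTheory groupCohomology Fermat.Agent.CFT.Local

/-! ## [UnramNormIff] -/

/-- The normalised valuation as a homomorphism. -/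
noncomputable def ordHom (q : ℕ) [Fact q.Prime] (F : Type) [Field F] [Algebra ℚ_[q] F]
    [FiniteDimensional ℚ_[q] F] : Fˣ →* Multiplicative ℤ :=
  MonoidHom.mk' (fun x => Multiplicative.ofAdd (ordZ q F x))
    (fun x y => by
      show Multiplicative.ofAdd _ = Multiplicative.ofAdd _ * Multiplicative.ofAdd _
      rw [← ofAdd_add, (Provide.ordStmt q F).2.2.1 x y])

lemma ordZ_zpow (q : ℕ) [Fact q.Prime] (F : Type) [Field F] [Algebra ℚ_[q] F]
    [FiniteDimensional ℚ_[q] F] (x : Fˣ) (k : ℤ) : ordZ q F (x ^ k) = k * ordZ q F x := by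
  have h := map_zpow (ordHom q F) x k
  have h2 : Multiplicative.toAdd (ordHom q F (x ^ k)) = Multiplicative.toAdd (ordHom q F x ^ k) :=
    congrArg _ h
  rw [toAdd_zpow] at h2
  simpa [ordHom, smul_eq_mul] using h2

lemma ordZ_mul (q : ℕ) [Fact q.Prime] (F : Type) [Field F] [Algebra ℚ_[q] F]
    [FiniteDimensional ℚ_[q] F] (x y : Fˣ) : ordZ q F (x * y) = ordZ q F x + ordZ q F y :=
  (Provide.ordStmt q F).2.2.1 x y

lemma ordZ_inv (q : ℕ) [Fact q.Prime] (F : Type) [Field F] [Algebra ℚ_[q] F]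
    [FiniteDimensional ℚ_[q] F] (x : Fˣ) : ordZ q F x⁻¹ = - ordZ q F x := by
  have h := ordZ_zpow q F x (-1)
  simpa using h

theorem unramNormIff : Plan2.UnramNormIff := by
  intro q _ F E _ _ _ _ _ _ _ _ hur x
  have hfdE : FiniteDimensional ℚ_[q] E := FiniteDimensional.trans ℚ_[q] F E
  obtain ⟨⟨e, he0, he, -, heur⟩, hnorm, -⟩ := Provide.relOrdStmt q F E
  have he1 : e = 1 := heur.1 hur
  have hfF : 0 < fDeg q F := (Provide.ordStmt q F).1
  have hfE : fDeg q E = Module.finrank F E * fDeg q F := by rw [← he, he1, one_mul]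
  constructor
  · rintro ⟨w, hw⟩
    have hx : Units.map (Algebra.norm F : E →* F) w = x := Units.ext hw
    have h := hnorm w
    rw [hx, hfE] at h
    refine ⟨ordZ q E w, ?_⟩
    have hfF' : (fDeg q F : ℤ) ≠ 0 := by exact_mod_cast hfF.ne'
    apply mul_left_cancel₀ hfF'
    rw [h]
    push_cast
    ring
  · rintro ⟨k, hk⟩
    obtain ⟨ϖ, hϖ⟩ := (Provide.ordStmt q F).2.2.2.1
    set n := Module.finrank F E with hn
    have hu : x * (ϖ ^ ((n : ℤ) * k))⁻¹ ∈ unitGroup q F := by
      rw [(Provide.ordStmt q F).2.2.2.2.2.1, ordZ_mul, ordZ_inv, ordZ_zpow, hϖ, hk]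
      ring
    obtain ⟨w, -, hw⟩ := Provide.unramUnitsNorm q F E hur _ hu
    refine ⟨w * (Units.map (algebraMap F E).toMonoidHom ϖ) ^ k, ?_⟩
    have h0 : Units.map (Algebra.norm F : E →* F) (Units.map (algebraMap F E).toMonoidHom ϖ) =
        ϖ ^ n := by
      apply Units.ext
      show Algebra.norm F (algebraMap F E (ϖ : F)) = _
      rw [Algebra.norm_algebraMap, Units.val_pow_eq_pow_val]
    have h1 : Units.map (Algebra.norm F : E →* F) w = x * (ϖ ^ ((n : ℤ) * k))⁻¹ := Units.ext hw
    have h2 : Units.map (Algebra.norm F : E →* F)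
        (w * (Units.map (algebraMap F E).toMonoidHom ϖ) ^ k) = x := by
      rw [map_mul, map_zpow, h0, h1, ← zpow_natCast, ← zpow_mul, inv_mul_cancel_right]
    exact congrArg Units.val h2

/-! ## [CyclicClassNorm] -/

theorem cyclicClassNorm : Plan2.CyclicClassNorm := by
  intro F E _ _ _ _ _ σ hσ a y hy
  rw [CycClass.isUnramClass_iff σ hσ a y] at hy
  rw [hy]
  exact CycClass.cycClass_eq_zero_iff σ hσ a

/-! ## [LocalCrossing] -/

theorem localCrossing : Plan2.LocalCrossing := by
  intro q _ F E Z M _ _ _ _ _ _ _ _ _ _ _ _ _ _ _ _ _ _ _ _ _ _ _ _ σ hσ hdvd c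
  have hfdE : FiniteDimensional F E := FiniteDimensional.left F E M
  obtain ⟨-, -, haddE, -, -, ⟨uE, huE⟩, hgenE⟩ := Provide.invBasic q F E
  obtain ⟨-, -, haddZ, -, -, ⟨uZ, huZ⟩, -⟩ := Provide.invBasic q F Z
  obtain ⟨-, -, -, hinjM, -, -, -⟩ := Provide.invBasic q F M
  obtain ⟨k, hk⟩ := (hgenE uE huE).1 c
  obtain ⟨d, hd⟩ := hdvd
  -- the class of `Z/F` with the same invariant
  let y : H2 (unitsRep F Z) := (k * d) • uZ
  obtain ⟨a, ha⟩ := CycClass.cycClass_surjective σ hσ y
  refine ⟨Additive.toMul a, y, ?_, ?_⟩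
  · rw [CycClass.isUnramClass_iff σ hσ]
    exact ha.symm
  · let liE : H2 (unitsRep F E) →+ AddCircle (1 : ℚ) := AddMonoidHom.mk' (localInv q F E) haddE
    let liZ : H2 (unitsRep F Z) →+ AddCircle (1 : ℚ) := AddMonoidHom.mk' (localInv q F Z) haddZ
    have h1 : localInv q F E c = (((k : ℚ) / (Module.finrank F E : ℚ) : ℚ) : AddCircle (1 : ℚ)) := by
      rw [hk]
      show liE (k • uE) = _
      rw [map_zsmul]
      show k • localInv q F E uE = _
      rw [huE, ← AddCircle.coe_zsmul]
      congr 1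
    have h2 : localInv q F Z y = (((k : ℚ) / (Module.finrank F E : ℚ) : ℚ) : AddCircle (1 : ℚ)) := by
      show liZ ((k * d) • uZ) = _
      rw [map_zsmul]
      show (k * d) • localInv q F Z uZ = _
      rw [huZ, ← AddCircle.coe_zsmul]
      congr 1
      have hE0 : (Module.finrank F E : ℚ) ≠ 0 := by
        exact_mod_cast (Module.finrank_pos (R := F) (M := E)).ne'
      have hd0 : (d : ℚ) ≠ 0 := by
        intro h0
        have : d = 0 := by exact_mod_cast h0
        rw [this, mul_zero] at hd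
        exact (Module.finrank_pos (R := F) (M := Z)).ne' hd
      rw [hd]
      push_cast
      simp only [zsmul_eq_mul]
      push_cast
      field_simp
    apply sub_eq_zero.1
    apply hinjM
    obtain ⟨-, -, haddM, -, -, -, -⟩ := Provide.invBasic q F M
    let liM : H2 (unitsRep F M) →+ AddCircle (1 : ℚ) := AddMonoidHom.mk' (localInv q F M) haddM
    show liM _ = 0
    rw [map_sub]
    show localInv q F M _ - localInv q F M _ = 0
    rw [Provide.invInfl q F E M c, Provide.invInfl q F Z M y, h1, h2, sub_self]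

end Fermat.Agent.CFT.Local.Crossing
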