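import Fermat.Agent.CFT.Local.Plan2
import Fermat.Agent.CFT.Local.Provide

/-!
# CFT program, layer Local: cyclotomic extensions prime to the residue characteristic

Providers for `Plan2.CycloUnram` and `Plan2.CycloSubUnram`: for `q ∤ m`, `F(ζ_m)/F` is
unramified, its Frobenius is `ζ ↦ ζ ^ resCard q F`, and its degree is the order of `resCard q F`
modulo `m`.
-/

set_option autoImplicit false

namespace Fermat.Agent.CFT.Local.CycloUnramQ

open Polynomial Finset Fermat.Agent.CFT.Local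

/-! ## Roots of unity of order prime to `q` are incongruent -/

section Incong

variable (q : ℕ) [Fact q.Prime] (E : Type) [Field E] [Algebra ℚ_[q] E]

/-- A root of unity is integral. -/
lemma mem_integers_of_pow_eq_one {m : ℕ} (hm : 0 < m) {η : E} (hη : η ^ m = 1) :
    η ∈ integers q E := by
  rw [UnramCore.mem_integers_iff]
  refine ⟨X ^ m - 1, monic_X_pow_sub (by rw [degree_one]; exact_mod_cast hm), ?_⟩
  simp [eval₂_sub, eval₂_pow, hη]

/-- The inverse of an integer prime to `q` is integral. -/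
lemma natCast_inv_mem_integers {m : ℕ} (hqm : ¬ q ∣ m) : ((m : E))⁻¹ ∈ integers q E := by
  have hu : IsUnit ((m : ℕ) : ℤ_[q]) := by
    rw [PadicInt.isUnit_iff]
    have h1 : ‖((m : ℤ) : ℤ_[q])‖ ≤ 1 := PadicInt.norm_le_one _
    have h2 : ¬ ‖((m : ℤ) : ℤ_[q])‖ < 1 := by
      rw [PadicInt.norm_int_lt_one_iff_dvd]
      intro h
      exact hqm (Int.natCast_dvd_natCast.mp h)
    have h3 : ((m : ℤ) : ℤ_[q]) = ((m : ℕ) : ℤ_[q]) := by norm_cast
    rw [← h3]
    exact le_antisymm h1 (not_lt.mp h2)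
  obtain ⟨u, hu⟩ := hu
  rw [UnramCore.mem_integers_iff]
  set g := (algebraMap ℚ_[q] E).comp (algebraMap ℤ_[q] ℚ_[q]) with hg
  have h1 : g ((u⁻¹ : ℤ_[q]ˣ) : ℤ_[q]) * (m : E) = 1 := by
    have : g (u : ℤ_[q]) = (m : E) := by rw [hu, map_natCast]
    rw [← this, ← map_mul, Units.inv_mul, map_one]
  have h2 : g ((u⁻¹ : ℤ_[q]ˣ) : ℤ_[q]) = (m : E)⁻¹ := eq_inv_of_mul_eq_one_left h1
  rw [← h2]
  exact g.isIntegralElem_map

variable [FiniteDimensional ℚ_[q] E]

/-- For `q ∤ m`, an `m`-th root of unity `η ≠ 1` is not congruent to `1`. -/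
lemma one_sub_not_mem_maxIdeal {m : ℕ} (hqm : ¬ q ∣ m) {η : E} (hη : η ^ m = 1) (hη1 : η ≠ 1) :
    (1 - η) ∉ maxIdeal q E := by
  intro h
  have hm0 : m ≠ 0 := by rintro rfl; exact hqm (dvd_zero q)
  have hηint : η ∈ integers q E := mem_integers_of_pow_eq_one q E (Nat.pos_of_ne_zero hm0) hη
  have hne : (1 : E) - η ≠ 0 := sub_ne_zero.2 (Ne.symm hη1)
  have hsum0 : ∑ i ∈ range m, η ^ i = 0 := by
    have h1 := geom_sum_mul_neg η m
    rw [hη, sub_self] at h1
    exact (mul_eq_zero.1 h1).resolve_right hne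
  have hid : (m : E) = (∑ i ∈ range m, ∑ j ∈ range i, η ^ j) * (1 - η) := by
    rw [sum_mul]
    have h2 : ∀ i ∈ range m, (∑ j ∈ range i, η ^ j) * (1 - η) = 1 - η ^ i :=
      fun i _ => geom_sum_mul_neg η i
    rw [sum_congr rfl h2, sum_sub_distrib, hsum0, sub_zero]
    simp
  have hS : (∑ i ∈ range m, ∑ j ∈ range i, η ^ j) ∈ integers q E :=
    Subring.sum_mem _ fun i _ => Subring.sum_mem _ fun j _ => Subring.pow_mem _ hηint j
  have hmem : (m : E) ∈ maxIdeal q E := by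
    rw [hid]
    exact (Provide.ordStmt q E).2.2.2.2.2.2.2.2.1 _ _ hS h
  have hchar : CharZero E := UnramQ.charZeroOf q E
  rcases hmem.2 with h0 | h0
  · exact hm0 (by exact_mod_cast h0)
  · exact h0 (natCast_inv_mem_integers q E hqm)

end Incong

/-! ## The extension `F(ζ_m)` -/

section Main

variable (q : ℕ) [Fact q.Prime] (F E : Type) [Field F] [Field E] [Algebra ℚ_[q] F]
  [Algebra ℚ_[q] E] [Algebra F E] [IsScalarTower ℚ_[q] F E] [FiniteDimensional ℚ_[q] F]
  [FiniteDimensional F E]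

omit [FiniteDimensional F E] in
/-- `F(ζ_m)/F` is unramified for `q ∤ m`. -/
theorem isUnram_of_primitiveRoot {m : ℕ} {ζ : E} (hqm : ¬ q ∣ m) (hζ : IsPrimitiveRoot ζ m)
    (hadj : Algebra.adjoin F {ζ} = ⊤) : IsUnram q F E := by
  have hm0 : m ≠ 0 := by rintro rfl; exact hqm (dvd_zero q)
  have hmpos : 0 < m := Nat.pos_of_ne_zero hm0
  have hqprime : q.Prime := Fact.out
  -- `m` divides `Q ^ f - 1` with `f = φ(m)`
  set Q := resCard q F with hQ
  have hcop : Nat.Coprime Q m := by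
    rw [hQ, resCard]
    exact Nat.Coprime.pow_left _ ((Nat.Prime.coprime_iff_not_dvd hqprime).2 hqm)
  set f := Nat.totient m with hf
  have hfpos : 0 < f := Nat.totient_pos.2 hmpos
  have hmod : Q ^ f ≡ 1 [MOD m] := Nat.ModEq.pow_totient hcop
  have hQpos : 0 < Q := by rw [hQ, resCard]; exact pow_pos hqprime.pos _
  have hdvd : m ∣ Q ^ f - 1 :=
    (Nat.modEq_iff_dvd' (Nat.one_le_pow _ _ hQpos)).1 hmod.symm
  -- the unramified extension of degree `f`
  obtain ⟨Ef, _, _, _, _, _, hurf, hdeg⟩ := (Provide.unramExists q F).1 f hfpos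
  have hfdEf : FiniteDimensional ℚ_[q] Ef := FiniteDimensional.trans ℚ_[q] F Ef
  obtain ⟨⟨e, he0, he, -, heur⟩, -⟩ := Provide.relOrdStmt q F Ef
  have he1 : e = 1 := heur.1 hurf
  have hfEf : fDeg q Ef = f * fDeg q F := by rw [← hdeg, ← he, he1, one_mul]
  have hres : resCard q Ef = Q ^ f := by
    rw [hQ, resCard, resCard, hfEf, mul_comm, pow_mul]
  obtain ⟨⟨ζf, hζf⟩, -⟩ := Provide.resFieldStmt q Ef
  rw [hres] at hζf
  have hQf : 1 < Q ^ f := by
    have h1 : 1 < Q := by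
      rw [hQ, resCard]
      exact Nat.one_lt_pow (Provide.ordStmt q F).1.ne' hqprime.one_lt
    exact Nat.one_lt_pow hfpos.ne' h1
  obtain ⟨ζ', hζ'⟩ := UnramExists.exists_primitiveRoot_of_dvd hζf (by omega) hdvd
  -- embed `E` into `Ef`
  have htop : IntermediateField.adjoin F {ζ} = ⊤ :=
    IntermediateField.adjoin_eq_top_of_algebra F {ζ} hadj
  obtain ⟨ψ⟩ := UnramExists.nonempty_algHom_of_primitiveRoot hmpos hζ htop hζ'
  let _ : Algebra E Ef := ψ.toRingHom.toAlgebra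
  have ht1 : IsScalarTower F E Ef := IsScalarTower.of_algebraMap_eq (fun x => (ψ.commutes x).symm)
  have ht2 : IsScalarTower ℚ_[q] E Ef := IsScalarTower.of_algebraMap_eq (fun x => by
    rw [IsScalarTower.algebraMap_apply ℚ_[q] F Ef, IsScalarTower.algebraMap_apply ℚ_[q] F E,
      ← IsScalarTower.algebraMap_apply F E Ef])
  exact (((Provide.unramExists q F).2.2 E Ef).1 hurf).1

/-- Every Frobenius element of `F(ζ_m)/F` maps `ζ` to `ζ ^ resCard q F`. -/
theorem frob_apply_root {m : ℕ} {ζ : E} (hqm : ¬ q ∣ m) (hζ : IsPrimitiveRoot ζ m)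
    (φ : E ≃ₐ[F] E) (hφ : IsFrob q F E φ) : φ ζ = ζ ^ resCard q F := by
  have hfdE : FiniteDimensional ℚ_[q] E := FiniteDimensional.trans ℚ_[q] F E
  have hm0 : m ≠ 0 := by rintro rfl; exact hqm (dvd_zero q)
  have hmpos : 0 < m := Nat.pos_of_ne_zero hm0
  by_contra hne
  set Q := resCard q F with hQ
  have hζint : ζ ∈ integers q E := mem_integers_of_pow_eq_one q E hmpos hζ.pow_eq_one
  have hcong := hφ ζ hζint
  have hζQ : (ζ ^ Q) ^ m = 1 := by rw [← pow_mul, mul_comm, pow_mul, hζ.pow_eq_one, one_pow]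
  have hζQ0 : ζ ^ Q ≠ 0 := pow_ne_zero _ (hζ.ne_zero hm0)
  have hinv : ((ζ ^ Q)⁻¹) ^ m = 1 := by rw [inv_pow, hζQ, inv_one]
  have hφm : (φ ζ) ^ m = 1 := by rw [← map_pow, hζ.pow_eq_one, map_one]
  set η := φ ζ * (ζ ^ Q)⁻¹ with hη
  have hηm : η ^ m = 1 := by rw [hη, mul_pow, hφm, hinv, one_mul]
  have hη1 : η ≠ 1 := by
    intro h
    apply hne
    rw [hη] at h
    have := congrArg (· * ζ ^ Q) h
    simpa [inv_mul_cancel_right₀ hζQ0] using this
  have h1 : 1 - η = (-(ζ ^ Q)⁻¹) * (φ ζ - ζ ^ Q) := by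
    rw [hη]
    field_simp
    ring
  have hinvint : -(ζ ^ Q)⁻¹ ∈ integers q E :=
    Subring.neg_mem _ (mem_integers_of_pow_eq_one q E hmpos hinv)
  have hmem : (1 - η) ∈ maxIdeal q E := by
    rw [h1]
    exact (Provide.ordStmt q E).2.2.2.2.2.2.2.2.1 _ _ hinvint hcong
  exact one_sub_not_mem_maxIdeal q E hqm hηm hη1 hmem

theorem cycloUnram : Plan2.CycloUnram := by
  intro q _ F E _ _ _ _ _ _ _ _ m ζ hqm hζ hadj
  have hm0 : m ≠ 0 := by rintro rfl; exact hqm (dvd_zero q)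
  have hur : IsUnram q F E := isUnram_of_primitiveRoot q F E hqm hζ hadj
  refine ⟨hur, fun φ hφ => frob_apply_root q F E hqm hζ φ hφ, ?_⟩
  obtain ⟨hgal, φ, hφ, hgen, -⟩ := Provide.unramStruct q F E hur
  set Q := resCard q F with hQ
  have hφζ : φ ζ = ζ ^ Q := frob_apply_root q F E hqm hζ φ hφ
  have hpow : ∀ k : ℕ, (φ ^ k) ζ = ζ ^ (Q ^ k) := by
    intro k
    induction k with
    | zero => simp
    | succ k ih =>
      rw [pow_succ', AlgEquiv.mul_apply, ih, map_pow, hφζ, ← pow_mul, ← pow_succ']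
  have hQpos : 0 < Q := by rw [hQ, resCard]; exact pow_pos (Fact.out : q.Prime).pos _
  have hiff : ∀ k : ℕ, φ ^ k = 1 ↔ ((Q : ℕ) : ZMod m) ^ k = 1 := by
    intro k
    have h1 : φ ^ k = 1 ↔ (φ ^ k) ζ = ζ := by
      constructor
      · intro h; rw [h]; rfl
      · intro h
        apply AlgEquiv.coe_toAlgHom_injective
        apply AlgHom.ext_of_adjoin_eq_top hadj
        intro x hx
        rw [Set.mem_singleton_iff] at hx
        subst hx
        exact h
    have h2 : (φ ^ k) ζ = ζ ↔ m ∣ Q ^ k - 1 := by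
      rw [hpow, ← hζ.pow_eq_one_iff_dvd]
      have hle : 1 ≤ Q ^ k := Nat.one_le_pow _ _ hQpos
      constructor
      · intro h
        have h3 : ζ ^ (Q ^ k - 1) * ζ = ζ := by rw [← pow_succ, Nat.sub_add_cancel hle, h]
        have h4 : ζ ^ (Q ^ k - 1) * ζ = 1 * ζ := by rw [h3, one_mul]
        exact mul_right_cancel₀ (hζ.ne_zero hm0) h4
      · intro h
        have : ζ ^ (Q ^ k) = ζ ^ (Q ^ k - 1) * ζ := by rw [← pow_succ, Nat.sub_add_cancel hle]
        rw [this, h, one_mul]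
    have h3 : ((Q : ℕ) : ZMod m) ^ k = 1 ↔ m ∣ Q ^ k - 1 := by
      have hle : 1 ≤ Q ^ k := Nat.one_le_pow _ _ hQpos
      rw [← Nat.cast_pow, ← Nat.cast_one (R := ZMod m), ZMod.natCast_eq_natCast_iff,
        ← Nat.modEq_iff_dvd' hle]
      exact ⟨Nat.ModEq.symm, Nat.ModEq.symm⟩
    rw [h1, h2, h3]
  have hord : orderOf φ = orderOf ((Q : ℕ) : ZMod m) := orderOf_eq_orderOf_iff.2 hiff
  rw [← hord, orderOf_eq_card_of_forall_mem_zpowers hgen, IsGalois.card_aut_eq_finrank]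

theorem cycloSubUnram : Plan2.CycloSubUnram := by
  intro q _ F E' E _ _ _ _ _ _ _ _ _ _ _ _ _ _ m ζ hqm hζ hadj
  have hur : IsUnram q F E := isUnram_of_primitiveRoot q F E hqm hζ hadj
  have ht : IsScalarTower ℚ_[q] E' E := IsScalarTower.of_algebraMap_eq (fun x => by
    rw [IsScalarTower.algebraMap_apply ℚ_[q] F E, IsScalarTower.algebraMap_apply ℚ_[q] F E',
      ← IsScalarTower.algebraMap_apply F E' E])
  exact (((Provide.unramExists q F).2.2 E' E).1 hur).1

end Main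

end Fermat.Agent.CFT.Local.CycloUnramQ
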