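import Fermat.Agent.CFT.Local.Plan2
import Fermat.Agent.CFT.Local.Provide
import Fermat.Agent.CFT.Local.Crossing
import Fermat.Agent.CFT.Local.CycloUnramQ

/-!
# CFT program, layer Local: every contract of `Local/Plan2.lean`, unconditionally

One import for the consumers of the second block of local statements (the local inputs of the
global reciprocity package), together with the combined form used for the local–global
injectivity of `H²`: `eq_zero_of_crossing`.
-/

set_option autoImplicit false

namespace Fermat.Agent.CFT.Local.Provide2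

open CategoryTheory groupCohomology Fermat.Agent.CFT.Local

theorem unramNormIff : Plan2.UnramNormIff := Crossing.unramNormIff

theorem cycloUnram : Plan2.CycloUnram := CycloUnramQ.cycloUnram

theorem cycloSubUnram : Plan2.CycloSubUnram := CycloUnramQ.cycloSubUnram

theorem cyclicClassNorm : Plan2.CyclicClassNorm := Crossing.cyclicClassNorm

theorem localCrossing : Plan2.LocalCrossing := Crossing.localCrossing

/-- **The local half of the local–global injectivity of `H²`.**  Let `E/F` be finite Galois and
`Z/F` unramified with generator `σ` of its Galois group, both inside a finite Galois `M/F`.  If a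
class `c ∈ H²(Gal(E/F), Eˣ)` agrees in `H²(Gal(M/F), Mˣ)` with the cyclic class `y = [σ, x]` of
`Z/F`, and `[Z:F]` divides the valuation of `x`, then `c = 0`. -/
theorem eq_zero_of_crossing (q : ℕ) [Fact q.Prime] (F E Z M : Type) [Field F] [Field E] [Field Z]
    [Field M] [Algebra ℚ_[q] F] [Algebra ℚ_[q] E] [Algebra ℚ_[q] Z] [Algebra ℚ_[q] M]
    [Algebra F E] [Algebra F Z] [Algebra F M] [Algebra E M] [Algebra Z M]
    [IsScalarTower ℚ_[q] F E] [IsScalarTower ℚ_[q] F Z] [IsScalarTower ℚ_[q] F M]
    [IsScalarTower F E M] [IsScalarTower F Z M]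
    [FiniteDimensional ℚ_[q] F] [FiniteDimensional F Z] [FiniteDimensional F M]
    [IsGalois F E] [IsGalois F Z] [IsGalois F M]
    (σ : Z ≃ₐ[F] Z) (hσ : ∀ τ : Z ≃ₐ[F] Z, τ ∈ Subgroup.zpowers σ) (hur : IsUnram q F Z)
    (c : H2 (unitsRep F E)) (x : Fˣ) (y : H2 (unitsRep F Z)) (hy : IsUnramClass F Z σ x y)
    (hc : (inflH F E M 2).hom c = (inflH F Z M 2).hom y)
    (hx : (Module.finrank F Z : ℤ) ∣ ordZ q F x) : c = 0 := by
  have hnorm : ∃ w : Zˣ, Algebra.norm F (w : Z) = (x : F) := (unramNormIff q F Z hur x).2 hx
  have hy0 : y = 0 := (cyclicClassNorm F Z σ hσ x y hy).2 hnorm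
  rw [hy0, map_zero] at hc
  have hinj := (Provide.fieldInfRes F E M).1
  apply hinj
  rw [hc, map_zero]

end Fermat.Agent.CFT.Local.Provide2
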