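import Fermat.Agent.CFT.Local.Plan
import Fermat.Agent.CFT.Triv.ClassAt

/-!
# CFT program, layer Local: the class-module axioms at every subgroup ([LocalClassAt])

`localClassAt : Plan.InvBasic → Plan.InvRes → Plan.LocalClassAt`, and the same statement in the
vocabulary of `Triv.IsClassAt`.

For an injective `f : H →* Gal(E/F)` let `K` be the fixed field of the image of `f`; then
`H ≃* Gal(E/K)` compatibly with the action on `Eˣ`, `H¹` vanishes by Hilbert 90, and the
restriction of a fundamental cocycle of `E/F` is a fundamental cocycle of `E/K` (`InvRes`), which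
generates `H²(Gal(E/K), Eˣ)` and has order `[E:K] = |H|` (`InvBasic`).
-/

set_option autoImplicit false

namespace Fermat.Agent.CFT.Local.ClassAtOfInv

open CategoryTheory groupCohomology Fermat.Agent.CFT.Local

/-! ## The Galois group of `E` over the fixed field of a subgroup -/

section Transport

variable {F E : Type} [Field F] [Field E] [Algebra F E] [FiniteDimensional F E]
  {H : Type} [Group H] (f : H →* (E ≃ₐ[F] E)) (hf : Function.Injective f)

/-- The fixed field of the image of `f`. -/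
abbrev fixK : IntermediateField F E := IntermediateField.fixedField f.range

/-- `H ≃* Gal(E/K)` for `K` the fixed field of the image of the injective `f : H →* Gal(E/F)`. -/
noncomputable def galEquiv : H ≃* (E ≃ₐ[fixK f] E) :=
  (MonoidHom.ofInjective hf).trans
    ((MulEquiv.subgroupCongr (IntermediateField.fixingSubgroup_fixedField f.range).symm).trans
      (IntermediateField.fixingSubgroupEquiv (fixK f)))

lemma galEquiv_apply (h : H) (x : E) : galEquiv f hf h x = f h x := rfl

lemma rho_galEquiv (h : H) (x : (unitsRep F E).V) :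
    (unitsRep (fixK f) E).ρ (galEquiv f hf h) x = (unitsRep F E).ρ (f h) x := rfl

lemma rho_eq (g : E ≃ₐ[fixK f] E) (x : (unitsRep F E).V) :
    (unitsRep (fixK f) E).ρ g x = (unitsRep F E).ρ (f ((galEquiv f hf).symm g)) x := by
  rw [← rho_galEquiv f hf, MulEquiv.apply_symm_apply]

end Transport

/-! ## Transport of cochains between `H` and `Gal(E/K)` -/

section Cochains

variable {F E : Type} [Field F] [Field E] [Algebra F E] [FiniteDimensional F E]
  {H : Type} [Group H] (f : H →* (E ≃ₐ[F] E)) (hf : Function.Injective f)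

/-- A `1`-cocycle of `H` gives a `1`-cocycle of `Gal(E/K)`. -/
lemma cocycle₁_transport (c : cocycles₁ (Rep.res f (unitsRep F E))) :
    (fun g : E ≃ₐ[fixK f] E => c ((galEquiv f hf).symm g)) ∈ cocycles₁ (unitsRep (fixK f) E) := by
  refine (mem_cocycles₁_iff (A := unitsRep (fixK f) E) _).2 (fun g h => ?_)
  have h1 := (mem_cocycles₁_iff (A := Rep.res f (unitsRep F E)) c).1 c.2
    ((galEquiv f hf).symm g) ((galEquiv f hf).symm h)
  rw [← map_mul] at h1
  have hρ : (Rep.res f (unitsRep F E)).ρ ((galEquiv f hf).symm g) (c ((galEquiv f hf).symm h)) =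
      (unitsRep (fixK f) E).ρ g (c ((galEquiv f hf).symm h)) := (rho_eq f hf g _).symm
  rw [hρ] at h1
  exact h1

/-- A `2`-cocycle of `H` gives a `2`-cocycle of `Gal(E/K)`. -/
lemma cocycle₂_transport (τ : cocycles₂ (Rep.res f (unitsRep F E))) :
    (fun p : (E ≃ₐ[fixK f] E) × (E ≃ₐ[fixK f] E) =>
      τ ((galEquiv f hf).symm p.1, (galEquiv f hf).symm p.2)) ∈
      cocycles₂ (unitsRep (fixK f) E) := by
  refine (mem_cocycles₂_iff (A := unitsRep (fixK f) E) _).2 (fun g h j => ?_)
  have h1 := (mem_cocycles₂_iff (A := Rep.res f (unitsRep F E)) τ).1 τ.2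
    ((galEquiv f hf).symm g) ((galEquiv f hf).symm h) ((galEquiv f hf).symm j)
  rw [← map_mul, ← map_mul] at h1
  have hρ : (Rep.res f (unitsRep F E)).ρ ((galEquiv f hf).symm g)
      (τ ((galEquiv f hf).symm h, (galEquiv f hf).symm j)) =
      (unitsRep (fixK f) E).ρ g (τ ((galEquiv f hf).symm h, (galEquiv f hf).symm j)) :=
    (rho_eq f hf g _).symm
  rw [hρ] at h1
  exact h1

omit [FiniteDimensional F E] in
/-- The restriction to `Gal(E/K)` of a `2`-cocycle of `Gal(E/F)`. -/
lemma cocycle₂_restrict (σ : cocycles₂ (unitsRep F E)) :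
    (fun p : (E ≃ₐ[fixK f] E) × (E ≃ₐ[fixK f] E) =>
      σ (AlgEquiv.restrictScalarsHom F p.1, AlgEquiv.restrictScalarsHom F p.2)) ∈
      cocycles₂ (unitsRep (fixK f) E) := by
  refine (mem_cocycles₂_iff (A := unitsRep (fixK f) E) _).2 (fun g h j => ?_)
  have h1 := (mem_cocycles₂_iff (A := unitsRep F E) σ).1 σ.2 (AlgEquiv.restrictScalarsHom F g)
    (AlgEquiv.restrictScalarsHom F h) (AlgEquiv.restrictScalarsHom F j)
  rw [← map_mul, ← map_mul] at h1
  exact h1

lemma restrictScalars_galEquiv (h : H) :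
    (AlgEquiv.restrictScalarsHom F (galEquiv f hf h) : E ≃ₐ[F] E) = f h := by
  ext x
  rfl

end Cochains

/-! ## Pure algebra: transport of coboundary identities along a group isomorphism -/

section Core

variable {X : Type} [AddCommGroup X] {H G' : Type} [Group H] [Group G'] (e : H ≃* G')
  (ρH : H → X → X) (ρK : G' → X → X) (hρ : ∀ h x, ρK (e h) x = ρH h x)

include hρ

lemma core_h1 (c : H → X) (β : X) (hβ : ∀ g, ρK g β - β = c (e.symm g)) (h : H) :
    ρH h β - β = c h := by
  have h1 := hβ (e h)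
  rwa [hρ, MulEquiv.symm_apply_apply] at h1

lemma core_gen (τ σf : H × H → X) (σK : G' × G' → X)
    (hσ : ∀ h₁ h₂, σK (e h₁, e h₂) = σf (h₁, h₂)) (k : ℤ) (b' : G' → X)
    (hb' : ∀ g₁ g₂, ρK g₁ (b' g₂) - b' (g₁ * g₂) + b' g₁ =
      τ (e.symm g₁, e.symm g₂) - k • σK (g₁, g₂)) (h₁ h₂ : H) :
    τ (h₁, h₂) = k • σf (h₁, h₂) + (ρH h₁ (b' (e h₂)) - b' (e (h₁ * h₂)) + b' (e h₁)) := by
  have h1 := hb' (e h₁) (e h₂)
  rw [hρ, MulEquiv.symm_apply_apply, MulEquiv.symm_apply_apply, hσ, ← map_mul] at h1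
  rw [h1]
  abel

lemma core_ord (σf : H × H → X) (σK : G' × G' → X)
    (hσ : ∀ h₁ h₂, σK (e h₁, e h₂) = σf (h₁, h₂)) (k : ℤ) (b : H → X)
    (hb : ∀ h₁ h₂, k • σf (h₁, h₂) = ρH h₁ (b h₂) - b (h₁ * h₂) + b h₁) (g₁ g₂ : G') :
    ρK g₁ (b (e.symm g₂)) - b (e.symm (g₁ * g₂)) + b (e.symm g₁) = k • σK (g₁, g₂) := by
  have h1 := hb (e.symm g₁) (e.symm g₂)
  have h2 := hσ (e.symm g₁) (e.symm g₂)
  have h3 := hρ (e.symm g₁) (b (e.symm g₂))
  rw [MulEquiv.apply_symm_apply] at h2 h3
  rw [MulEquiv.apply_symm_apply] at h2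
  rw [h3, map_mul, ← h1, h2]

end Core

/-! ## The class-module axioms -/

section Main

/-- **The class-module axioms for `(Gal(E/F), Eˣ)`** with a fundamental cocycle `σ`, at every
subgroup (every injective `f : H →* Gal(E/F)`), in the vocabulary of `Triv.IsClassAt`. -/
theorem isClassAt (hB : Plan.InvBasic) (hR : Plan.InvRes)
    (q : ℕ) [Fact q.Prime] (F E : Type) [Field F] [Field E] [Algebra ℚ_[q] F] [Algebra ℚ_[q] E]
    [Algebra F E] [IsScalarTower ℚ_[q] F E] [FiniteDimensional ℚ_[q] F] [FiniteDimensional F E]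
    [IsGalois F E] (σ : cocycles₂ (unitsRep F E))
    (hσ : IsFundClass q F E ((H2π (unitsRep F E)).hom σ))
    (H : Type) [Group H] (f : H →* (E ≃ₐ[F] E)) (hf : Function.Injective f) :
    Triv.IsClassAt (unitsRep F E) σ f := by
  have hT : IsScalarTower ℚ_[q] (fixK f) E := IsScalarTower.of_algebraMap_eq (fun x => rfl)
  have hFD : FiniteDimensional ℚ_[q] (fixK f) := FiniteDimensional.trans ℚ_[q] F (fixK f)
  -- the restricted fundamental cocycle
  set σK : cocycles₂ (unitsRep (fixK f) E) := ⟨_, cocycle₂_restrict f σ⟩ with hσK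
  have hres : (resH F (fixK f) E 2).hom ((H2π (unitsRep F E)).hom σ) =
      (H2π (unitsRep (fixK f) E)).hom σK := by
    show (groupCohomology.map (AlgEquiv.restrictScalarsHom F :
      (E ≃ₐ[fixK f] E) →* (E ≃ₐ[F] E)) (unitsResHom F (fixK f) E) 2).hom
        ((H2π (unitsRep F E)).hom σ) = _
    rw [H2π_comp_map_apply]
    rfl
  have hfund : IsFundClass q (fixK f) E ((H2π (unitsRep (fixK f) E)).hom σK) := by
    unfold IsFundClass at hσ ⊢
    rw [← hres, hR q F (fixK f) E, hσ, ← AddCircle.coe_nsmul]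
    congr 1
    rw [nsmul_eq_mul, ← Module.finrank_mul_finrank F (fixK f) E]
    have h1 : (0 : ℚ) < (Module.finrank F (fixK f) : ℚ) := by exact_mod_cast Module.finrank_pos
    have h2 : (0 : ℚ) < (Module.finrank (fixK f) E : ℚ) := by exact_mod_cast Module.finrank_pos
    push_cast
    field_simp
  obtain ⟨-, -, -, -, -, -, hgen⟩ := hB q (fixK f) E
  obtain ⟨hgen1, hgen2⟩ := hgen _ hfund
  -- the two actions on the common carrier
  let ρH : H → Additive Eˣ → Additive Eˣ := fun h x => (unitsRep F E).ρ (f h) x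
  let ρK : (E ≃ₐ[fixK f] E) → Additive Eˣ → Additive Eˣ := fun g x => (unitsRep (fixK f) E).ρ g x
  have hρ : ∀ h x, ρK (galEquiv f hf h) x = ρH h x := fun h x => rfl
  let σf : H × H → Additive Eˣ := fun p => σ (f p.1, f p.2)
  let σKf : (E ≃ₐ[fixK f] E) × (E ≃ₐ[fixK f] E) → Additive Eˣ := fun p => σK p
  have hσf : ∀ h₁ h₂, σKf (galEquiv f hf h₁, galEquiv f hf h₂) = σf (h₁, h₂) := by
    intro h₁ h₂
    show σ (AlgEquiv.restrictScalarsHom F (galEquiv f hf h₁),
      AlgEquiv.restrictScalarsHom F (galEquiv f hf h₂)) = σ (f h₁, f h₂)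
    rw [restrictScalars_galEquiv, restrictScalars_galEquiv]
  refine ⟨fun c => ?_, fun τ => ?_, fun k hk => ?_⟩
  · -- Hilbert 90
    have h0 : (H1π (unitsRep (fixK f) E)).hom ⟨_, cocycle₁_transport f hf c⟩ = 0 :=
      Subsingleton.elim _ _
    obtain ⟨β, hβ⟩ := (H1π_eq_zero_iff _).1 h0
    exact ⟨β, funext (core_h1 (galEquiv f hf) ρH ρK hρ (fun h => c h) β
      (fun g => congrFun hβ g))⟩
  · -- the restricted class generates
    obtain ⟨k, hk⟩ := hgen1 ((H2π (unitsRep (fixK f) E)).hom ⟨_, cocycle₂_transport f hf τ⟩)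
    rw [← map_zsmul, H2π_eq_iff] at hk
    obtain ⟨b', hb'⟩ := hk
    exact ⟨k, fun h => b' (galEquiv f hf h), funext fun p =>
      core_gen (galEquiv f hf) ρH ρK hρ (fun p => τ p) σf σKf hσf k b'
        (fun g₁ g₂ => congrFun hb' (g₁, g₂)) p.1 p.2⟩
  · -- the order of the restricted class
    obtain ⟨b, hb⟩ := hk
    have h0 : k • (H2π (unitsRep (fixK f) E)).hom σK = 0 := by
      rw [← map_zsmul, H2π_eq_zero_iff]
      exact ⟨fun g => b ((galEquiv f hf).symm g), funext fun p =>
        core_ord (galEquiv f hf) ρH ρK hρ σf σKf hσf k b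
          (fun h₁ h₂ => congrFun hb (h₁, h₂)) p.1 p.2⟩
    have h1 := hgen2 k h0
    have h2 : Nat.card H = Module.finrank (fixK f) E := by
      rw [Nat.card_congr (galEquiv f hf).toEquiv, IsGalois.card_aut_eq_finrank]
    rw [h2]
    exact h1

/-- **[LocalClassAt]** -/
theorem localClassAt (hB : Plan.InvBasic) (hR : Plan.InvRes) : Plan.LocalClassAt := by
  intro q _ F E _ _ _ _ _ _ _ _ _ σ hσ H _ f hf
  obtain ⟨h1, h2, h3⟩ := isClassAt hB hR q F E σ hσ H f hf
  exact ⟨h1, h2, h3⟩

end Main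

end Fermat.Agent.CFT.Local.ClassAtOfInv
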