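import Mathlib
import Fermat.Agent.CFT.Local.Plan
import Fermat.Agent.CFT.Local.CycClass
import Fermat.Agent.CFT.Local.FieldCoh
import Fermat.Agent.CFT.Local.InvTools

/-!
# CFT program, layer Local: norm limitation

`Plan.NormLimitation` from `Plan.InvBasic` (only: `H²(Gal(M/F), Mˣ)` is generated by a class of
exact order `[M:F]`), by the corestriction argument: the projection formula
`cores (res c ∪ x) = c ∪ N x` in the form of coefficient maps out of the trivial module.
-/

set_option autoImplicit false
set_option linter.style.haveILetI false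

namespace Fermat.Agent.CFT.Local.NormLimitation

open CategoryTheory groupCohomology Fermat.Agent.CFT Fermat.Agent.CFT.Local

/-! ## Abstract part: the projection formula for the corestriction -/

section Abstract

open Fermat.Agent.CFT.Coh.ResCores

variable {k G : Type} [CommRing k] [Group G] (S : Subgroup G) [S.FiniteIndex]

/-- The transfer of an `S`-equivariant map `T → B` to a `G`-equivariant map:
`t ↦ ∑_{yS} y • h (y⁻¹ • t)`. -/
noncomputable def transferHom (T B : Rep.{0} k G)
    (h : Rep.res S.subtype T ⟶ Rep.res S.subtype B) : T ⟶ B :=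
  coindUnit S T ≫ (Rep.coindFunctor k S.subtype).map h ≫ coindTrace S B

/-- Projection formula: `cores ∘ h_* ∘ res = (transfer h)_*`. -/
theorem cores_proj (T B : Rep.{0} k G) (h : Rep.res S.subtype T ⟶ Rep.res S.subtype B) (n : ℕ) :
    resMap S T n ≫ groupCohomology.map (MonoidHom.id S) h n ≫ cores S B n =
      groupCohomology.map (MonoidHom.id G) (transferHom S T B h) n := by
  have nat := shapiroMap_naturality S h n
  rw [resMap_eq, cores, transferHom, groupCohomology.map_id_comp, groupCohomology.map_id_comp]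
  simp only [Category.assoc]
  rw [← Category.assoc (shapiroMap S _ n), ← nat]
  simp

/-- Projection formula, composed with a change of groups `ρ : G → G₀`. -/
theorem cores_proj' {G₀ : Type} [Group G₀] (ρ : G →* G₀) (A₀ : Rep.{0} k G₀) (B : Rep.{0} k G)
    (h : Rep.res (ρ.comp S.subtype) A₀ ⟶ Rep.res S.subtype B) (n : ℕ) :
    groupCohomology.map (ρ.comp S.subtype) h n ≫ cores S B n =
      groupCohomology.map ρ (transferHom S (Rep.res ρ A₀) B h) n := by
  have e1 : groupCohomology.map ρ (𝟙 (Rep.res ρ A₀)) n ≫ resMap S (Rep.res ρ A₀) n =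
      groupCohomology.map (ρ.comp S.subtype) (𝟙 (Rep.res (ρ.comp S.subtype) A₀)) n :=
    FieldCoh.map_comp_of_eq _ _ _ _ _ _ (fun _ => rfl) (fun _ => rfl) n
  have e2 : groupCohomology.map (ρ.comp S.subtype) (𝟙 (Rep.res (ρ.comp S.subtype) A₀)) n ≫
      groupCohomology.map (MonoidHom.id S) h n = groupCohomology.map (ρ.comp S.subtype) h n :=
    FieldCoh.map_comp_of_eq _ _ _ _ _ _ (fun _ => rfl) (fun _ => rfl) n
  have e3 : groupCohomology.map ρ (𝟙 (Rep.res ρ A₀)) n ≫
      groupCohomology.map (MonoidHom.id G) (transferHom S (Rep.res ρ A₀) B h) n =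
      groupCohomology.map ρ (transferHom S (Rep.res ρ A₀) B h) n :=
    FieldCoh.map_comp_of_eq _ _ _ _ _ _ (fun _ => rfl) (fun _ => rfl) n
  rw [← e2, ← e1, Category.assoc, Category.assoc, cores_proj S (Rep.res ρ A₀) B h n, e3]

/-- The transfer, evaluated. -/
theorem transferHom_apply [Fintype (G ⧸ S)] (T B : Rep.{0} k G)
    (h : Rep.res S.subtype T ⟶ Rep.res S.subtype B) (t : T.V) (φ : G ⧸ S → B.V)
    (hφ : ∀ y : G, φ (QuotientGroup.mk y) = B.ρ y (h.hom (T.ρ y⁻¹ t))) :
    (transferHom S T B h).hom t = ∑ c : G ⧸ S, φ c := by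
  show coindTraceLin S B (((Rep.coindFunctor k S.subtype).map h).hom ((coindUnit S T).hom t)) = _
  rw [coindTraceLin_apply]
  refine Finset.sum_congr (by congr; exact Subsingleton.elim _ _) fun c _ => ?_
  induction c using QuotientGroup.induction_on with
  | H y =>
    rw [coindTraceAux_mk, hφ]
    rfl

end Abstract

/-! ## Coefficient maps out of the trivial module -/

section Const

variable {k G H : Type} [CommRing k] [Group G] [Group H]

/-- The map `k → A`, `n ↦ n • a`, for an invariant element `a`, as a morphism from (the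
restriction along `φ` of) the trivial module. -/
noncomputable def constHom (φ : H →* G) (A : Rep.{0} k H) (a : A.V) (ha : ∀ h : H, A.ρ h a = a) :
    Rep.res φ (Rep.trivial k G k) ⟶ A :=
  Rep.ofHom
    { toLinearMap := LinearMap.toSpanSingleton k A.V a
      isIntertwining' := fun h => by
        ext
        simp [ha] }

theorem constHom_apply (φ : H →* G) (A : Rep.{0} k H) (a : A.V) (ha : ∀ h : H, A.ρ h a = a)
    (n : k) : (constHom φ A a ha).hom n = n • a := rfl

theorem constHom_one (φ : H →* G) (A : Rep.{0} k H) (a : A.V) (ha : ∀ h : H, A.ρ h a = a) :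
    (constHom φ A a ha).hom (1 : k) = a := by
  rw [constHom_apply, one_smul]

/-- Two morphisms out of the trivial module `k` agreeing at `1` induce the same linear map. -/
theorem hom_ext_one (φ : H →* G) (A : Rep.{0} k H) (f g : Rep.res φ (Rep.trivial k G k) ⟶ A)
    (h : f.hom (1 : k) = g.hom (1 : k)) : f.hom.toLinearMap = g.hom.toLinearMap :=
  LinearMap.ext_ring h

/-- The generator of `H²(G, k)` attached to a generator `σ` of a finite cyclic group. -/
noncomputable def genClass (k : Type) [CommRing k] [Fintype G] (σ : G)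
    (hσ : ∀ x, x ∈ Subgroup.zpowers σ) : H2 (Rep.trivial k G k) :=
  Cyclic.H2ofInv (Rep.trivial k G k) σ hσ ⟨(1 : k), fun _ => rfl⟩

/-- The image of the generator under a change of groups and a constant coefficient map. -/
theorem map_constHom_genClass [Fintype G] [Fintype H] (σ : G) (hσ : ∀ x, x ∈ Subgroup.zpowers σ)
    (τ : H) (hτ : ∀ x, x ∈ Subgroup.zpowers τ) (φ : H →* G) (d : ℕ) (hd : φ τ = σ ^ d)
    (A : Rep.{0} k H) (a : A.V) (ha : ∀ h : H, A.ρ h a = a) :
    (groupCohomology.map φ (constHom φ A a ha) 2).hom (genClass k σ hσ) =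
      Cyclic.H2ofInv A τ hτ ⟨(d * orderOf τ / orderOf σ) • a, fun h => by
        rw [map_nsmul, ha]⟩ := by
  have h := Cyclic.map_H2ofInv (Rep.trivial k G k) A φ (constHom φ A a ha) hσ hτ d hd
    ⟨(1 : k), fun _ => rfl⟩
  refine h.trans ?_
  congr 1
  apply Subtype.ext
  show (d * orderOf τ / orderOf σ) • (constHom φ A a ha).hom (1 : k) = _
  rw [constHom_one]

end Const

/-! ## Field theory: the norm as a product over cosets -/

section NormProd

variable (F F' M : Type) [Field F] [Field F'] [Field M] [Algebra F F'] [Algebra F' M] [Algebra F M]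
  [IsScalarTower F F' M] [FiniteDimensional F M] [IsGalois F M]

/-- The norm `N_{F'/F}` as the product over the cosets of `Gal(M/F')` in `Gal(M/F)`. -/
theorem prod_coset_eq_norm [Fintype ((M ≃ₐ[F] M) ⧸ FieldCoh.fixSub F F' M)] (x : F')
    (φ : (M ≃ₐ[F] M) ⧸ FieldCoh.fixSub F F' M → M)
    (hφ : ∀ y : M ≃ₐ[F] M, φ (QuotientGroup.mk y) = y (algebraMap F' M x)) :
    ∏ c, φ c = algebraMap F M (Algebra.norm F x) := by
  classical
  haveI : FiniteDimensional F F' := FiniteDimensional.left F F' M
  haveI : Algebra.IsSeparable F F' := Algebra.isSeparable_tower_bot_of_isSeparable F F' M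
  let Ω := AlgebraicClosure M
  let e : (M ≃ₐ[F] M) ⧸ FieldCoh.fixSub F F' M → (F' →ₐ[F] Ω) := fun c =>
    Quotient.liftOn' c
      (fun y => (IsScalarTower.toAlgHom F M Ω).comp
        ((y : M →ₐ[F] M).comp (IsScalarTower.toAlgHom F F' M))) (by
      intro y y' h
      rw [QuotientGroup.leftRel_apply] at h
      ext z
      show algebraMap M Ω (y (algebraMap F' M z)) = algebraMap M Ω (y' (algebraMap F' M z))
      have h2 : (y⁻¹ * y') (algebraMap F' M z) = algebraMap F' M z := h z
      rw [AlgEquiv.mul_apply] at h2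
      have h3 : y ((y⁻¹) (y' (algebraMap F' M z))) = y (algebraMap F' M z) := by rw [h2]
      rw [← h3]
      congr 1
      exact AlgEquiv.apply_symm_apply y _)
  have he : ∀ (y : M ≃ₐ[F] M) (z : F'),
      e (QuotientGroup.mk y) z = algebraMap M Ω (y (algebraMap F' M z)) := fun _ _ => rfl
  have hinj : Function.Injective e := by
    intro c c' h
    induction c using QuotientGroup.induction_on with
    | H y =>
      induction c' using QuotientGroup.induction_on with
      | H y' =>
        rw [QuotientGroup.eq]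
        intro z
        have h1 := DFunLike.congr_fun h z
        rw [he, he] at h1
        have h2 := (algebraMap M Ω).injective h1
        show (y⁻¹ * y') (algebraMap F' M z) = algebraMap F' M z
        rw [AlgEquiv.mul_apply, ← h2]
        exact AlgEquiv.symm_apply_apply y _
  have hcard : Fintype.card ((M ≃ₐ[F] M) ⧸ FieldCoh.fixSub F F' M) =
      Fintype.card (F' →ₐ[F] Ω) := by
    rw [AlgHom.card, ← FieldCoh.index_fixSub F F' M, Subgroup.index_eq_card,
      Nat.card_eq_fintype_card]
  have hbij : Function.Bijective e := (Fintype.bijective_iff_injective_and_card e).2 ⟨hinj, hcard⟩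
  have h1 := Algebra.norm_eq_prod_embeddings F Ω x
  apply (algebraMap M Ω).injective
  rw [map_prod, ← IsScalarTower.algebraMap_apply F M Ω, h1]
  refine Fintype.prod_bijective e hbij _ _ (fun c => ?_)
  induction c using QuotientGroup.induction_on with
  | H y => rw [hφ, he]

end NormProd

/-! ## Field theory: the compositum `K = F'·E` -/

section Compositum

variable (F E F' K : Type) [Field F] [Field E] [Field F'] [Field K]
  [Algebra F E] [Algebra F F'] [Algebra F' K] [Algebra E K] [Algebra F K]
  [IsScalarTower F E K] [IsScalarTower F F' K]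

/-- If `E/F` is normal and `K = F'·E` then `K/F'` is normal. -/
theorem normal_of_adjoin [Normal F E]
    (hadj : Algebra.adjoin F' (Set.range (algebraMap E K)) = ⊤) : Normal F' K := by
  have hgen : ∀ y ∈ Set.range (algebraMap E K),
      IsIntegral F' y ∧ ((minpoly F' y).map (algebraMap F' K)).Splits := by
    rintro _ ⟨e, rfl⟩
    have hint : IsIntegral F e := (Normal.isIntegral (F := F) (K := E) inferInstance e)
    have hintK : IsIntegral F (algebraMap E K e) := hint.map (IsScalarTower.toAlgHom F E K)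
    have hint' : IsIntegral F' (algebraMap E K e) := hintK.tower_top
    refine ⟨hint', ?_⟩
    have hsplit : ((minpoly F e).map (algebraMap F E)).Splits := Normal.splits inferInstance e
    have h2 : ((minpoly F e).map (algebraMap F K)).Splits := by
      have := hsplit.map (algebraMap E K)
      rwa [Polynomial.map_map, ← IsScalarTower.algebraMap_eq F E K] at this
    have hmin : minpoly F (algebraMap E K e) = minpoly F e :=
      minpoly.algebraMap_eq (algebraMap E K).injective e
    have hdvd : minpoly F' (algebraMap E K e) ∣ (minpoly F e).map (algebraMap F F') := by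
      rw [← hmin]
      exact minpoly.dvd_map_of_isScalarTower F F' (algebraMap E K e)
    have hdvd' : (minpoly F' (algebraMap E K e)).map (algebraMap F' K) ∣
        (minpoly F e).map (algebraMap F K) := by
      have := Polynomial.map_dvd (algebraMap F' K) hdvd
      rwa [Polynomial.map_map, ← IsScalarTower.algebraMap_eq F F' K] at this
    refine h2.of_dvd ?_ hdvd'
    exact Polynomial.map_ne_zero (minpoly.ne_zero hint)
  have htop : IntermediateField.adjoin F' (Set.range (algebraMap E K)) = ⊤ := by
    apply top_unique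
    intro y _
    have hy : y ∈ Algebra.adjoin F' (Set.range (algebraMap E K)) := by rw [hadj]; trivial
    exact IntermediateField.algebra_adjoin_le_adjoin F' _ hy
  have hint : ∀ y : K, IsIntegral F' y := by
    intro y
    have hy : y ∈ Algebra.adjoin F' (Set.range (algebraMap E K)) := by rw [hadj]; trivial
    have hle : Algebra.adjoin F' (Set.range (algebraMap E K)) ≤ integralClosure F' K :=
      Algebra.adjoin_le fun z hz => (hgen z hz).1
    exact hle hy
  refine normal_iff.2 fun y => ⟨hint y, ?_⟩
  exact IntermediateField.splits_of_mem_adjoin F' K hgen (by rw [htop]; trivial)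

/-- `Gal(K/F') → Gal(E/F)` is injective when `K = F'·E`. -/
theorem bcGroupHom_injective [Normal F E]
    (hadj : Algebra.adjoin F' (Set.range (algebraMap E K)) = ⊤) :
    Function.Injective (bcGroupHom F E F' K) := by
  rw [injective_iff_map_eq_one]
  intro τ hτ
  have hfix : ∀ e : E, τ (algebraMap E K e) = algebraMap E K e := by
    intro e
    have h1 : algebraMap E K (bcGroupHom F E F' K τ e) = τ (algebraMap E K e) :=
      AlgEquiv.restrictNormal_commutes (τ.restrictScalars F) E e
    rw [← h1, hτ]
    rfl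
  have h2 : (τ : K →ₐ[F'] K) = AlgHom.id F' K := by
    apply AlgHom.ext_of_adjoin_eq_top hadj
    rintro _ ⟨e, rfl⟩
    exact hfix e
  ext y
  exact DFunLike.congr_fun h2 y

end Compositum

/-! ## The generator hypothesis and the injectivity of the corestriction -/

/-- `H²(Gal(E/F), Eˣ)` is generated by a class of exact order `[E:F]` (a consequence of
`Plan.InvBasic`). -/
def H2Gen : Prop :=
  ∀ (q : ℕ) [Fact q.Prime] (F E : Type) [Field F] [Field E] [Algebra ℚ_[q] F] [Algebra ℚ_[q] E]
    [Algebra F E] [IsScalarTower ℚ_[q] F E] [FiniteDimensional ℚ_[q] F] [FiniteDimensional F E]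
    [IsGalois F E],
    ∃ u : H2 (unitsRep F E), (∀ x : H2 (unitsRep F E), ∃ k : ℤ, x = k • u) ∧
      (∀ k : ℤ, k • u = 0 → (Module.finrank F E : ℤ) ∣ k)

theorem h2Gen_of_invBasic (h : Plan.InvBasic) : H2Gen := by
  intro q _ F E _ _ _ _ _ _ _ _ _
  obtain ⟨-, -, -, -, -, ⟨u, hu⟩, hall⟩ := h q F E
  exact ⟨u, hall u hu⟩

section CoresInj

instance fixSub_finiteIndex (F F' M : Type) [Field F] [Field F'] [Field M]
    [Algebra F F'] [Algebra F' M] [Algebra F M] [IsScalarTower F F' M]
    [FiniteDimensional F M] [IsGalois F M] : (FieldCoh.fixSub F F' M).FiniteIndex :=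
  ⟨by
    have : FiniteDimensional F F' := FiniteDimensional.left F F' M
    rw [FieldCoh.index_fixSub]; exact Module.finrank_pos.ne'⟩

/-- The corestriction `H²(Gal(M/F'), Mˣ) → H²(Gal(M/F), Mˣ)` is injective. -/
theorem cores_injective (hGen : H2Gen) (q : ℕ) [Fact q.Prime] (F F' M : Type) [Field F]
    [Field F'] [Field M] [Algebra ℚ_[q] F] [Algebra ℚ_[q] F'] [Algebra ℚ_[q] M]
    [Algebra F F'] [Algebra F' M] [Algebra F M]
    [IsScalarTower ℚ_[q] F M] [IsScalarTower ℚ_[q] F' M] [IsScalarTower F F' M]
    [FiniteDimensional ℚ_[q] F] [FiniteDimensional ℚ_[q] F'] [FiniteDimensional F M]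
    [IsGalois F M]
    (γ : groupCohomology (Rep.res (FieldCoh.fixSub F F' M).subtype (unitsRep F M)) 2)
    (hγ : (Coh.ResCores.cores (FieldCoh.fixSub F F' M) (unitsRep F M) 2).hom γ = 0) : γ = 0 := by
  have : FiniteDimensional F F' := FiniteDimensional.left F F' M
  have : FiniteDimensional F' M := FiniteDimensional.right F F' M
  have : IsGalois F' M := IsGalois.tower_top_of_isGalois F F' M
  obtain ⟨u, hugen, huord⟩ := hGen q F M
  obtain ⟨u', hu'gen, -⟩ := hGen q F' M
  obtain ⟨k, hk⟩ := hu'gen ((FieldCoh.fixIso F F' M 2).hom.hom γ)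
  obtain ⟨j, hj⟩ := hugen ((Coh.ResCores.cores (FieldCoh.fixSub F F' M) (unitsRep F M) 2).hom
    ((FieldCoh.fixIso F F' M 2).inv.hom u'))
  obtain ⟨m, hm⟩ := hu'gen ((resH F F' M 2).hom u)
  -- `γ` and `res u` in terms of `u'`
  have hγ' : γ = (FieldCoh.fixIso F F' M 2).inv.hom (k • u') := by
    rw [← hk]
    simp
  have hres : (Coh.ResCores.resMap (FieldCoh.fixSub F F' M) (unitsRep F M) 2).hom u =
      (FieldCoh.fixIso F F' M 2).inv.hom (m • u') := by
    rw [← hm, FieldCoh.resH_eq]
    simp
  have hcr : (Coh.ResCores.cores (FieldCoh.fixSub F F' M) (unitsRep F M) 2).hom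
      ((Coh.ResCores.resMap (FieldCoh.fixSub F F' M) (unitsRep F M) 2).hom u) =
      Module.finrank F F' • u := by
    have h := Coh.ResCores.resMap_comp_cores (FieldCoh.fixSub F F' M) (unitsRep F M) 2
    have h2 : (Coh.ResCores.cores (FieldCoh.fixSub F F' M) (unitsRep F M) 2).hom
        ((Coh.ResCores.resMap (FieldCoh.fixSub F F' M) (unitsRep F M) 2).hom u) =
        ((FieldCoh.fixSub F F' M).index • 𝟙 (groupCohomology (unitsRep F M) 2) :
          groupCohomology (unitsRep F M) 2 ⟶ groupCohomology (unitsRep F M) 2).hom u :=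
      congr($h u)
    rw [Coh.ResCores.moduleCat_nsmul_id_apply, FieldCoh.index_fixSub] at h2
    exact h2
  have e1 : (m * j) • u = (Module.finrank F F' : ℤ) • u := by
    rw [hres, map_zsmul, map_zsmul, hj, smul_smul] at hcr
    rw [natCast_zsmul]
    exact hcr
  have e2 : (k * j) • u = 0 := by
    rw [hγ', map_zsmul, map_zsmul, hj, smul_smul] at hγ
    exact hγ
  have d1 : (Module.finrank F M : ℤ) ∣ m * j - (Module.finrank F F' : ℤ) :=
    huord _ (by rw [sub_zsmul, e1, add_neg_cancel])
  have d2 : (Module.finrank F M : ℤ) ∣ k * j := huord _ e2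
  have d3 : (Module.finrank F M : ℤ) ∣ k * (Module.finrank F F' : ℤ) := by
    have e : k * (Module.finrank F F' : ℤ) =
        m * (k * j) - k * (m * j - (Module.finrank F F' : ℤ)) := by ring
    rw [e]
    exact dvd_sub (Dvd.dvd.mul_left d2 m) (Dvd.dvd.mul_left d1 k)
  have hn : (Module.finrank F M : ℤ) = (Module.finrank F F' : ℤ) * (Module.finrank F' M : ℤ) := by
    exact_mod_cast (Module.finrank_mul_finrank F F' M).symm
  have hd0 : (Module.finrank F F' : ℤ) ≠ 0 := by
    exact_mod_cast (Module.finrank_pos (R := F) (M := F')).ne'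
  have d4 : (Module.finrank F' M : ℤ) ∣ k := by
    rw [hn, mul_comm k] at d3
    exact Int.dvd_of_mul_dvd_mul_left hd0 d3
  obtain ⟨t, rfl⟩ := d4
  have hu'0 : (Module.finrank F' M : ℤ) • u' = 0 := by
    have h := Coh.ResCores.card_nsmul_groupCohomology_eq_zero (unitsRep F' M) 1 u'
    rw [IsGalois.card_aut_eq_finrank] at h
    rw [natCast_zsmul]
    exact h
  rw [hγ', mul_comm, mul_smul, hu'0, zsmul_zero, map_zero]

end CoresInj

/-! ## The transfer of the constant map attached to `x ∈ F'ˣ` -/

section Transfer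

open Fermat.Agent.CFT.Coh.ResCores

variable (F F' M : Type) [Field F] [Field F'] [Field M] [Algebra F F'] [Algebra F' M] [Algebra F M]
  [IsScalarTower F F' M]

omit [Algebra F F'] [IsScalarTower F F' M] in
/-- `x ∈ F'ˣ`, viewed in the `Gal(M/F')`-module obtained by restricting the `Gal(M/F)`-module
`Mˣ`. -/
noncomputable def resUnit (x : F'ˣ) :
    (Rep.res (FieldCoh.fixSub F F' M).subtype (unitsRep F M)).V :=
  Additive.ofMul (Units.map (algebraMap F' M).toMonoidHom x)

omit [Algebra F F'] [IsScalarTower F F' M] in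
/-- `x ∈ F'ˣ`, viewed in `Mˣ`, is fixed by `Gal(M/F')`. -/
theorem resUnit_fixSub (x : F'ˣ) (s : FieldCoh.fixSub F F' M) :
    (Rep.res (FieldCoh.fixSub F F' M).subtype (unitsRep F M)).ρ s (resUnit F F' M x) =
      resUnit F F' M x := by
  show Additive.ofMul ((s : M ≃ₐ[F] M) • (Units.map (algebraMap F' M).toMonoidHom x)) = _
  congr 1
  ext
  exact s.2 (x : F')

variable [FiniteDimensional F M] [IsGalois F M]

/-- The transfer of `1 ↦ x` is `1 ↦ N_{F'/F} x`. -/
theorem transfer_const {G : Type} [Group G] (ρ : (M ≃ₐ[F] M) →* G) (x : F'ˣ) :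
    (transferHom (FieldCoh.fixSub F F' M) (Rep.res ρ (Rep.trivial ℤ G ℤ)) (unitsRep F M)
      (constHom (ρ.comp (FieldCoh.fixSub F F' M).subtype)
        (Rep.res (FieldCoh.fixSub F F' M).subtype (unitsRep F M))
        (resUnit F F' M x) (resUnit_fixSub F F' M x))).hom (1 : ℤ) =
      CycClass.baseUnit F M (Units.map (Algebra.norm F : F' →* F) x) := by
  classical
  letI : Fintype ((M ≃ₐ[F] M) ⧸ FieldCoh.fixSub F F' M) := Fintype.ofFinite _
  set h := constHom (ρ.comp (FieldCoh.fixSub F F' M).subtype)
        (Rep.res (FieldCoh.fixSub F F' M).subtype (unitsRep F M))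
        (resUnit F F' M x) (resUnit_fixSub F F' M x) with hh
  let φ : (M ≃ₐ[F] M) ⧸ FieldCoh.fixSub F F' M → (unitsRep F M).V := fun c =>
    coindTraceAux (FieldCoh.fixSub F F' M) (unitsRep F M) c
      (((Rep.coindFunctor ℤ (FieldCoh.fixSub F F' M).subtype).map h).hom
        ((coindUnit (FieldCoh.fixSub F F' M) (Rep.res ρ (Rep.trivial ℤ G ℤ))).hom (1 : ℤ)))
  have hφ : ∀ y : M ≃ₐ[F] M, φ (QuotientGroup.mk y) = (unitsRep F M).ρ y (h.hom (1 : ℤ)) :=
    fun y => by
      show coindTraceAux _ _ _ _ = _
      rw [coindTraceAux_mk]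
      rfl
  rw [transferHom_apply (FieldCoh.fixSub F F' M) (Rep.res ρ (Rep.trivial ℤ G ℤ)) (unitsRep F M)
    h (1 : ℤ) φ hφ]
  let val0 : Additive Mˣ →+ Additive M := MonoidHom.toAdditive (Units.coeHom M)
  let val : (unitsRep F M).V →+ Additive M := val0
  have hval : Function.Injective val := fun a b hab => by
    have h1 : ((Additive.toMul a : Mˣ) : M) = ((Additive.toMul b : Mˣ) : M) :=
      congrArg Additive.toMul hab
    exact Additive.toMul.injective (Units.ext h1)
  apply hval
  rw [map_sum]
  apply (Additive.toMul (α := M)).injective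
  rw [toMul_sum]
  exact prod_coset_eq_norm F F' M (x : F') (fun c => Additive.toMul (val (φ c)))
    (fun y => by
      rw [hφ, hh, constHom_one]
      rfl)

end Transfer

/-! ## Comparison of the twisted classes -/

section Compare

/-- `baseUnit` is fixed by the Galois group. -/
theorem baseUnit_fixed (F E : Type) [Field F] [Field E] [Algebra F E] (a : Fˣ)
    (g : E ≃ₐ[F] E) :
    (unitsRep F E).ρ g (CycClass.baseUnit F E a) = CycClass.baseUnit F E a :=
  CycClass.baseUnit_mem_invariants F E a g

/-- Inflation maps `baseUnit` to `baseUnit`. -/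
theorem unitsInflHom_baseUnit (F E M : Type) [Field F] [Field E] [Field M] [Algebra F E]
    [Algebra E M] [Algebra F M] [IsScalarTower F E M] [Normal F E] (a : Fˣ) :
    (unitsInflHom F E M).hom (CycClass.baseUnit F E a) = CycClass.baseUnit F M a := by
  have key : Units.map (algebraMap E M).toMonoidHom
      (Units.map (algebraMap F E).toMonoidHom a) = Units.map (algebraMap F M).toMonoidHom a :=
    Units.ext (IsScalarTower.algebraMap_apply F E M (a : F)).symm
  exact congrArg Additive.ofMul key

/-- The twisted class of `a ∈ Fˣ` on `Gal(E/F)`, inflated to `Gal(M/F)`. -/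
theorem infl_base (F E M : Type) [Field F] [Field E] [Field M] [Algebra F E]
    [Algebra E M] [Algebra F M] [IsScalarTower F E M] [Normal F E] (a : Fˣ) :
    groupCohomology.map (MonoidHom.id (E ≃ₐ[F] E))
        (constHom (MonoidHom.id (E ≃ₐ[F] E)) (unitsRep F E) (CycClass.baseUnit F E a)
          (baseUnit_fixed F E a)) 2 ≫ inflH F E M 2 =
      groupCohomology.map (AlgEquiv.restrictNormalHom (F := F) (K₁ := M) E)
        (constHom (AlgEquiv.restrictNormalHom (F := F) (K₁ := M) E) (unitsRep F M)
          (CycClass.baseUnit F M a) (baseUnit_fixed F M a)) 2 := by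
  refine FieldCoh.map_comp_of_eq _ _ _ _ _ _ (fun _ => rfl) (fun n => ?_) 2
  rw [constHom_apply, constHom_apply, map_smul, unitsInflHom_baseUnit]
  rfl

/-- The twisted class of `x ∈ F'ˣ` on `Gal(M/F')`, through the subgroup `fixSub` of `Gal(M/F)`. -/
theorem fix_compare (F E F' M : Type) [Field F] [Field E] [Field F'] [Field M]
    [Algebra F E] [Algebra F F'] [Algebra F' M] [Algebra E M] [Algebra F M]
    [IsScalarTower F E M] [IsScalarTower F F' M] [Normal F E] (x : F'ˣ) :
    groupCohomology.map ((AlgEquiv.restrictNormalHom (F := F) (K₁ := M) E).comp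
          (FieldCoh.fixSub F F' M).subtype)
        (constHom ((AlgEquiv.restrictNormalHom (F := F) (K₁ := M) E).comp
          (FieldCoh.fixSub F F' M).subtype)
          (Rep.res (FieldCoh.fixSub F F' M).subtype (unitsRep F M))
          (resUnit F F' M x) (resUnit_fixSub F F' M x)) 2 ≫ (FieldCoh.fixIso F F' M 2).hom =
      groupCohomology.map (bcGroupHom F E F' M)
        (constHom (bcGroupHom F E F' M) (unitsRep F' M) (CycClass.baseUnit F' M x)
          (baseUnit_fixed F' M x)) 2 :=
  FieldCoh.map_comp_of_eq _ _ _ _ _ _ (fun _ => rfl) (fun _ => rfl) 2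

/-- The twisted class of `x ∈ F'ˣ` on `Gal(K/F')`, inflated to `Gal(M/F')`. -/
theorem infl_compare (F E F' K M : Type) [Field F] [Field E] [Field F'] [Field K] [Field M]
    [Algebra F E] [Algebra F F'] [Algebra F' K] [Algebra E K] [Algebra F K]
    [IsScalarTower F E K] [IsScalarTower F F' K] [Normal F E]
    [Algebra K M] [Algebra F M] [Algebra E M] [Algebra F' M]
    [IsScalarTower F E M] [IsScalarTower F F' M] [IsScalarTower F' K M] [IsScalarTower E K M]
    [Normal F' K] (x : F'ˣ) :
    groupCohomology.map (bcGroupHom F E F' K)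
        (constHom (bcGroupHom F E F' K) (unitsRep F' K) (CycClass.baseUnit F' K x)
          (baseUnit_fixed F' K x)) 2 ≫ inflH F' K M 2 =
      groupCohomology.map (bcGroupHom F E F' M)
        (constHom (bcGroupHom F E F' M) (unitsRep F' M) (CycClass.baseUnit F' M x)
          (baseUnit_fixed F' M x)) 2 := by
  refine FieldCoh.map_comp_of_eq _ _ _ _ _ _ (fun σ => ?_) (fun n => ?_) 2
  · apply AlgEquiv.ext
    intro e
    apply (algebraMap E M).injective
    show algebraMap E M (AlgEquiv.restrictNormal (σ.restrictScalars F) E e) =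
      algebraMap E M (AlgEquiv.restrictNormal
        ((AlgEquiv.restrictNormal σ K).restrictScalars F) E e)
    rw [AlgEquiv.restrictNormal_commutes, IsScalarTower.algebraMap_apply E K M,
      IsScalarTower.algebraMap_apply E K M, AlgEquiv.restrictNormal_commutes]
    show σ _ = algebraMap K M (AlgEquiv.restrictNormal σ K (algebraMap E K e))
    rw [AlgEquiv.restrictNormal_commutes]
  · rw [constHom_apply, constHom_apply, map_smul, unitsInflHom_baseUnit]
    rfl

/-- The image of the generator of `H²(G, ℤ)` under a twisted map into a cyclic extension is a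
cyclic class. -/
theorem map_genClass_cycClass {G : Type} [Group G] [Fintype G] (σ : G)
    (hσ : ∀ g, g ∈ Subgroup.zpowers σ) (F' K : Type) [Field F'] [Field K] [Algebra F' K]
    [FiniteDimensional F' K] [IsGalois F' K] (τ : K ≃ₐ[F'] K)
    (hτ : ∀ g, g ∈ Subgroup.zpowers τ) (φ : (K ≃ₐ[F'] K) →* G) (d : ℕ) (hd : φ τ = σ ^ d)
    (x : F'ˣ) :
    (groupCohomology.map φ (constHom φ (unitsRep F' K) (CycClass.baseUnit F' K x)
        (baseUnit_fixed F' K x)) 2).hom (genClass ℤ σ hσ) =
      CycClass.cycClass τ hτ (Additive.ofMul (x ^ (d * orderOf τ / orderOf σ))) := by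
  rw [map_constHom_genClass σ hσ τ hτ φ d hd, CycClass.cycClass_apply]
  congr 1
  apply Subtype.ext
  exact (CycClass.baseUnit_pow F' K x _).symm

end Compare

/-! ## The three twisted maps out of `H²(Gal(E/F), ℤ)` -/

section Twist

/-- `H²(Gal(E/F), ℤ) → H²(Gal(E/F), Eˣ)`, induced by `1 ↦ a` (`a ∈ Fˣ`). -/
noncomputable def twBase (F E : Type) [Field F] [Field E] [Algebra F E] (a : Fˣ) :
    groupCohomology (Rep.trivial ℤ (E ≃ₐ[F] E) ℤ) 2 ⟶ groupCohomology (unitsRep F E) 2 :=
  groupCohomology.map (MonoidHom.id (E ≃ₐ[F] E))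
    (constHom (MonoidHom.id (E ≃ₐ[F] E)) (unitsRep F E) (CycClass.baseUnit F E a)
      (baseUnit_fixed F E a)) 2

/-- `H²(Gal(E/F), ℤ) → H²(Gal(K/F'), Kˣ)`, induced by restriction of automorphisms and
`1 ↦ x` (`x ∈ F'ˣ`). -/
noncomputable def twBC (F E F' K : Type) [Field F] [Field E] [Field F'] [Field K]
    [Algebra F E] [Algebra F F'] [Algebra F' K] [Algebra E K] [Algebra F K]
    [IsScalarTower F E K] [IsScalarTower F F' K] [Normal F E] (x : F'ˣ) :
    groupCohomology (Rep.trivial ℤ (E ≃ₐ[F] E) ℤ) 2 ⟶ groupCohomology (unitsRep F' K) 2 :=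
  groupCohomology.map (bcGroupHom F E F' K)
    (constHom (bcGroupHom F E F' K) (unitsRep F' K) (CycClass.baseUnit F' K x)
      (baseUnit_fixed F' K x)) 2

/-- `H²(Gal(E/F), ℤ) → H²(fixSub F F' M, Mˣ)`, induced by restriction of automorphisms and
`1 ↦ x` (`x ∈ F'ˣ`). -/
noncomputable def twS (F E F' M : Type) [Field F] [Field E] [Field F'] [Field M]
    [Algebra F E] [Algebra F F'] [Algebra F' M] [Algebra E M] [Algebra F M]
    [IsScalarTower F E M] [IsScalarTower F F' M] [Normal F E] (x : F'ˣ) :
    groupCohomology (Rep.trivial ℤ (E ≃ₐ[F] E) ℤ) 2 ⟶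
      groupCohomology (Rep.res (FieldCoh.fixSub F F' M).subtype (unitsRep F M)) 2 :=
  groupCohomology.map ((AlgEquiv.restrictNormalHom (F := F) (K₁ := M) E).comp
      (FieldCoh.fixSub F F' M).subtype)
    (constHom ((AlgEquiv.restrictNormalHom (F := F) (K₁ := M) E).comp
      (FieldCoh.fixSub F F' M).subtype)
      (Rep.res (FieldCoh.fixSub F F' M).subtype (unitsRep F M))
      (resUnit F F' M x) (resUnit_fixSub F F' M x)) 2

/-- **(A)** Projection formula: `cores (γ_x) = infl (class of N x)`. -/
theorem twS_cores (F E F' M : Type) [Field F] [Field E] [Field F'] [Field M]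
    [Algebra F E] [Algebra F F'] [Algebra F' M] [Algebra E M] [Algebra F M]
    [IsScalarTower F E M] [IsScalarTower F F' M] [Normal F E]
    [FiniteDimensional F M] [IsGalois F M] (x : F'ˣ) :
    twS F E F' M x ≫ Coh.ResCores.cores (FieldCoh.fixSub F F' M) (unitsRep F M) 2 =
      twBase F E (Units.map (Algebra.norm F : F' →* F) x) ≫ inflH F E M 2 := by
  unfold twS twBase
  rw [cores_proj', infl_base]
  exact groupCohomology.map_congr rfl
    (hom_ext_one _ _ _ _ (by rw [transfer_const, constHom_one])) 2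

/-- **(B)** `γ_x` corresponds to the inflation of the class of `x` on `Gal(K/F')`. -/
theorem twS_fixIso (F E F' K M : Type) [Field F] [Field E] [Field F'] [Field K] [Field M]
    [Algebra F E] [Algebra F F'] [Algebra F' K] [Algebra E K] [Algebra F K]
    [IsScalarTower F E K] [IsScalarTower F F' K] [Normal F E]
    [Algebra K M] [Algebra F M] [Algebra E M] [Algebra F' M]
    [IsScalarTower F E M] [IsScalarTower F F' M] [IsScalarTower F' K M] [IsScalarTower E K M]
    [Normal F' K] (x : F'ˣ) :
    twS F E F' M x ≫ (FieldCoh.fixIso F F' M 2).hom = twBC F E F' K x ≫ inflH F' K M 2 := by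
  unfold twS twBC
  rw [fix_compare, infl_compare]

/-- **(C)** The base twisted map sends the generator to the cyclic class. -/
theorem twBase_genClass (F E : Type) [Field F] [Field E] [Algebra F E] [FiniteDimensional F E]
    [IsGalois F E] (σ : E ≃ₐ[F] E) (hσ : ∀ g, g ∈ Subgroup.zpowers σ) (a : Fˣ) :
    (twBase F E a).hom (genClass ℤ σ hσ) = CycClass.cycClass σ hσ (Additive.ofMul a) := by
  have h := map_genClass_cycClass σ hσ F E σ hσ (MonoidHom.id _) 1 (by simp) a
  rw [one_mul, Nat.div_self (orderOf_pos σ), pow_one] at h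
  exact h

/-- **(D)** The base-changed twisted map sends the generator to a cyclic class. -/
theorem twBC_genClass (F E F' K : Type) [Field F] [Field E] [Field F'] [Field K]
    [Algebra F E] [Algebra F F'] [Algebra F' K] [Algebra E K] [Algebra F K]
    [IsScalarTower F E K] [IsScalarTower F F' K] [FiniteDimensional F E] [IsGalois F E]
    [FiniteDimensional F' K] [IsGalois F' K]
    (σ : E ≃ₐ[F] E) (hσ : ∀ g, g ∈ Subgroup.zpowers σ)
    (τ : K ≃ₐ[F'] K) (hτ : ∀ g, g ∈ Subgroup.zpowers τ) (d : ℕ)
    (hd : bcGroupHom F E F' K τ = σ ^ d) (x : F'ˣ) :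
    (twBC F E F' K x).hom (genClass ℤ σ hσ) =
      CycClass.cycClass τ hτ (Additive.ofMul (x ^ (d * orderOf τ / orderOf σ))) :=
  map_genClass_cycClass σ hσ F' K τ hτ (bcGroupHom F E F' K) d hd x

end Twist

/-! ## The main theorem -/

section Main

/-- Arithmetic of the exponents: `n / gcd(n,d)` and `d * (n / gcd(n,d)) / n` are coprime. -/
theorem exists_bezout (n d : ℕ) (hn : 0 < n) :
    ∃ s t : ℤ, s * ((n / Nat.gcd n d : ℕ) : ℤ) + t * ((d * (n / Nat.gcd n d) / n : ℕ) : ℤ) = 1 := by
  have hgpos : 0 < Nat.gcd n d := Nat.gcd_pos_of_pos_left d hn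
  have hcop : Nat.Coprime (n / Nat.gcd n d) (d / Nat.gcd n d) :=
    Nat.coprime_div_gcd_div_gcd hgpos
  obtain ⟨n₁, hn₁⟩ : Nat.gcd n d ∣ n := Nat.gcd_dvd_left n d
  obtain ⟨d₁, hd₁⟩ : Nat.gcd n d ∣ d := Nat.gcd_dvd_right n d
  have e1 : n / Nat.gcd n d = n₁ := Nat.div_eq_of_eq_mul_right hgpos hn₁
  have e2 : d / Nat.gcd n d = d₁ := Nat.div_eq_of_eq_mul_right hgpos hd₁
  have e3 : d * (n / Nat.gcd n d) / n = d₁ := by
    rw [e1]
    apply Nat.div_eq_of_eq_mul_right hn
    calc d * n₁ = Nat.gcd n d * d₁ * n₁ := by rw [← hd₁]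
      _ = Nat.gcd n d * n₁ * d₁ := by ring
      _ = n * d₁ := by rw [← hn₁]
  rw [e1, e2] at hcop
  rw [e3, e1]
  obtain ⟨s, t, h⟩ := Nat.Coprime.isCoprime hcop
  exact ⟨s, t, h⟩

/-- The core: norm limitation inside a fixed finite Galois `M/F` containing `K`. -/
theorem core (hGen : H2Gen) (q : ℕ) [Fact q.Prime] (F E F' K M : Type) [Field F] [Field E]
    [Field F'] [Field K] [Field M]
    [Algebra ℚ_[q] F] [Algebra ℚ_[q] F'] [Algebra ℚ_[q] M]
    [Algebra F E] [Algebra F F'] [Algebra F' K] [Algebra E K] [Algebra F K]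
    [Algebra F M] [Algebra E M] [Algebra F' M] [Algebra K M]
    [IsScalarTower ℚ_[q] F M] [IsScalarTower ℚ_[q] F' M]
    [IsScalarTower F E K] [IsScalarTower F F' K]
    [IsScalarTower F E M] [IsScalarTower F F' M] [IsScalarTower E K M] [IsScalarTower F' K M]
    [FiniteDimensional ℚ_[q] F] [FiniteDimensional ℚ_[q] F'] [FiniteDimensional F M]
    [IsGalois F M] [FiniteDimensional F E] [IsGalois F E] [FiniteDimensional F' K]
    [IsGalois F' K]
    (σ : E ≃ₐ[F] E) (hσ : ∀ g, g ∈ Subgroup.zpowers σ)
    (hadj : Algebra.adjoin F' (Set.range (algebraMap E K)) = ⊤)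
    (x : F'ˣ) (b : Eˣ) (hb : Algebra.norm F (b : E) = Algebra.norm F (x : F')) :
    ∃ c : Kˣ, Algebra.norm F' (c : K) = (x : F') := by
  have : FiniteDimensional F' M := FiniteDimensional.right F F' M
  have : IsGalois F' M := IsGalois.tower_top_of_isGalois F F' M
  -- Step 1: the cyclic class of `N x` on `Gal(E/F)` vanishes
  have h1 : CycClass.cycClass σ hσ
      (Additive.ofMul (Units.map (Algebra.norm F : F' →* F) x)) = 0 :=
    (CycClass.cycClass_eq_zero_iff σ hσ _).2 ⟨b, hb⟩
  -- Step 2: the corestriction of the twisted class vanishes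
  have h2 : (Coh.ResCores.cores (FieldCoh.fixSub F F' M) (unitsRep F M) 2).hom
      ((twS F E F' M x).hom (genClass ℤ σ hσ)) = 0 := by
    have e := twS_cores F E F' M x
    have e' : (Coh.ResCores.cores (FieldCoh.fixSub F F' M) (unitsRep F M) 2).hom
        ((twS F E F' M x).hom (genClass ℤ σ hσ)) =
        (inflH F E M 2).hom ((twBase F E (Units.map (Algebra.norm F : F' →* F) x)).hom
          (genClass ℤ σ hσ)) :=
      congr($e (genClass ℤ σ hσ))
    rw [e', twBase_genClass, h1, map_zero]
  -- Step 3: so the twisted class vanishes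
  have h3 := cores_injective hGen q F F' M _ h2
  -- Step 4: so does the class on `Gal(K/F')`
  have h4 : (inflH F' K M 2).hom ((twBC F E F' K x).hom (genClass ℤ σ hσ)) = 0 := by
    have e := twS_fixIso F E F' K M x
    have e' : (FieldCoh.fixIso F F' M 2).hom.hom ((twS F E F' M x).hom (genClass ℤ σ hσ)) =
        (inflH F' K M 2).hom ((twBC F E F' K x).hom (genClass ℤ σ hσ)) :=
      congr($e (genClass ℤ σ hσ))
    rw [← e', h3, map_zero]
  have h5 : (twBC F E F' K x).hom (genClass ℤ σ hσ) = 0 :=
    FieldCoh.inflH_two_injective F' K M (by rw [h4, map_zero])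
  -- Step 5: cyclic arithmetic
  have hinj := bcGroupHom_injective F E F' K hadj
  haveI : IsCyclic (E ≃ₐ[F] E) := ⟨σ, hσ⟩
  haveI : IsCyclic (K ≃ₐ[F'] K) := isCyclic_of_injective (bcGroupHom F E F' K) hinj
  obtain ⟨τ, hτ⟩ := IsCyclic.exists_generator (α := K ≃ₐ[F'] K)
  obtain ⟨d, hd⟩ := Cyclic.exists_pow_eq hσ (bcGroupHom F E F' K τ)
  have h6 := twBC_genClass F E F' K σ hσ τ hτ d hd.symm x
  rw [h5] at h6
  obtain ⟨w, hw⟩ := (CycClass.cycClass_eq_zero_iff τ hτ _).1 h6.symm
  have hm : orderOf τ = orderOf σ / Nat.gcd (orderOf σ) d := by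
    rw [← orderOf_injective (bcGroupHom F E F' K) hinj τ, ← hd, orderOf_pow]
  have hfin : Module.finrank F' K = orderOf τ := by
    rw [orderOf_eq_card_of_forall_mem_zpowers hτ, IsGalois.card_aut_eq_finrank]
  obtain ⟨s, t, hst⟩ := exists_bezout (orderOf σ) d (orderOf_pos σ)
  rw [← hm] at hst
  have hNx : Units.map (Algebra.norm F' : K →* F') (Units.map (algebraMap F' K).toMonoidHom x) =
      x ^ orderOf τ := by
    apply Units.ext
    show Algebra.norm F' (algebraMap F' K (x : F')) = ((x ^ orderOf τ : F'ˣ) : F')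
    rw [Algebra.norm_algebraMap, hfin, Units.val_pow_eq_pow_val]
  have hNw : Units.map (Algebra.norm F' : K →* F') w = x ^ (d * orderOf τ / orderOf σ) :=
    Units.ext hw
  refine ⟨(Units.map (algebraMap F' K).toMonoidHom x) ^ s * w ^ t, ?_⟩
  have hN : Units.map (Algebra.norm F' : K →* F')
      ((Units.map (algebraMap F' K).toMonoidHom x) ^ s * w ^ t) = x := by
    rw [map_mul, map_zpow, map_zpow, hNx, hNw, ← zpow_natCast, ← zpow_natCast, ← zpow_mul,
      ← zpow_mul, ← zpow_add, mul_comm _ s, mul_comm _ t, hst, zpow_one]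
  exact congrArg Units.val hN

/-- **Norm limitation**, from the generator hypothesis. -/
theorem normLimitation_of_gen (hGen : H2Gen) : Plan.NormLimitation := by
  intro q _ F E F' K _ _ _ _ _ _ _ _ _ _ _ _ _ _ _ _ hadj x hx
  obtain ⟨b, hb⟩ := hx
  haveI : CharZero F := charZero_of_injective_algebraMap (algebraMap ℚ_[q] F).injective
  haveI : CharZero F' := charZero_of_injective_algebraMap (algebraMap F F').injective
  haveI : FiniteDimensional F E := FiniteDimensional.left F E K
  haveI : FiniteDimensional F F' := FiniteDimensional.left F F' K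
  haveI : FiniteDimensional F' K := FiniteDimensional.right F F' K
  haveI : Normal F' K := normal_of_adjoin F E F' K hadj
  haveI : IsGalois F' K := ⟨⟩
  obtain ⟨M, _, _, _, tFKM, finM, galM⟩ := Inv.exists_galois_closure F K
  letI : Algebra E M := ((algebraMap K M).comp (algebraMap E K)).toAlgebra
  letI : Algebra F' M := ((algebraMap K M).comp (algebraMap F' K)).toAlgebra
  haveI : IsScalarTower E K M := IsScalarTower.of_algebraMap_eq (fun _ => rfl)
  haveI : IsScalarTower F' K M := IsScalarTower.of_algebraMap_eq (fun _ => rfl)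
  haveI : IsScalarTower F E M := IsScalarTower.of_algebraMap_eq (fun y => by
    show algebraMap F M y = algebraMap K M (algebraMap E K (algebraMap F E y))
    rw [← IsScalarTower.algebraMap_apply F E K, ← IsScalarTower.algebraMap_apply F K M])
  haveI : IsScalarTower F F' M := IsScalarTower.of_algebraMap_eq (fun y => by
    show algebraMap F M y = algebraMap K M (algebraMap F' K (algebraMap F F' y))
    rw [← IsScalarTower.algebraMap_apply F F' K, ← IsScalarTower.algebraMap_apply F K M])
  letI : Algebra ℚ_[q] F' := ((algebraMap F F').comp (algebraMap ℚ_[q] F)).toAlgebra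
  letI : Algebra ℚ_[q] M := ((algebraMap F M).comp (algebraMap ℚ_[q] F)).toAlgebra
  haveI : IsScalarTower ℚ_[q] F F' := IsScalarTower.of_algebraMap_eq (fun _ => rfl)
  haveI : IsScalarTower ℚ_[q] F M := IsScalarTower.of_algebraMap_eq (fun _ => rfl)
  haveI : IsScalarTower ℚ_[q] F' M := IsScalarTower.of_algebraMap_eq (fun y => by
    show algebraMap F M (algebraMap ℚ_[q] F y) =
      algebraMap F' M (algebraMap F F' (algebraMap ℚ_[q] F y))
    rw [← IsScalarTower.algebraMap_apply F F' M])
  haveI : FiniteDimensional ℚ_[q] F' := FiniteDimensional.trans ℚ_[q] F F'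
  obtain ⟨σ, hσ⟩ := IsCyclic.exists_generator (α := E ≃ₐ[F] E)
  exact core hGen q F E F' K M σ hσ hadj x b hb

/-- **Norm limitation** (`Plan.NormLimitation`), from `Plan.InvBasic`. -/
theorem normLimitation (hInv : Plan.InvBasic) : Plan.NormLimitation :=
  normLimitation_of_gen (h2Gen_of_invBasic hInv)

end Main

end Fermat.Agent.CFT.Local.NormLimitation
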