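import Mathlib
import Fermat.Agent.CFT.Local.Defs

/-!
# CFT program, layer Local: interface statements, part 2 (Props only)

The local inputs of the global reciprocity package (local–global compatibility of `H²`), in the
vocabulary of `Local/Defs.lean`: abstract finite extensions `F ⊆ E` of `ℚ_[q]`.
Providers: `Local/Provide2.lean` (every prop of this file, with no hypothesis).

* `UnramNormIff`   : the norm group of an unramified extension;
* `CycloUnram`     : `F(ζ_m)/F` is unramified for `q ∤ m`, with Frobenius `ζ ↦ ζ ^ resCard q F`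
                     and degree the order of `resCard q F` modulo `m`;
* `CycloSubUnram`  : every subextension of `F(ζ_m)/F` is unramified (`q ∤ m`);
* `CyclicClassNorm`: a cyclic class `[σ, a]` vanishes iff `a` is a norm;
* `LocalCrossing`  : every class of `H²(Gal(E/F), Eˣ)` becomes, after inflation, a cyclic class
                     of ANY cyclic extension `Z/F` whose degree is divisible by `[E:F]`.
-/

set_option autoImplicit false

namespace Fermat.Agent.CFT.Local.Plan2

open CategoryTheory groupCohomology Fermat.Agent.CFT.Local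

/-- [UnramNormIff] In an unramified extension `E/F`, `x ∈ Fˣ` is a norm iff `[E:F]` divides the
normalised valuation of `x`. -/
def UnramNormIff : Prop :=
  ∀ (q : ℕ) [Fact q.Prime] (F E : Type) [Field F] [Field E] [Algebra ℚ_[q] F] [Algebra ℚ_[q] E]
    [Algebra F E] [IsScalarTower ℚ_[q] F E] [FiniteDimensional ℚ_[q] F] [FiniteDimensional F E],
    IsUnram q F E → ∀ x : Fˣ,
      (∃ w : Eˣ, Algebra.norm F (w : E) = (x : F)) ↔ (Module.finrank F E : ℤ) ∣ ordZ q F x

/-- [CycloUnram] For `q ∤ m`, the extension `E = F(ζ)` generated by a primitive `m`-th root of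
unity is unramified, every Frobenius element maps `ζ` to `ζ ^ resCard q F`, and the degree is the
multiplicative order of `resCard q F` modulo `m`. -/
def CycloUnram : Prop :=
  ∀ (q : ℕ) [Fact q.Prime] (F E : Type) [Field F] [Field E] [Algebra ℚ_[q] F] [Algebra ℚ_[q] E]
    [Algebra F E] [IsScalarTower ℚ_[q] F E] [FiniteDimensional ℚ_[q] F] [FiniteDimensional F E]
    (m : ℕ) (ζ : E), ¬ q ∣ m → IsPrimitiveRoot ζ m → Algebra.adjoin F {ζ} = ⊤ →
      IsUnram q F E ∧
      (∀ φ : E ≃ₐ[F] E, IsFrob q F E φ → φ ζ = ζ ^ resCard q F) ∧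
      Module.finrank F E = orderOf (resCard q F : ZMod m)

/-- [CycloSubUnram] For `q ∤ m`, every intermediate extension `F ⊆ E' ⊆ E = F(ζ_m)` is
unramified over `F`. -/
def CycloSubUnram : Prop :=
  ∀ (q : ℕ) [Fact q.Prime] (F E' E : Type) [Field F] [Field E'] [Field E] [Algebra ℚ_[q] F]
    [Algebra ℚ_[q] E'] [Algebra ℚ_[q] E] [Algebra F E'] [Algebra E' E] [Algebra F E]
    [IsScalarTower ℚ_[q] F E'] [IsScalarTower ℚ_[q] F E] [IsScalarTower F E' E]
    [FiniteDimensional ℚ_[q] F] [FiniteDimensional F E]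
    (m : ℕ) (ζ : E), ¬ q ∣ m → IsPrimitiveRoot ζ m → Algebra.adjoin F {ζ} = ⊤ →
      IsUnram q F E'

/-- [CyclicClassNorm] For a cyclic extension `E/F` with generator `σ`, the class of the cyclic
cocycle of `a ∈ Fˣ` (`IsUnramClass F E σ a y`, i.e. `y = [σ, a]`) is zero iff `a` is a norm. -/
def CyclicClassNorm : Prop :=
  ∀ (F E : Type) [Field F] [Field E] [Algebra F E] [FiniteDimensional F E] [IsGalois F E]
    (σ : E ≃ₐ[F] E), (∀ τ : E ≃ₐ[F] E, τ ∈ Subgroup.zpowers σ) →
    ∀ (a : Fˣ) (y : H2 (unitsRep F E)), IsUnramClass F E σ a y →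
      (y = 0 ↔ ∃ b : Eˣ, Algebra.norm F (b : E) = (a : F))

/-- [LocalCrossing] Let `E/F` be finite Galois and `Z/F` cyclic with generator `σ`, of degree
divisible by `[E:F]`, both inside a finite Galois `M/F`.  Every class `c ∈ H²(Gal(E/F), Eˣ)`
agrees in `H²(Gal(M/F), Mˣ)` with a cyclic class `[σ, x]` of `Z/F`, `x ∈ Fˣ`.
(`Z/F` need not be unramified.) -/
def LocalCrossing : Prop :=
  ∀ (q : ℕ) [Fact q.Prime] (F E Z M : Type) [Field F] [Field E] [Field Z] [Field M]
    [Algebra ℚ_[q] F] [Algebra ℚ_[q] E] [Algebra ℚ_[q] Z] [Algebra ℚ_[q] M]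
    [Algebra F E] [Algebra F Z] [Algebra F M] [Algebra E M] [Algebra Z M]
    [IsScalarTower ℚ_[q] F E] [IsScalarTower ℚ_[q] F Z] [IsScalarTower ℚ_[q] F M]
    [IsScalarTower F E M] [IsScalarTower F Z M]
    [FiniteDimensional ℚ_[q] F] [FiniteDimensional F Z] [FiniteDimensional F M]
    [IsGalois F E] [IsGalois F Z] [IsGalois F M]
    (σ : Z ≃ₐ[F] Z), (∀ τ : Z ≃ₐ[F] Z, τ ∈ Subgroup.zpowers σ) →
    Module.finrank F E ∣ Module.finrank F Z →
    ∀ c : H2 (unitsRep F E), ∃ (x : Fˣ) (y : H2 (unitsRep F Z)),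
      IsUnramClass F Z σ x y ∧ (inflH F E M 2).hom c = (inflH F Z M 2).hom y

end Fermat.Agent.CFT.Local.Plan2
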